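/-
GATE-R / H — shared vocabulary (helper48): **values and Taylor coefficients of functions at a place**.

The relation `GH.ValueAt P e a` ("`e(P) = a`", `GH/Vocab`) with its calculus (`GH/Disc/Values`)
is turned into a *function* `valOf P f : K`, and the Taylor coefficients of a regular function
with respect to a uniformiser `t` are defined by iterating `f ↦ (f - f(P)) / t`.

The only hypothesis used anywhere is `hP : P.deg = 1` (the residue field is `K`; automatic for an
algebraically closed constant field, `S24/DegOne.deg_eq_one`) and `ht : P.ord t = 1`.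

* `valOf P f`, `valOf_eq_of_valueAt`, `valueAt_valOf`, `valOf_eq_iff`, ring laws, `valHom`,
  `valOf_eq_zero_iff`, `valOf_inv`, `valOf_smulAut` (semilinear equivariance);
* `shift P t f = (f - f(P)) / t`, `taylorRem P t n f`, `taylorCoeff P t n f`;
* `taylor_expansion`, `sub_taylor_eq_zero_or_le_ord`, `taylorCoeff_unique`, linearity, `jet`, `jet_eq_zero_iff`
  (the kernel of the `n`-jet is `{f : f = 0 ∨ n ≤ ord_P f}`), `taylorCoeff_mul_param`,
  `taylorCoeff_param_pow`, `taylorCoeff_smulAut`.
-/
import Mathlib
import Fermat.Agent.GH.Disc.Values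
import Fermat.Agent.GH.Gal.RedAut

set_option autoImplicit false

noncomputable section

open AlgebraicCurve
open scoped Pointwise

namespace Fermat.Agent.GR.H.PlaceVal

open Fermat.Agent.GH Fermat.Agent.GH.Disc Fermat.Agent.S24

variable {K F : Type*} [Field K] [Field F] [Algebra K F]

/-! ### the value of a function at a place -/

/-- the value `f(P) ∈ K` of `f` at the place `P` (junk value `0` if there is none, e.g. at a
pole). -/
def valOf (P : Place K F) (f : F) : K :=
  open Classical in if h : ∃ a : K, ValueAt P f a then h.choose else 0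

/-- uniqueness: any `a` with `ValueAt P f a` is `valOf P f` (no hypothesis on `P`). -/
theorem valOf_eq_of_valueAt {P : Place K F} {f : F} {a : K} (h : ValueAt P f a) :
    valOf P f = a := by
  have hex : ∃ a : K, ValueAt P f a := ⟨a, h⟩
  unfold valOf
  rw [dif_pos hex]
  exact valueAt_unique hex.choose_spec h

theorem valOf_of_not_mem {P : Place K F} {f : F} (hf : f ∉ P.toValuationSubring) :
    valOf P f = 0 := by
  unfold valOf
  rw [dif_neg]
  rintro ⟨a, ha⟩
  exact hf (valueAt_mem ha)

/-- at a place of degree one a regular function takes its value. -/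
theorem valueAt_valOf {P : Place K F} (hP : P.deg = 1) {f : F}
    (hf : f ∈ P.toValuationSubring) : ValueAt P f (valOf P f) := by
  obtain ⟨a, ha⟩ := exists_valueAt hP hf
  rw [valOf_eq_of_valueAt ha]
  exact ha

theorem valOf_eq_iff {P : Place K F} (hP : P.deg = 1) {f : F}
    (hf : f ∈ P.toValuationSubring) (a : K) : valOf P f = a ↔ ValueAt P f a :=
  ⟨fun h => h ▸ valueAt_valOf hP hf, valOf_eq_of_valueAt⟩

/-- `f - f(P)` is zero or vanishes at `P`. -/
theorem sub_valOf {P : Place K F} (hP : P.deg = 1) {f : F} (hf : f ∈ P.toValuationSubring) :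
    f - algebraMap K F (valOf P f) = 0 ∨ 0 < P.ord (f - algebraMap K F (valOf P f)) :=
  (valueAt_iff_ord P f _).mp (valueAt_valOf hP hf)

@[simp] theorem valOf_algebraMap (P : Place K F) (a : K) : valOf P (algebraMap K F a) = a :=
  valOf_eq_of_valueAt (valueAt_const P a)

@[simp] theorem valOf_zero (P : Place K F) : valOf P (0 : F) = 0 := by
  simpa using valOf_algebraMap P (0 : K)

@[simp] theorem valOf_one (P : Place K F) : valOf P (1 : F) = 1 := by
  simpa using valOf_algebraMap P (1 : K)

section Laws

variable {P : Place K F} (hP : P.deg = 1)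
include hP

theorem valOf_add {f g : F} (hf : f ∈ P.toValuationSubring) (hg : g ∈ P.toValuationSubring) :
    valOf P (f + g) = valOf P f + valOf P g :=
  valOf_eq_of_valueAt (valueAt_add (valueAt_valOf hP hf) (valueAt_valOf hP hg))

theorem valOf_neg {f : F} (hf : f ∈ P.toValuationSubring) : valOf P (-f) = -valOf P f :=
  valOf_eq_of_valueAt (valueAt_neg (valueAt_valOf hP hf))

theorem valOf_sub {f g : F} (hf : f ∈ P.toValuationSubring) (hg : g ∈ P.toValuationSubring) :
    valOf P (f - g) = valOf P f - valOf P g :=
  valOf_eq_of_valueAt (valueAt_sub (valueAt_valOf hP hf) (valueAt_valOf hP hg))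

theorem valOf_mul {f g : F} (hf : f ∈ P.toValuationSubring) (hg : g ∈ P.toValuationSubring) :
    valOf P (f * g) = valOf P f * valOf P g :=
  valOf_eq_of_valueAt (valueAt_mul (valueAt_valOf hP hf) (valueAt_valOf hP hg))

theorem valOf_pow {f : F} (hf : f ∈ P.toValuationSubring) (n : ℕ) :
    valOf P (f ^ n) = valOf P f ^ n :=
  valOf_eq_of_valueAt (valueAt_pow (valueAt_valOf hP hf) n)

theorem valOf_const_mul (c : K) {f : F} (hf : f ∈ P.toValuationSubring) :
    valOf P (algebraMap K F c * f) = c * valOf P f := by
  rw [valOf_mul hP (P.algebraMap_mem' c) hf, valOf_algebraMap]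

theorem valOf_smul (c : K) {f : F} (hf : f ∈ P.toValuationSubring) :
    valOf P (c • f) = c * valOf P f := by
  rw [Algebra.smul_def]
  exact valOf_const_mul hP c hf

theorem valOf_sum {ι : Type*} (s : Finset ι) (f : ι → F)
    (hf : ∀ i ∈ s, f i ∈ P.toValuationSubring) :
    valOf P (∑ i ∈ s, f i) = ∑ i ∈ s, valOf P (f i) := by
  classical
  induction s using Finset.induction_on with
  | empty => simp
  | insert a s ha ih =>
    rw [Finset.sum_insert ha, Finset.sum_insert ha,
      valOf_add hP (hf a (Finset.mem_insert_self a s))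
        (sum_mem fun i hi => hf i (Finset.mem_insert_of_mem hi)),
      ih fun i hi => hf i (Finset.mem_insert_of_mem hi)]

theorem valOf_prod {ι : Type*} (s : Finset ι) (f : ι → F)
    (hf : ∀ i ∈ s, f i ∈ P.toValuationSubring) :
    valOf P (∏ i ∈ s, f i) = ∏ i ∈ s, valOf P (f i) := by
  classical
  induction s using Finset.induction_on with
  | empty => simp
  | insert a s ha ih =>
    rw [Finset.prod_insert ha, Finset.prod_insert ha,
      valOf_mul hP (hf a (Finset.mem_insert_self a s))
        (prod_mem fun i hi => hf i (Finset.mem_insert_of_mem hi)),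
      ih fun i hi => hf i (Finset.mem_insert_of_mem hi)]

/-- the value is `0` iff the function vanishes at `P`. -/
theorem valOf_eq_zero_iff {f : F} (hf : f ∈ P.toValuationSubring) :
    valOf P f = 0 ↔ f = 0 ∨ 0 < P.ord f := by
  rw [valOf_eq_iff hP hf, valueAt_zero_iff]

theorem valOf_ne_zero_of_ord_eq_zero {f : F} (hf0 : f ≠ 0) (hord : P.ord f = 0) :
    valOf P f ≠ 0 := by
  have hf : f ∈ P.toValuationSubring := (PlaceB.ord_nonneg_iff P hf0).mp hord.ge
  rw [Ne, valOf_eq_zero_iff hP hf]
  rintro (h | h)
  · exact hf0 h
  · rw [hord] at h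
    exact lt_irrefl _ h

/-- the value of the inverse of a unit at `P`. -/
theorem valOf_inv {f : F} (hf0 : f ≠ 0) (hord : P.ord f = 0) :
    valOf P f⁻¹ = (valOf P f)⁻¹ := by
  have hf : f ∈ P.toValuationSubring := (PlaceB.ord_nonneg_iff P hf0).mp hord.ge
  have hfi : f⁻¹ ∈ P.toValuationSubring := by
    rw [← PlaceB.ord_nonneg_iff P (inv_ne_zero hf0), P.ord_inv, hord]
    simp
  have h := valOf_mul hP hf hfi
  rw [mul_inv_cancel₀ hf0, valOf_one] at h
  exact eq_inv_of_mul_eq_one_right h.symm

/-- the evaluation homomorphism `𝒪_P → K`. -/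
def valHom (P : Place K F) (hP : P.deg = 1) : P.toValuationSubring →ₐ[K] K where
  toFun x := valOf P (x : F)
  map_one' := valOf_one P
  map_mul' x y := valOf_mul hP x.2 y.2
  map_zero' := valOf_zero P
  map_add' x y := valOf_add hP x.2 y.2
  commutes' a := valOf_algebraMap P a

omit hP in
@[simp] theorem valHom_apply (hP : P.deg = 1) (x : P.toValuationSubring) :
    valHom P hP x = valOf P (x : F) := rfl

end Laws

/-! ### semilinear equivariance -/

/-- values are transported by semilinear automorphisms (generic form of `RedAut.valueAt_smul_iff`). -/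
theorem valueAt_smulAut_iff (σ : SemilinearAut K F) (P : Place K F) (e : F) (a : K) :
    ValueAt (σ • P) (σ • e) (SemilinearAut.baseAut σ a) ↔ ValueAt P e a := by
  unfold ValueAt
  rw [SemilinearAut.smul_toValuationSubring, ← SemilinearAut.smul_algebraMap, ← smul_sub]
  exact Fermat.Agent.GH.Gal.valuation_smul_lt_one_iff σ _ _

/-- `(σ f)(σ P) = σ (f(P))`. -/
theorem valOf_smulAut (σ : SemilinearAut K F) (P : Place K F) (f : F) :
    valOf (σ • P) (σ • f) = SemilinearAut.baseAut σ (valOf P f) := by
  by_cases h : ∃ a : K, ValueAt P f a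
  · obtain ⟨a, ha⟩ := h
    rw [valOf_eq_of_valueAt ha]
    exact valOf_eq_of_valueAt ((valueAt_smulAut_iff σ P f a).mpr ha)
  · have h1 : valOf P f = 0 := by
      unfold valOf
      rw [dif_neg h]
    have h2 : ¬ ∃ b : K, ValueAt (σ • P) (σ • f) b := by
      rintro ⟨b, hb⟩
      apply h
      refine ⟨(SemilinearAut.baseAut σ).symm b, (valueAt_smulAut_iff σ P f _).mp ?_⟩
      rwa [RingEquiv.apply_symm_apply]
    have h3 : valOf (σ • P) (σ • f) = 0 := by
      unfold valOf
      rw [dif_neg h2]
    rw [h1, h3, map_zero]

/-! ### Taylor coefficients -/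

/-- `f ↦ (f - f(P)) / t`. -/
def shift (P : Place K F) (t : F) (f : F) : F := (f - algebraMap K F (valOf P f)) / t

/-- the `n`-th Taylor remainder: `f = Σ_{j<n} c_j t^j + t^n · taylorRem P t n f`. -/
def taylorRem (P : Place K F) (t : F) (n : ℕ) (f : F) : F := (shift P t)^[n] f

/-- the `n`-th Taylor coefficient of `f` at `P` with respect to the parameter `t`. -/
def taylorCoeff (P : Place K F) (t : F) (n : ℕ) (f : F) : K := valOf P (taylorRem P t n f)

@[simp] theorem taylorRem_zero (P : Place K F) (t f : F) : taylorRem P t 0 f = f := rfl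

theorem taylorRem_succ (P : Place K F) (t : F) (n : ℕ) (f : F) :
    taylorRem P t (n + 1) f = shift P t (taylorRem P t n f) :=
  Function.iterate_succ_apply' _ _ _

theorem taylorRem_succ' (P : Place K F) (t : F) (n : ℕ) (f : F) :
    taylorRem P t (n + 1) f = taylorRem P t n (shift P t f) :=
  Function.iterate_succ_apply _ _ _

@[simp] theorem taylorCoeff_zero (P : Place K F) (t f : F) : taylorCoeff P t 0 f = valOf P f := rfl

theorem taylorCoeff_succ' (P : Place K F) (t : F) (n : ℕ) (f : F) :
    taylorCoeff P t (n + 1) f = taylorCoeff P t n (shift P t f) := by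
  unfold taylorCoeff
  rw [taylorRem_succ']

@[simp] theorem shift_zero (P : Place K F) (t : F) : shift P t 0 = 0 := by
  simp [shift]

@[simp] theorem taylorRem_zero_fun (P : Place K F) (t : F) (n : ℕ) : taylorRem P t n 0 = 0 := by
  induction n with
  | zero => rfl
  | succ n ih => rw [taylorRem_succ, ih, shift_zero]

@[simp] theorem taylorCoeff_zero_fun (P : Place K F) (t : F) (n : ℕ) :
    taylorCoeff P t n 0 = 0 := by
  simp [taylorCoeff]

@[simp] theorem shift_algebraMap (P : Place K F) (t : F) (a : K) :
    shift P t (algebraMap K F a) = 0 := by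
  simp [shift]

theorem taylorCoeff_const_succ (P : Place K F) (t : F) (a : K) (n : ℕ) :
    taylorCoeff P t (n + 1) (algebraMap K F a) = 0 := by
  rw [taylorCoeff_succ', shift_algebraMap, taylorCoeff_zero_fun]

section Taylor

variable {P : Place K F} (hP : P.deg = 1) {t : F} (ht : P.ord t = 1)
include hP ht

omit hP in
theorem param_ne_zero : t ≠ 0 := by
  rintro rfl
  simp at ht

omit hP in
theorem param_mem : t ∈ P.toValuationSubring :=
  (PlaceB.ord_nonneg_iff P (param_ne_zero ht)).mp (by rw [ht]; exact zero_le_one)

omit hP in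
theorem valueAt_param : ValueAt P t 0 :=
  (valueAt_zero_iff P t).mpr (Or.inr (by rw [ht]; exact zero_lt_one))

omit hP in
theorem valOf_param : valOf P t = 0 := valOf_eq_of_valueAt (valueAt_param ht)

theorem shift_mem {f : F} (hf : f ∈ P.toValuationSubring) : shift P t f ∈ P.toValuationSubring := by
  have ht0 := param_ne_zero ht
  rcases sub_valOf hP hf with h | h
  · unfold shift
    rw [h, zero_div]
    exact zero_mem _
  · have hne : f - algebraMap K F (valOf P f) ≠ 0 := by
      intro h0
      rw [h0] at h
      simp at h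
    have hne' : shift P t f ≠ 0 := div_ne_zero hne ht0
    rw [← PlaceB.ord_nonneg_iff P hne']
    unfold shift
    rw [div_eq_mul_inv, P.ord_mul hne (inv_ne_zero ht0), P.ord_inv, ht]
    omega

omit hP in
theorem shift_spec (f : F) : f = algebraMap K F (valOf P f) + t * shift P t f := by
  have ht0 := param_ne_zero ht
  unfold shift
  field_simp
  ring

theorem taylorRem_mem {f : F} (hf : f ∈ P.toValuationSubring) (n : ℕ) :
    taylorRem P t n f ∈ P.toValuationSubring := by
  induction n with
  | zero => exact hf
  | succ n ih =>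
    rw [taylorRem_succ]
    exact shift_mem hP ht ih

omit hP in
/-- **Taylor expansion** with remainder. -/
theorem taylor_expansion (f : F) (n : ℕ) :
    f = ∑ j ∈ Finset.range n, algebraMap K F (taylorCoeff P t j f) * t ^ j
      + t ^ n * taylorRem P t n f := by
  induction n with
  | zero => simp
  | succ n ih =>
    rw [Finset.sum_range_succ, taylorRem_succ]
    have h := shift_spec ht (taylorRem P t n f)
    calc f = ∑ j ∈ Finset.range n, algebraMap K F (taylorCoeff P t j f) * t ^ j
          + t ^ n * taylorRem P t n f := ih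
      _ = ∑ j ∈ Finset.range n, algebraMap K F (taylorCoeff P t j f) * t ^ j
          + t ^ n * (algebraMap K F (valOf P (taylorRem P t n f))
            + t * shift P t (taylorRem P t n f)) := by rw [← h]
      _ = _ := by
        unfold taylorCoeff
        ring

/-- the shift of `a + t f'` is `f'`, and its value is `a`. -/
theorem valOf_add_param_mul (a : K) {f' : F} (hf' : f' ∈ P.toValuationSubring) :
    valOf P (algebraMap K F a + t * f') = a := by
  rw [valOf_add hP (P.algebraMap_mem' a) (mul_mem (param_mem ht) hf'),
    valOf_mul hP (param_mem ht) hf', valOf_param ht, valOf_algebraMap, zero_mul, add_zero]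

theorem shift_add_param_mul (a : K) {f' : F} (hf' : f' ∈ P.toValuationSubring) :
    shift P t (algebraMap K F a + t * f') = f' := by
  have ht0 := param_ne_zero ht
  unfold shift
  rw [valOf_add_param_mul hP ht a hf']
  field_simp
  ring

/-- **uniqueness of Taylor coefficients.** -/
theorem taylorCoeff_unique {f : F} {n : ℕ} {a : ℕ → K}
    (h : ∃ r ∈ P.toValuationSubring,
      f = ∑ j ∈ Finset.range n, algebraMap K F (a j) * t ^ j + t ^ n * r) :
    ∀ j < n, a j = taylorCoeff P t j f := by
  induction n generalizing f a with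
  | zero => intro j hj; omega
  | succ n ih =>
    obtain ⟨r, hr, hfr⟩ := h
    set f' : F := ∑ j ∈ Finset.range n, algebraMap K F (a (j + 1)) * t ^ j + t ^ n * r with hf'
    have hf'mem : f' ∈ P.toValuationSubring := by
      rw [hf']
      refine add_mem (sum_mem fun j _ => mul_mem (P.algebraMap_mem' _) (pow_mem (param_mem ht) j))
        (mul_mem (pow_mem (param_mem ht) n) hr)
    have hf : f = algebraMap K F (a 0) + t * f' := by
      have hsum : ∑ k ∈ Finset.range n, algebraMap K F (a (k + 1)) * t ^ (k + 1)
          = t * ∑ k ∈ Finset.range n, algebraMap K F (a (k + 1)) * t ^ k := by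
        rw [Finset.mul_sum]
        exact Finset.sum_congr rfl fun j _ => by ring
      rw [hfr, Finset.sum_range_succ', hf', hsum]
      ring
    intro j hj
    rcases j with _ | j
    · rw [taylorCoeff_zero, hf, valOf_add_param_mul hP ht _ hf'mem]
    · rw [taylorCoeff_succ', hf, shift_add_param_mul hP ht _ hf'mem]
      exact ih (f := f') (a := fun j => a (j + 1)) ⟨r, hr, hf'⟩ j (by omega)

omit ht in
theorem shift_add {f g : F} (hf : f ∈ P.toValuationSubring) (hg : g ∈ P.toValuationSubring) :
    shift P t (f + g) = shift P t f + shift P t g := by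
  unfold shift
  rw [valOf_add hP hf hg, map_add]
  ring

omit ht in
theorem shift_smul (c : K) {f : F} (hf : f ∈ P.toValuationSubring) :
    shift P t (c • f) = c • shift P t f := by
  unfold shift
  rw [valOf_smul hP c hf, map_mul, Algebra.smul_def, Algebra.smul_def]
  ring

theorem taylorRem_add {f g : F} (hf : f ∈ P.toValuationSubring) (hg : g ∈ P.toValuationSubring)
    (n : ℕ) : taylorRem P t n (f + g) = taylorRem P t n f + taylorRem P t n g := by
  induction n with
  | zero => rfl
  | succ n ih =>
    rw [taylorRem_succ, taylorRem_succ, taylorRem_succ, ih,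
      shift_add hP (taylorRem_mem hP ht hf n) (taylorRem_mem hP ht hg n)]

theorem taylorRem_smul (c : K) {f : F} (hf : f ∈ P.toValuationSubring) (n : ℕ) :
    taylorRem P t n (c • f) = c • taylorRem P t n f := by
  induction n with
  | zero => rfl
  | succ n ih =>
    rw [taylorRem_succ, taylorRem_succ, ih, shift_smul hP c (taylorRem_mem hP ht hf n)]

theorem taylorCoeff_add {f g : F} (hf : f ∈ P.toValuationSubring) (hg : g ∈ P.toValuationSubring)
    (n : ℕ) : taylorCoeff P t n (f + g) = taylorCoeff P t n f + taylorCoeff P t n g := by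
  unfold taylorCoeff
  rw [taylorRem_add hP ht hf hg, valOf_add hP (taylorRem_mem hP ht hf n) (taylorRem_mem hP ht hg n)]

theorem taylorCoeff_smul (c : K) {f : F} (hf : f ∈ P.toValuationSubring) (n : ℕ) :
    taylorCoeff P t n (c • f) = c * taylorCoeff P t n f := by
  unfold taylorCoeff
  rw [taylorRem_smul hP ht c hf, valOf_smul hP c (taylorRem_mem hP ht hf n)]

theorem taylorCoeff_sum {ι : Type*} (s : Finset ι) (f : ι → F)
    (hf : ∀ i ∈ s, f i ∈ P.toValuationSubring) (n : ℕ) :
    taylorCoeff P t n (∑ i ∈ s, f i) = ∑ i ∈ s, taylorCoeff P t n (f i) := by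
  classical
  induction s using Finset.induction_on with
  | empty => simp
  | insert a s ha ih =>
    rw [Finset.sum_insert ha, Finset.sum_insert ha,
      taylorCoeff_add hP ht (hf a (Finset.mem_insert_self a s))
        (sum_mem fun i hi => hf i (Finset.mem_insert_of_mem hi)),
      ih fun i hi => hf i (Finset.mem_insert_of_mem hi)]

/-- multiplication by the parameter shifts the Taylor coefficients. -/
theorem taylorCoeff_param_mul_succ {f : F} (hf : f ∈ P.toValuationSubring) (n : ℕ) :
    taylorCoeff P t (n + 1) (t * f) = taylorCoeff P t n f := by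
  have h := shift_add_param_mul hP ht 0 hf
  rw [map_zero, zero_add] at h
  rw [taylorCoeff_succ', h]

theorem taylorCoeff_param_mul_zero {f : F} (hf : f ∈ P.toValuationSubring) :
    taylorCoeff P t 0 (t * f) = 0 := by
  have h := valOf_add_param_mul hP ht 0 hf
  rwa [map_zero, zero_add] at h

/-- Taylor coefficients of the powers of the parameter. -/
theorem taylorCoeff_param_pow (m j : ℕ) :
    taylorCoeff P t j (t ^ m) = if j = m then 1 else 0 := by
  induction m generalizing j with
  | zero =>
    rcases j with _ | j
    · simp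
    · have := taylorCoeff_const_succ P t (1 : K) j
      rw [map_one] at this
      rw [pow_zero, this, if_neg (by omega)]
  | succ m ih =>
    have hm : t ^ m ∈ P.toValuationSubring := pow_mem (param_mem ht) m
    rw [pow_succ']
    rcases j with _ | j
    · rw [taylorCoeff_param_mul_zero hP ht hm, if_neg (by omega)]
    · rw [taylorCoeff_param_mul_succ hP ht hm, ih]
      simp

/-- the `n`-jet map `𝒪_P → K^n`. -/
def jet (P : Place K F) (hP : P.deg = 1) (t : F) (ht : P.ord t = 1) (n : ℕ) :
    P.toValuationSubring →ₗ[K] (Fin n → K) where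
  toFun f j := taylorCoeff P t j (f : F)
  map_add' f g := by
    funext j
    exact taylorCoeff_add hP ht f.2 g.2 j
  map_smul' c f := by
    funext j
    have h : ((c • f : P.toValuationSubring) : F) = c • (f : F) := by
      rw [Algebra.smul_def, Algebra.smul_def]
      rfl
    show taylorCoeff P t j ((c • f : P.toValuationSubring) : F) = c * taylorCoeff P t j (f : F)
    rw [h]
    exact taylorCoeff_smul hP ht c f.2 j

omit hP ht in
@[simp] theorem jet_apply (hP : P.deg = 1) (ht : P.ord t = 1) (n : ℕ)
    (f : P.toValuationSubring) (j : Fin n) :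
    jet P hP t ht n f j = taylorCoeff P t j (f : F) := rfl

/-- **the kernel of the `n`-jet**: the first `n` Taylor coefficients vanish iff `f` vanishes to
order `≥ n` at `P`. -/
theorem taylorCoeff_eq_zero_iff {f : F} (hf : f ∈ P.toValuationSubring) (n : ℕ) :
    (∀ j < n, taylorCoeff P t j f = 0) ↔ f = 0 ∨ (n : ℤ) ≤ P.ord f := by
  have ht0 := param_ne_zero ht
  constructor
  · intro h
    have hexp := taylor_expansion ht f n
    rw [Finset.sum_eq_zero (fun j hj => by
      rw [h j (Finset.mem_range.mp hj), map_zero, zero_mul]), zero_add] at hexp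
    by_cases hr : taylorRem P t n f = 0
    · left
      rw [hexp, hr, mul_zero]
    · right
      have hrm := taylorRem_mem hP ht hf n
      have hr0 : 0 ≤ P.ord (taylorRem P t n f) := (PlaceB.ord_nonneg_iff P hr).mpr hrm
      rw [hexp, P.ord_mul (pow_ne_zero n ht0) hr, ← zpow_natCast, P.ord_zpow, ht]
      omega
  · intro h
    have key : ∃ r ∈ P.toValuationSubring,
        f = ∑ j ∈ Finset.range n, algebraMap K F ((fun _ => (0 : K)) j) * t ^ j + t ^ n * r := by
      rcases h with h | h
      · exact ⟨0, zero_mem _, by simp [h]⟩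
      · by_cases hf0 : f = 0
        · exact ⟨0, zero_mem _, by simp [hf0]⟩
        · refine ⟨f / t ^ n, ?_, ?_⟩
          · have hne : f / t ^ n ≠ 0 := div_ne_zero hf0 (pow_ne_zero n ht0)
            rw [← PlaceB.ord_nonneg_iff P hne, div_eq_mul_inv,
              P.ord_mul hf0 (inv_ne_zero (pow_ne_zero n ht0)), P.ord_inv, ← zpow_natCast,
              P.ord_zpow, ht]
            omega
          · simp only [map_zero, zero_mul, Finset.sum_const_zero, zero_add]
            field_simp
    intro j hj
    exact (taylorCoeff_unique hP ht key j hj).symm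

/-- `ord` form of the Taylor expansion: `f - Σ_{j<n} c_j t^j` is zero or vanishes to order `≥ n`. -/
theorem sub_taylor_eq_zero_or_le_ord {f : F} (hf : f ∈ P.toValuationSubring) (n : ℕ) :
    f - ∑ j ∈ Finset.range n, algebraMap K F (taylorCoeff P t j f) * t ^ j = 0 ∨
      (n : ℤ) ≤ P.ord (f - ∑ j ∈ Finset.range n, algebraMap K F (taylorCoeff P t j f) * t ^ j) := by
  have ht0 := param_ne_zero ht
  have hexp := taylor_expansion ht f n
  have h1 : f - ∑ j ∈ Finset.range n, algebraMap K F (taylorCoeff P t j f) * t ^ j
      = t ^ n * taylorRem P t n f := by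
    rw [sub_eq_iff_eq_add, add_comm]
    exact hexp
  rw [h1]
  by_cases hr : taylorRem P t n f = 0
  · left
    rw [hr, mul_zero]
  · right
    have hrm := taylorRem_mem hP ht hf n
    have hr0 : 0 ≤ P.ord (taylorRem P t n f) := (PlaceB.ord_nonneg_iff P hr).mpr hrm
    rw [P.ord_mul (pow_ne_zero n ht0) hr, ← zpow_natCast, P.ord_zpow, ht]
    omega

theorem jet_eq_zero_iff (n : ℕ) (f : P.toValuationSubring) :
    jet P hP t ht n f = 0 ↔ (f : F) = 0 ∨ (n : ℤ) ≤ P.ord (f : F) := by
  rw [← taylorCoeff_eq_zero_iff hP ht f.2 n]
  constructor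
  · intro h j hj
    have := congrFun h ⟨j, hj⟩
    simpa using this
  · intro h
    funext j
    simpa using h j j.2

end Taylor

/-! ### equivariance of Taylor coefficients -/

theorem shift_smulAut (σ : SemilinearAut K F) (P : Place K F) (t f : F) :
    shift (σ • P) (σ • t) (σ • f) = σ • shift P t f := by
  unfold shift
  rw [valOf_smulAut, div_eq_mul_inv, div_eq_mul_inv, smul_mul', smul_inv'', smul_sub,
    SemilinearAut.smul_algebraMap]

theorem taylorRem_smulAut (σ : SemilinearAut K F) (P : Place K F) (t f : F) (n : ℕ) :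
    taylorRem (σ • P) (σ • t) n (σ • f) = σ • taylorRem P t n f := by
  induction n with
  | zero => rfl
  | succ n ih => rw [taylorRem_succ, taylorRem_succ, ih, shift_smulAut]

/-- Taylor coefficients are transported by semilinear automorphisms. -/
theorem taylorCoeff_smulAut (σ : SemilinearAut K F) (P : Place K F) (t f : F) (n : ℕ) :
    taylorCoeff (σ • P) (σ • t) n (σ • f) = SemilinearAut.baseAut σ (taylorCoeff P t n f) := by
  unfold taylorCoeff
  rw [taylorRem_smulAut, valOf_smulAut]

end Fermat.Agent.GR.H.PlaceVal
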