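/-
GATE-R / S17, node GR-H-CANON (helper20): the FORMAL CORE of DESIGN-H v2 (board 4768, after
helper17 4713 / helper4 4710 / helper95 4714 / helper43 4696; reader check helper62 4809).

Abstract, Mathlib-only.  A `HeightFrame` packages
* a commutative monoid `𝔇` of "rational effective divisors" with degree `deg`, class map `cl`
  into an abelian group `A` and a distinguished point `inf`,
* "sections" `Sec` (nonzero elements of `L(k∞)`, `k = lev s`) with their zero divisors `div0 s`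
  and heights `hs s`,
* Plücker heights `H N D` of `L(N∞ - D) ⊆ L(N∞)`,
together with the hypotheses (E1), (ML), (★), (★∞1), (★∞2), (SMALL), (NC), (MOVE), (PRINC).

Output: a function `F : A → ℝ` (the canonical `2Θ`-height
`ĥ(c) = H_{2d}(D) + H_{2d}(Dᶜ) - r_{2d}(d)·h(s)`) which is bounded below, has finite sublevel
sets and satisfies the approximate parallelogram law.  This is exactly what
`GR/H/QuadPlug.crudeHeight_of_pgram` consumes.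
-/
import Mathlib

set_option autoImplicit false

namespace Fermat.Agent.GR.H.Canon

/-- The abstract frame of DESIGN-H v2.  All constants are uniform over levels `N ≤ M`
(producers with parameter-wise constants take a finite maximum). -/
structure HeightFrame (A 𝔇 Sec : Type*) [AddCommGroup A] [AddCommMonoid 𝔇] where
  /-- degree of a rational effective divisor -/
  deg : 𝔇 →+ ℕ
  /-- the class of `D - deg D • ∞` -/
  cl : 𝔇 →+ A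
  /-- the rational point `∞` -/
  inf : 𝔇
  /-- a section `s` lives in `L(lev s • ∞)` -/
  lev : Sec → ℕ
  /-- `div s + lev s • ∞` -/
  div0 : Sec → 𝔇
  /-- logarithmic height of the coordinate vector of `s` -/
  hs : Sec → ℝ
  /-- Plücker height of `L(N∞ - D) ⊆ L(N∞)` -/
  H : ℕ → 𝔇 → ℝ
  /-- reduced and off `∞` -/
  Good : 𝔇 → Prop
  /-- `g - 1` -/
  γ : ℝ
  /-- Riemann bound: `dim L(N∞ - D) = N - deg D - γ` for `deg D + c₀ ≤ N` -/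
  c₀ : ℕ
  /-- threshold of the moving lemmas -/
  d₀ : ℕ
  deg_div0 : ∀ s, deg (div0 s) = lev s
  cl_div0 : ∀ s, cl (div0 s) = 0
  good_zero : Good 0
  good_of_add : ∀ D D', Good (D + D') → Good D
  H_nonneg : ∀ N D, 0 ≤ H N D
  H_zero : ∀ N, H N 0 = 0
  /-- (E1) -/
  H_add_inf : ∀ N D, deg D + 1 + c₀ ≤ N → H N (D + inf) = H (N - 1) D
  deg_inf : deg inf = 1
  cl_inf : cl inf = 0
  /-- (PRINC) every rational effective divisor linearly equivalent to `k∞` is a `div0`. -/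
  princ : ∀ E : 𝔇, cl E = 0 → ∃ s : Sec, lev s = deg E ∧ div0 s = E
  hs_eq_of_div0 : ∀ (s s' : Sec) (j : ℕ), div0 s' = div0 s + j • inf → hs s' = hs s
  hs_mul : ∀ M : ℕ, ∃ C : ℝ, ∀ s t u : Sec, lev u ≤ M → div0 u = div0 s + div0 t →
    |hs u - hs s - hs t| ≤ C
  /-- (ML') the multiplication lemma `s • L((N-k)∞ - D) = L(N∞ - D - div0 s)`. -/
  ML : ∀ M : ℕ, ∃ C : ℝ, ∀ (N : ℕ) (D : 𝔇) (s : Sec), N ≤ M → deg D + lev s + c₀ ≤ N →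
    |H N (D + div0 s) - ((N : ℝ) - lev s - deg D - γ) * hs s - H (N - lev s) D| ≤ C
  /-- (★) the cube identity for Plücker heights. -/
  star : ∀ M : ℕ, ∃ C : ℝ, ∀ (N : ℕ) (D₁ D₂ D₃ : 𝔇), N ≤ M → Good (D₁ + D₂ + D₃) →
    deg D₁ + deg D₂ + deg D₃ + c₀ ≤ N →
    |H N (D₁ + D₂ + D₃) - H N (D₁ + D₂) - H N (D₁ + D₃) - H N (D₂ + D₃)
      + H N D₁ + H N D₂ + H N D₃| ≤ C
  /-- (★∞1) `H_N - H_{N-1}` is additive. -/
  starInf1 : ∀ M : ℕ, ∃ C : ℝ, ∀ (N : ℕ) (D₁ D₂ : 𝔇), N ≤ M → Good (D₁ + D₂) →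
    deg D₁ + deg D₂ + c₀ + 1 ≤ N →
    |(H N (D₁ + D₂) - H (N - 1) (D₁ + D₂)) - (H N D₁ - H (N - 1) D₁)
      - (H N D₂ - H (N - 1) D₂)| ≤ C
  /-- (★∞2) `H_N` is affine in `N`. -/
  starInf2 : ∀ M : ℕ, ∃ C : ℝ, ∀ (N : ℕ) (D : 𝔇), N ≤ M → Good D → deg D + c₀ + 2 ≤ N →
    |H N D - 2 * H (N - 1) D + H (N - 2) D| ≤ C
  /-- (SMALL) Siegel's lemma. -/
  small : ∀ M : ℕ, ∃ C : ℝ, ∀ (N : ℕ) (D : 𝔇), N ≤ M → deg D + c₀ ≤ N →
    ∃ (s : Sec) (D' : 𝔇), lev s = N ∧ div0 s = D + D' ∧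
      ((N : ℝ) - deg D - γ) * hs s ≤ H N D + C
  /-- (NC) Northcott for Plücker heights. -/
  northcott : ∀ (N e : ℕ) (B : ℝ), e + c₀ ≤ N → {D : 𝔇 | deg D = e ∧ H N D ≤ B}.Finite
  /-- (MOVE 1) -/
  move1 : ∀ (c : A) (d : ℕ) (T : 𝔇), d₀ ≤ d → Good T →
    ∃ D, deg D = d ∧ cl D = c ∧ Good (D + T)
  /-- (MOVE 2) -/
  move2 : ∀ (D T : 𝔇) (k : ℕ), Good (D + T) → deg D + d₀ ≤ k →
    ∃ (s : Sec) (D' : 𝔇), lev s = k ∧ div0 s = D + D' ∧ Good (D + D' + T)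

namespace HeightFrame

variable {A 𝔇 Sec : Type*} [AddCommGroup A] [AddCommMonoid 𝔇] (𝓕 : HeightFrame A 𝔇 Sec)

/-- `r_n(e) = n - e - γ`, the dimension of `L(n∞ - D)` for `deg D = e`. -/
def r (n e : ℕ) : ℝ := (n : ℝ) - e - 𝓕.γ

/-- A datum of degree `e` for the class `c`. -/
structure IsDatum (e : ℕ) (c : A) (D : 𝔇) (s : Sec) (Dc : 𝔇) : Prop where
  deg_D : 𝓕.deg D = e
  cl_D : 𝓕.cl D = c
  lev_s : 𝓕.lev s = 2 * e
  div : 𝓕.div0 s = D + Dc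

variable {𝓕}

theorem IsDatum.deg_Dc {e : ℕ} {c : A} {D : 𝔇} {s : Sec} {Dc : 𝔇} (h : 𝓕.IsDatum e c D s Dc) :
    𝓕.deg Dc = e := by
  have := 𝓕.deg_div0 s
  rw [h.div, map_add, h.deg_D, h.lev_s] at this
  omega

theorem IsDatum.cl_Dc {e : ℕ} {c : A} {D : 𝔇} {s : Sec} {Dc : 𝔇} (h : 𝓕.IsDatum e c D s Dc) :
    𝓕.cl Dc = -c := by
  have := 𝓕.cl_div0 s
  rw [h.div, map_add, h.cl_D] at this
  exact (neg_eq_of_add_eq_zero_right this).symm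

theorem IsDatum.symm {e : ℕ} {c : A} {D : 𝔇} {s : Sec} {Dc : 𝔇} (h : 𝓕.IsDatum e c D s Dc) :
    𝓕.IsDatum e (-c) Dc s D :=
  ⟨h.deg_Dc, h.cl_Dc, h.lev_s, by rw [h.div, add_comm]⟩

variable (𝓕)

/-- The value of a datum at level `n`. -/
def val (n e : ℕ) (D : 𝔇) (s : Sec) (Dc : 𝔇) : ℝ :=
  𝓕.H n D + 𝓕.H n Dc - 𝓕.r n e * 𝓕.hs s

/-- (ML) in the form used below. -/
theorem ML' (M : ℕ) : ∃ C : ℝ, 0 ≤ C ∧ ∀ (n k e : ℕ) (D : 𝔇) (s : Sec), n + k ≤ M → 𝓕.lev s = k →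
    𝓕.deg D = e → e + 𝓕.c₀ ≤ n →
    |𝓕.H (n + k) (D + 𝓕.div0 s) - 𝓕.r n e * 𝓕.hs s - 𝓕.H n D| ≤ C := by
  obtain ⟨C, hC⟩ := 𝓕.ML M
  refine ⟨max C 0, le_max_right _ _, fun n k e D s hM hk he hn => ?_⟩
  have h := hC (n + k) D s hM (by rw [hk, he]; omega)
  rw [hk, he, Nat.add_sub_cancel] at h
  have : ((n + k : ℕ) : ℝ) - (k : ℝ) - (e : ℝ) - 𝓕.γ = 𝓕.r n e := by
    unfold r; push_cast; ring
  rw [this] at h
  exact h.trans (le_max_left _ _)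


section Core

variable {𝓕}

private theorem abs_sub_le_of {a b c : ℝ} {C C' : ℝ} (h₁ : |a - b| ≤ C) (h₂ : |b - c| ≤ C') :
    |a - c| ≤ C + C' := by
  have := abs_sub_le a b c
  linarith

/-- Step A of datum independence: change the section, keep `D`. -/
theorem val_change_sec {M : ℕ} {C : ℝ}
    (hC : ∀ (n k e : ℕ) (D : 𝔇) (s : Sec), n + k ≤ M → 𝓕.lev s = k →
      𝓕.deg D = e → e + 𝓕.c₀ ≤ n →
      |𝓕.H (n + k) (D + 𝓕.div0 s) - 𝓕.r n e * 𝓕.hs s - 𝓕.H n D| ≤ C)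
    {n e : ℕ} {c : A} {D : 𝔇} {s s' : Sec} {Dc Dc' : 𝔇} (hM : n + 2 * e ≤ M)
    (hn : e + 𝓕.c₀ ≤ n) (h : 𝓕.IsDatum e c D s Dc) (h' : 𝓕.IsDatum e c D s' Dc') :
    |𝓕.val n e D s Dc - 𝓕.val n e D s' Dc'| ≤ 2 * C := by
  have h1 := hC n (2 * e) e Dc s' hM h'.lev_s h.deg_Dc hn
  have h2 := hC n (2 * e) e Dc' s hM h.lev_s h'.deg_Dc hn
  have heq : Dc + 𝓕.div0 s' = Dc' + 𝓕.div0 s := by
    rw [h'.div, h.div]; ac_rfl
  rw [heq] at h1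
  rw [abs_le] at h1 h2 ⊢
  unfold val
  constructor <;> linarith [h1.1, h1.2, h2.1, h2.2]

/-- Step B of datum independence: change `D`, keep the complement. -/
theorem val_change_div {M : ℕ} {C : ℝ}
    (hC : ∀ (n k e : ℕ) (D : 𝔇) (s : Sec), n + k ≤ M → 𝓕.lev s = k →
      𝓕.deg D = e → e + 𝓕.c₀ ≤ n →
      |𝓕.H (n + k) (D + 𝓕.div0 s) - 𝓕.r n e * 𝓕.hs s - 𝓕.H n D| ≤ C)
    {n e : ℕ} {c : A} {D D' : 𝔇} {s s'' : Sec} {Dc : 𝔇} (hM : n + 2 * e ≤ M)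
    (hn : e + 𝓕.c₀ ≤ n) (h : 𝓕.IsDatum e c D s Dc) (h'' : 𝓕.IsDatum e c D' s'' Dc) :
    |𝓕.val n e D s Dc - 𝓕.val n e D' s'' Dc| ≤ 2 * C := by
  have h1 := hC n (2 * e) e D s'' hM h''.lev_s h.deg_D hn
  have h2 := hC n (2 * e) e D' s hM h.lev_s h''.deg_D hn
  have heq : D + 𝓕.div0 s'' = D' + 𝓕.div0 s := by
    rw [h''.div, h.div]; ac_rfl
  rw [heq] at h1
  rw [abs_le] at h1 h2 ⊢
  unfold val
  constructor <;> linarith [h1.1, h1.2, h2.1, h2.2]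

variable (𝓕)

/-- **Datum independence** (needs no goodness). -/
theorem val_indep (M : ℕ) : ∃ C : ℝ, 0 ≤ C ∧ ∀ (n e : ℕ) (c : A) (D : 𝔇) (s : Sec) (Dc : 𝔇)
    (D' : 𝔇) (s' : Sec) (Dc' : 𝔇), n + 2 * e ≤ M → e + 𝓕.c₀ ≤ n →
    𝓕.IsDatum e c D s Dc → 𝓕.IsDatum e c D' s' Dc' →
    |𝓕.val n e D s Dc - 𝓕.val n e D' s' Dc'| ≤ C := by
  obtain ⟨C, hC0, hC⟩ := 𝓕.ML' M
  refine ⟨2 * C + 2 * C, by positivity, fun n e c D s Dc D' s' Dc' hM hn h h' => ?_⟩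
  -- the bridging section
  have hcl : 𝓕.cl (D' + Dc) = 0 := by rw [map_add, h'.cl_D, h.cl_Dc, add_neg_cancel]
  obtain ⟨s'', hlev, hdiv⟩ := 𝓕.princ (D' + Dc) hcl
  have h'' : 𝓕.IsDatum e c D' s'' Dc :=
    ⟨h'.deg_D, h'.cl_D, by rw [hlev, map_add, h'.deg_D, h.deg_Dc]; ring, hdiv⟩
  exact abs_sub_le_of (val_change_div hC hM hn h h'') (val_change_sec hC hM hn h'' h')

/-- Existence of good data avoiding `T`. -/
theorem exists_good_datum (c : A) {e : ℕ} (he : 𝓕.d₀ ≤ e) {T : 𝔇} (hT : 𝓕.Good T) :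
    ∃ (D : 𝔇) (s : Sec) (Dc : 𝔇), 𝓕.IsDatum e c D s Dc ∧ 𝓕.Good (D + Dc + T) := by
  obtain ⟨D, hdeg, hcl, hg⟩ := 𝓕.move1 c e T he hT
  obtain ⟨s, Dc, hlev, hdiv, hg'⟩ := 𝓕.move2 D T (2 * e) hg (by rw [hdeg]; omega)
  exact ⟨D, s, Dc, ⟨hdeg, hcl, hlev, hdiv⟩, hg'⟩

theorem exists_datum (c : A) {e : ℕ} (he : 𝓕.d₀ ≤ e) :
    ∃ (D : 𝔇) (s : Sec) (Dc : 𝔇), 𝓕.IsDatum e c D s Dc := by
  obtain ⟨D, s, Dc, h, -⟩ := 𝓕.exists_good_datum c he 𝓕.good_zero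
  exact ⟨D, s, Dc, h⟩

/-- **Small representatives** (Siegel): every class has a datum whose value at the natural level
dominates the Plücker height of its divisor. -/
theorem exists_small_datum (M : ℕ) : ∃ C : ℝ, ∀ (e : ℕ) (c : A), 2 * e ≤ M → 𝓕.c₀ ≤ e →
    𝓕.d₀ ≤ e → ∃ (D₁ : 𝔇) (u : Sec) (Dc₀ : 𝔇), 𝓕.IsDatum e c D₁ u Dc₀ ∧
      𝓕.H (2 * e) D₁ - C ≤ 𝓕.val (2 * e) e D₁ u Dc₀ := by
  obtain ⟨C, hC⟩ := 𝓕.small M
  refine ⟨C, fun e c hM hc he => ?_⟩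
  obtain ⟨D₀, s₀, Dc₀, h₀⟩ := 𝓕.exists_datum c he
  obtain ⟨u, D₁, hlev, hdiv, hsm⟩ := hC (2 * e) Dc₀ hM (by rw [h₀.deg_Dc]; omega)
  have hdeg : 𝓕.deg D₁ = e := by
    have := 𝓕.deg_div0 u
    rw [hdiv, map_add, h₀.deg_Dc, hlev] at this
    omega
  have hcl : 𝓕.cl D₁ = c := by
    have := 𝓕.cl_div0 u
    rw [hdiv, map_add, h₀.cl_Dc] at this
    have h2 : 𝓕.cl D₁ = - -c := (neg_eq_of_add_eq_zero_right this).symm
    rw [neg_neg] at h2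
    exact h2
  refine ⟨D₁, u, Dc₀, ⟨hdeg, hcl, hlev, by rw [hdiv, add_comm]⟩, ?_⟩
  rw [h₀.deg_Dc] at hsm
  unfold val r
  push_cast at hsm ⊢
  linarith

end Core


section Levels

/-- `B_n(X) = H_n(X) - H_{n-1}(X)`. -/
def B (n : ℕ) (X : 𝔇) : ℝ := 𝓕.H n X - 𝓕.H (n - 1) X

/-- `B_n(X)` is independent of the level (for good `X`), from (★∞2). -/
theorem B_indep (M : ℕ) : ∃ C : ℝ, 0 ≤ C ∧ ∀ (n n' : ℕ) (X : 𝔇), n ≤ n' → n' ≤ M → 𝓕.Good X →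
    𝓕.deg X + 𝓕.c₀ + 1 ≤ n → |𝓕.B n' X - 𝓕.B n X| ≤ C := by
  obtain ⟨C₂, hC₂⟩ := 𝓕.starInf2 M
  have hC₂0 : 0 ≤ max C₂ 0 := le_max_right _ _
  refine ⟨M * max C₂ 0, by positivity, fun n n' X hnn' hn'M hX hn => ?_⟩
  -- telescoping
  have key : ∀ j : ℕ, n + j ≤ M → |𝓕.B (n + j) X - 𝓕.B n X| ≤ j * max C₂ 0 := by
    intro j
    induction j with
    | zero => intro _; simp
    | succ j ih =>
      intro hj
      have h1 := ih (by omega)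
      have h2 := hC₂ (n + (j + 1)) X hj hX (by omega)
      have e1 : n + (j + 1) - 1 = n + j := by omega
      have e2 : n + (j + 1) - 2 = n + j - 1 := by omega
      rw [e1, e2] at h2
      have h3 : |𝓕.B (n + (j + 1)) X - 𝓕.B (n + j) X| ≤ max C₂ 0 := by
        unfold B
        rw [e1]
        refine le_trans (le_of_eq ?_) (h2.trans (le_max_left _ _))
        congr 1; ring
      have := abs_sub_le (𝓕.B (n + (j + 1)) X) (𝓕.B (n + j) X) (𝓕.B n X)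
      push_cast
      linarith
  obtain ⟨j, rfl⟩ := Nat.exists_eq_add_of_le hnn'
  refine (key j hn'M).trans ?_
  have : (j : ℝ) ≤ M := by exact_mod_cast (by omega : j ≤ M)
  exact mul_le_mul_of_nonneg_right this hC₂0

/-- One level step for the value of a GOOD datum. -/
theorem val_step (M : ℕ) : ∃ C : ℝ, 0 ≤ C ∧ ∀ (n e : ℕ) (c : A) (D : 𝔇) (s : Sec) (Dc : 𝔇),
    𝓕.IsDatum e c D s Dc → 𝓕.Good (D + Dc) → e + 𝓕.c₀ + 1 ≤ n → n + 2 * e + 1 ≤ M →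
    |𝓕.val n e D s Dc - 𝓕.val (n - 1) e D s Dc| ≤ C := by
  obtain ⟨CB, hCB0, hCB⟩ := 𝓕.B_indep M
  obtain ⟨C₁, hC₁⟩ := 𝓕.starInf1 M
  obtain ⟨CM, hCM0, hCM⟩ := 𝓕.ML' M
  refine ⟨CB + CB + max C₁ 0 + (CM + CM), by positivity, fun n e c D s Dc h hg hn hM => ?_⟩
  have hgD : 𝓕.Good D := 𝓕.good_of_add D Dc hg
  have hgDc : 𝓕.Good Dc := 𝓕.good_of_add Dc D (by rwa [add_comm])
  have hBD := hCB n (n + 2 * e + 1) D (by omega) hM hgD (by rw [h.deg_D]; omega)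
  have hBDc := hCB n (n + 2 * e + 1) Dc (by omega) hM hgDc (by rw [h.deg_Dc]; omega)
  have h1 := hC₁ (n + 2 * e + 1) D Dc hM hg (by rw [h.deg_D, h.deg_Dc]; omega)
  have hML1 := hCM (n + 1) (2 * e) 0 (0 : 𝔇) s (by omega) h.lev_s (map_zero _) (by omega)
  have hML2 := hCM n (2 * e) 0 (0 : 𝔇) s (by omega) h.lev_s (map_zero _) (by omega)
  rw [zero_add, 𝓕.H_zero, h.div] at hML1 hML2
  have eN : n + 2 * e + 1 = n + 1 + 2 * e := by ring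
  have eN1 : n + 2 * e + 1 - 1 = n + 2 * e := by omega
  rw [eN1] at h1
  rw [← eN] at hML1
  have hn1 : ((n - 1 : ℕ) : ℝ) = (n : ℝ) - 1 := by
    rw [Nat.cast_sub (by omega)]; simp
  have hB1 : 𝓕.B (n + 2 * e + 1) D = 𝓕.H (n + 2 * e + 1) D - 𝓕.H (n + 2 * e) D := by
    unfold B; rw [eN1]
  have hB2 : 𝓕.B (n + 2 * e + 1) Dc = 𝓕.H (n + 2 * e + 1) Dc - 𝓕.H (n + 2 * e) Dc := by
    unfold B; rw [eN1]
  have hB3 : 𝓕.B n D = 𝓕.H n D - 𝓕.H (n - 1) D := rfl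
  have hB4 : 𝓕.B n Dc = 𝓕.H n Dc - 𝓕.H (n - 1) Dc := rfl
  have hC₁' : C₁ ≤ max C₁ 0 := le_max_left _ _
  rw [abs_le] at hBD hBDc h1 hML1 hML2 ⊢
  unfold val r at *
  rw [hn1]
  push_cast at hML1 hML2 ⊢
  constructor <;> nlinarith [hBD.1, hBD.2, hBDc.1, hBDc.2, h1.1, h1.2, hML1.1, hML1.2, hML2.1, hML2.2]

/-- Level independence of the value of a GOOD datum. -/
theorem val_level_indep (M : ℕ) : ∃ C : ℝ, 0 ≤ C ∧ ∀ (n₁ n₂ e : ℕ) (c : A) (D : 𝔇) (s : Sec)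
    (Dc : 𝔇), 𝓕.IsDatum e c D s Dc → 𝓕.Good (D + Dc) → e + 𝓕.c₀ ≤ n₁ → n₁ ≤ n₂ →
    n₂ + 2 * e + 1 ≤ M → |𝓕.val n₂ e D s Dc - 𝓕.val n₁ e D s Dc| ≤ C := by
  obtain ⟨C, hC0, hC⟩ := 𝓕.val_step M
  refine ⟨M * C, by positivity, fun n₁ n₂ e c D s Dc h hg hn₁ hn hM => ?_⟩
  have key : ∀ j : ℕ, n₁ + j + 2 * e + 1 ≤ M →
      |𝓕.val (n₁ + j) e D s Dc - 𝓕.val n₁ e D s Dc| ≤ j * C := by
    intro j
    induction j with
    | zero => intro _; simp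
    | succ j ih =>
      intro hj
      have h1 := ih (by omega)
      have h2 := hC (n₁ + (j + 1)) e c D s Dc h hg (by omega) hj
      have e1 : n₁ + (j + 1) - 1 = n₁ + j := by omega
      rw [e1] at h2
      have := abs_sub_le (𝓕.val (n₁ + (j + 1)) e D s Dc) (𝓕.val (n₁ + j) e D s Dc)
        (𝓕.val n₁ e D s Dc)
      push_cast
      linarith
  obtain ⟨j, rfl⟩ := Nat.exists_eq_add_of_le hn
  refine (key j hM).trans ?_
  have : (j : ℝ) ≤ M := by exact_mod_cast (by omega : j ≤ M)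
  exact mul_le_mul_of_nonneg_right this hC0

end Levels


section Padding

theorem deg_add_nsmul_inf (j : ℕ) (D : 𝔇) : 𝓕.deg (D + j • 𝓕.inf) = 𝓕.deg D + j := by
  rw [map_add, map_nsmul, 𝓕.deg_inf, smul_eq_mul, mul_one]

/-- (E1) iterated. -/
theorem H_add_nsmul_inf (j : ℕ) : ∀ (n : ℕ) (D : 𝔇), 𝓕.deg D + j + 𝓕.c₀ ≤ n →
    𝓕.H n (D + j • 𝓕.inf) = 𝓕.H (n - j) D := by
  induction j with
  | zero => intro n D _; simp
  | succ j ih =>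
    intro n D h
    rw [succ_nsmul, ← add_assoc, 𝓕.H_add_inf n _ (by rw [𝓕.deg_add_nsmul_inf]; omega),
      ih (n - 1) D (by omega)]
    congr 1
    omega

variable {𝓕}

/-- Padding a datum of degree `e` by `j∞` to a datum of degree `e + j`. -/
theorem IsDatum.pad {e : ℕ} {c : A} {D : 𝔇} {s : Sec} {Dc : 𝔇} (h : 𝓕.IsDatum e c D s Dc)
    (j : ℕ) : ∃ s' : Sec, 𝓕.IsDatum (e + j) c (D + j • 𝓕.inf) s' (Dc + j • 𝓕.inf) ∧
      𝓕.hs s' = 𝓕.hs s := by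
  have hcl : 𝓕.cl (𝓕.div0 s + (2 * j) • 𝓕.inf) = 0 := by
    rw [map_add, 𝓕.cl_div0, map_nsmul, 𝓕.cl_inf, smul_zero, add_zero]
  obtain ⟨s', hlev, hdiv⟩ := 𝓕.princ _ hcl
  refine ⟨s', ⟨?_, ?_, ?_, ?_⟩, 𝓕.hs_eq_of_div0 s s' (2 * j) hdiv⟩
  · rw [𝓕.deg_add_nsmul_inf, h.deg_D]
  · rw [map_add, h.cl_D, map_nsmul, 𝓕.cl_inf, smul_zero, add_zero]
  · rw [hlev, 𝓕.deg_add_nsmul_inf, 𝓕.deg_div0, h.lev_s]; ring
  · rw [hdiv, h.div, two_mul, add_nsmul]; ac_rfl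

variable (𝓕)

theorem val_pad {e : ℕ} {c : A} {D : 𝔇} {s s' : Sec} {Dc : 𝔇} (h : 𝓕.IsDatum e c D s Dc)
    (j n : ℕ) (hs' : 𝓕.hs s' = 𝓕.hs s) (hn : e + j + 𝓕.c₀ ≤ n) :
    𝓕.val n (e + j) (D + j • 𝓕.inf) s' (Dc + j • 𝓕.inf) = 𝓕.val (n - j) e D s Dc := by
  unfold val r
  rw [𝓕.H_add_nsmul_inf j n D (by rw [h.deg_D]; omega),
    𝓕.H_add_nsmul_inf j n Dc (by rw [h.deg_Dc]; omega), hs',
    Nat.cast_sub (by omega : j ≤ n)]
  push_cast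
  ring

end Padding

section Parallelogram

/-- The parallelogram identity at ONE level for a good quadruple. -/
theorem pg_level (M : ℕ) : ∃ C : ℝ, 0 ≤ C ∧ ∀ (N d : ℕ) (a b : A) (X₁ X₂ Y₁ Y₂ : 𝔇)
    (sa sb sab : Sec), 𝓕.IsDatum d a X₁ sa X₂ → 𝓕.IsDatum d b Y₁ sb Y₂ →
    𝓕.Good (X₁ + X₂ + (Y₁ + Y₂)) → 𝓕.div0 sab = X₁ + X₂ + (Y₁ + Y₂) → 𝓕.lev sab = 4 * d →
    N ≤ M → 4 * d + 𝓕.c₀ ≤ N →
    |𝓕.val N (2 * d) (X₁ + Y₁) sab (X₂ + Y₂) + 𝓕.val N (2 * d) (X₁ + Y₂) sab (X₂ + Y₁)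
      - 2 * (𝓕.val N d X₁ sa X₂ + 𝓕.val N d Y₁ sb Y₂)| ≤ C := by
  obtain ⟨CS, hCS⟩ := 𝓕.star M
  obtain ⟨CM, hCM0, hCM⟩ := 𝓕.ML' M
  obtain ⟨Cm, hCm⟩ := 𝓕.hs_mul M
  refine ⟨3 * max CS 0 + 6 * CM + (M + |𝓕.γ|) * max Cm 0, by positivity,
    fun N d a b X₁ X₂ Y₁ Y₂ sa sb sab ha hb hg hdiv hlev hNM hN => ?_⟩
  have hCS' : CS ≤ max CS 0 := le_max_left _ _
  -- the three cube identities
  have hT1 := hCS N X₁ X₂ (Y₁ + Y₂) hNM hg (by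
    rw [map_add, ha.deg_D, ha.deg_Dc, hb.deg_D, hb.deg_Dc]; omega)
  have hg2 : 𝓕.Good (X₁ + Y₁ + Y₂) := by
    refine 𝓕.good_of_add _ X₂ ?_
    have : X₁ + Y₁ + Y₂ + X₂ = X₁ + X₂ + (Y₁ + Y₂) := by ac_rfl
    rwa [this]
  have hg3 : 𝓕.Good (X₂ + Y₁ + Y₂) := by
    refine 𝓕.good_of_add _ X₁ ?_
    have : X₂ + Y₁ + Y₂ + X₁ = X₁ + X₂ + (Y₁ + Y₂) := by ac_rfl
    rwa [this]
  have hT2 := hCS N X₁ Y₁ Y₂ hNM hg2 (by rw [ha.deg_D, hb.deg_D, hb.deg_Dc]; omega)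
  have hT3 := hCS N X₂ Y₁ Y₂ hNM hg3 (by rw [ha.deg_Dc, hb.deg_D, hb.deg_Dc]; omega)
  -- (ML) with D = 0
  have hMa := hCM (N - 2 * d) (2 * d) 0 (0 : 𝔇) sa (by omega) ha.lev_s (map_zero _) (by omega)
  have hMb := hCM (N - 2 * d) (2 * d) 0 (0 : 𝔇) sb (by omega) hb.lev_s (map_zero _) (by omega)
  have hMab := hCM (N - 4 * d) (4 * d) 0 (0 : 𝔇) sab (by omega) hlev (map_zero _) (by omega)
  rw [zero_add, 𝓕.H_zero, Nat.sub_add_cancel (by omega), ha.div] at hMa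
  rw [zero_add, 𝓕.H_zero, Nat.sub_add_cancel (by omega), hb.div] at hMb
  rw [zero_add, 𝓕.H_zero, Nat.sub_add_cancel (by omega), hdiv] at hMab
  -- multiplicativity of the section height
  have hmul := hCm sa sb sab (by omega) (by rw [hdiv, ha.div, hb.div])
  have hmul' : |((N : ℝ) - 𝓕.γ) * (𝓕.hs sab - 𝓕.hs sa - 𝓕.hs sb)| ≤ (M + |𝓕.γ|) * max Cm 0 := by
    rw [abs_mul]
    refine mul_le_mul ?_ (hmul.trans (le_max_left _ _)) (abs_nonneg _) (by positivity)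
    have h1 : |(N : ℝ) - 𝓕.γ| ≤ |(N : ℝ)| + |𝓕.γ| := abs_sub _ _
    have h2 : |(N : ℝ)| = N := abs_of_nonneg (Nat.cast_nonneg _)
    have h3 : (N : ℝ) ≤ M := by exact_mod_cast hNM
    linarith
  have e1 : X₁ + (Y₁ + Y₂) = X₁ + Y₁ + Y₂ := (add_assoc _ _ _).symm
  have e2 : X₂ + (Y₁ + Y₂) = X₂ + Y₁ + Y₂ := (add_assoc _ _ _).symm
  rw [e1, e2] at hT1
  have c1 : ((N - 2 * d : ℕ) : ℝ) = (N : ℝ) - 2 * d := by
    rw [Nat.cast_sub (by omega)]; push_cast; ring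
  have c2 : ((N - 4 * d : ℕ) : ℝ) = (N : ℝ) - 4 * d := by
    rw [Nat.cast_sub (by omega)]; push_cast; ring
  rw [abs_le] at hT1 hT2 hT3 hMa hMb hMab hmul' ⊢
  unfold val r at *
  rw [c1] at hMa hMb
  rw [c2] at hMab
  push_cast at hMa hMb hMab ⊢
  constructor <;> nlinarith [hT1.1, hT1.2, hT2.1, hT2.2, hT3.1, hT3.2, hMa.1, hMa.2, hMb.1, hMb.2,
    hMab.1, hMab.2, hmul'.1, hmul'.2]

end Parallelogram


section Main

open Classical in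
/-- The canonical height `ĥ` of degree `d` at its natural level `2d` (value at a chosen datum). -/
noncomputable def hhat (d : ℕ) (c : A) : ℝ :=
  if h : ∃ (D : 𝔇) (s : Sec) (Dc : 𝔇), 𝓕.IsDatum d c D s Dc then
    𝓕.val (2 * d) d h.choose h.choose_spec.choose h.choose_spec.choose_spec.choose
  else 0

theorem hhat_spec {d : ℕ} (hd : 𝓕.d₀ ≤ d) (c : A) :
    ∃ (D : 𝔇) (s : Sec) (Dc : 𝔇), 𝓕.IsDatum d c D s Dc ∧
      𝓕.hhat d c = 𝓕.val (2 * d) d D s Dc := by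
  have h := 𝓕.exists_datum c hd
  refine ⟨h.choose, h.choose_spec.choose, h.choose_spec.choose_spec.choose,
    h.choose_spec.choose_spec.choose_spec, ?_⟩
  unfold hhat
  rw [dif_pos h]

/-- **Main theorem of the formal core.**  A height frame yields a real function on `A` which is
bounded below, has finite sublevel sets and satisfies the approximate parallelogram law. -/
theorem exists_height (𝓕 : HeightFrame A 𝔇 Sec) : ∃ (F : A → ℝ) (C C₀ : ℝ), (∀ B : ℝ, {c : A | F c ≤ B}.Finite) ∧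
    (∀ c, -C₀ ≤ F c) ∧ ∀ a b, |F (a + b) + F (a - b) - 2 * (F a + F b)| ≤ C := by
  set d : ℕ := 𝓕.c₀ + 𝓕.d₀ + 2 with hd
  have hd0 : 𝓕.d₀ ≤ d := by omega
  have hdc : 𝓕.c₀ ≤ d := by omega
  set N : ℕ := 4 * d + 𝓕.c₀ with hN
  set M : ℕ := 10 * d + 𝓕.c₀ + 1 with hM
  obtain ⟨CI, hCI0, hCI⟩ := 𝓕.val_indep M
  obtain ⟨CS, hCS⟩ := 𝓕.exists_small_datum M
  obtain ⟨CL, hCL0, hCL⟩ := 𝓕.val_level_indep M
  obtain ⟨CP, hCP0, hCP⟩ := 𝓕.pg_level M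
  -- lower bound by the Plücker height of a small representative
  have hsmall : ∀ c : A, ∃ D₁ : 𝔇, 𝓕.deg D₁ = d ∧ 𝓕.cl D₁ = c ∧
      𝓕.H (2 * d) D₁ - CS - CI ≤ 𝓕.hhat d c := by
    intro c
    obtain ⟨D, s, Dc, hdat, hval⟩ := 𝓕.hhat_spec hd0 c
    obtain ⟨D₁, u, Dc₀, hdat₁, hle⟩ := hCS d c (by omega) hdc hd0
    have := hCI (2 * d) d c D s Dc D₁ u Dc₀ (by omega) (by omega) hdat hdat₁
    rw [abs_le] at this
    exact ⟨D₁, hdat₁.deg_D, hdat₁.cl_D, by rw [hval]; linarith [this.1, this.2]⟩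
  refine ⟨𝓕.hhat d, 6 * (CI + CL) + CP, CS + CI, ?_, ?_, ?_⟩
  · -- Northcott
    intro B
    have hfin := 𝓕.northcott (2 * d) d (B + CS + CI) (by omega)
    refine (hfin.image 𝓕.cl).subset ?_
    intro c hc
    obtain ⟨D₁, hdeg, hcl, hle⟩ := hsmall c
    have hc' : 𝓕.hhat d c ≤ B := hc
    exact ⟨D₁, ⟨hdeg, by linarith⟩, hcl⟩
  · intro c
    obtain ⟨D₁, -, -, hle⟩ := hsmall c
    linarith [𝓕.H_nonneg (2 * d) D₁]
  · intro a b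
    -- good data for `a` and `b`
    obtain ⟨X₁, sa, X₂, hda, hga⟩ := 𝓕.exists_good_datum a hd0 𝓕.good_zero
    rw [add_zero] at hga
    obtain ⟨Y₁, sb, Y₂, hdb, hgb⟩ := 𝓕.exists_good_datum b hd0 hga
    have hg : 𝓕.Good (X₁ + X₂ + (Y₁ + Y₂)) := by rwa [add_comm] at hgb
    have hgY : 𝓕.Good (Y₁ + Y₂) := 𝓕.good_of_add _ _ hgb
    -- the product section
    have hclE : 𝓕.cl (X₁ + X₂ + (Y₁ + Y₂)) = 0 := by
      rw [map_add, map_add, map_add, hda.cl_D, hda.cl_Dc, hdb.cl_D, hdb.cl_Dc]; abel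
    obtain ⟨sab, hlev, hdiv⟩ := 𝓕.princ _ hclE
    have hlev' : 𝓕.lev sab = 4 * d := by
      rw [hlev, map_add, map_add, map_add, hda.deg_D, hda.deg_Dc, hdb.deg_D, hdb.deg_Dc]; ring
    have hdp : 𝓕.IsDatum (2 * d) (a + b) (X₁ + Y₁) sab (X₂ + Y₂) :=
      ⟨by rw [map_add, hda.deg_D, hdb.deg_D]; ring, by rw [map_add, hda.cl_D, hdb.cl_D],
        by rw [hlev']; ring, by rw [hdiv]; ac_rfl⟩
    have hdm : 𝓕.IsDatum (2 * d) (a - b) (X₁ + Y₂) sab (X₂ + Y₁) :=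
      ⟨by rw [map_add, hda.deg_D, hdb.deg_Dc]; ring,
        by rw [map_add, hda.cl_D, hdb.cl_Dc, sub_eq_add_neg],
        by rw [hlev']; ring, by rw [hdiv]; ac_rfl⟩
    have hgp : 𝓕.Good (X₁ + Y₁ + (X₂ + Y₂)) := by
      have : X₁ + Y₁ + (X₂ + Y₂) = X₁ + X₂ + (Y₁ + Y₂) := by ac_rfl
      rwa [this]
    have hgm : 𝓕.Good (X₁ + Y₂ + (X₂ + Y₁)) := by
      have : X₁ + Y₂ + (X₂ + Y₁) = X₁ + X₂ + (Y₁ + Y₂) := by ac_rfl
      rwa [this]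
    -- degree `d` classes: chosen datum ≈ good datum at level `2d` ≈ good datum at level `N`
    have hdeg1 : ∀ (c : A) (D : 𝔇) (s : Sec) (Dc : 𝔇), 𝓕.IsDatum d c D s Dc → 𝓕.Good (D + Dc) →
        |𝓕.hhat d c - 𝓕.val N d D s Dc| ≤ CI + CL := by
      intro c D s Dc hdat hgood
      obtain ⟨D', s', Dc', hdat', hval⟩ := 𝓕.hhat_spec hd0 c
      have h1 := hCI (2 * d) d c D' s' Dc' D s Dc (by omega) (by omega) hdat' hdat
      have h2 := hCL (2 * d) N d c D s Dc hdat hgood (by omega) (by omega) (by omega)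
      rw [hval]
      rw [abs_le] at h1 h2 ⊢
      constructor <;> linarith [h1.1, h1.2, h2.1, h2.2]
    -- degree `2d` data: chosen datum, padded, ≈ good datum at level `3d` ≈ at level `N`
    have hdeg2 : ∀ (c : A) (D : 𝔇) (s : Sec) (Dc : 𝔇), 𝓕.IsDatum (2 * d) c D s Dc →
        𝓕.Good (D + Dc) → |𝓕.hhat d c - 𝓕.val N (2 * d) D s Dc| ≤ CI + CL := by
      intro c D s Dc hdat hgood
      obtain ⟨D', s', Dc', hdat', hval⟩ := 𝓕.hhat_spec hd0 c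
      obtain ⟨s'', hpad, hs''⟩ := hdat'.pad d
      have hpadval := 𝓕.val_pad hdat' d (3 * d) hs'' (by omega)
      have e3 : 3 * d - d = 2 * d := by omega
      have e4 : d + d = 2 * d := by ring
      rw [e3, e4] at hpadval
      rw [e4] at hpad
      have h1 := hCI (3 * d) (2 * d) c _ s'' _ D s Dc (by omega) (by omega) hpad hdat
      have h2 := hCL (3 * d) N (2 * d) c D s Dc hdat hgood (by omega) (by omega) (by omega)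
      rw [hval, ← hpadval]
      rw [abs_le] at h1 h2 ⊢
      constructor <;> linarith [h1.1, h1.2, h2.1, h2.2]
    have ha' := hdeg1 a X₁ sa X₂ hda hga
    have hb' := hdeg1 b Y₁ sb Y₂ hdb hgY
    have hp' := hdeg2 (a + b) _ sab _ hdp hgp
    have hm' := hdeg2 (a - b) _ sab _ hdm hgm
    have hpg := hCP N d a b X₁ X₂ Y₁ Y₂ sa sb sab hda hdb hg hdiv hlev' (by omega) (by omega)
    rw [abs_le] at ha' hb' hp' hm' hpg ⊢
    constructor <;> linarith [ha'.1, ha'.2, hb'.1, hb'.2, hp'.1, hp'.2, hm'.1, hm'.2, hpg.1, hpg.2]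

end Main

end HeightFrame

end Fermat.Agent.GR.H.Canon
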