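/-
GATE-R / S17, node GR-H-QUAD (helper10): the abstract bridge from "bounded cube sum" /
"approximate parallelogram law" to the two crude height inequalities consumed by
`GR/Top/S17Top.CrudeHeight` (general multiplier `n ≥ 2`, so the odd descent prime of the weak
Mordell–Weil node can be used; Mathlib's `AddCommGroup.fg_of_descent'` is `n = 2` only).

* `cubeSum f x y z`, `symm f`, `pgram F x y` : cube sum, symmetrisation `f + f ∘ neg`, parallelogram defect;
* `abs_translate_le_of_cubeSum` : bounded cube sum ⟹ `f (x+g) + f (x-g) = 2 f x + f g + f (-g) - f 0 + O(1)`;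
* `abs_pgram_symm_le_of_cubeSum` : bounded cube sum ⟹ `symm f` satisfies the approximate parallelogram law;
* `exists_abs_nsmul_sub_le` : parallelogram law ⟹ `∀ n, ∃ Cₙ, ∀ x, |F (n • x) - n² F x| ≤ Cₙ`;
* `le_two_mul_add_of_pgram` : parallelogram law + bounded below ⟹ `F x ≤ 2 F (g + x) + c g`;
* `up_low_of_pgram`, `exists_crudeHeight_of_pgram`, `exists_crudeHeight_of_cubeSum` : the `CrudeHeight` binders;
* `fg_of_pgram`, `fg_of_cubeSum` : finite generation directly (Mathlib `AddCommGroup.fg_of_descent`);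
* `up_of_translate`, `up_low_of_translate_of_nsmul` : the same from the non-uniform translation law.

Mathlib only.
-/
import Mathlib

namespace Fermat.Agent.GR.H.Quad

variable {G : Type*} [AddCommGroup G]

/-- The cube sum of `f` at `(x, y, z)` (without the constant term `f 0`). -/
def cubeSum (f : G → ℝ) (x y z : G) : ℝ :=
  f (x + y + z) - f (x + y) - f (x + z) - f (y + z) + f x + f y + f z

/-- The symmetrisation `f + f ∘ neg`. -/
def symm (f : G → ℝ) (x : G) : ℝ := f x + f (-x)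

/-- The parallelogram defect `F (x+y) + F (x-y) - 2 (F x + F y)`. -/
def pgram (F : G → ℝ) (x y : G) : ℝ := F (x + y) + F (x - y) - 2 * (F x + F y)

theorem symm_neg (f : G → ℝ) (x : G) : symm f (-x) = symm f x := by
  simp only [symm, neg_neg]; ring

/-- Bounded cube sum ⟹ the translation law
`f (x+g) + f (x-g) = 2 f x + f g + f (-g) - f 0 + O(1)`, uniformly in `x` and `g`. -/
theorem abs_translate_le_of_cubeSum {f : G → ℝ} {C : ℝ}
    (hc : ∀ x y z, |cubeSum f x y z| ≤ C) (x g : G) :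
    |f (x + g) + f (x - g) - 2 * f x - f g - f (-g) + f 0| ≤ C := by
  have h := hc x g (-g)
  have e1 : x + g + -g = x := by abel
  have e2 : x + -g = x - g := by abel
  have e3 : g + -g = 0 := by abel
  simp only [cubeSum, e1, e2, e3] at h
  rw [abs_le] at h ⊢
  constructor <;> linarith [h.1, h.2]

/-- Bounded cube sum ⟹ doubling law `f (2x) = 3 f x + f (-x) - 2 f 0 + O(1)`. -/
theorem abs_double_le_of_cubeSum {f : G → ℝ} {C : ℝ}
    (hc : ∀ x y z, |cubeSum f x y z| ≤ C) (x : G) :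
    |f (x + x) - 3 * f x - f (-x) + 2 * f 0| ≤ C := by
  have h := hc x x (-x)
  have e1 : x + x + -x = x := by abel
  have e3 : x + -x = 0 := by abel
  simp only [cubeSum, e1, e3] at h
  rw [abs_le] at h ⊢
  constructor <;> linarith [h.1, h.2]

/-- Bounded cube sum ⟹ the symmetrisation satisfies the approximate parallelogram law. -/
theorem abs_pgram_symm_le_of_cubeSum {f : G → ℝ} {C : ℝ}
    (hc : ∀ x y z, |cubeSum f x y z| ≤ C) (x y : G) :
    |pgram (symm f) x y| ≤ 2 * C + 2 * |f 0| := by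
  have h1 := abs_translate_le_of_cubeSum hc x y
  have h2 := abs_translate_le_of_cubeSum hc (-x) y
  have e1 : -(x + y) = -x - y := by abel
  have e2 : -(x - y) = -x + y := by abel
  have h0 := abs_nonneg (f 0)
  have h0' := le_abs_self (f 0)
  have h0'' := neg_abs_le (f 0)
  simp only [pgram, symm, e1, e2]
  rw [abs_le] at h1 h2 ⊢
  constructor <;> linarith [h1.1, h1.2, h2.1, h2.2]

section Pgram

variable {F : G → ℝ} {C : ℝ}

/-- The parallelogram law bounds `F 0`. -/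
theorem abs_zero_le_of_pgram (hp : ∀ x y, |pgram F x y| ≤ C) : |F 0| ≤ C / 2 := by
  have h := hp 0 0
  simp only [pgram, add_zero, sub_zero] at h
  rw [abs_le] at h ⊢
  constructor <;> linarith [h.1, h.2]

theorem nonneg_of_pgram (hp : ∀ x y, |pgram F x y| ≤ C) : 0 ≤ C :=
  le_trans (abs_nonneg _) (hp 0 0)

/-- Parallelogram law ⟹ quadratic behaviour under multiplication by `n`, two consecutive
multipliers at a time. -/
theorem exists_abs_nsmul_sub_le_pair (hp : ∀ x y, |pgram F x y| ≤ C) (n : ℕ) :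
    ∃ C₁ C₂ : ℝ, (∀ x, |F (n • x) - (n : ℝ) ^ 2 * F x| ≤ C₁) ∧
      ∀ x, |F ((n + 1) • x) - ((n : ℝ) + 1) ^ 2 * F x| ≤ C₂ := by
  induction n with
  | zero =>
    refine ⟨C / 2, 0, fun x => ?_, fun x => ?_⟩
    · simpa using abs_zero_le_of_pgram hp
    · simp
  | succ n ih =>
    obtain ⟨C₁, C₂, h1, h2⟩ := ih
    refine ⟨C₂, 2 * C₂ + C₁ + C, fun x => ?_, fun x => ?_⟩
    · have := h2 x
      push_cast
      exact this
    · have ha := h1 x
      have hb := h2 x
      have hc := hp ((n + 1) • x) x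
      have e1 : (n + 1) • x + x = (n + 1 + 1) • x := by
        rw [add_smul (n + 1) 1 x, one_smul]
      have e2 : (n + 1) • x - x = n • x := by
        rw [add_smul n 1 x, one_smul]; abel
      simp only [pgram, e1, e2] at hc
      push_cast
      rw [abs_le] at ha hb hc ⊢
      constructor <;> nlinarith [ha.1, ha.2, hb.1, hb.2, hc.1, hc.2]

/-- **Parallelogram law ⟹ `F (n • x) = n² F x + O_n(1)`.** -/
theorem exists_abs_nsmul_sub_le (hp : ∀ x y, |pgram F x y| ≤ C) (n : ℕ) :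
    ∃ Cn : ℝ, ∀ x, |F (n • x) - (n : ℝ) ^ 2 * F x| ≤ Cn := by
  obtain ⟨C₁, _, h1, _⟩ := exists_abs_nsmul_sub_le_pair hp n
  exact ⟨C₁, h1⟩

/-- Lower bound form: `n² F x - Cₙ ≤ F (n • x)`. -/
theorem exists_low_of_pgram (hp : ∀ x y, |pgram F x y| ≤ C) (n : ℕ) :
    ∃ c₀ : ℝ, ∀ x, (n : ℝ) ^ 2 * F x - c₀ ≤ F (n • x) := by
  obtain ⟨Cn, h⟩ := exists_abs_nsmul_sub_le hp n
  refine ⟨Cn, fun x => ?_⟩
  have := (abs_le.1 (h x)).1
  linarith

/-- Upper bound form: `F (n • x) ≤ n² F x + Cₙ`. -/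
theorem exists_high_of_pgram (hp : ∀ x y, |pgram F x y| ≤ C) (n : ℕ) :
    ∃ c₀ : ℝ, ∀ x, F (n • x) ≤ (n : ℝ) ^ 2 * F x + c₀ := by
  obtain ⟨Cn, h⟩ := exists_abs_nsmul_sub_le hp n
  refine ⟨Cn, fun x => ?_⟩
  have := (abs_le.1 (h x)).2
  linarith

/-- **Parallelogram law + bounded below ⟹ translation bound with factor `2`.** -/
theorem le_two_mul_add_of_pgram {C₀ : ℝ} (hlow : ∀ x, -C₀ ≤ F x)
    (hp : ∀ x y, |pgram F x y| ≤ C) (g x : G) :
    F x ≤ 2 * F (g + x) + (2 * F g + C + C₀) := by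
  have h := hp (g + x) g
  have e1 : g + x - g = x := by abel
  simp only [pgram, e1] at h
  have h2 := hlow (g + x + g)
  have := (abs_le.1 h).2
  linarith

/-- The two crude height inequalities (`UP` with `a = 2`, `LOW` with `b = n²`) in the exact
binder shape of `GR/Top/S17Top.CrudeHeight`. -/
theorem up_low_of_pgram {C₀ : ℝ} (hlow : ∀ x, -C₀ ≤ F x) (hp : ∀ x y, |pgram F x y| ≤ C)
    {n : ℕ} (hn : 2 ≤ n) :
    (∃ a : ℝ, 0 ≤ a ∧ ∃ c : G → ℝ, ∀ g x, F x ≤ a * F (g + x) + c g) ∧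
      ∃ b : ℝ, 1 < b ∧ ∃ c₀ : ℝ, ∀ x, b * F x - c₀ ≤ F (n • x) := by
  refine ⟨⟨2, by norm_num, fun g => 2 * F g + C + C₀, fun g x =>
    le_two_mul_add_of_pgram hlow hp g x⟩, (n : ℝ) ^ 2, ?_, exists_low_of_pgram hp n⟩
  have h2 : (2 : ℝ) ≤ n := by exact_mod_cast hn
  nlinarith

/-- The full `∃ h, Northcott h ∧ UP ∧ LOW` package from a Northcott function with the
parallelogram law. -/
theorem exists_crudeHeight_of_pgram {C₀ : ℝ} (hlow : ∀ x, -C₀ ≤ F x)
    (hp : ∀ x y, |pgram F x y| ≤ C) [Northcott F] {n : ℕ} (hn : 2 ≤ n) :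
    ∃ h : G → ℝ, Northcott h ∧
      (∃ a : ℝ, 0 ≤ a ∧ ∃ c : G → ℝ, ∀ g x, h x ≤ a * h (g + x) + c g) ∧
      ∃ b : ℝ, 1 < b ∧ ∃ c₀ : ℝ, ∀ x, b * h x - c₀ ≤ h (n • x) :=
  ⟨F, inferInstance, up_low_of_pgram hlow hp hn⟩

/-- **Descent from the parallelogram law, general multiplier `n ≥ 2`.** -/
theorem fg_of_pgram {C₀ : ℝ} (hlow : ∀ x, -C₀ ≤ F x) (hp : ∀ x y, |pgram F x y| ≤ C)
    [Northcott F] {n : ℕ} (hn : 2 ≤ n)
    (H₁ : (nsmulAddMonoidHom (α := G) n).range.FiniteIndex) : AddGroup.FG G := by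
  obtain ⟨c₀, hc₀⟩ := exists_low_of_pgram hp n
  have h2 : (2 : ℝ) ≤ n := by exact_mod_cast hn
  exact AddCommGroup.fg_of_descent (n := n) (h := F) (a := 2) (b := (n : ℝ) ^ 2) (c₀ := c₀)
    (c := fun g => 2 * F g + C + C₀) (by norm_num) (by nlinarith) H₁
    (fun g x => le_two_mul_add_of_pgram hlow hp g x) hc₀

end Pgram

section CubeSum

variable {f : G → ℝ} {C C₀ : ℝ}

theorem symm_lower (hlow : ∀ x, -C₀ ≤ f x) (x : G) : -(2 * C₀) ≤ symm f x := by
  have h1 := hlow x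
  have h2 := hlow (-x)
  simp only [symm]; linarith

/-- Northcott passes to the symmetrisation of a function bounded below. -/
theorem northcott_symm (hlow : ∀ x, -C₀ ≤ f x) [Northcott f] : Northcott (symm f) := by
  refine ⟨fun B => (Northcott.finite_le (h := f) (B + C₀)).subset fun x hx => ?_⟩
  have h2 := hlow (-x)
  have hx' : f x + f (-x) ≤ B := hx
  change f x ≤ B + C₀
  linarith

/-- The `CrudeHeight` package for `symm f` from a Northcott `f`, bounded below, with bounded cube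
sum. -/
theorem exists_crudeHeight_of_cubeSum (hlow : ∀ x, -C₀ ≤ f x)
    (hc : ∀ x y z, |cubeSum f x y z| ≤ C) [Northcott f] {n : ℕ} (hn : 2 ≤ n) :
    ∃ h : G → ℝ, Northcott h ∧
      (∃ a : ℝ, 0 ≤ a ∧ ∃ c : G → ℝ, ∀ g x, h x ≤ a * h (g + x) + c g) ∧
      ∃ b : ℝ, 1 < b ∧ ∃ c₀ : ℝ, ∀ x, b * h x - c₀ ≤ h (n • x) := by
  have := northcott_symm (f := f) hlow
  exact exists_crudeHeight_of_pgram (F := symm f) (symm_lower hlow)
    (abs_pgram_symm_le_of_cubeSum hc) hn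

/-- **Descent from a bounded cube sum, general multiplier `n ≥ 2`.** -/
theorem fg_of_cubeSum (hlow : ∀ x, -C₀ ≤ f x) (hc : ∀ x y z, |cubeSum f x y z| ≤ C)
    [Northcott f] {n : ℕ} (hn : 2 ≤ n)
    (H₁ : (nsmulAddMonoidHom (α := G) n).range.FiniteIndex) : AddGroup.FG G := by
  have := northcott_symm (f := f) hlow
  exact fg_of_pgram (F := symm f) (symm_lower hlow) (abs_pgram_symm_le_of_cubeSum hc) hn H₁

end CubeSum

section Translate

variable {h : G → ℝ} {C₀ : ℝ}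

/-- The translation bound from the NON-uniform translation law
`h (x + g) + h (x - g) ≤ 2 h x + C_g`. -/
theorem up_of_translate (hlow : ∀ x, -C₀ ≤ h x)
    (ht : ∀ g, ∃ Cg : ℝ, ∀ x, h (x + g) + h (x - g) ≤ 2 * h x + Cg) :
    ∃ c : G → ℝ, ∀ g x, h x ≤ 2 * h (g + x) + c g := by
  choose Cg hCg using ht
  refine ⟨fun g => Cg g + C₀, fun g x => ?_⟩
  have h1 := hCg g (g + x)
  have e1 : g + x - g = x := by abel
  rw [e1] at h1
  have h2 := hlow (g + x + g)
  linarith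

/-- The `CrudeHeight` binders from the non-uniform translation law and ONE multiplier `n` with
`|h (n • x) - n² h x| ≤ Cₙ` (shape of helper23's closure). -/
theorem up_low_of_translate_of_nsmul (hlow : ∀ x, -C₀ ≤ h x)
    (ht : ∀ g, ∃ Cg : ℝ, ∀ x, h (x + g) + h (x - g) ≤ 2 * h x + Cg)
    {n : ℕ} (hn : 2 ≤ n) {Cn : ℝ} (hmul : ∀ x, |h (n • x) - (n : ℝ) ^ 2 * h x| ≤ Cn) :
    (∃ a : ℝ, 0 ≤ a ∧ ∃ c : G → ℝ, ∀ g x, h x ≤ a * h (g + x) + c g) ∧
      ∃ b : ℝ, 1 < b ∧ ∃ c₀ : ℝ, ∀ x, b * h x - c₀ ≤ h (n • x) := by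
  obtain ⟨c, hc⟩ := up_of_translate hlow ht
  refine ⟨⟨2, by norm_num, c, hc⟩, (n : ℝ) ^ 2, ?_, Cn, fun x => ?_⟩
  · have h2 : (2 : ℝ) ≤ n := by exact_mod_cast hn
    nlinarith
  · have := (abs_le.1 (hmul x)).1
    linarith

/-- Finite generation from the non-uniform translation law and one multiplier. -/
theorem fg_of_translate_of_nsmul (hlow : ∀ x, -C₀ ≤ h x)
    (ht : ∀ g, ∃ Cg : ℝ, ∀ x, h (x + g) + h (x - g) ≤ 2 * h x + Cg)
    {n : ℕ} (hn : 2 ≤ n) {Cn : ℝ} (hmul : ∀ x, |h (n • x) - (n : ℝ) ^ 2 * h x| ≤ Cn)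
    [Northcott h] (H₁ : (nsmulAddMonoidHom (α := G) n).range.FiniteIndex) : AddGroup.FG G := by
  obtain ⟨c, hc⟩ := up_of_translate hlow ht
  have h2 : (2 : ℝ) ≤ n := by exact_mod_cast hn
  refine AddCommGroup.fg_of_descent (n := n) (h := h) (a := 2) (b := (n : ℝ) ^ 2) (c₀ := Cn)
    (c := c) (by norm_num) (by nlinarith) H₁ hc fun x => ?_
  have := (abs_le.1 (hmul x)).1
  linarith

end Translate

end Fermat.Agent.GR.H.Quad
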