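/-
GATE-R / S17, node GR-H-QUAD (helper10): plug of `GR/H/Quad.lean` into `GR/Top/S17Top.CrudeHeight`
and the frozen S17 conclusion.  The height node `[R-H]` is reduced to ONE real function on
`J₀(N)(ℚ)` which is Northcott, bounded below and has a bounded cube sum (or satisfies the
approximate parallelogram law).
-/
import Fermat.Agent.GR.Top.S17Top
import Fermat.Agent.GR.H.Quad

set_option autoImplicit false
open ModularCurve AlgebraicCurve

namespace Fermat.Agent.GR.H.QuadPlug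

open Fermat.Agent.GR.Top.S17Top Fermat.Agent.GR.H.Quad

/-- `[R-H]` from a Northcott function with the approximate parallelogram law. -/
theorem crudeHeight_of_pgram (N : ℕ) {n : ℕ} (hn : 2 ≤ n) (F : ↥(MW N) → ℝ) [Northcott F]
    {C C₀ : ℝ} (hlow : ∀ x, -C₀ ≤ F x) (hp : ∀ x y, |pgram F x y| ≤ C) : CrudeHeight N n :=
  exists_crudeHeight_of_pgram hlow hp hn

/-- `[R-H]` from a Northcott function, bounded below, with bounded cube sum. -/
theorem crudeHeight_of_cubeSum (N : ℕ) {n : ℕ} (hn : 2 ≤ n) (f : ↥(MW N) → ℝ) [Northcott f]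
    {C C₀ : ℝ} (hlow : ∀ x, -C₀ ≤ f x) (hc : ∀ x y z, |cubeSum f x y z| ≤ C) :
    CrudeHeight N n :=
  exists_crudeHeight_of_cubeSum hlow hc hn

/-- `[R-H]` from the non-uniform translation law and one multiplier. -/
theorem crudeHeight_of_translate_of_nsmul (N : ℕ) {n : ℕ} (hn : 2 ≤ n) (h : ↥(MW N) → ℝ)
    [Northcott h] {C₀ Cn : ℝ} (hlow : ∀ x, -C₀ ≤ h x)
    (ht : ∀ g, ∃ Cg : ℝ, ∀ x, h (x + g) + h (x - g) ≤ 2 * h x + Cg)
    (hmul : ∀ x, |h (n • x) - (n : ℝ) ^ 2 * h x| ≤ Cn) : CrudeHeight N n :=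
  ⟨h, inferInstance, up_low_of_translate_of_nsmul hlow ht hn hmul⟩

/-- The frozen S17 conclusion from weak Mordell–Weil at `n ≥ 2` and a Northcott function, bounded
below, with bounded cube sum. -/
theorem s17_of_weakMW_of_cubeSum (N : ℕ) [NeZero N] {n : ℕ} (hn : 2 ≤ n) (hW : WeakMW N n)
    (f : ↥(MW N) → ℝ) [Northcott f] {C C₀ : ℝ} (hlow : ∀ x, -C₀ ≤ f x)
    (hc : ∀ x y z, |cubeSum f x y z| ≤ C) :
    AddGroup.FG ↥(FixedPoints.addSubgroup ((AlgebraicClosure ℚ) ≃ₐ[ℚ] (AlgebraicClosure ℚ))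
      (JZero N)) :=
  s17_of_nodes N n hW (crudeHeight_of_cubeSum N hn f hlow hc)

end Fermat.Agent.GR.H.QuadPlug
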