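/-
GATE-R / S17, node GR-H-CANON (helper20): plug of the formal core `GR/H/Canon.lean` into
`GR/H/QuadPlug.lean` and `GR/Top/S17Top.lean`: a height frame on `J₀(N)(ℚ)` gives `CrudeHeight N n`
for every `n ≥ 2`, hence (with weak Mordell–Weil at `n`) the frozen S17 conclusion.
-/
import Fermat.Agent.GR.H.Canon
import Fermat.Agent.GR.H.QuadPlug

set_option autoImplicit false
open ModularCurve AlgebraicCurve

namespace Fermat.Agent.GR.H.CanonPlug

open Fermat.Agent.GR.Top.S17Top Fermat.Agent.GR.H.Quad Fermat.Agent.GR.H.Canon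

/-- `[R-H]` from a height frame on `J₀(N)(ℚ)`. -/
theorem crudeHeight_of_frame (N : ℕ) {𝔇 Sec : Type*} [AddCommMonoid 𝔇]
    (𝓕 : HeightFrame ↥(MW N) 𝔇 Sec) {n : ℕ} (hn : 2 ≤ n) : CrudeHeight N n := by
  obtain ⟨F, C, C₀, hfin, hlow, hpg⟩ := 𝓕.exists_height
  have : Northcott F := ⟨hfin⟩
  exact QuadPlug.crudeHeight_of_pgram N hn F hlow (fun x y => by simpa [pgram] using hpg x y)

/-- The frozen S17 conclusion from weak Mordell–Weil at `n ≥ 2` and a height frame. -/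
theorem s17_of_weakMW_of_frame (N : ℕ) [NeZero N] {n : ℕ} (hn : 2 ≤ n) (hW : WeakMW N n)
    {𝔇 Sec : Type*} [AddCommMonoid 𝔇] (𝓕 : HeightFrame ↥(MW N) 𝔇 Sec) :
    AddGroup.FG ↥(FixedPoints.addSubgroup ((AlgebraicClosure ℚ) ≃ₐ[ℚ] (AlgebraicClosure ℚ))
      (JZero N)) :=
  s17_of_nodes N n hW (crudeHeight_of_frame N 𝓕 hn)

end Fermat.Agent.GR.H.CanonPlug
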