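/-
GATE-R / S17, node GR-H-ML part 1 (helper17): all maximal minors of a wide matrix
(`minorsAll`, the basis-independent Plücker vector indexed by ALL column selections) and the
"half" Cauchy–Binet formula

  `det (W * Bᵀ) = ∑ J : n → ι, (∏ a, B a (J a)) * minorsAll W J`

(no factorial, no division, any commutative ring), together with the formal rules used by the
multiplication lemma for Plücker heights.

Mathlib only.
-/
import Mathlib

set_option autoImplicit false

namespace Fermat.Agent.GR.H.CauchyBinet

open Matrix Finset

variable {R : Type*} [CommRing R]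
variable {n ι κ : Type*} [Fintype n] [DecidableEq n]

/-- All maximal minors of an `n × ι` matrix, indexed by ALL column selections `J : n → ι`
(non-injective selections give `0`, permuted selections differ by a sign). -/
def minorsAll (W : Matrix n ι R) : (n → ι) → R := fun J => (W.submatrix id J).det

theorem minorsAll_apply (W : Matrix n ι R) (J : n → ι) :
    minorsAll W J = (W.submatrix id J).det := rfl

/-- **Half Cauchy–Binet**: the determinant of `W * Bᵀ` is a linear form in the maximal minors
of `W` whose coefficients are the monomials `∏ a, B a (J a)`. -/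
theorem det_mul_transpose [Fintype ι] (W B : Matrix n ι R) :
    (W * Bᵀ).det = ∑ J : n → ι, (∏ a, B a (J a)) * minorsAll W J := by
  classical
  rw [Matrix.det_apply]
  have h1 : ∀ σ : Equiv.Perm n, ∏ a, (W * Bᵀ) (σ a) a =
      ∑ J : n → ι, ∏ a, (W (σ a) (J a) * B a (J a)) := by
    intro σ
    simp only [Matrix.mul_apply, Matrix.transpose_apply]
    rw [Finset.prod_univ_sum]
    simp [Fintype.piFinset_univ]
  simp only [h1, Finset.smul_sum]
  rw [Finset.sum_comm]
  refine Finset.sum_congr rfl fun J _ => ?_
  rw [minorsAll_apply, Matrix.det_apply, Finset.mul_sum]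
  refine Finset.sum_congr rfl fun σ _ => ?_
  simp only [Matrix.submatrix_apply, id_eq, Finset.prod_mul_distrib]
  rw [mul_smul_comm, mul_comm]

/-- The minors of `W * Aᵀ` are linear in the minors of `W`. -/
theorem minorsAll_mul_transpose [Fintype ι] (W : Matrix n ι R) (A : Matrix κ ι R)
    (J' : n → κ) :
    minorsAll (W * Aᵀ) J' = ∑ J : n → ι, (∏ a, A (J' a) (J a)) * minorsAll W J := by
  have h : (W * Aᵀ).submatrix id J' = W * (A.submatrix J' id)ᵀ := by
    ext a b
    simp [Matrix.mul_apply]
  rw [minorsAll_apply, h, det_mul_transpose]
  rfl

/-- Change of basis of the row space multiplies all minors by the determinant. -/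
theorem minorsAll_mul_left [Fintype ι] (g : Matrix n n R) (W : Matrix n ι R) :
    minorsAll (g * W) = g.det • minorsAll W := by
  funext J
  have h : (g * W).submatrix id J = g * W.submatrix id J := by
    ext a b
    simp [Matrix.mul_apply]
  simp [minorsAll_apply, h, Matrix.det_mul]

theorem minorsAll_smul (c : R) (W : Matrix n ι R) :
    minorsAll (c • W) = c ^ Fintype.card n • minorsAll W := by
  funext J
  have h : (c • W).submatrix id J = c • W.submatrix id J := by
    ext a b
    simp
  simp [minorsAll_apply, h]

/-- Non-injective column selections give the zero minor. -/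
theorem minorsAll_eq_zero_of_not_injective (W : Matrix n ι R) {J : n → ι}
    (hJ : ¬ Function.Injective J) : minorsAll W J = 0 := by
  rw [Function.Injective] at hJ
  push Not at hJ
  obtain ⟨a, b, hab, hne⟩ := hJ
  rw [minorsAll_apply]
  refine Matrix.det_zero_of_column_eq hne fun k => ?_
  simp [hab]

/-- Permuting the column selection changes the minor by the sign. -/
theorem minorsAll_comp_perm (W : Matrix n ι R) (J : n → ι) (π : Equiv.Perm n) :
    minorsAll W (J ∘ π) = (Equiv.Perm.sign π : ℤ) * minorsAll W J := by
  rw [minorsAll_apply, minorsAll_apply]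
  have h : W.submatrix id (J ∘ π) = (W.submatrix id J).submatrix id π := by
    ext a b
    simp
  rw [h, Matrix.det_permute']

end Fermat.Agent.GR.H.CauchyBinet
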