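/-
GATE-R / S17, node GR-H-PLDUAL (helper1): PLÜCKER DUALITY (complementary minors).

For a subspace `W ⊆ K^ν` there are two Plücker vectors: the SUBSPACE-side one (maximal minors of a
matrix `B` whose rows form a basis of `W`) and the ANNIHILATOR-side one (maximal minors of a matrix
`Φ` whose rows form a basis of the functionals vanishing on `W`, e.g. evaluation functionals).
They have the same coordinates up to ONE common scalar and signs: for every splitting
`σ : ρ ⊕ ε ≃ ν` of the column index set,

  `det (B restricted to the columns σ(inl ·)) = det (Φ restricted to the columns σ(inr ·)) * c(σ)`,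

where `c(σ) = det ([Bᵀ | C] with rows reindexed by σ)` for ANY right inverse `C` of `Φ`; `c(σ)`
depends on `σ` only through a sign.  Consequently the two Plücker tuples have EQUAL height.

* `det_submatrix_inl_eq` : the core identity over any commutative ring (no signs);
* `det_fromCols_submatrix_eq_sign_mul` : change of the splitting = a sign;
* `det_fromCols_ne_zero` : over a field `c(σ) ≠ 0` iff (here: if) the rows of `B` are independent;
* `exists_right_inverse_of_linearIndependent` : a right inverse `C` exists when the rows of `Φ` are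
  independent;
* `mulHeight_eq_of_forall_eq_or_neg`, `mulHeight_eq_of_rel` : heights do not see coordinatewise
  signs / zero coordinates / repetitions;
* `minor`, `minorFun` and `logHeight_minor_eq_logHeight_minor_compl` : the height form for minors
  indexed by `Finset`s (columns in increasing order), `logHeight_minorFun_eq_logHeight_minor` :
  the tuple of minors indexed by ALL functions `Fin r → Fin n` has the same height.

Mathlib only.
-/
import Mathlib

set_option autoImplicit false

namespace Fermat.Agent.GR.H.PlueckerDual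

open Matrix

/-! ### The core identity -/

section Core

variable {R : Type*} [CommRing R]
variable {ρ ε ν : Type*} [Fintype ρ] [Fintype ε] [Fintype ν]
  [DecidableEq ρ] [DecidableEq ε] [DecidableEq ν]

omit [DecidableEq ν] in
/-- **Plücker duality, core identity.**  `B` (rows = a basis of `W`), `Φ` (rows = functionals
vanishing on `W`: `Φ * Bᵀ = 0`), `C` a right inverse of `Φ`, `σ : ρ ⊕ ε ≃ ν` a splitting of the
columns.  Then the `ρ`-minor of `B` on the columns `σ (inl ·)` equals the complementary `ε`-minor
of `Φ` on the columns `σ (inr ·)` times the determinant of `[Bᵀ | C]` (rows reindexed by `σ`). -/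
theorem det_submatrix_inl_eq (B : Matrix ρ ν R) (Φ : Matrix ε ν R) (C : Matrix ν ε R)
    (hΦB : Φ * Bᵀ = 0) (hΦC : Φ * C = 1) (σ : ρ ⊕ ε ≃ ν) :
    (B.submatrix id (σ ∘ Sum.inl)).det =
      (Φ.submatrix id (σ ∘ Sum.inr)).det * ((Matrix.fromCols Bᵀ C).submatrix σ id).det := by
  classical
  -- the matrix `[E_σ ; Φ]` with columns reindexed by `σ`
  set M : Matrix (ρ ⊕ ε) (ρ ⊕ ε) R :=
    Matrix.fromBlocks 1 0 (Φ.submatrix id (σ ∘ Sum.inl)) (Φ.submatrix id (σ ∘ Sum.inr)) with hM
  set N : Matrix (ρ ⊕ ε) (ρ ⊕ ε) R := (Matrix.fromCols Bᵀ C).submatrix σ id with hN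
  have hprod : M * N =
      Matrix.fromBlocks (B.submatrix id (σ ∘ Sum.inl))ᵀ (C.submatrix (σ ∘ Sum.inl) id) 0 1 := by
    have hΦB' : ∀ (i : ε) (j : ρ), ∑ k, Φ i k * B j k = 0 := by
      intro i j
      have := congrFun (congrFun hΦB i) j
      simpa [Matrix.mul_apply] using this
    have hΦC' : ∀ (i j : ε), ∑ k, Φ i k * C k j = (1 : Matrix ε ε R) i j := by
      intro i j
      have := congrFun (congrFun hΦC i) j
      simpa [Matrix.mul_apply] using this
    ext (i | i) (j | j)
    · -- (inl, inl)
      simp only [hM, hN, Matrix.mul_apply, Fintype.sum_sum_type, Matrix.fromBlocks_apply₁₁,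
        Matrix.fromBlocks_apply₁₂, Matrix.submatrix_apply, Matrix.fromCols_apply_inl, id_eq,
        Matrix.transpose_apply, Matrix.zero_apply, zero_mul, Finset.sum_const_zero, add_zero,
        Matrix.one_apply, Function.comp_apply]
      simp
    · -- (inl, inr)
      simp only [hM, hN, Matrix.mul_apply, Fintype.sum_sum_type, Matrix.fromBlocks_apply₁₁,
        Matrix.fromBlocks_apply₁₂, Matrix.submatrix_apply, Matrix.fromCols_apply_inr, id_eq,
        Matrix.zero_apply, zero_mul, Finset.sum_const_zero, add_zero,
        Matrix.one_apply, Function.comp_apply]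
      simp
    · -- (inr, inl)
      simp only [hM, hN, Matrix.mul_apply, Fintype.sum_sum_type, Matrix.fromBlocks_apply₂₁,
        Matrix.fromBlocks_apply₂₂, Matrix.submatrix_apply, Matrix.fromCols_apply_inl, id_eq,
        Matrix.transpose_apply, Matrix.zero_apply, Function.comp_apply]
      rw [← hΦB' i j, ← σ.sum_comp, Fintype.sum_sum_type]
    · -- (inr, inr)
      simp only [hM, hN, Matrix.mul_apply, Fintype.sum_sum_type, Matrix.fromBlocks_apply₂₁,
        Matrix.fromBlocks_apply₂₂, Matrix.submatrix_apply, Matrix.fromCols_apply_inr, id_eq,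
        Function.comp_apply]
      rw [← hΦC' i j, ← σ.sum_comp, Fintype.sum_sum_type]
  have hdetM : M.det = (Φ.submatrix id (σ ∘ Sum.inr)).det := by
    rw [hM, Matrix.det_fromBlocks_zero₁₂, Matrix.det_one, one_mul]
  have hdetMN : (M * N).det = (B.submatrix id (σ ∘ Sum.inl)).det := by
    rw [hprod, Matrix.det_fromBlocks_zero₂₁, Matrix.det_one, mul_one, Matrix.det_transpose]
  rw [← hdetMN, Matrix.det_mul, hdetM]

omit [Fintype ν] [DecidableEq ν] in
/-- Changing the splitting `σ` changes `det ([Bᵀ | C] reindexed by σ)` by a sign. -/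
theorem det_submatrix_equiv_eq_sign_mul (N : Matrix ν (ρ ⊕ ε) R) (σ τ : ρ ⊕ ε ≃ ν) :
    (N.submatrix τ id).det =
      ((Equiv.Perm.sign (τ.trans σ.symm) : ℤ) : R) * (N.submatrix σ id).det := by
  classical
  have h : N.submatrix τ id = (N.submatrix σ id).submatrix (τ.trans σ.symm) id := by
    ext i j
    simp
  rw [h, Matrix.det_permute]

omit [Fintype ν] [DecidableEq ν] in
/-- The sign in `det_submatrix_equiv_eq_sign_mul` is `1` or `-1`. -/
theorem det_submatrix_equiv_eq_or_neg (N : Matrix ν (ρ ⊕ ε) R) (σ τ : ρ ⊕ ε ≃ ν) :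
    (N.submatrix τ id).det = (N.submatrix σ id).det ∨
      (N.submatrix τ id).det = -(N.submatrix σ id).det := by
  rw [det_submatrix_equiv_eq_sign_mul N σ τ]
  rcases Int.units_eq_one_or (Equiv.Perm.sign (τ.trans σ.symm)) with h | h
  · left; simp [h]
  · right; simp [h]

end Core

/-! ### Nonvanishing of the scalar and existence of a right inverse (fields) -/

section Field

variable {K : Type*} [Field K]
variable {ρ ε ν : Type*} [Fintype ρ] [Fintype ε] [Fintype ν]
  [DecidableEq ρ] [DecidableEq ε] [DecidableEq ν]

omit [DecidableEq ν] in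
/-- If the rows of `B` are linearly independent, `Φ * Bᵀ = 0` and `Φ * C = 1`, then the square
matrix `[Bᵀ | C]` (rows reindexed by any `σ`) is invertible. -/
theorem det_fromCols_ne_zero (B : Matrix ρ ν K) (Φ : Matrix ε ν K) (C : Matrix ν ε K)
    (hB : LinearIndependent K B.row) (hΦB : Φ * Bᵀ = 0) (hΦC : Φ * C = 1) (σ : ρ ⊕ ε ≃ ν) :
    ((Matrix.fromCols Bᵀ C).submatrix σ id).det ≠ 0 := by
  classical
  set N : Matrix (ρ ⊕ ε) (ρ ⊕ ε) K := (Matrix.fromCols Bᵀ C).submatrix σ id with hN
  intro hdet
  obtain ⟨v, hv0, hv⟩ := Matrix.exists_mulVec_eq_zero_iff.mpr hdet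
  -- un-reindex: `[Bᵀ | C] *ᵥ v = 0`
  have h1 : (Matrix.fromCols Bᵀ C) *ᵥ v = 0 := by
    funext k
    have := congrFun hv (σ.symm k)
    simpa [hN, Matrix.mulVec, dotProduct] using this
  rw [Matrix.fromCols_mulVec] at h1
  -- apply `Φ`
  have h2 : Φ *ᵥ (Bᵀ *ᵥ (v ∘ Sum.inl) + C *ᵥ (v ∘ Sum.inr)) = 0 := by rw [h1]; simp
  rw [Matrix.mulVec_add, Matrix.mulVec_mulVec, Matrix.mulVec_mulVec, hΦB, hΦC] at h2
  simp only [Matrix.zero_mulVec, Matrix.one_mulVec, zero_add] at h2
  rw [h2] at h1
  simp only [Matrix.mulVec_zero, add_zero] at h1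
  -- `Bᵀ *ᵥ a = 0` means `a ᵥ* B = 0`
  have h3 : (v ∘ Sum.inl) ᵥ* B = 0 := by
    rw [← Matrix.mulVec_transpose]; exact h1
  have h4 : v ∘ Sum.inl = 0 := by
    have hinj := Matrix.vecMul_injective_iff.mpr hB
    apply hinj
    show (v ∘ Sum.inl) ᵥ* B = 0 ᵥ* B
    rw [h3, Matrix.zero_vecMul]
  apply hv0
  funext i
  rcases i with i | i
  · exact congrFun h4 i
  · exact congrFun h2 i

/-- If the rows of `Φ` are linearly independent then `Φ` has a right inverse. -/
theorem exists_right_inverse_of_linearIndependent (Φ : Matrix ε ν K)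
    (hΦ : LinearIndependent K Φ.row) : ∃ C : Matrix ν ε K, Φ * C = 1 := by
  classical
  have hinj : Function.Injective Φ.vecMul := Matrix.vecMul_injective_iff.mpr hΦ
  -- `Φ.vecMulLinear` is injective, hence has a left inverse `g`
  have hker : LinearMap.ker Φ.vecMulLinear = ⊥ := LinearMap.ker_eq_bot.mpr hinj
  obtain ⟨g, hg⟩ := LinearMap.exists_leftInverse_of_injective Φ.vecMulLinear hker
  -- the matrix of `g` (acting on row vectors)
  refine ⟨Matrix.of fun k j => g (Pi.single k 1) j, ?_⟩
  ext i j
  have h1 : g (Φ.vecMulLinear (Pi.single i 1)) = Pi.single i 1 := by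
    have := LinearMap.congr_fun hg (Pi.single i 1)
    simpa using this
  have h2 : Φ.vecMulLinear (Pi.single i 1) = ∑ k, Φ i k • (Pi.single k (1 : K) : ν → K) := by
    funext k
    simp [Matrix.vecMul, dotProduct, Pi.single_apply, Finset.sum_apply]
  rw [h2, map_sum] at h1
  have h3 := congrFun h1 j
  simp only [map_smul, Finset.sum_apply, Pi.smul_apply, smul_eq_mul] at h3
  rw [Matrix.mul_apply]
  simp only [Matrix.of_apply]
  rw [h3, Matrix.one_apply, Pi.single_apply]
  by_cases hij : i = j
  · simp [hij]
  · have : ¬ j = i := fun h => hij h.symm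
    simp [hij, this]

end Field

/-! ### Heights do not see signs, zeros and repetitions -/

section HeightCongr

open Height AdmissibleAbsValues

variable {K : Type*} [Field K] [AdmissibleAbsValues K]

/-- Two finite tuples with the same nonzero coordinates up to signs (repetitions and zero
coordinates allowed) have the same multiplicative height. -/
theorem mulHeight_eq_of_rel {ι ι' : Type*} [Finite ι] [Finite ι'] (x : ι → K) (y : ι' → K)
    (hxy : ∀ i, x i = 0 ∨ ∃ j, x i = y j ∨ x i = -y j)
    (hyx : ∀ j, y j = 0 ∨ ∃ i, y j = x i ∨ y j = -x i) : mulHeight x = mulHeight y := by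
  classical
  by_cases hx : x = 0
  · have hy : y = 0 := by
      funext j
      rcases hyx j with h | ⟨i, h | h⟩
      · exact h
      · rw [h, hx]; rfl
      · rw [h, hx]; simp
    rw [hx, hy, mulHeight_zero, mulHeight_zero]
  · have hy : y ≠ 0 := by
      rintro rfl
      apply hx
      funext i
      rcases hxy i with h | ⟨j, h | h⟩
      · exact h
      · rw [h]; rfl
      · rw [h]; simp
    have hι : Nonempty ι := (Function.ne_iff.mp hx).nonempty
    have hι' : Nonempty ι' := (Function.ne_iff.mp hy).nonempty
    have key : ∀ v : AbsoluteValue K ℝ, (⨆ i, v (x i)) = ⨆ j, v (y j) := by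
      intro v
      apply le_antisymm
      · apply ciSup_le
        intro i
        rcases hxy i with h | ⟨j, h | h⟩
        · rw [h, map_zero]
          exact Real.iSup_nonneg fun j => v.nonneg _
        · rw [h]; exact le_ciSup (Finite.bddAbove_range fun j => v (y j)) j
        · rw [h, map_neg_eq_map]; exact le_ciSup (Finite.bddAbove_range fun j => v (y j)) j
      · apply ciSup_le
        intro j
        rcases hyx j with h | ⟨i, h | h⟩
        · rw [h, map_zero]
          exact Real.iSup_nonneg fun i => v.nonneg _
        · rw [h]; exact le_ciSup (Finite.bddAbove_range fun i => v (x i)) i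
        · rw [h, map_neg_eq_map]; exact le_ciSup (Finite.bddAbove_range fun i => v (x i)) i
    rw [mulHeight_eq hx, mulHeight_eq hy]
    simp only [key]

/-- Logarithmic version of `mulHeight_eq_of_rel`. -/
theorem logHeight_eq_of_rel {ι ι' : Type*} [Finite ι] [Finite ι'] (x : ι → K) (y : ι' → K)
    (hxy : ∀ i, x i = 0 ∨ ∃ j, x i = y j ∨ x i = -y j)
    (hyx : ∀ j, y j = 0 ∨ ∃ i, y j = x i ∨ y j = -x i) : logHeight x = logHeight y := by
  rw [logHeight_eq_log_mulHeight, logHeight_eq_log_mulHeight, mulHeight_eq_of_rel x y hxy hyx]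

/-- Coordinatewise sign changes do not change the height. -/
theorem mulHeight_eq_of_forall_eq_or_neg {ι : Type*} [Finite ι] (x y : ι → K)
    (h : ∀ i, x i = y i ∨ x i = -y i) : mulHeight x = mulHeight y := by
  apply mulHeight_eq_of_rel
  · intro i; exact Or.inr ⟨i, h i⟩
  · intro i
    refine Or.inr ⟨i, ?_⟩
    rcases h i with h | h
    · exact Or.inl h.symm
    · exact Or.inr (by rw [h, neg_neg])

end HeightCongr

/-! ### Minors indexed by finsets and by functions -/

section Minors

variable {R : Type*} [CommRing R] {r n : ℕ}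

/-- The maximal minor of `B` on the columns `S` (taken in increasing order). -/
def minor (B : Matrix (Fin r) (Fin n) R) (S : {S : Finset (Fin n) // S.card = r}) : R :=
  (B.submatrix id (S.1.orderEmbOfFin S.2)).det

/-- The maximal minor of `B` on the columns `f 0, f 1, …` (any function). -/
def minorFun (B : Matrix (Fin r) (Fin n) R) (f : Fin r → Fin n) : R :=
  (B.submatrix id f).det

theorem minor_eq_minorFun (B : Matrix (Fin r) (Fin n) R) (S : {S : Finset (Fin n) // S.card = r}) :
    minor B S = minorFun B (S.1.orderEmbOfFin S.2) := rfl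

theorem minorFun_eq_zero_of_not_injective (B : Matrix (Fin r) (Fin n) R) (f : Fin r → Fin n)
    (hf : ¬ Function.Injective f) : minorFun B f = 0 := by
  simp only [Function.Injective, not_forall] at hf
  obtain ⟨i, j, hij, hne⟩ := hf
  exact Matrix.det_zero_of_column_eq hne (fun k => by simp [hij])

/-- An injective `f` is the increasing enumeration of its image composed with a permutation, so
`minorFun B f = ± minor B (image f)`. -/
theorem minorFun_eq_or_neg_minor (B : Matrix (Fin r) (Fin n) R) (f : Fin r → Fin n)
    (hf : Function.Injective f) :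
    ∃ S : {S : Finset (Fin n) // S.card = r}, minorFun B f = minor B S ∨
      minorFun B f = -minor B S := by
  classical
  have hS : (Finset.univ.image f).card = r := by
    rw [Finset.card_image_of_injective _ hf, Finset.card_univ, Fintype.card_fin]
  refine ⟨⟨Finset.univ.image f, hS⟩, ?_⟩
  -- the permutation `π` with `f = orderEmb ∘ π`
  let g : Fin r → Fin r := fun i =>
    ((Finset.univ.image f).orderIsoOfFin hS).symm ⟨f i, Finset.mem_image_of_mem f (Finset.mem_univ i)⟩
  have hg : Function.Injective g := by
    intro i j hij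
    have := ((Finset.univ.image f).orderIsoOfFin hS).symm.injective hij
    exact hf (Subtype.ext_iff.mp this)
  let π : Equiv.Perm (Fin r) := Equiv.ofBijective g (Finite.injective_iff_bijective.mp hg)
  have hfπ : f = (Finset.univ.image f).orderEmbOfFin hS ∘ π := by
    funext i
    simp only [Function.comp_apply, π, Equiv.ofBijective_apply, g]
    rw [← Finset.coe_orderIsoOfFin_apply]
    simp
  have hsub : B.submatrix id f =
      (B.submatrix id ((Finset.univ.image f).orderEmbOfFin hS)).submatrix id π := by
    ext i j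
    simp only [Matrix.submatrix_apply, id_eq]
    rw [congrFun hfπ j]
    rfl
  have hdet : minorFun B f =
      ((Equiv.Perm.sign π : ℤ) : R) * minor B ⟨Finset.univ.image f, hS⟩ := by
    unfold minorFun minor
    rw [hsub, Matrix.det_permute']
  rcases Int.units_eq_one_or (Equiv.Perm.sign π) with h | h
  · left; rw [hdet, h]; simp
  · right; rw [hdet, h]; simp

end Minors

/-! ### Plücker duality for heights -/

section Duality

open Height

variable {K : Type*} [Field K] {r e n : ℕ}

/-- **Plücker duality, minors indexed by finsets.**  There is ONE nonzero scalar `c` such that every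
maximal minor of `B` is `± c` times the complementary maximal minor of `Φ`. -/
theorem exists_scalar_minor_eq (hn : r + e = n) (B : Matrix (Fin r) (Fin n) K)
    (Φ : Matrix (Fin e) (Fin n) K) (hB : LinearIndependent K B.row)
    (hΦ : LinearIndependent K Φ.row) (hΦB : Φ * Bᵀ = 0) :
    ∃ c : K, c ≠ 0 ∧ ∀ (S : Finset (Fin n)) (hS : S.card = r) (hSc : Sᶜ.card = e),
      minor B ⟨S, hS⟩ = c * minor Φ ⟨Sᶜ, hSc⟩ ∨ minor B ⟨S, hS⟩ = -(c * minor Φ ⟨Sᶜ, hSc⟩) := by
  classical
  obtain ⟨C, hΦC⟩ := exists_right_inverse_of_linearIndependent Φ hΦ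
  let σ₀ : Fin r ⊕ Fin e ≃ Fin n := finSumFinEquiv.trans (finCongr hn)
  refine ⟨((Matrix.fromCols Bᵀ C).submatrix σ₀ id).det,
    det_fromCols_ne_zero B Φ C hB hΦB hΦC σ₀, ?_⟩
  intro S hS hSc
  have hcore := det_submatrix_inl_eq B Φ C hΦB hΦC (finSumEquivOfFinset hS hSc)
  have hl : (⇑(finSumEquivOfFinset hS hSc) ∘ Sum.inl) = ⇑(S.orderEmbOfFin hS) := by
    funext i; simp [finSumEquivOfFinset_inl]
  have hr : (⇑(finSumEquivOfFinset hS hSc) ∘ Sum.inr) = ⇑(Sᶜ.orderEmbOfFin hSc) := by
    funext i; simp [finSumEquivOfFinset_inr]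
  rw [hl, hr] at hcore
  have hB' : minor B ⟨S, hS⟩ = (B.submatrix id (S.orderEmbOfFin hS)).det := rfl
  have hΦ' : minor Φ ⟨Sᶜ, hSc⟩ = (Φ.submatrix id (Sᶜ.orderEmbOfFin hSc)).det := rfl
  rw [hB', hΦ', hcore]
  rcases det_submatrix_equiv_eq_or_neg (Matrix.fromCols Bᵀ C) σ₀ (finSumEquivOfFinset hS hSc)
    with h | h
  · left; rw [h]; ring
  · right; rw [h]; ring

variable [AdmissibleAbsValues K]

/-- **Plücker duality for heights** (minors indexed by finsets, columns in increasing order):
the subspace-side and the annihilator-side Plücker tuples have the same multiplicative height. -/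
theorem mulHeight_minor_eq_mulHeight_minor_compl (hn : r + e = n) (B : Matrix (Fin r) (Fin n) K)
    (Φ : Matrix (Fin e) (Fin n) K) (hB : LinearIndependent K B.row)
    (hΦ : LinearIndependent K Φ.row) (hΦB : Φ * Bᵀ = 0) :
    mulHeight (minor B) = mulHeight (minor Φ) := by
  classical
  obtain ⟨c, hc, hcS⟩ := exists_scalar_minor_eq hn B Φ hB hΦ hΦB
  have hcard : ∀ S : Finset (Fin n), S.card = r → Sᶜ.card = e := by
    intro S hS
    rw [Finset.card_compl, Fintype.card_fin, hS]; omega
  have hcard' : ∀ T : Finset (Fin n), T.card = e → Tᶜ.card = r := by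
    intro T hT
    rw [Finset.card_compl, Fintype.card_fin, hT]; omega
  rw [← mulHeight_smul_eq_mulHeight (minor Φ) hc]
  apply mulHeight_eq_of_rel
  · intro S
    refine Or.inr ⟨⟨S.1ᶜ, hcard S.1 S.2⟩, ?_⟩
    simpa using hcS S.1 S.2 (hcard S.1 S.2)
  · intro T
    refine Or.inr ⟨⟨T.1ᶜ, hcard' T.1 T.2⟩, ?_⟩
    have hTT : (⟨T.1ᶜᶜ, hcard T.1ᶜ (hcard' T.1 T.2)⟩ : {S : Finset (Fin n) // S.card = e}) = T :=
      Subtype.ext (compl_compl T.1)
    have := hcS T.1ᶜ (hcard' T.1 T.2) (hcard T.1ᶜ (hcard' T.1 T.2))
    rw [hTT] at this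
    rcases this with h | h
    · left; simp [h]
    · right; simp [h]

/-- Logarithmic form of `mulHeight_minor_eq_mulHeight_minor_compl`. -/
theorem logHeight_minor_eq_logHeight_minor_compl (hn : r + e = n) (B : Matrix (Fin r) (Fin n) K)
    (Φ : Matrix (Fin e) (Fin n) K) (hB : LinearIndependent K B.row)
    (hΦ : LinearIndependent K Φ.row) (hΦB : Φ * Bᵀ = 0) :
    logHeight (minor B) = logHeight (minor Φ) := by
  rw [logHeight_eq_log_mulHeight, logHeight_eq_log_mulHeight,
    mulHeight_minor_eq_mulHeight_minor_compl hn B Φ hB hΦ hΦB]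

/-- The tuple of minors indexed by ALL functions `Fin r → Fin n` has the same height as the
tuple indexed by `r`-subsets. -/
theorem mulHeight_minorFun_eq_mulHeight_minor (B : Matrix (Fin r) (Fin n) K) :
    mulHeight (minorFun B) = mulHeight (minor B) := by
  classical
  apply mulHeight_eq_of_rel
  · intro f
    by_cases hf : Function.Injective f
    · exact Or.inr (minorFun_eq_or_neg_minor B f hf)
    · exact Or.inl (minorFun_eq_zero_of_not_injective B f hf)
  · intro S
    exact Or.inr ⟨S.1.orderEmbOfFin S.2, Or.inl (minor_eq_minorFun B S)⟩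

theorem logHeight_minorFun_eq_logHeight_minor (B : Matrix (Fin r) (Fin n) K) :
    logHeight (minorFun B) = logHeight (minor B) := by
  rw [logHeight_eq_log_mulHeight, logHeight_eq_log_mulHeight,
    mulHeight_minorFun_eq_mulHeight_minor B]

/-- Plücker duality for heights, minors indexed by all functions. -/
theorem logHeight_minorFun_eq_logHeight_minorFun_compl (hn : r + e = n)
    (B : Matrix (Fin r) (Fin n) K) (Φ : Matrix (Fin e) (Fin n) K)
    (hB : LinearIndependent K B.row) (hΦ : LinearIndependent K Φ.row) (hΦB : Φ * Bᵀ = 0) :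
    logHeight (minorFun B) = logHeight (minorFun Φ) := by
  rw [logHeight_minorFun_eq_logHeight_minor, logHeight_minorFun_eq_logHeight_minor,
    logHeight_minor_eq_logHeight_minor_compl hn B Φ hB hΦ hΦB]

omit [AdmissibleAbsValues K] in
/-- Change of basis of the subspace: the Plücker tuple is multiplied by `det g`. -/
theorem minor_mul_left (g : Matrix (Fin r) (Fin r) K) (B : Matrix (Fin r) (Fin n) K)
    (S : {S : Finset (Fin n) // S.card = r}) : minor (g * B) S = g.det * minor B S := by
  unfold minor
  have : (g * B).submatrix id (S.1.orderEmbOfFin S.2) =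
      g * B.submatrix id (S.1.orderEmbOfFin S.2) := by
    ext i j
    simp [Matrix.mul_apply]
  rw [this, Matrix.det_mul]

/-- The height of the Plücker tuple does not depend on the basis of the subspace. -/
theorem mulHeight_minor_mul_left (g : Matrix (Fin r) (Fin r) K) (hg : g.det ≠ 0)
    (B : Matrix (Fin r) (Fin n) K) : mulHeight (minor (g * B)) = mulHeight (minor B) := by
  have : minor (g * B) = g.det • minor B := by
    funext S
    simp [minor_mul_left]
  rw [this, mulHeight_smul_eq_mulHeight _ hg]

theorem logHeight_minor_mul_left (g : Matrix (Fin r) (Fin r) K) (hg : g.det ≠ 0)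
    (B : Matrix (Fin r) (Fin n) K) : logHeight (minor (g * B)) = logHeight (minor B) := by
  rw [logHeight_eq_log_mulHeight, logHeight_eq_log_mulHeight, mulHeight_minor_mul_left g hg B]

/-- **Plücker duality for heights, coordinate-free form.**  `V` with a basis `bV`; `w` an
independent family spanning the subspace `W`; `φ` an independent family of functionals vanishing on
`W`, with `r + e = dim V`.  The Plücker tuple of the coordinate matrix of `w` and the Plücker tuple
of the matrix `(φ i (bV j))` have the same logarithmic height. -/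
theorem logHeight_minor_repr_eq_logHeight_minor_dual {V : Type*} [AddCommGroup V] [Module K V]
    (hn : r + e = n) (bV : Module.Basis (Fin n) K V) (w : Fin r → V)
    (hw : LinearIndependent K w) (φ : Fin e → Module.Dual K V) (hφ : LinearIndependent K φ)
    (hφw : ∀ i k, φ i (w k) = 0) :
    logHeight (minor (Matrix.of fun i j => bV.repr (w i) j)) =
      logHeight (minor (Matrix.of fun i j => φ i (bV j))) := by
  classical
  apply logHeight_minor_eq_logHeight_minor_compl hn
  · -- rows of the coordinate matrix are independent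
    have h := hw.map' (bV.equivFun : V →ₗ[K] (Fin n → K))
      (LinearMap.ker_eq_bot.mpr bV.equivFun.injective)
    exact h
  · -- rows of the functional matrix are independent
    let T : Module.Dual K V →ₗ[K] (Fin n → K) :=
      LinearMap.pi fun j => LinearMap.applyₗ (bV j)
    have hT : LinearMap.ker T = ⊥ := by
      rw [LinearMap.ker_eq_bot']
      intro ψ hψ
      apply bV.ext
      intro j
      have := congrFun hψ j
      simpa [T] using this
    have h := hφ.map' T hT
    exact h
  · -- orthogonality
    ext i k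
    simp only [Matrix.mul_apply, Matrix.transpose_apply, Matrix.of_apply, Matrix.zero_apply]
    have h1 : φ i (w k) = ∑ j, φ i (bV j) * bV.repr (w k) j := by
      conv_lhs => rw [← bV.sum_repr (w k)]
      rw [map_sum]
      apply Finset.sum_congr rfl
      intro j _
      rw [map_smul, smul_eq_mul, mul_comm]
    rw [← h1, hφw]

end Duality

end Fermat.Agent.GR.H.PlueckerDual
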