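/-
GATE-R / S17, node GR-H-FLAG (helper95): **compatible (flag) bases** of a monotone chain of
finite-dimensional subspaces, and the invariance of heights under zero padding.  Mathlib +
`GR/H/CauchyBinet` (`minorsAll`) + `GR/H/PlueckerDual` (`logHeight_eq_of_rel`) only.

* `exists_basis_extending` : a basis of `V ≤ V'` indexed by `Fin (finrank V)` extends to a basis of
  `V'` indexed by `Fin (finrank V')`, compatibly with `Fin.castLE`;
* `flagBasis V hV k : Basis (Fin (finrank K (V k))) K (V k)` for a monotone chain `V : ℕ → Submodule`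
  of finite-dimensional subspaces, with `flagBasis_castLE` : `b l (castLE i) = b k i` for `k ≤ l`;
* `repr_of_le_apply` / `repr_of_le_eq_zero` : coordinates of `s ∈ V k` at level `l ≥ k` are the
  coordinates at level `k` padded by zeros;
* `logHeight_pad` / `logHeight_minorsAll_pad` : zero padding along an injective map of index types
  changes neither `logHeight` of a vector nor `logHeight (minorsAll ·)` of a matrix;
* `logHeight_flagRepr_eq` (`= HeightFrame.hs_eq_of_div0`) and `logHeight_minorsAll_flagCoord_eq`
  (`= HeightFrame.H_add_inf`, once `I_N(D + ∞) = I_{N-1}(D)` as subspaces) over `ℚ`.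
-/
import Mathlib
import Fermat.Agent.GR.H.CauchyBinet
import Fermat.Agent.GR.H.PlueckerDual

set_option autoImplicit false

namespace Fermat.Agent.GR.H.Flag

open Module Matrix
open Fermat.Agent.GR.H.CauchyBinet

section Bases

variable {K E : Type*} [Field K] [AddCommGroup E] [Module K E]

/-- A basis of `V ≤ V'` indexed by `Fin (finrank V)` extends to a basis of `V'` indexed by
`Fin (finrank V')`, compatibly with `Fin.castLE`. -/
theorem exists_basis_extending (V V' : Submodule K E) (h : V ≤ V') [FiniteDimensional K V']
    (b : Basis (Fin (finrank K V)) K V) :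
    ∃ b' : Basis (Fin (finrank K V')) K V',
      ∀ i, ((b' (Fin.castLE (Submodule.finrank_mono h) i) : V') : E) = (b i : E) := by
  classical
  let W : Submodule K V' := Submodule.comap V'.subtype V
  let eW : W ≃ₗ[K] V := Submodule.comapSubtypeEquivOfLe h
  let bW : Basis (Fin (finrank K V)) K W := b.map eW.symm
  let bQ : Basis (Fin (finrank K (V' ⧸ W))) K (V' ⧸ W) := Module.finBasis K (V' ⧸ W)
  have hW : finrank K W = finrank K V := eW.finrank_eq
  have hd : finrank K V + finrank K (V' ⧸ W) = finrank K V' := by
    rw [← hW, add_comm]; exact Submodule.finrank_quotient_add_finrank W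
  let e : Fin (finrank K V) ⊕ Fin (finrank K (V' ⧸ W)) ≃ Fin (finrank K V') :=
    finSumFinEquiv.trans (finCongr hd)
  refine ⟨(Basis.sumQuot bW bQ).reindex e, fun i => ?_⟩
  have he : e.symm (Fin.castLE (Submodule.finrank_mono h) i) = Sum.inl i := by
    rw [Equiv.symm_apply_eq]
    ext
    simp [e]
  rw [Basis.reindex_apply, he, Basis.sumQuot_inl]
  simp [bW, eW, Submodule.comapSubtypeEquivOfLe]

variable (V : ℕ → Submodule K E) (hV : Monotone V) [∀ k, FiniteDimensional K (V k)]

/-- **Flag bases**: compatible bases of a monotone chain of finite-dimensional subspaces. -/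
noncomputable def flagBasis : ∀ k, Basis (Fin (finrank K (V k))) K (V k)
  | 0 => Module.finBasis K (V 0)
  | k + 1 => Classical.choose
      (exists_basis_extending (V k) (V (k + 1)) (hV (Nat.le_succ k)) (flagBasis k))

theorem flagBasis_succ (k : ℕ) (i : Fin (finrank K (V k))) :
    ((flagBasis V hV (k + 1)
        (Fin.castLE (Submodule.finrank_mono (hV (Nat.le_succ k))) i) : V (k + 1)) : E) =
      (flagBasis V hV k i : E) :=
  Classical.choose_spec
    (exists_basis_extending (V k) (V (k + 1)) (hV (Nat.le_succ k)) (flagBasis V hV k)) i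

/-- Compatibility of the flag bases: `b l (castLE i) = b k i` for `k ≤ l`. -/
theorem flagBasis_castLE {k l : ℕ} (h : k ≤ l) (i : Fin (finrank K (V k))) :
    ((flagBasis V hV l (Fin.castLE (Submodule.finrank_mono (hV h)) i) : V l) : E) =
      (flagBasis V hV k i : E) := by
  induction l, h using Nat.le_induction with
  | base => simp
  | succ l hkl ih =>
    rw [← ih, ← flagBasis_succ V hV l]
    rfl

end Bases

section Repr

variable {K E : Type*} [Field K] [AddCommGroup E] [Module K E]

/-- Coordinates in an extended basis: if `b' (j i) = b i` then the `b'`-coordinates of `s ∈ V`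
at `j i` are the `b`-coordinates at `i`. -/
theorem repr_of_le_apply {ι ι' : Type*} {V V' : Submodule K E} (h : V ≤ V')
    (b : Basis ι K V) (b' : Basis ι' K V') (j : ι → ι') (hj : Function.Injective j)
    (hb : ∀ i, ((b' (j i) : V') : E) = (b i : E)) (s : V) (i : ι) :
    b'.repr ⟨s, h s.2⟩ (j i) = b.repr s i := by
  classical
  have hs : (⟨s, h s.2⟩ : V') = ∑ i' ∈ (b.repr s).support, b.repr s i' • b' (j i') := by
    apply Subtype.ext
    rw [Submodule.coe_sum]
    simp only [Submodule.coe_smul, hb]
    conv_lhs => rw [← b.linearCombination_repr s]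
    rw [Finsupp.linearCombination_apply, Finsupp.sum, Submodule.coe_sum]
    simp
  rw [hs, map_sum]
  simp only [map_smul, Basis.repr_self, Finsupp.coe_finsetSum, Finsupp.coe_smul,
    Finset.sum_apply, Pi.smul_apply, smul_eq_mul, Finsupp.single_apply, hj.eq_iff]
  simp only [mul_ite, mul_one, mul_zero, Finset.sum_ite_eq', Finsupp.mem_support_iff, ne_eq,
    ite_not, ite_eq_right_iff]
  exact fun h => h.symm

/-- Coordinates in an extended basis vanish off the image of the old index set. -/
theorem repr_of_le_eq_zero {ι ι' : Type*} {V V' : Submodule K E} (h : V ≤ V')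
    (b : Basis ι K V) (b' : Basis ι' K V') (j : ι → ι')
    (hb : ∀ i, ((b' (j i) : V') : E) = (b i : E)) (s : V) (i' : ι') (hi' : i' ∉ Set.range j) :
    b'.repr ⟨s, h s.2⟩ i' = 0 := by
  classical
  have hs : (⟨s, h s.2⟩ : V') = ∑ i ∈ (b.repr s).support, b.repr s i • b' (j i) := by
    apply Subtype.ext
    rw [Submodule.coe_sum]
    simp only [Submodule.coe_smul, hb]
    conv_lhs => rw [← b.linearCombination_repr s]
    rw [Finsupp.linearCombination_apply, Finsupp.sum, Submodule.coe_sum]
    simp
  rw [hs, map_sum]
  simp only [map_smul, Basis.repr_self, Finsupp.coe_finsetSum, Finsupp.coe_smul,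
    Finset.sum_apply, Pi.smul_apply, smul_eq_mul, Finsupp.single_apply]
  apply Finset.sum_eq_zero
  intro i _
  rw [if_neg (fun hji => hi' ⟨i, hji⟩), mul_zero]

end Repr

section Heights

open Height

variable {K : Type*} [Field K] [AdmissibleAbsValues K]

/-- Zero padding of a vector along an injective map does not change the height. -/
theorem logHeight_pad {ι ι' : Type*} [Finite ι] [Finite ι'] (j : ι → ι')
    (x : ι → K) (x' : ι' → K) (h1 : ∀ i, x' (j i) = x i)
    (h0 : ∀ i', i' ∉ Set.range j → x' i' = 0) : logHeight x' = logHeight x := by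
  classical
  apply PlueckerDual.logHeight_eq_of_rel
  · intro i'
    by_cases hi' : i' ∈ Set.range j
    · obtain ⟨i, rfl⟩ := hi'
      exact Or.inr ⟨i, Or.inl (h1 i)⟩
    · exact Or.inl (h0 i' hi')
  · intro i
    exact Or.inr ⟨j i, Or.inl (h1 i).symm⟩

/-- Zero padding of the columns of a matrix along an injective map does not change the Plücker
height `logHeight (minorsAll ·)`. -/
theorem logHeight_minorsAll_pad {n ι ι' : Type*} [Fintype n] [DecidableEq n] [Finite ι] [Finite ι']
    (j : ι → ι') (W : Matrix n ι K) (W' : Matrix n ι' K) (h1 : ∀ a i, W' a (j i) = W a i)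
    (h0 : ∀ a i', i' ∉ Set.range j → W' a i' = 0) :
    logHeight (minorsAll W') = logHeight (minorsAll W) := by
  classical
  have hcomp : ∀ J : n → ι, minorsAll W' (j ∘ J) = minorsAll W J := by
    intro J
    rw [minorsAll_apply, minorsAll_apply]
    congr 1
    ext a c
    simp [h1]
  apply PlueckerDual.logHeight_eq_of_rel
  · intro J'
    by_cases hJ' : ∀ c, J' c ∈ Set.range j
    · choose J hJ using hJ'
      have : J' = j ∘ J := funext fun c => (hJ c).symm
      exact Or.inr ⟨J, Or.inl (by rw [this, hcomp])⟩
    · push Not at hJ'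
      obtain ⟨c, hc⟩ := hJ'
      left
      rw [minorsAll_apply]
      apply Matrix.det_eq_zero_of_column_eq_zero c
      intro a
      simp [h0 a (J' c) hc]
  · intro J
    exact Or.inr ⟨j ∘ J, Or.inl (hcomp J).symm⟩

end Heights

section FlagHeights

open Height

variable {E : Type*} [AddCommGroup E] [Module ℚ E]
variable (V : ℕ → Submodule ℚ E) (hV : Monotone V) [∀ k, FiniteDimensional ℚ (V k)]

/-- The coordinate vector of `s ∈ V k` in the flag basis of level `k`. -/
noncomputable def flagRepr (k : ℕ) (s : V k) : Fin (finrank ℚ (V k)) → ℚ :=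
  fun i => (flagBasis V hV k).repr s i

/-- **`hs_eq_of_div0`, abstract form**: the height of the flag coordinates of `s ∈ V k` does not
depend on the level `l ≥ k` at which the coordinates are taken. -/
theorem logHeight_flagRepr_eq {k l : ℕ} (h : k ≤ l) (s : V k) :
    logHeight (flagRepr V hV l ⟨s, hV h s.2⟩) = logHeight (flagRepr V hV k s) := by
  apply logHeight_pad (Fin.castLE (Submodule.finrank_mono (hV h)))
  · intro i
    exact repr_of_le_apply (hV h) (flagBasis V hV k) (flagBasis V hV l) _
      (Fin.castLE_injective _) (flagBasis_castLE V hV h) s i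
  · intro i' hi'
    exact repr_of_le_eq_zero (hV h) (flagBasis V hV k) (flagBasis V hV l) _
      (flagBasis_castLE V hV h) s i' hi'

/-- The coordinate matrix of a family `w : n → V k` in the flag basis of level `k`. -/
noncomputable def flagCoord {n : Type*} (k : ℕ) (w : n → V k) :
    Matrix n (Fin (finrank ℚ (V k))) ℚ :=
  Matrix.of fun a => flagRepr V hV k (w a)

/-- **`H_add_inf`, abstract form**: the Plücker height of the coordinate matrix of a family of
vectors of `V k` does not depend on the level `l ≥ k` at which the coordinates are taken. -/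
theorem logHeight_minorsAll_flagCoord_eq {n : Type*} [Fintype n] [DecidableEq n] {k l : ℕ}
    (h : k ≤ l) (w : n → V k) :
    logHeight (minorsAll (flagCoord V hV l fun a => (⟨w a, hV h (w a).2⟩ : V l))) =
      logHeight (minorsAll (flagCoord V hV k w)) := by
  apply logHeight_minorsAll_pad (Fin.castLE (Submodule.finrank_mono (hV h)))
  · intro a i
    exact repr_of_le_apply (hV h) (flagBasis V hV k) (flagBasis V hV l) _
      (Fin.castLE_injective _) (flagBasis_castLE V hV h) (w a) i
  · intro a i' hi'
    exact repr_of_le_eq_zero (hV h) (flagBasis V hV k) (flagBasis V hV l) _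
      (flagBasis_castLE V hV h) (w a) i' hi'

end FlagHeights

end Fermat.Agent.GR.H.Flag
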