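/-
GATE-R (S17) / heights, Mathlib-only brick (helper71): **the tensor product of two domains over an
algebraically closed field is a domain** (`isDomain_tensorProduct_of_isAlgClosed`).

Not in Mathlib (only the `LinearDisjoint` API, which takes the disjointness as an input).  Needed by
every valuative route to the height inequalities: the function field of `X^e` is the fraction
field of `F ⊗ ⋯ ⊗ F`, and the Gauss norm on `F ⊗ KK` over a valuation ring `O` of `KK` is
multiplicative because `F ⊗ κ(O)` is a domain (`GR/H/GaussNorm.lean`).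

Proof: `exists_algHom_apply_ne_zero` (Nullstellensatz: a nonzero element of a finitely generated
domain over `k = k̄` is nonzero at some `k`-point; Zariski's lemma via Jacobson rings);
`specialize φ : B ⊗ A → A`; coordinates w.r.t. a `k`-basis of `A`; reduction to the subalgebra of
`B` generated by the coordinates (flatness).
-/
import Mathlib

set_option autoImplicit false

open scoped TensorProduct

namespace Fermat.Agent.GR.H.TensorDomain

section Nullstellensatz

variable {k : Type*} [Field k] [IsAlgClosed k]

/-- A nontrivial finitely generated algebra over an algebraically closed field has a `k`-point. -/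
theorem exists_algHom_of_finiteType (C : Type*) [CommRing C] [Algebra k C] [Algebra.FiniteType k C]
    [Nontrivial C] : Nonempty (C →ₐ[k] k) := by
  obtain ⟨m, hm⟩ := Ideal.exists_maximal C
  let _ := Ideal.Quotient.field m
  have hfin : Module.Finite k (C ⧸ m) := finite_of_finite_type_of_isJacobsonRing k (C ⧸ m)
  have hint : Algebra.IsIntegral k (C ⧸ m) := Algebra.IsIntegral.of_finite k (C ⧸ m)
  have hbij : Function.Bijective (algebraMap k (C ⧸ m)) :=
    IsAlgClosed.algebraMap_bijective_of_isIntegral
  let e : k ≃ₐ[k] (C ⧸ m) := AlgEquiv.ofBijective (Algebra.ofId k (C ⧸ m)) hbij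
  exact ⟨(e.symm : (C ⧸ m) →ₐ[k] k).comp (Ideal.Quotient.mkₐ k m)⟩

/-- In a finitely generated domain over an algebraically closed field, a nonzero element is
nonzero at some `k`-point. -/
theorem exists_algHom_apply_ne_zero (B : Type*) [CommRing B] [IsDomain B] [Algebra k B]
    [Algebra.FiniteType k B] {c : B} (hc : c ≠ 0) : ∃ φ : B →ₐ[k] k, φ c ≠ 0 := by
  have hinj : Function.Injective (algebraMap B (Localization.Away c)) :=
    IsLocalization.injective (Localization.Away c)
      (powers_le_nonZeroDivisors_of_noZeroDivisors hc)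
  have : Nontrivial (Localization.Away c) := hinj.nontrivial
  obtain ⟨ψ⟩ := exists_algHom_of_finiteType (k := k) (Localization.Away c)
  refine ⟨ψ.comp (IsScalarTower.toAlgHom k B (Localization.Away c)), fun h => ?_⟩
  have hu : IsUnit (algebraMap B (Localization.Away c) c) :=
    IsLocalization.Away.algebraMap_isUnit c
  have h1 : IsUnit (ψ (algebraMap B (Localization.Away c) c)) := hu.map ψ
  exact h1.ne_zero h

end Nullstellensatz

section Tensor

variable {k : Type*} [Field k] [IsAlgClosed k]
variable {A B : Type*} [CommRing A] [CommRing B] [Algebra k A] [Algebra k B]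

/-- specialisation `B ⊗ A → A` along a point `φ : B → k` -/
noncomputable def specialize (φ : B →ₐ[k] k) : B ⊗[k] A →ₐ[k] A :=
  (Algebra.TensorProduct.lid k A).toAlgHom.comp (Algebra.TensorProduct.map φ (AlgHom.id k A))

omit [IsAlgClosed k] in
theorem specialize_tmul (φ : B →ₐ[k] k) (b : B) (a : A) :
    specialize φ (b ⊗ₜ[k] a) = φ b • a := by
  simp [specialize]

omit [IsAlgClosed k] in
theorem repr_specialize {ι : Type*} (𝔟 : Module.Basis ι k A) (φ : B →ₐ[k] k) (x : B ⊗[k] A)
    (i : ι) :
    𝔟.repr (specialize φ x) i = φ ((Algebra.TensorProduct.basis B 𝔟).repr x i) := by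
  induction x using TensorProduct.induction_on with
  | zero => simp
  | tmul b a =>
    rw [specialize_tmul, Algebra.TensorProduct.basis_repr_tmul]
    simp
  | add x y hx hy =>
    simp only [map_add, Finsupp.add_apply, hx, hy]

variable [IsDomain A] [IsDomain B]

/-- the finitely generated case -/
theorem mul_eq_zero_of_finiteType [Algebra.FiniteType k B] {x y : B ⊗[k] A} (h : x * y = 0) :
    x = 0 ∨ y = 0 := by
  by_contra hcon
  rw [not_or] at hcon
  obtain ⟨hx, hy⟩ := hcon
  let 𝔟 := Module.Basis.ofVectorSpace k A
  let β := Algebra.TensorProduct.basis B 𝔟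
  have hx' : β.repr x ≠ 0 := fun h0 => hx (β.repr.map_eq_zero_iff.1 h0)
  have hy' : β.repr y ≠ 0 := fun h0 => hy (β.repr.map_eq_zero_iff.1 h0)
  obtain ⟨i0, hi0⟩ := Finsupp.ne_iff.1 hx'
  obtain ⟨j0, hj0⟩ := Finsupp.ne_iff.1 hy'
  rw [Finsupp.zero_apply] at hi0 hj0
  obtain ⟨φ, hφ⟩ := exists_algHom_apply_ne_zero (k := k) B (mul_ne_zero hi0 hj0)
  have h1 : specialize φ x * specialize φ y = 0 := by rw [← map_mul, h, map_zero]
  rw [map_mul] at hφ
  rcases mul_eq_zero.1 h1 with h2 | h2
  · have h3 := repr_specialize 𝔟 φ x i0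
    rw [h2, map_zero, Finsupp.zero_apply] at h3
    exact hφ (by rw [← h3, zero_mul])
  · have h3 := repr_specialize 𝔟 φ y j0
    rw [h2, map_zero, Finsupp.zero_apply] at h3
    exact hφ (by rw [← h3, mul_zero])

omit [IsAlgClosed k] [IsDomain A] [IsDomain B] in
/-- every element of `B ⊗ A` comes from `B₀ ⊗ A` for the subalgebra `B₀` generated by its
coordinates -/
theorem exists_mem_range_of_coord_mem {ι : Type*} (𝔟 : Module.Basis ι k A) (B₀ : Subalgebra k B)
    (x : B ⊗[k] A) (hx : ∀ i, (Algebra.TensorProduct.basis B 𝔟).repr x i ∈ B₀) :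
    ∃ x₀ : B₀ ⊗[k] A, Algebra.TensorProduct.map B₀.val (AlgHom.id k A) x₀ = x := by
  classical
  let β := Algebra.TensorProduct.basis B 𝔟
  refine ⟨∑ i ∈ (β.repr x).support, (⟨β.repr x i, hx i⟩ : B₀) ⊗ₜ[k] 𝔟 i, ?_⟩
  rw [map_sum]
  have h1 := β.linearCombination_repr x
  rw [Finsupp.linearCombination_apply, Finsupp.sum] at h1
  conv_rhs => rw [← h1]
  refine Finset.sum_congr rfl fun i _ => ?_
  rw [Algebra.TensorProduct.map_tmul, Algebra.TensorProduct.basis_apply,
    TensorProduct.smul_tmul', smul_eq_mul, mul_one]
  rfl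

/-- **The tensor product of two domains over an algebraically closed field has no zero
divisors.** -/
theorem mul_eq_zero_tensor {x y : B ⊗[k] A} (h : x * y = 0) : x = 0 ∨ y = 0 := by
  classical
  let 𝔟 := Module.Basis.ofVectorSpace k A
  let β := Algebra.TensorProduct.basis B 𝔟
  -- the subalgebra generated by all coordinates of `x` and `y`
  let s : Finset B := (β.repr x).support.image (β.repr x) ∪ (β.repr y).support.image (β.repr y)
  let B₀ : Subalgebra k B := Algebra.adjoin k (s : Set B)
  have hmem : ∀ z : B ⊗[k] A, (z = x ∨ z = y) → ∀ i, β.repr z i ∈ B₀ := by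
    intro z hz i
    by_cases hi : β.repr z i = 0
    · rw [hi]; exact B₀.zero_mem
    · refine Algebra.subset_adjoin ?_
      rcases hz with rfl | rfl
      · exact Finset.mem_coe.2 (Finset.mem_union_left _
          (Finset.mem_image_of_mem _ (Finsupp.mem_support_iff.2 hi)))
      · exact Finset.mem_coe.2 (Finset.mem_union_right _
          (Finset.mem_image_of_mem _ (Finsupp.mem_support_iff.2 hi)))
  obtain ⟨x₀, hx₀⟩ := exists_mem_range_of_coord_mem 𝔟 B₀ x (hmem x (Or.inl rfl))
  obtain ⟨y₀, hy₀⟩ := exists_mem_range_of_coord_mem 𝔟 B₀ y (hmem y (Or.inr rfl))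
  have : Algebra.FiniteType k B₀ := (Subalgebra.fg_iff_finiteType B₀).1 (Subalgebra.fg_adjoin_finset s)
  -- the comparison map is injective
  have hinj : Function.Injective (Algebra.TensorProduct.map B₀.val (AlgHom.id k A)) := by
    have := Module.Flat.rTensor_preserves_injective_linearMap (M := A) B₀.val.toLinearMap
      Subtype.val_injective
    exact this
  have h0 : x₀ * y₀ = 0 := by
    apply hinj
    rw [map_mul, hx₀, hy₀, h, map_zero]
  rcases mul_eq_zero_of_finiteType h0 with h1 | h1
  · left; rw [← hx₀, h1, map_zero]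
  · right; rw [← hy₀, h1, map_zero]

variable (k A B) in
/-- **The tensor product of two domains over an algebraically closed field is a domain.** -/
theorem isDomain_tensorProduct_of_isAlgClosed : IsDomain (B ⊗[k] A) := by
  have : Nontrivial (B ⊗[k] A) :=
    Algebra.TensorProduct.nontrivial_of_algebraMap_injective_of_isDomain k B A
      (algebraMap k B).injective (algebraMap k A).injective
  have : NoZeroDivisors (B ⊗[k] A) := ⟨fun h => mul_eq_zero_tensor h⟩
  exact NoZeroDivisors.to_isDomain _

variable (k A B) in
theorem noZeroDivisors_tensorProduct_of_isAlgClosed : NoZeroDivisors (B ⊗[k] A) :=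
  ⟨fun h => mul_eq_zero_tensor h⟩

end Tensor

end Fermat.Agent.GR.H.TensorDomain
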