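/-
GATE-R (S17) / heights, Mathlib-only brick (helper71): **the Gauss norm on `KK ⊗[k] V`** with respect
to a valuation `v` of the field `KK ⊇ k` which is trivial on (more precisely `≤ 1` on) the
algebraically closed field of constants `k`.

* `gaussNorm v 𝔟 x` : maximum of `v` over the coordinates of `x ∈ KK ⊗[k] V` in the `KK`-basis
  `1 ⊗ 𝔟 i` (`𝔟` a `k`-basis of `V`); `gaussNorm_le_iff`, `exists_eq_gaussNorm`, `gaussNorm_smul`,
  `gaussNorm_add_le`, `gaussNorm_eq_zero_iff`;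
* `gaussNorm_le_one_iff` : Gauss norm `≤ 1` iff `x` comes from `O ⊗[k] V`, `O` the valuation ring;
* `gaussNorm_baseChange_le`, `gaussNorm_baseChange_of_injective` : `k`-linear maps do not increase
  the Gauss norm, injective ones preserve it (so it is independent of the basis and compatible
  with subspaces `V ⊆ A`);
* `gaussNorm_mul` : for a `k`-algebra `A` which is a domain, the Gauss norm on `KK ⊗[k] A` is
  **multiplicative** (because `κ(O) ⊗[k] A` is a domain: `TensorDomain`);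
  `gaussValuation : Valuation (KK ⊗[k] A) Γ₀`.
-/
import Mathlib
import Fermat.Agent.GR.H.TensorDomain

set_option autoImplicit false

open scoped TensorProduct
open Algebra.TensorProduct

namespace Fermat.Agent.GR.H.GaussNorm

section Coord

variable {k : Type*} [Field k] {V : Type*} [AddCommGroup V] [Module k V] {ι : Type*}
  (𝔟 : Module.Basis ι k V)
variable {B C : Type*} [CommRing B] [CommRing C] [Algebra k B] [Algebra k C]

/-- coordinates are compatible with base change of the scalars -/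
theorem repr_rTensor (φ : B →ₐ[k] C) (x : B ⊗[k] V) (i : ι) :
    (basis C 𝔟).repr (LinearMap.rTensor V φ.toLinearMap x) i = φ ((basis B 𝔟).repr x i) := by
  induction x using TensorProduct.induction_on with
  | zero => simp
  | tmul b a =>
    rw [LinearMap.rTensor_tmul, basis_repr_tmul, basis_repr_tmul]
    simp
  | add x y hx hy =>
    simp only [map_add, Finsupp.add_apply, hx, hy]

end Coord

section Norm

variable {k : Type*} [Field k] {KK : Type*} [Field KK] [Algebra k KK]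
variable {Γ₀ : Type*} [LinearOrderedCommGroupWithZero Γ₀] (v : Valuation KK Γ₀)
variable {V : Type*} [AddCommGroup V] [Module k V] {ι : Type*} (𝔟 : Module.Basis ι k V)

/-- the **Gauss norm** of `x ∈ KK ⊗[k] V` with respect to a `k`-basis of `V`: the maximum of the
valuations of the coordinates. -/
noncomputable def gaussNorm (x : KK ⊗[k] V) : Γ₀ :=
  ((basis KK 𝔟).repr x).support.sup fun i => v ((basis KK 𝔟).repr x i)

theorem le_gaussNorm (x : KK ⊗[k] V) (i : ι) : v ((basis KK 𝔟).repr x i) ≤ gaussNorm v 𝔟 x := by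
  by_cases hi : (basis KK 𝔟).repr x i = 0
  · rw [hi, map_zero]; exact zero_le
  · exact Finset.le_sup (f := fun i => v ((basis KK 𝔟).repr x i)) (Finsupp.mem_support_iff.2 hi)

theorem gaussNorm_le_iff {x : KK ⊗[k] V} {γ : Γ₀} :
    gaussNorm v 𝔟 x ≤ γ ↔ ∀ i, v ((basis KK 𝔟).repr x i) ≤ γ :=
  ⟨fun h i => (le_gaussNorm v 𝔟 x i).trans h, fun h => Finset.sup_le fun i _ => h i⟩

theorem exists_eq_gaussNorm {x : KK ⊗[k] V} (hx : x ≠ 0) :
    ∃ i, (basis KK 𝔟).repr x i ≠ 0 ∧ v ((basis KK 𝔟).repr x i) = gaussNorm v 𝔟 x := by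
  have hne : ((basis KK 𝔟).repr x).support.Nonempty := by
    rw [Finsupp.support_nonempty_iff]
    exact fun h0 => hx ((basis KK 𝔟).repr.map_eq_zero_iff.1 h0)
  obtain ⟨i, hi, hsup⟩ := Finset.exists_mem_eq_sup _ hne fun i => v ((basis KK 𝔟).repr x i)
  exact ⟨i, Finsupp.mem_support_iff.1 hi, hsup.symm⟩

@[simp] theorem gaussNorm_zero : gaussNorm v 𝔟 (0 : KK ⊗[k] V) = 0 := by
  apply le_antisymm _ zero_le
  rw [gaussNorm_le_iff]
  intro i
  simp

theorem gaussNorm_eq_zero_iff {x : KK ⊗[k] V} : gaussNorm v 𝔟 x = 0 ↔ x = 0 := by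
  refine ⟨fun h => ?_, fun h => by rw [h, gaussNorm_zero]⟩
  by_contra hx
  obtain ⟨i, hi, hv⟩ := exists_eq_gaussNorm v 𝔟 hx
  rw [h, Valuation.zero_iff] at hv
  exact hi hv

theorem gaussNorm_smul (c : KK) (x : KK ⊗[k] V) :
    gaussNorm v 𝔟 (c • x) = v c * gaussNorm v 𝔟 x := by
  by_cases hc : c = 0
  · simp [hc]
  by_cases hx : x = 0
  · simp [hx]
  apply le_antisymm
  · rw [gaussNorm_le_iff]
    intro i
    rw [map_smul, Finsupp.smul_apply, smul_eq_mul, map_mul]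
    exact mul_le_mul_right (le_gaussNorm v 𝔟 x i) _
  · obtain ⟨i, -, hi⟩ := exists_eq_gaussNorm v 𝔟 hx
    rw [← hi, ← map_mul]
    have := le_gaussNorm v 𝔟 (c • x) i
    rwa [map_smul, Finsupp.smul_apply, smul_eq_mul] at this

theorem gaussNorm_add_le (x y : KK ⊗[k] V) :
    gaussNorm v 𝔟 (x + y) ≤ max (gaussNorm v 𝔟 x) (gaussNorm v 𝔟 y) := by
  rw [gaussNorm_le_iff]
  intro i
  rw [map_add, Finsupp.add_apply]
  exact (v.map_add _ _).trans (max_le_max (le_gaussNorm v 𝔟 x i) (le_gaussNorm v 𝔟 y i))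

end Norm

section Integral

variable {k : Type*} [Field k] {KK : Type*} [Field KK] [Algebra k KK]
variable {Γ₀ : Type*} [LinearOrderedCommGroupWithZero Γ₀] (v : Valuation KK Γ₀)
variable (hv : ∀ c : k, v (algebraMap k KK c) ≤ 1)
variable {V : Type*} [AddCommGroup V] [Module k V] {ι : Type*} (𝔟 : Module.Basis ι k V)

/-- the valuation ring of `v` as a `k`-subalgebra of `KK` -/
def integerSubalgebra : Subalgebra k KK :=
  { v.integer with algebraMap_mem' := hv }

theorem mem_integerSubalgebra {c : KK} : c ∈ integerSubalgebra v hv ↔ v c ≤ 1 := Iff.rfl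

/-- `x ∈ KK ⊗ V` has Gauss norm `≤ 1` iff it comes from `O ⊗ V`. -/
theorem gaussNorm_le_one_iff (x : KK ⊗[k] V) :
    gaussNorm v 𝔟 x ≤ 1 ↔
      ∃ x₀ : (integerSubalgebra v hv) ⊗[k] V,
        LinearMap.rTensor V (integerSubalgebra v hv).val.toLinearMap x₀ = x := by
  classical
  rw [gaussNorm_le_iff]
  constructor
  · intro h
    let β := basis KK 𝔟
    refine ⟨∑ i ∈ (β.repr x).support, (⟨β.repr x i, h i⟩ : integerSubalgebra v hv) ⊗ₜ[k] 𝔟 i, ?_⟩
    rw [map_sum]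
    have h1 := β.linearCombination_repr x
    rw [Finsupp.linearCombination_apply, Finsupp.sum] at h1
    conv_rhs => rw [← h1]
    refine Finset.sum_congr rfl fun i _ => ?_
    rw [LinearMap.rTensor_tmul, basis_apply, TensorProduct.smul_tmul', smul_eq_mul, mul_one]
    rfl
  · rintro ⟨x₀, rfl⟩ i
    rw [repr_rTensor]
    exact ((basis (integerSubalgebra v hv) 𝔟).repr x₀ i).2

variable {V' : Type*} [AddCommGroup V'] [Module k V'] {ι' : Type*} (𝔟' : Module.Basis ι' k V')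

include hv in
/-- `k`-linear maps do not increase the Gauss norm -/
theorem gaussNorm_baseChange_le (f : V →ₗ[k] V') (x : KK ⊗[k] V) :
    gaussNorm v 𝔟' (LinearMap.baseChange KK f x) ≤ gaussNorm v 𝔟 x := by
  by_cases hx : x = 0
  · simp [hx]
  obtain ⟨i, hi, hvi⟩ := exists_eq_gaussNorm v 𝔟 hx
  set c := (basis KK 𝔟).repr x i with hc
  have h1 : gaussNorm v 𝔟 (c⁻¹ • x) ≤ 1 := by
    rw [gaussNorm_smul, ← hvi, ← map_mul, inv_mul_cancel₀ hi, map_one]
  obtain ⟨x₀, hx₀⟩ := (gaussNorm_le_one_iff v hv 𝔟 _).1 h1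
  have hcomm : ∀ z : (integerSubalgebra v hv) ⊗[k] V,
      LinearMap.rTensor V' (integerSubalgebra v hv).val.toLinearMap (LinearMap.lTensor _ f z) =
        LinearMap.baseChange KK f
          (LinearMap.rTensor V (integerSubalgebra v hv).val.toLinearMap z) := by
    intro z
    induction z using TensorProduct.induction_on with
    | zero => simp
    | tmul b a => simp
    | add x y hx hy => simp only [map_add, hx, hy]
  have h2 : gaussNorm v 𝔟' (LinearMap.baseChange KK f (c⁻¹ • x)) ≤ 1 := by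
    rw [gaussNorm_le_one_iff v hv 𝔟']
    exact ⟨LinearMap.lTensor _ f x₀, by rw [hcomm, hx₀]⟩
  rw [map_smul, gaussNorm_smul, map_inv₀, hvi] at h2
  have h0 : gaussNorm v 𝔟 x ≠ 0 := by rwa [Ne, gaussNorm_eq_zero_iff]
  calc gaussNorm v 𝔟' (LinearMap.baseChange KK f x)
      = gaussNorm v 𝔟 x * ((gaussNorm v 𝔟 x)⁻¹ * gaussNorm v 𝔟' (LinearMap.baseChange KK f x)) := by
        rw [← mul_assoc, mul_inv_cancel₀ h0, one_mul]
    _ ≤ gaussNorm v 𝔟 x * 1 := mul_le_mul_right h2 _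
    _ = gaussNorm v 𝔟 x := mul_one _

include hv in
/-- injective `k`-linear maps preserve the Gauss norm; in particular the Gauss norm does not depend
on the basis -/
theorem gaussNorm_baseChange_of_injective (f : V →ₗ[k] V') (hf : Function.Injective f)
    (x : KK ⊗[k] V) :
    gaussNorm v 𝔟' (LinearMap.baseChange KK f x) = gaussNorm v 𝔟 x := by
  apply le_antisymm (gaussNorm_baseChange_le v hv 𝔟 𝔟' f x)
  obtain ⟨g, hg⟩ := LinearMap.exists_leftInverse_of_injective f (LinearMap.ker_eq_bot.2 hf)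
  have h1 := gaussNorm_baseChange_le v hv 𝔟' 𝔟 g (LinearMap.baseChange KK f x)
  have h2 : LinearMap.baseChange KK g (LinearMap.baseChange KK f x) = x := by
    rw [← LinearMap.comp_apply, ← LinearMap.baseChange_comp, hg, LinearMap.baseChange_id,
      LinearMap.id_apply]
  rwa [h2] at h1

end Integral

section Mul

variable {k : Type*} [Field k] {KK : Type*} [Field KK] [Algebra k KK]
variable {Γ₀ : Type*} [LinearOrderedCommGroupWithZero Γ₀] (v : Valuation KK Γ₀)
variable (hv : ∀ c : k, v (algebraMap k KK c) ≤ 1)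

/-- the maximal ideal `{v < 1}` of the valuation ring -/
def maxIdeal : Ideal (integerSubalgebra v hv) where
  carrier := {c | v (c : KK) < 1}
  add_mem' := fun {a b} ha hb => lt_of_le_of_lt (v.map_add _ _) (max_lt ha hb)
  zero_mem' := by simp
  smul_mem' := fun c a ha => by
    show v ((c : KK) * (a : KK)) < 1
    rw [map_mul]
    exact lt_of_le_of_lt (mul_le_mul_left c.2 _) (by rwa [one_mul])

theorem mem_maxIdeal {c : integerSubalgebra v hv} : c ∈ maxIdeal v hv ↔ v (c : KK) < 1 := Iff.rfl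

instance maxIdeal_isMaximal : (maxIdeal v hv).IsMaximal := by
  rw [Ideal.isMaximal_iff]
  refine ⟨fun h => ?_, fun J x _ hxm hxJ => ?_⟩
  · have : v ((1 : integerSubalgebra v hv) : KK) < 1 := h
    simp at this
  · -- `x` is a unit of the valuation ring
    have hx1 : v (x : KK) = 1 := le_antisymm x.2 (not_lt.1 hxm)
    have hx0 : (x : KK) ≠ 0 := by
      intro h0
      rw [h0, map_zero] at hx1
      exact zero_ne_one hx1
    have hinv : v ((x : KK)⁻¹) ≤ 1 := by rw [map_inv₀, hx1, inv_one]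
    have : (1 : integerSubalgebra v hv) = (⟨(x : KK)⁻¹, hinv⟩ : integerSubalgebra v hv) * x := by
      apply Subtype.ext
      show (1 : KK) = (x : KK)⁻¹ * (x : KK)
      rw [inv_mul_cancel₀ hx0]
    rw [this]
    exact J.mul_mem_left _ hxJ

variable [IsAlgClosed k]
variable {A : Type*} [CommRing A] [Algebra k A] [IsDomain A] {ι : Type*} (𝔟 : Module.Basis ι k A)

include hv in
/-- **The Gauss norm is multiplicative.** -/
theorem gaussNorm_mul (x y : KK ⊗[k] A) :
    gaussNorm v 𝔟 (x * y) = gaussNorm v 𝔟 x * gaussNorm v 𝔟 y := by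
  classical
  by_cases hx : x = 0
  · simp [hx]
  by_cases hy : y = 0
  · simp [hy]
  -- normalise
  obtain ⟨i, hi, hvi⟩ := exists_eq_gaussNorm v 𝔟 hx
  obtain ⟨j, hj, hvj⟩ := exists_eq_gaussNorm v 𝔟 hy
  set c := (basis KK 𝔟).repr x i with hc
  set d := (basis KK 𝔟).repr y j with hd
  have hx1 : gaussNorm v 𝔟 (c⁻¹ • x) ≤ 1 := by
    rw [gaussNorm_smul, ← hvi, ← map_mul, inv_mul_cancel₀ hi, map_one]
  have hy1 : gaussNorm v 𝔟 (d⁻¹ • y) ≤ 1 := by
    rw [gaussNorm_smul, ← hvj, ← map_mul, inv_mul_cancel₀ hj, map_one]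
  let O := integerSubalgebra v hv
  let 𝔪 := maxIdeal v hv
  let _ := Ideal.Quotient.field 𝔪
  let incl : O ⊗[k] A →ₐ[k] KK ⊗[k] A := Algebra.TensorProduct.map O.val (AlgHom.id k A)
  let red : O ⊗[k] A →ₐ[k] (O ⧸ 𝔪) ⊗[k] A :=
    Algebra.TensorProduct.map (Ideal.Quotient.mkₐ k 𝔪) (AlgHom.id k A)
  have hincl : ∀ z, incl z = LinearMap.rTensor A O.val.toLinearMap z := fun z => rfl
  have hred : ∀ z, red z = LinearMap.rTensor A (Ideal.Quotient.mkₐ k 𝔪).toLinearMap z :=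
    fun z => rfl
  obtain ⟨x₀, hx₀⟩ := (gaussNorm_le_one_iff v hv 𝔟 _).1 hx1
  obtain ⟨y₀, hy₀⟩ := (gaussNorm_le_one_iff v hv 𝔟 _).1 hy1
  rw [← hincl] at hx₀ hy₀
  -- the reductions are nonzero
  have hredx : red x₀ ≠ 0 := by
    intro h0
    have h1 := repr_rTensor 𝔟 (Ideal.Quotient.mkₐ k 𝔪) x₀ i
    rw [← hred, h0, map_zero, Finsupp.zero_apply] at h1
    have h2 : (basis O 𝔟).repr x₀ i ∈ 𝔪 := Ideal.Quotient.eq_zero_iff_mem.1 h1.symm
    have h3 := repr_rTensor 𝔟 O.val x₀ i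
    rw [← hincl, hx₀, map_smul, Finsupp.smul_apply, smul_eq_mul, ← hc, inv_mul_cancel₀ hi] at h3
    have h4 : v (((basis O 𝔟).repr x₀ i : O) : KK) < 1 := h2
    rw [show (((basis O 𝔟).repr x₀ i : O) : KK) = O.val ((basis O 𝔟).repr x₀ i) from rfl,
      ← h3, map_one] at h4
    exact lt_irrefl _ h4
  have hredy : red y₀ ≠ 0 := by
    intro h0
    have h1 := repr_rTensor 𝔟 (Ideal.Quotient.mkₐ k 𝔪) y₀ j
    rw [← hred, h0, map_zero, Finsupp.zero_apply] at h1
    have h2 : (basis O 𝔟).repr y₀ j ∈ 𝔪 := Ideal.Quotient.eq_zero_iff_mem.1 h1.symm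
    have h3 := repr_rTensor 𝔟 O.val y₀ j
    rw [← hincl, hy₀, map_smul, Finsupp.smul_apply, smul_eq_mul, ← hd, inv_mul_cancel₀ hj] at h3
    have h4 : v (((basis O 𝔟).repr y₀ j : O) : KK) < 1 := h2
    rw [show (((basis O 𝔟).repr y₀ j : O) : KK) = O.val ((basis O 𝔟).repr y₀ j) from rfl,
      ← h3, map_one] at h4
    exact lt_irrefl _ h4
  -- hence the product has nonzero reduction
  have hdom : IsDomain ((O ⧸ 𝔪) ⊗[k] A) :=
    TensorDomain.isDomain_tensorProduct_of_isAlgClosed k A (O ⧸ 𝔪)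
  have hredxy : red (x₀ * y₀) ≠ 0 := by
    rw [map_mul]
    exact mul_ne_zero hredx hredy
  -- the product of the normalised elements has Gauss norm one
  have hprod : gaussNorm v 𝔟 ((c⁻¹ • x) * (d⁻¹ • y)) = 1 := by
    have hxy : (c⁻¹ • x) * (d⁻¹ • y) = incl (x₀ * y₀) := by rw [map_mul, hx₀, hy₀]
    apply le_antisymm
    · rw [gaussNorm_le_one_iff v hv 𝔟]
      exact ⟨x₀ * y₀, by rw [← hincl, hxy]⟩
    · have hne : (basis (O ⧸ 𝔪) 𝔟).repr (red (x₀ * y₀)) ≠ 0 := fun h0 =>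
        hredxy ((basis (O ⧸ 𝔪) 𝔟).repr.map_eq_zero_iff.1 h0)
      obtain ⟨l, hl⟩ := Finsupp.ne_iff.1 hne
      rw [Finsupp.zero_apply, hred, repr_rTensor] at hl
      have h2 : (basis O 𝔟).repr (x₀ * y₀) l ∉ 𝔪 := fun hmem =>
        hl (Ideal.Quotient.eq_zero_iff_mem.2 hmem)
      have h3 : v (((basis O 𝔟).repr (x₀ * y₀) l : O) : KK) = 1 :=
        le_antisymm ((basis O 𝔟).repr (x₀ * y₀) l).2 (not_lt.1 h2)
      have h4 := repr_rTensor 𝔟 O.val (x₀ * y₀) l
      rw [← hincl, ← hxy] at h4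
      rw [← h3]
      have h5 := le_gaussNorm v 𝔟 ((c⁻¹ • x) * (d⁻¹ • y)) l
      rw [h4] at h5
      exact h5
  have h6 : (c⁻¹ • x) * (d⁻¹ • y) = (c⁻¹ * d⁻¹) • (x * y) := by
    rw [smul_mul_smul_comm]
  rw [h6, gaussNorm_smul, map_mul, map_inv₀, map_inv₀, hvi, hvj] at hprod
  have hgx : gaussNorm v 𝔟 x ≠ 0 := by rwa [Ne, gaussNorm_eq_zero_iff]
  have hgy : gaussNorm v 𝔟 y ≠ 0 := by rwa [Ne, gaussNorm_eq_zero_iff]
  calc gaussNorm v 𝔟 (x * y)
      = (gaussNorm v 𝔟 x * gaussNorm v 𝔟 y) *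
          ((gaussNorm v 𝔟 x)⁻¹ * (gaussNorm v 𝔟 y)⁻¹ * gaussNorm v 𝔟 (x * y)) := by
        rw [← mul_assoc, ← mul_assoc, mul_assoc (gaussNorm v 𝔟 x) (gaussNorm v 𝔟 y),
          mul_comm (gaussNorm v 𝔟 y) (gaussNorm v 𝔟 x)⁻¹, ← mul_assoc, mul_inv_cancel₀ hgx, one_mul,
          mul_inv_cancel₀ hgy, one_mul]
    _ = gaussNorm v 𝔟 x * gaussNorm v 𝔟 y := by rw [hprod, mul_one]

include hv in
theorem gaussNorm_one : gaussNorm v 𝔟 (1 : KK ⊗[k] A) = 1 := by
  have h1 := gaussNorm_mul v hv 𝔟 (1 : KK ⊗[k] A) 1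
  rw [mul_one] at h1
  have hdom : IsDomain (KK ⊗[k] A) :=
    TensorDomain.isDomain_tensorProduct_of_isAlgClosed k A KK
  have h0 : gaussNorm v 𝔟 (1 : KK ⊗[k] A) ≠ 0 := by
    rw [Ne, gaussNorm_eq_zero_iff]
    exact one_ne_zero
  have h2 : gaussNorm v 𝔟 (1 : KK ⊗[k] A) * 1 =
      gaussNorm v 𝔟 (1 : KK ⊗[k] A) * gaussNorm v 𝔟 (1 : KK ⊗[k] A) := by
    rw [mul_one]
    exact h1
  exact (mul_left_cancel₀ h0 h2).symm

/-- the **Gauss valuation** on `KK ⊗[k] A` extending `v` -/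
noncomputable def gaussValuation : Valuation (KK ⊗[k] A) Γ₀ where
  toFun := gaussNorm v 𝔟
  map_zero' := gaussNorm_zero v 𝔟
  map_one' := gaussNorm_one v hv 𝔟
  map_mul' := gaussNorm_mul v hv 𝔟
  map_add_le_max' := gaussNorm_add_le v 𝔟

theorem gaussValuation_apply (x : KK ⊗[k] A) :
    gaussValuation v hv 𝔟 x = gaussNorm v 𝔟 x := rfl

theorem gaussValuation_tmul_one (c : KK) :
    gaussValuation v hv 𝔟 (c ⊗ₜ[k] (1 : A)) = v c := by
  have h1 : c ⊗ₜ[k] (1 : A) = c • (1 : KK ⊗[k] A) := by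
    rw [Algebra.TensorProduct.one_def, TensorProduct.smul_tmul', smul_eq_mul, mul_one]
  rw [gaussValuation_apply, h1, gaussNorm_smul, gaussNorm_one v hv 𝔟, mul_one]

end Mul

end Fermat.Agent.GR.H.GaussNorm
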