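/-
GATE-R / GR-H-HM (helper23): the VALUATIVE HEIGHT MACHINE.  Mathlib only.

`x : ι → KK`, `y : ι' → KK` tuples in a field `KK ⊇ k`.  If at EVERY valuation subring `O ⊇ k` of
`KK` every `y j` is dominated by some `x i` (`O.valuation (y j) ≤ O.valuation (x i)`), then there is
a constant `C` with `logHeight η ≤ logHeight ξ + C` for all `k`-rational specialisations `(ξ, η)`
of `(x, y)` (= tuples killing every jointly homogeneous relation of `(x, y)`).

Engine: Mathlib `iInf_valuationSubring_superset` (integral closure in a field = intersection of the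
valuation subrings) applied in `RatFunc KK` to `y T` over `k[x_i T]` (the `T`-trick makes the
integral equation homogeneous), then Mathlib `Height.logHeight_eval_ge'`.
-/
import Mathlib

set_option autoImplicit false
set_option linter.dupNamespace false

namespace Fermat.Agent.GR.H.HM

open MvPolynomial

section Coeff

variable {k KK : Type*} [Field k] [Field KK] [Algebra k KK] {ι : Type*}

/-- The `d`-th coefficient of `β(x_i T)` is the value at `x` of the degree-`d` component of `β`. -/
theorem coeff_aeval_CX (x : ι → KK) (β : MvPolynomial ι k) (d : ℕ) :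
    (aeval (fun i => Polynomial.C (x i) * (Polynomial.X : Polynomial KK)) β).coeff d =
      aeval x (homogeneousComponent d β) := by
  induction β using MvPolynomial.induction_on' with
  | monomial s c =>
    have h1 : aeval (fun i => Polynomial.C (x i) * (Polynomial.X : Polynomial KK)) (monomial s c) =
        Polynomial.C (algebraMap k KK c * s.prod fun i n => x i ^ n) * Polynomial.X ^ s.degree := by
      rw [aeval_monomial, Polynomial.C_mul, mul_assoc]
      congr 1
      rw [Finsupp.degree_apply, Finsupp.prod, Finsupp.prod, map_prod,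
        ← Finset.prod_pow_eq_pow_sum, ← Finset.prod_mul_distrib]
      refine Finset.prod_congr rfl fun i _ => ?_
      rw [mul_pow, map_pow]
    rw [h1, Polynomial.coeff_C_mul_X_pow,
      homogeneousComponent_of_mem (isHomogeneous_monomial c rfl)]
    by_cases h : d = s.degree
    · simp [h, aeval_monomial]
    · simp [h]
  | add p q hp hq => simp only [map_add, Polynomial.coeff_add, hp, hq]

end Coeff

section Integral

variable {k KK : Type*} [Field k] [Field KK] [Algebra k KK] {ι : Type*}

/-- `β ↦ β(x_i T)` as a ring hom into `RatFunc KK`. -/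
noncomputable def Psi (x : ι → KK) : MvPolynomial ι k →+* RatFunc KK :=
  (algebraMap (Polynomial KK) (RatFunc KK)).comp
    (aeval (fun i => Polynomial.C (x i) * (Polynomial.X : Polynomial KK))).toRingHom

theorem Psi_apply (x : ι → KK) (β : MvPolynomial ι k) :
    Psi x β = algebraMap (Polynomial KK) (RatFunc KK)
      (aeval (fun i => Polynomial.C (x i) * (Polynomial.X : Polynomial KK)) β) := rfl

/-- The set over which `y T` will be integral. -/
def genSet (x : ι → KK) : Set (RatFunc KK) :=
  Set.range (fun c : k => algebraMap KK (RatFunc KK) (algebraMap k KK c)) ∪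
    Set.range (fun i => algebraMap (Polynomial KK) (RatFunc KK)
      (Polynomial.C (x i) * Polynomial.X))

theorem closure_genSet_le_range (x : ι → KK) :
    Subring.closure (genSet (k := k) x) ≤ (Psi (k := k) x).range := by
  rw [Subring.closure_le]
  rintro _ (⟨c, rfl⟩ | ⟨i, rfl⟩)
  · refine ⟨C c, ?_⟩
    rw [Psi_apply, aeval_C]
    simp [Polynomial.algebraMap_apply, RatFunc.algebraMap_C]
  · exact ⟨X i, by rw [Psi_apply, aeval_X]⟩

/-- If at every valuation subring `O ⊇ k` of `KK` the element `y` is dominated by some `x i`,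
then `y T` lies in every valuation subring of `RatFunc KK` containing `k` and the `x_i T`. -/
theorem yT_mem_of_genSet_subset (x : ι → KK) (y : KK)
    (h : ∀ O : ValuationSubring KK, (∀ c : k, algebraMap k KK c ∈ O) →
      ∃ i, O.valuation y ≤ O.valuation (x i))
    (V : ValuationSubring (RatFunc KK)) (hV : genSet (k := k) x ⊆ V.toSubring) :
    algebraMap (Polynomial KK) (RatFunc KK) (Polynomial.C y * Polynomial.X) ∈ V := by
  set O : ValuationSubring KK := V.comap (algebraMap KK (RatFunc KK)) with hO
  have hk : ∀ c : k, algebraMap k KK c ∈ O := fun c => by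
    rw [hO, ValuationSubring.mem_comap]
    exact hV (Or.inl ⟨c, rfl⟩)
  obtain ⟨i, hi⟩ := h O hk
  have hxi : algebraMap (Polynomial KK) (RatFunc KK) (Polynomial.C (x i) * Polynomial.X) ∈ V :=
    hV (Or.inr ⟨i, rfl⟩)
  by_cases hx0 : x i = 0
  · rw [hx0, map_zero] at hi
    have hy0 : y = 0 := by simpa using le_antisymm hi zero_le
    rw [hy0, map_zero, zero_mul, map_zero]
    exact V.zero_mem
  · have hq : y / x i ∈ O := by
      rw [← ValuationSubring.valuation_le_one_iff, map_div₀]
      have hpos : (0 : _) < O.valuation (x i) := by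
        rw [zero_lt_iff, Ne, map_eq_zero]; exact hx0
      exact div_le_one_of_le₀ hi (le_of_lt hpos)
    rw [hO, ValuationSubring.mem_comap] at hq
    have hmul : algebraMap (Polynomial KK) (RatFunc KK) (Polynomial.C y * Polynomial.X) =
        algebraMap KK (RatFunc KK) (y / x i) *
          algebraMap (Polynomial KK) (RatFunc KK) (Polynomial.C (x i) * Polynomial.X) := by
      rw [RatFunc.algebraMap_eq_C, ← RatFunc.algebraMap_C, ← map_mul, ← mul_assoc,
        ← Polynomial.C_mul, div_mul_cancel₀ _ hx0]
    rw [hmul]
    exact V.mul_mem _ _ hq hxi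

/-- **Homogeneous integral equation from the valuative criterion.**  If at every valuation
subring `O ⊇ k` of `KK` the element `y` is dominated by some `x i`, then `y` satisfies
`∑_{m ≤ N} b_m(x) y^m = 0` with `b_N = 1` and `b_m` homogeneous of degree `N - m` over `k`. -/
theorem exists_homogeneous_integral (x : ι → KK) (y : KK)
    (h : ∀ O : ValuationSubring KK, (∀ c : k, algebraMap k KK c ∈ O) →
      ∃ i, O.valuation y ≤ O.valuation (x i)) :
    ∃ (N : ℕ) (b : ℕ → MvPolynomial ι k), 0 < N ∧
      (∀ m, m ≤ N → (b m).IsHomogeneous (N - m)) ∧ b N = 1 ∧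
      ∑ m ∈ Finset.range (N + 1), aeval x (b m) * y ^ m = 0 := by
  classical
  set yT : RatFunc KK :=
    algebraMap (Polynomial KK) (RatFunc KK) (Polynomial.C y * Polynomial.X) with hyT
  have hmem : yT ∈ (integralClosure (Subring.closure (genSet (k := k) x)) (RatFunc KK)).toSubring := by
    rw [← iInf_valuationSubring_superset, Subring.mem_iInf]
    rintro ⟨V, hV⟩
    exact yT_mem_of_genSet_subset x y h V hV
  obtain ⟨p, hp_monic, hp_eval⟩ : IsIntegral (Subring.closure (genSet (k := k) x)) yT := hmem
  have hβ : ∀ m : ℕ, ∃ β : MvPolynomial ι k, Psi x β = ((p.coeff m : Subring.closure _) : RatFunc KK) :=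
    fun m => closure_genSet_le_range x (p.coeff m).2
  choose β hβ using hβ
  set N := p.natDegree with hN
  set Φ : MvPolynomial ι k →ₐ[k] Polynomial KK :=
    aeval (fun i => Polynomial.C (x i) * (Polynomial.X : Polynomial KK)) with hΦ
  have hinj : Function.Injective (algebraMap (Polynomial KK) (RatFunc KK)) :=
    RatFunc.algebraMap_injective KK
  -- the equation in `Polynomial KK`
  have hQ : ∑ m ∈ Finset.range (N + 1), Φ (β m) * (Polynomial.C y * Polynomial.X) ^ m = 0 := by
    apply hinj
    rw [map_zero, map_sum, ← hp_eval, Polynomial.eval₂_eq_sum_range]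
    refine Finset.sum_congr rfl fun m _ => ?_
    rw [map_mul, map_pow, ← hyT]
    congr 1
    exact hβ m
  have hΦN : Φ (β N) = 1 := by
    apply hinj
    rw [map_one]
    have := hβ N
    rw [Psi_apply] at this
    rw [this, hN, hp_monic.coeff_natDegree]
    rfl
  have hNpos : 0 < N := by
    rcases Nat.eq_zero_or_pos N with h0 | h0
    · exfalso
      have hp1 : p = 1 := Polynomial.eq_one_of_monic_natDegree_zero hp_monic (hN ▸ h0)
      rw [hp1, Polynomial.eval₂_one] at hp_eval
      exact one_ne_zero hp_eval
    · exact h0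
  refine ⟨N, fun m => if m = N then 1 else homogeneousComponent (N - m) (β m), hNpos, ?_, ?_, ?_⟩
  · intro m _
    by_cases hm : m = N
    · simp only [hm, if_true, Nat.sub_self]
      exact isHomogeneous_one _ _
    · simp only [hm, if_false]
      exact homogeneousComponent_isHomogeneous _ _
  · simp
  · have hc := congrArg (fun q : Polynomial KK => q.coeff N) hQ
    simp only [Polynomial.finsetSum_coeff, Polynomial.coeff_zero] at hc
    rw [← hc]
    refine Finset.sum_congr rfl fun m hm => ?_
    have hmN : m ≤ N := Nat.lt_succ_iff.mp (Finset.mem_range.mp hm)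
    rw [mul_pow, ← Polynomial.C_pow, ← mul_assoc, Polynomial.coeff_mul_X_pow', if_pos hmN,
      Polynomial.coeff_mul_C]
    by_cases hm' : m = N
    · subst hm'
      simp only [if_true, map_one, Nat.sub_self]
      rw [hΦN, Polynomial.coeff_one_zero]
    · simp only [hm', if_false]
      rw [hΦ, coeff_aeval_CX]

end Integral

section Decomp

variable {k : Type*} [Field k] {ι : Type*} [Fintype ι]

/-- A homogeneous polynomial of positive degree lies in
`∑ X_i · (homogeneous of one degree less)`. -/
theorem exists_eq_sum_X_mul (b : MvPolynomial ι k) {d : ℕ} (hb : b.IsHomogeneous (d + 1)) :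
    ∃ c : ι → MvPolynomial ι k, (∀ i, (c i).IsHomogeneous d) ∧ b = ∑ i, X i * c i := by
  classical
  rw [← b.support_sum_monomial_coeff]
  refine Finset.sum_induction _
    (fun b => ∃ c : ι → MvPolynomial ι k, (∀ i, (c i).IsHomogeneous d) ∧ b = ∑ i, X i * c i)
    ?_ ?_ ?_
  · rintro p q ⟨c, hc, rfl⟩ ⟨c', hc', rfl⟩
    exact ⟨c + c', fun i => (hc i).add (hc' i), by simp [mul_add, Finset.sum_add_distrib]⟩
  · exact ⟨0, fun i => isHomogeneous_zero _ _ _, by simp⟩
  · intro s hs
    have hdeg : s.degree = d + 1 := by
      have := hb (mem_support_iff.mp hs)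
      rw [Finsupp.degree_eq_weight_one]
      exact this
    obtain ⟨i, hi⟩ : ∃ i, s i ≠ 0 := by
      by_contra hcon
      push Not at hcon
      have : s = 0 := Finsupp.ext hcon
      simp [this] at hdeg
    have hs' : s = Finsupp.single i 1 + (s - Finsupp.single i 1) := by
      ext j
      by_cases hj : j = i
      · subst hj
        simp only [Finsupp.coe_add, Finsupp.coe_tsub, Pi.add_apply, Pi.sub_apply,
          Finsupp.single_eq_same]
        omega
      · simp [Finsupp.single_eq_of_ne hj]
    refine ⟨Pi.single i (monomial (s - Finsupp.single i 1) (coeff s b)), ?_, ?_⟩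
    · intro j
      by_cases hj : j = i
      · subst hj
        rw [Pi.single_eq_same]
        apply isHomogeneous_monomial
        have h2 := congrArg Finsupp.degree hs'
        rw [map_add, hdeg, Finsupp.degree_single] at h2
        omega
      · rw [Pi.single_eq_of_ne hj]
        exact isHomogeneous_zero _ _ _
    · rw [Finset.sum_eq_single i]
      · rw [Pi.single_eq_same, ← pow_one (X i : MvPolynomial ι k), ← monomial_single_add, ← hs']
      · intro j _ hj
        rw [Pi.single_eq_of_ne hj, mul_zero]
      · intro h; exact absurd (Finset.mem_univ i) h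

end Decomp

section Spec

variable {k KK : Type*} [Field k] [Field KK] [Algebra k KK] {ι ι' : Type*}

/-- `(ξ, η)` is a `k`-rational specialisation of `(x, y)`: it kills every JOINTLY homogeneous
polynomial relation over `k` between the `x i` and the `y j`.  (Joint homogeneity = the two tuples
are only defined up to ONE common scalar.) -/
def IsSpec (x : ι → KK) (y : ι' → KK) (ξ : ι → k) (η : ι' → k) : Prop :=
  ∀ (n : ℕ) (G : MvPolynomial (ι ⊕ ι') k), G.IsHomogeneous n →
    aeval (Sum.elim x y) G = 0 → eval (Sum.elim ξ η) G = 0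

theorem IsSpec.swap {x : ι → KK} {y : ι' → KK} {ξ : ι → k} {η : ι' → k}
    (h : IsSpec x y ξ η) : IsSpec y x η ξ := by
  intro n G hG h0
  have e1 : (Sum.elim x y) ∘ Sum.swap = Sum.elim y x := by
    funext s; cases s <;> rfl
  have e2 : (Sum.elim ξ η) ∘ Sum.swap = Sum.elim η ξ := by
    funext s; cases s <;> rfl
  have := h n (rename Sum.swap G) hG.rename_isHomogeneous (by rw [aeval_rename, e1]; exact h0)
  rwa [eval_rename, e2] at this

end Spec

section Machine

variable {k KK : Type*} [Field k] [Field KK] [Algebra k KK] {ι ι' : Type*}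
  [Fintype ι] [Fintype ι'] [Height.AdmissibleAbsValues k]

/-- **The valuative height machine (one-sided).**  If at every valuation subring `O ⊇ k` of `KK`
every `y j` is dominated by some `x i`, then `logHeight η ≤ logHeight ξ + C` for all `k`-rational
specialisations `(ξ, η)` of `(x, y)`. -/
theorem HM (x : ι → KK) (y : ι' → KK)
    (h : ∀ O : ValuationSubring KK, (∀ c : k, algebraMap k KK c ∈ O) →
      ∀ j, ∃ i, O.valuation (y j) ≤ O.valuation (x i)) :
    ∃ C : ℝ, ∀ (ξ : ι → k) (η : ι' → k), IsSpec x y ξ η →
      Height.logHeight η ≤ Height.logHeight ξ + C := by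
  classical
  have h1 : ∀ j, ∃ (N : ℕ) (b : ℕ → MvPolynomial ι k), 0 < N ∧
      (∀ m, m ≤ N → (b m).IsHomogeneous (N - m)) ∧ b N = 1 ∧
      ∑ m ∈ Finset.range (N + 1), aeval x (b m) * y j ^ m = 0 :=
    fun j => exists_homogeneous_integral x (y j) (fun O hO => h O hO j)
  choose N b hNpos hhom hbN hsum using h1
  -- decomposition of the lower coefficients
  have h2 : ∀ j m, ∃ c : ι → MvPolynomial ι k, m < N j →
      (∀ i, (c i).IsHomogeneous (N j - m - 1)) ∧ b j m = ∑ i, X i * c i := by
    intro j m
    by_cases hm : m < N j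
    · have hh := hhom j m hm.le
      have e : N j - m = (N j - m - 1) + 1 := by omega
      rw [e] at hh
      obtain ⟨c, hc, hbc⟩ := exists_eq_sum_X_mul (b j m) hh
      exact ⟨c, fun _ => ⟨hc, hbc⟩⟩
    · exact ⟨fun _ => 0, fun h => absurd h hm⟩
  choose c hc using h2
  set M := ∑ j, N j with hM
  have hNM : ∀ j, N j ≤ M := fun j =>
    Finset.single_le_sum (f := N) (fun _ _ => Nat.zero_le _) (Finset.mem_univ j)
  -- the certificate for `Height.logHeight_eval_ge'`
  let q : (ι ⊕ ι') × ι → MvPolynomial (ι ⊕ ι') k := fun a =>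
    Sum.rec (motive := fun _ => MvPolynomial (ι ⊕ ι') k)
      (fun i₀ => if a.2 = i₀ then X (Sum.inl i₀) ^ M else 0)
      (fun j => -(X (Sum.inr j) ^ (M + 1 - N j) *
        ∑ m ∈ Finset.range (N j), rename Sum.inl (c j m a.2) * X (Sum.inr j) ^ m)) a.1
  have hq : ∀ a, (q a).IsHomogeneous M := by
    rintro ⟨s, i⟩
    cases s with
    | inl i₀ =>
      show (if i = i₀ then X (Sum.inl i₀) ^ M else 0 : MvPolynomial (ι ⊕ ι') k).IsHomogeneous M
      split_ifs
      · exact isHomogeneous_X_pow _ _
      · exact isHomogeneous_zero _ _ _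
    | inr j =>
      show (-(X (Sum.inr j) ^ (M + 1 - N j) *
        ∑ m ∈ Finset.range (N j), rename Sum.inl (c j m i) * X (Sum.inr j) ^ m) :
          MvPolynomial (ι ⊕ ι') k).IsHomogeneous M
      apply IsHomogeneous.neg
      have e : (M + 1 - N j) + (N j - 1) = M := by
        have := hNpos j; have := hNM j; omega
      have hsum' : (∑ m ∈ Finset.range (N j), rename Sum.inl (c j m i) * X (Sum.inr j) ^ m :
          MvPolynomial (ι ⊕ ι') k).IsHomogeneous (N j - 1) := by
        refine IsHomogeneous.sum _ _ _ fun m hm => ?_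
        have hm' : m < N j := Finset.mem_range.mp hm
        have e2 : (N j - m - 1) + m = N j - 1 := by omega
        rw [← e2]
        exact ((hc j m hm').1 i).rename_isHomogeneous.mul (isHomogeneous_X_pow _ _)
      have h3 := (isHomogeneous_X_pow (R := k) (Sum.inr j : ι ⊕ ι') (M + 1 - N j)).mul hsum'
      rw [e] at h3
      exact h3
  obtain ⟨C₀, hC₀⟩ := Height.logHeight_eval_ge' (K := k) (M := M) (N := 1) hq
  refine ⟨-C₀, fun ξ η hspec => ?_⟩
  set z : ι ⊕ ι' → k := Sum.elim ξ η with hz
  have hcert : ∀ s, ∑ i, (q (s, i)).eval z * (X (Sum.inl i) : MvPolynomial (ι ⊕ ι') k).eval z =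
      z s ^ (M + 1) := by
    rintro (i₀ | j)
    · show ∑ i, (if i = i₀ then X (Sum.inl i₀) ^ M else 0 : MvPolynomial (ι ⊕ ι') k).eval z *
        (X (Sum.inl i) : MvPolynomial (ι ⊕ ι') k).eval z = z (Sum.inl i₀) ^ (M + 1)
      rw [Finset.sum_eq_single i₀]
      · simp [pow_succ]
      · intro i _ hi
        simp [hi]
      · intro h; exact absurd (Finset.mem_univ i₀) h
    · show ∑ i, (-(X (Sum.inr j) ^ (M + 1 - N j) *
        ∑ m ∈ Finset.range (N j), rename Sum.inl (c j m i) * X (Sum.inr j) ^ m) :
          MvPolynomial (ι ⊕ ι') k).eval z *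
        (X (Sum.inl i) : MvPolynomial (ι ⊕ ι') k).eval z = z (Sum.inr j) ^ (M + 1)
      -- the specialised integral equation
      have hG : (∑ m ∈ Finset.range (N j + 1), rename Sum.inl (b j m) * X (Sum.inr j) ^ m :
          MvPolynomial (ι ⊕ ι') k).IsHomogeneous (N j) := by
        refine IsHomogeneous.sum _ _ _ fun m hm => ?_
        have hm' : m ≤ N j := Nat.lt_succ_iff.mp (Finset.mem_range.mp hm)
        have e2 : (N j - m) + m = N j := by omega
        rw [← e2]
        exact (hhom j m hm').rename_isHomogeneous.mul (isHomogeneous_X_pow _ _)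
      have hrel0 := hspec (N j) _ hG (by
        rw [map_sum, ← hsum j]
        refine Finset.sum_congr rfl fun m _ => ?_
        rw [map_mul, map_pow, aeval_X, aeval_rename]
        rfl)
      rw [map_sum, Finset.sum_range_succ, hbN j] at hrel0
      simp only [map_mul, map_pow, eval_X, eval_rename, map_one, one_mul, Sum.elim_inr,
        Sum.elim_comp_inl] at hrel0
      have hzl : z ∘ Sum.inl = ξ := rfl
      have hzr : z (Sum.inr j) = η j := rfl
      have hrel : ∑ m ∈ Finset.range (N j), eval ξ (b j m) * η j ^ m = -(η j ^ N j) :=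
        eq_neg_of_add_eq_zero_left hrel0
      have hb' : ∀ m ∈ Finset.range (N j),
          eval ξ (b j m) = ∑ i, ξ i * eval ξ (c j m i) := by
        intro m hm
        have := (hc j m (Finset.mem_range.mp hm)).2
        conv_lhs => rw [this]
        simp [map_sum]
      simp only [map_neg, map_mul, map_pow, map_sum, eval_X, eval_rename, hzl, hzr]
      have hzi : ∀ i, z (Sum.inl i) = ξ i := fun _ => rfl
      simp only [hzi]
      have : ∑ i, -(η j ^ (M + 1 - N j) * ∑ m ∈ Finset.range (N j),
          eval ξ (c j m i) * η j ^ m) * ξ i =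
          -(η j ^ (M + 1 - N j)) * ∑ m ∈ Finset.range (N j), eval ξ (b j m) * η j ^ m := by
        have hB : ∑ m ∈ Finset.range (N j), eval ξ (b j m) * η j ^ m =
            ∑ m ∈ Finset.range (N j), ∑ i, ξ i * eval ξ (c j m i) * η j ^ m := by
          refine Finset.sum_congr rfl fun m hm => ?_
          rw [hb' m hm, Finset.sum_mul]
        rw [hB, Finset.sum_comm, Finset.mul_sum]
        refine Finset.sum_congr rfl fun i _ => ?_
        calc -(η j ^ (M + 1 - N j) * ∑ m ∈ Finset.range (N j), eval ξ (c j m i) * η j ^ m) * ξ i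
            = ∑ m ∈ Finset.range (N j),
                -(η j ^ (M + 1 - N j)) * (ξ i * eval ξ (c j m i) * η j ^ m) := by
              rw [Finset.mul_sum, ← Finset.sum_neg_distrib, Finset.sum_mul]
              exact Finset.sum_congr rfl fun m _ => by ring
          _ = -(η j ^ (M + 1 - N j)) *
                ∑ m ∈ Finset.range (N j), ξ i * eval ξ (c j m i) * η j ^ m := by
              rw [Finset.mul_sum]
      rw [this, hrel, neg_mul_neg, ← pow_add]
      congr 1
      have := hNM j
      omega
  have key := hC₀ (fun i => X (Sum.inl i)) (x := z) hcert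
  simp only [eval_X, Nat.cast_one, one_mul] at key
  have hξ : (fun i => z (Sum.inl i)) = ξ := rfl
  rw [hξ] at key
  have hη : Height.logHeight η ≤ Height.logHeight z :=
    Height.logHeight_comp_le (Sum.inr : ι' → ι ⊕ ι') z
  linarith

/-- **The valuative height machine (two-sided).** -/
theorem HM_two_sided (x : ι → KK) (y : ι' → KK)
    (h : ∀ O : ValuationSubring KK, (∀ c : k, algebraMap k KK c ∈ O) →
      (∀ j, ∃ i, O.valuation (y j) ≤ O.valuation (x i)) ∧
      (∀ i, ∃ j, O.valuation (x i) ≤ O.valuation (y j))) :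
    ∃ C : ℝ, ∀ (ξ : ι → k) (η : ι' → k), IsSpec x y ξ η →
      |Height.logHeight η - Height.logHeight ξ| ≤ C := by
  obtain ⟨C₁, h₁⟩ := HM x y (fun O hO => (h O hO).1)
  obtain ⟨C₂, h₂⟩ := HM y x (fun O hO => (h O hO).2)
  refine ⟨max C₁ C₂, fun ξ η hs => ?_⟩
  have a := h₁ ξ η hs
  have b := h₂ η ξ hs.swap
  rw [abs_le]
  constructor
  · have := le_max_right C₁ C₂; linarith
  · have := le_max_left C₁ C₂; linarith

end Machine

end Fermat.Agent.GR.H.HM
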