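/-
GATE-R / GR-H-HM (helper23): REFINEMENT OF VALUATION RINGS.  Mathlib only.

`k ⊆ KK` fields.  Every valuation subring `O ⊇ k` of `KK` contains a valuation subring `O' ⊇ k`
whose residue field is ALGEBRAIC over `k`, in the elementwise form
`∀ a ∈ O', ∃ p : k[X], p.Monic ∧ aeval a p ∈ O'.nonunits`.

Proof: Zorn gives a MINIMAL valuation subring `O' ⊇ k` inside `O` (chains: intersections).  If some
`a ∈ O'` had a residue transcendental over `k`, then `k[a] + 𝔪_{O'}` is a subring in which
`(a) + 𝔪_{O'}` is a proper ideal; Mathlib's `Ideal.image_subset_nonunits_valuationSubring` gives a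
valuation subring `B` containing that ring with `a` and `𝔪_{O'}` among its nonunits, hence
`B ≤ O'` and `B ≠ O'`: contradiction with minimality.
-/
import Mathlib

set_option autoImplicit false

namespace Fermat.Agent.GR.H.PlaceRefine

open Polynomial

variable {k KK : Type*} [Field k] [Field KK] [Algebra k KK]

/-- "The residue field of `O` is algebraic over `k`", elementwise. -/
def AlgRes (k : Type*) {KK : Type*} [Field k] [Field KK] [Algebra k KK]
    (O : ValuationSubring KK) : Prop :=
  ∀ a ∈ O, ∃ p : k[X], p.Monic ∧ Polynomial.aeval a p ∈ O.nonunits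

/-- Polynomial expressions over `k` in an element of `O ⊇ k` stay in `O`. -/
theorem aeval_mem (O : ValuationSubring KK) (hk : ∀ c : k, algebraMap k KK c ∈ O)
    {a : KK} (ha : a ∈ O) (p : k[X]) : Polynomial.aeval a p ∈ O := by
  rw [Polynomial.aeval_eq_sum_range]
  refine sum_mem fun i _ => ?_
  rw [Algebra.smul_def]
  exact O.mul_mem _ _ (hk _) (pow_mem ha i)

section Zorn

/-- **Zorn**: inside `O ⊇ k` there is a valuation subring `⊇ k` that is minimal among the
valuation subrings containing `k`. -/
theorem exists_minimal (O : ValuationSubring KK) (hk : ∀ c : k, algebraMap k KK c ∈ O) :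
    ∃ O' : ValuationSubring KK, O' ≤ O ∧ (∀ c : k, algebraMap k KK c ∈ O') ∧
      ∀ V : ValuationSubring KK, (∀ c : k, algebraMap k KK c ∈ V) → V ≤ O' → O' ≤ V := by
  classical
  let S : Set (Set KK) :=
    {s | ∃ V : ValuationSubring KK, (V : Set KK) = s ∧ ∀ c : k, algebraMap k KK c ∈ V}
  have hOS : (O : Set KK) ∈ S := ⟨O, rfl, hk⟩
  have hchain : ∀ c ⊆ S, IsChain (· ⊆ ·) c → c.Nonempty → ∃ lb ∈ S, ∀ s ∈ c, lb ⊆ s := by
    intro c cS hc hne
    -- lower bound of a nonempty chain: the intersection
    have hsub : ∀ s ∈ c, ∃ V : ValuationSubring KK, (V : Set KK) = s ∧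
        ∀ c : k, algebraMap k KK c ∈ V := fun s hs => cS hs
    let W : ValuationSubring KK :=
      { carrier := ⋂₀ c
        mul_mem' := fun {a b} ha hb s hs => by
          obtain ⟨V, rfl, _⟩ := hsub s hs
          exact V.mul_mem _ _ (ha _ hs) (hb _ hs)
        one_mem' := fun s hs => by
          obtain ⟨V, rfl, _⟩ := hsub s hs
          exact V.one_mem
        add_mem' := fun {a b} ha hb s hs => by
          obtain ⟨V, rfl, _⟩ := hsub s hs
          exact V.add_mem _ _ (ha _ hs) (hb _ hs)
        zero_mem' := fun s hs => by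
          obtain ⟨V, rfl, _⟩ := hsub s hs
          exact V.zero_mem
        neg_mem' := fun {a} ha s hs => by
          obtain ⟨V, rfl, _⟩ := hsub s hs
          exact V.neg_mem _ (ha _ hs)
        mem_or_inv_mem' := fun x => by
          by_cases hx : ∀ s ∈ c, x ∈ s
          · exact Or.inl hx
          · right
            push Not at hx
            obtain ⟨s₀, hs₀, hxs₀⟩ := hx
            intro s hs
            obtain ⟨V, rfl, _⟩ := hsub s hs
            obtain ⟨V₀, rfl, _⟩ := hsub s₀ hs₀
            rcases hc.total hs hs₀ with hle | hle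
            · -- `V ⊆ V₀`: `x ∉ V`
              rcases V.mem_or_inv_mem x with h | h
              · exact absurd (hle h) hxs₀
              · exact h
            · rcases V₀.mem_or_inv_mem x with h | h
              · exact absurd h hxs₀
              · exact hle h }
    refine ⟨(W : Set KK), ⟨W, rfl, fun c' s hs => ?_⟩, fun s hs => Set.sInter_subset_of_mem hs⟩
    obtain ⟨V, rfl, hV⟩ := hsub s hs
    exact hV c'
  obtain ⟨m, hmO, hmS, hmin⟩ := zorn_superset_nonempty S hchain (O : Set KK) hOS
  obtain ⟨O', rfl, hk'⟩ := hmS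
  refine ⟨O', hmO, hk', fun V hV hVO => ?_⟩
  exact hmin ⟨V, rfl, hV⟩ hVO

end Zorn

section Minimal

/-- A valuation subring that is minimal among those containing `k` has residue field algebraic
over `k`. -/
theorem algRes_of_minimal (O' : ValuationSubring KK) (hk : ∀ c : k, algebraMap k KK c ∈ O')
    (hmin : ∀ V : ValuationSubring KK, (∀ c : k, algebraMap k KK c ∈ V) → V ≤ O' → O' ≤ V) :
    AlgRes k O' := by
  classical
  by_contra hcon
  unfold AlgRes at hcon
  push Not at hcon
  obtain ⟨a, ha, hatr⟩ := hcon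
  set v := O'.valuation with hv
  -- (F1) polynomial values are integral
  have F1 : ∀ p : k[X], v (Polynomial.aeval a p) ≤ 1 := fun p =>
    (O'.valuation_le_one_iff _).mpr (aeval_mem O' hk ha p)
  -- units of `k` have valuation one
  have Fk : ∀ c : k, c ≠ 0 → v (algebraMap k KK c) = 1 := by
    intro c hc
    have h1 : v (algebraMap k KK c) ≤ 1 := (O'.valuation_le_one_iff _).mpr (hk c)
    have h2 : v (algebraMap k KK c⁻¹) ≤ 1 := (O'.valuation_le_one_iff _).mpr (hk c⁻¹)
    have h3 : v (algebraMap k KK c) * v (algebraMap k KK c⁻¹) = 1 := by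
      rw [← map_mul, ← map_mul, mul_inv_cancel₀ hc, map_one, map_one]
    refine le_antisymm h1 ?_
    calc (1 : O'.ValueGroup) = v (algebraMap k KK c) * v (algebraMap k KK c⁻¹) := h3.symm
      _ ≤ v (algebraMap k KK c) * 1 := mul_le_mul_right h2 _
      _ = v (algebraMap k KK c) := mul_one _
  -- (F2) nonzero polynomial values are units
  have F2 : ∀ p : k[X], p ≠ 0 → v (Polynomial.aeval a p) = 1 := by
    intro p hp
    have hc : p.leadingCoeff ≠ 0 := Polynomial.leadingCoeff_ne_zero.mpr hp
    have hmonic : (Polynomial.C p.leadingCoeff⁻¹ * p).Monic := by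
      rw [Polynomial.Monic, Polynomial.leadingCoeff_mul, Polynomial.leadingCoeff_C,
        inv_mul_cancel₀ hc]
    have h1 := hatr _ hmonic
    rw [ValuationSubring.mem_nonunits_iff, not_lt] at h1
    have h2 := F1 (Polynomial.C p.leadingCoeff⁻¹ * p)
    have h3 : v (Polynomial.aeval a (Polynomial.C p.leadingCoeff⁻¹ * p)) = 1 := le_antisymm h2 h1
    rw [map_mul, Polynomial.aeval_C, map_mul, Fk _ (inv_ne_zero hc), one_mul] at h3
    exact h3
  have hlt : ∀ {s t : O'.ValueGroup}, s < 1 → t ≤ 1 → s * t < 1 := fun {s t} hs ht =>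
    lt_of_le_of_lt (by simpa using mul_le_mul_right ht s) hs
  -- the subring `k[a] + 𝔪`
  have hmemO : ∀ z : KK, (∃ p : k[X], v (z - Polynomial.aeval a p) < 1) → v z ≤ 1 := by
    rintro z ⟨p, hp⟩
    have : z = (z - Polynomial.aeval a p) + Polynomial.aeval a p := by ring
    rw [this]
    exact (v.map_add _ _).trans (max_le hp.le (F1 p))
  let A : Subring KK :=
    { carrier := {z | ∃ p : k[X], v (z - Polynomial.aeval a p) < 1}
      mul_mem' := by
        rintro z z' ⟨p, hp⟩ ⟨p', hp'⟩
        refine ⟨p * p', ?_⟩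
        have : z * z' - Polynomial.aeval a (p * p') =
            (z - Polynomial.aeval a p) * z' +
              Polynomial.aeval a p * (z' - Polynomial.aeval a p') := by
          rw [map_mul]; ring
        rw [this]
        refine v.map_add_lt ?_ ?_
        · rw [map_mul]; exact hlt hp (hmemO z' ⟨p', hp'⟩)
        · rw [map_mul, mul_comm]; exact hlt hp' (F1 p)
      one_mem' := ⟨1, by simp⟩
      add_mem' := by
        rintro z z' ⟨p, hp⟩ ⟨p', hp'⟩
        refine ⟨p + p', ?_⟩
        have : z + z' - Polynomial.aeval a (p + p') =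
            (z - Polynomial.aeval a p) + (z' - Polynomial.aeval a p') := by
          rw [map_add]; ring
        rw [this]
        exact v.map_add_lt hp hp'
      zero_mem' := ⟨0, by simp⟩
      neg_mem' := by
        rintro z ⟨p, hp⟩
        refine ⟨-p, ?_⟩
        have : -z - Polynomial.aeval a (-p) = -(z - Polynomial.aeval a p) := by
          rw [map_neg]; ring
        rw [this, Valuation.map_neg]
        exact hp }
  have hA : ∀ z : KK, z ∈ A ↔ ∃ p : k[X], v (z - Polynomial.aeval a p) < 1 := fun _ => Iff.rfl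
  -- the ideal `(a) + 𝔪`
  let I : Ideal A :=
    { carrier := {z | ∃ p : k[X], v ((z : KK) - a * Polynomial.aeval a p) < 1}
      add_mem' := by
        rintro z z' ⟨p, hp⟩ ⟨p', hp'⟩
        refine ⟨p + p', ?_⟩
        have : ((z + z' : A) : KK) - a * Polynomial.aeval a (p + p') =
            ((z : KK) - a * Polynomial.aeval a p) + ((z' : KK) - a * Polynomial.aeval a p') := by
          rw [map_add, Subring.coe_add]; ring
        rw [this]
        exact v.map_add_lt hp hp'
      zero_mem' := ⟨0, by simp⟩
      smul_mem' := by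
        rintro ⟨r, q, hq⟩ z ⟨p, hp⟩
        refine ⟨q * p, ?_⟩
        have : (((⟨r, q, hq⟩ : A) • z : A) : KK) - a * Polynomial.aeval a (q * p) =
            r * ((z : KK) - a * Polynomial.aeval a p) +
              (r - Polynomial.aeval a q) * (a * Polynomial.aeval a p) := by
          rw [map_mul, smul_eq_mul, Subring.coe_mul]; ring
        rw [this]
        refine v.map_add_lt ?_ ?_
        · rw [map_mul, mul_comm]; exact hlt hp (hmemO r ⟨q, hq⟩)
        · rw [map_mul]
          refine hlt hq ?_
          have : a * Polynomial.aeval a p = Polynomial.aeval a (Polynomial.X * p) := by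
            rw [map_mul, Polynomial.aeval_X]
          rw [this]; exact F1 _ }
  have hI : ∀ z : A, z ∈ I ↔ ∃ p : k[X], v ((z : KK) - a * Polynomial.aeval a p) < 1 :=
    fun _ => Iff.rfl
  have hItop : I ≠ ⊤ := by
    intro htop
    have h1 : (1 : A) ∈ I := htop ▸ Submodule.mem_top
    obtain ⟨p, hp⟩ := (hI 1).mp h1
    have hq : (1 - Polynomial.X * p : k[X]) ≠ 0 := by
      intro h0
      have := congrArg (fun q : k[X] => q.coeff 0) h0
      simp at this
    have := F2 _ hq
    rw [map_sub, map_one, map_mul, Polynomial.aeval_X] at this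
    rw [Subring.coe_one, this] at hp
    exact lt_irrefl _ hp
  obtain ⟨B, hAB, hIB⟩ := Ideal.image_subset_nonunits_valuationSubring I hItop
  -- `B ⊇ k`
  have hkB : ∀ c : k, algebraMap k KK c ∈ B := fun c =>
    hAB ((hA _).mpr ⟨Polynomial.C c, by simp⟩)
  -- `𝔪_{O'} ⊆ 𝔪_B`
  have hmB : O'.nonunits ≤ B.nonunits := by
    intro m hm
    have hm' : v m < 1 := hm
    have hmA : m ∈ A := (hA m).mpr ⟨0, by simpa using hm'⟩
    exact hIB ⟨⟨m, hmA⟩, (hI _).mpr ⟨0, by simpa using hm'⟩, rfl⟩
  have hBO : B ≤ O' := ValuationSubring.nonunits_le_nonunits.mp hmB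
  have hOB : O' ≤ B := hmin B hkB hBO
  -- `a` is a nonunit of `B` but a unit of `O'`
  have haA : a ∈ A := (hA a).mpr ⟨Polynomial.X, by simp⟩
  have haB : a ∈ B.nonunits := hIB ⟨⟨a, haA⟩, (hI _).mpr ⟨1, by simp⟩, rfl⟩
  have haO : a ∈ O'.nonunits := (ValuationSubring.nonunits_le_nonunits.mpr hOB) haB
  have : v a = 1 := by
    have := F2 Polynomial.X Polynomial.X_ne_zero
    rwa [Polynomial.aeval_X] at this
  have haO' : v a < 1 := haO
  rw [this] at haO'
  exact lt_irrefl _ haO'

end Minimal

/-- **Refinement.**  Every valuation subring `O ⊇ k` contains a valuation subring `O' ⊇ k` with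
residue field algebraic over `k`. -/
theorem exists_refinement (O : ValuationSubring KK) (hk : ∀ c : k, algebraMap k KK c ∈ O) :
    ∃ O' : ValuationSubring KK, O' ≤ O ∧ (∀ c : k, algebraMap k KK c ∈ O') ∧ AlgRes k O' := by
  obtain ⟨O', hO'O, hk', hmin⟩ := exists_minimal O hk
  exact ⟨O', hO'O, hk', algRes_of_minimal O' hk' hmin⟩

/-- Coarsening preserves `≤` of valuations. -/
theorem valuation_le_of_le {O' O : ValuationSubring KK} (h : O' ≤ O) {a b : KK}
    (hab : O'.valuation a ≤ O'.valuation b) : O.valuation a ≤ O.valuation b := by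
  have := ValuationSubring.monotone_mapOfLE O' O h hab
  rwa [ValuationSubring.mapOfLE_valuation_apply, ValuationSubring.mapOfLE_valuation_apply] at this

/-- **Reduction of the valuative domination criterion to valuation rings with algebraic residue
field.** -/
theorem exists_dominating_of_algRes {ι : Type*} (x : ι → KK) (y : KK)
    (h : ∀ O : ValuationSubring KK, (∀ c : k, algebraMap k KK c ∈ O) → AlgRes k O →
      ∃ i, O.valuation y ≤ O.valuation (x i))
    (O : ValuationSubring KK) (hk : ∀ c : k, algebraMap k KK c ∈ O) :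
    ∃ i, O.valuation y ≤ O.valuation (x i) := by
  obtain ⟨O', hO'O, hk', hres⟩ := exists_refinement O hk
  obtain ⟨i, hi⟩ := h O' hk' hres
  exact ⟨i, valuation_le_of_le hO'O hi⟩

end Fermat.Agent.GR.H.PlaceRefine
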