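/-
GATE-R / GR-H-HM (helper23): the valuative height machine with the hypothesis restricted to
valuation rings with ALGEBRAIC RESIDUE FIELD (consumer shape of GR-H-STAR), plus the corollary
"algebraically closed intermediate field `kb`: `kb ⊆ O` and every residue is a constant of `kb`".
Imports only GR/H/HM.lean and GR/H/PlaceRefine.lean (both Mathlib-only).
-/
import Fermat.Agent.GR.H.HM
import Fermat.Agent.GR.H.PlaceRefine

set_option autoImplicit false

namespace Fermat.Agent.GR.H.HMAlg

open Fermat.Agent.GR.H.HM Fermat.Agent.GR.H.PlaceRefine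

section Machine

variable {k KK : Type*} [Field k] [Field KK] [Algebra k KK] {ι ι' : Type*}
  [Fintype ι] [Fintype ι'] [Height.AdmissibleAbsValues k]

/-- One-sided machine, hypothesis only at valuation rings with algebraic residue field. -/
theorem HM_algRes (x : ι → KK) (y : ι' → KK)
    (h : ∀ O : ValuationSubring KK, (∀ c : k, algebraMap k KK c ∈ O) →
      (∀ a ∈ O, ∃ p : Polynomial k, p.Monic ∧ Polynomial.aeval a p ∈ O.nonunits) →
      ∀ j, ∃ i, O.valuation (y j) ≤ O.valuation (x i)) :
    ∃ C : ℝ, ∀ (ξ : ι → k) (η : ι' → k), IsSpec x y ξ η →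
      Height.logHeight η ≤ Height.logHeight ξ + C :=
  HM x y fun O hO j =>
    exists_dominating_of_algRes x (y j) (fun O' hO' hres => h O' hO' hres j) O hO

/-- **Two-sided machine, hypothesis only at valuation rings `O ⊇ k` with algebraic residue
field.** -/
theorem HM_two_sided_algRes (x : ι → KK) (y : ι' → KK)
    (h : ∀ O : ValuationSubring KK, (∀ c : k, algebraMap k KK c ∈ O) →
      (∀ a ∈ O, ∃ p : Polynomial k, p.Monic ∧ Polynomial.aeval a p ∈ O.nonunits) →
      (∀ j, ∃ i, O.valuation (y j) ≤ O.valuation (x i)) ∧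
      (∀ i, ∃ j, O.valuation (x i) ≤ O.valuation (y j))) :
    ∃ C : ℝ, ∀ (ξ : ι → k) (η : ι' → k), IsSpec x y ξ η →
      |Height.logHeight η - Height.logHeight ξ| ≤ C :=
  HM_two_sided x y fun O hO =>
    ⟨fun j => exists_dominating_of_algRes x (y j) (fun O' hO' hres => (h O' hO' hres).1 j) O hO,
     fun i => exists_dominating_of_algRes y (x i) (fun O' hO' hres => (h O' hO' hres).2 i) O hO⟩

end Machine

section AlgClosed

variable {k kb KK : Type*} [Field k] [Field kb] [Field KK] [Algebra k kb] [Algebra kb KK]
  [Algebra k KK] [IsScalarTower k kb KK]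

/-- An element of `KK` integral over `k ⊆ O` lies in the valuation ring `O`. -/
theorem mem_of_isIntegral (O : ValuationSubring KK) (hk : ∀ c : k, algebraMap k KK c ∈ O)
    {x : KK} (hx : IsIntegral k x) : x ∈ O := by
  obtain ⟨p, hp, hpx⟩ := hx
  let φ : k →+* O := (algebraMap k KK).codRestrict O hk
  have hcomp : (algebraMap O KK).comp φ = algebraMap k KK := RingHom.ext fun _ => rfl
  have hint : IsIntegral O x := by
    refine ⟨p.map φ, hp.map φ, ?_⟩
    rw [Polynomial.eval₂_map, hcomp]
    exact hpx
  obtain ⟨y, hy⟩ := IsIntegrallyClosed.algebraMap_eq_of_integral hint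
  rw [← hy]
  exact y.2

variable [Algebra.IsAlgebraic k kb]

/-- An algebraic extension `kb` of `k` inside `KK` lies in every valuation ring `O ⊇ k`. -/
theorem algebraMap_mem_of_algebraic (O : ValuationSubring KK)
    (hk : ∀ c : k, algebraMap k KK c ∈ O) (c : kb) : algebraMap kb KK c ∈ O := by
  have hc : IsIntegral k c := (Algebra.IsAlgebraic.isAlgebraic c).isIntegral
  exact mem_of_isIntegral O hk (hc.map (IsScalarTower.toAlgHom k kb KK))

/-- If `kb` is algebraically closed and algebraic over `k`, then at a valuation ring `O ⊇ k`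
with residue field algebraic over `k` every element of `O` is congruent to a constant of `kb`. -/
theorem exists_sub_mem_nonunits [IsAlgClosed kb] (O : ValuationSubring KK)
    (hk : ∀ c : k, algebraMap k KK c ∈ O)
    (hres : ∀ a ∈ O, ∃ p : Polynomial k, p.Monic ∧ Polynomial.aeval a p ∈ O.nonunits)
    (a : KK) (ha : a ∈ O) : ∃ c : kb, a - algebraMap kb KK c ∈ O.nonunits := by
  classical
  obtain ⟨p, hp, hpa⟩ := hres a ha
  set P : Polynomial kb := p.map (algebraMap k kb) with hP
  have hPm : P.Monic := hp.map _
  have hsplit : P.Splits := IsAlgClosed.splits P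
  have hprod : P = (P.roots.map fun c => Polynomial.X - Polynomial.C c).prod :=
    hsplit.eq_prod_roots_of_monic hPm
  have hval : Polynomial.aeval a p = (P.roots.map fun c => a - algebraMap kb KK c).prod := by
    rw [← Polynomial.aeval_map_algebraMap kb a p, ← hP]
    conv_lhs => rw [hprod]
    rw [map_multiset_prod, Multiset.map_map]
    congr 1
    refine Multiset.map_congr rfl fun c _ => ?_
    simp
  by_contra hcon
  push Not at hcon
  have hone : ∀ c : kb, O.valuation (a - algebraMap kb KK c) = 1 := by
    intro c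
    have h1 : O.valuation (a - algebraMap kb KK c) ≤ 1 :=
      (O.valuation_le_one_iff _).mpr (sub_mem ha (algebraMap_mem_of_algebraic O hk c))
    have h2 := hcon c
    rw [ValuationSubring.mem_nonunits_iff, not_lt] at h2
    exact le_antisymm h1 h2
  have : O.valuation (Polynomial.aeval a p) = 1 := by
    rw [hval, map_multiset_prod, Multiset.map_map]
    refine Multiset.prod_eq_one fun s hs => ?_
    obtain ⟨c, _, rfl⟩ := Multiset.mem_map.mp hs
    exact hone c
  rw [ValuationSubring.mem_nonunits_iff, this] at hpa
  exact lt_irrefl _ hpa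

/-- Packaged corollary for GR-H-STAR: `k ⊆ O`, algebraic residue field, `kb` algebraically closed
and algebraic over `k` ⟹ `kb ⊆ O` and every element of `O` has a residue in `kb`. -/
theorem algClosed_residue [IsAlgClosed kb] (O : ValuationSubring KK)
    (hk : ∀ c : k, algebraMap k KK c ∈ O)
    (hres : ∀ a ∈ O, ∃ p : Polynomial k, p.Monic ∧ Polynomial.aeval a p ∈ O.nonunits) :
    (∀ c : kb, algebraMap kb KK c ∈ O) ∧
      ∀ a ∈ O, ∃ c : kb, a - algebraMap kb KK c ∈ O.nonunits :=
  ⟨algebraMap_mem_of_algebraic O hk, exists_sub_mem_nonunits O hk hres⟩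

end AlgClosed

end Fermat.Agent.GR.H.HMAlg
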