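/-
GATE-R / node GR-H-NEWTON (helper6).  Mathlib-only.

`Claim A` of the valuative Vandermonde ((LT) / (DEC) / (L5) / (V)+(DIAG) of the H-LOW routes):
divided differences of functions regular at a centre are INTEGRAL in any Noetherian local ring `B`
(inside a field `K`) receiving the points, and reduce modulo `𝔪_B` to Taylor coefficients.
Proof by Nakayama only: no Krull intersection, no completion, no rank-one assumption.

* `dd T v S`                  : symmetric divided difference `∑_{a∈S} v a / ∏_{c∈S, c≠a} (T a − T c)`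
* `dd_node_mul`, `sub_mul_dd`, `dd_const` (Lagrange), `newton_interp` (Newton interpolation)
* `exists_eq_dd`              : divided differences of `f ∈ Oc` at points `φ a : Oc → B` lie in `B`
* `exists_eq_dd_taylor`       : ... and are `≡` the Taylor coefficient mod `𝔪_B`
* `exists_newton_factor`      : evaluation matrix `(φ i (f j)) = newtonU * D`, `D` over `B`,
                                rows of `D` reduce to the jets; `det_newtonU` = Vandermonde product
* `exists_det_factor`         : `det (φ i (f j)) = (∏_{m<i} (φ i t − φ m t)) * det D`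
-/
import Mathlib

open Finset

namespace Fermat.Agent.GR.H.Newton

section Field

variable {K : Type*} [Field K] {ι : Type*} [DecidableEq ι]

/-- Symmetric divided difference of the values `v` at the nodes `T` over the index set `S`:
`∑_{a ∈ S} v a / ∏_{c ∈ S, c ≠ a} (T a - T c)`. -/
noncomputable def dd (T v : ι → K) (S : Finset ι) : K :=
  ∑ a ∈ S, v a / ∏ c ∈ S.erase a, (T a - T c)

@[simp] theorem dd_empty (T v : ι → K) : dd T v ∅ = 0 := by simp [dd]

@[simp] theorem dd_singleton (T v : ι → K) (a : ι) : dd T v {a} = v a := by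
  simp [dd]

theorem dd_add (T v w : ι → K) (S : Finset ι) :
    dd T (fun a => v a + w a) S = dd T v S + dd T w S := by
  simp [dd, add_div, Finset.sum_add_distrib]

theorem dd_const_mul (T v : ι → K) (c : K) (S : Finset ι) :
    dd T (fun a => c * v a) S = c * dd T v S := by
  simp [dd, Finset.mul_sum, mul_div_assoc]

theorem dd_congr {T v w : ι → K} {S : Finset ι} (h : ∀ a ∈ S, v a = w a) :
    dd T v S = dd T w S := by
  unfold dd
  exact Finset.sum_congr rfl fun a ha => by rw [h a ha]

theorem erase_eq_insert_erase_erase {S : Finset ι} {a a₁ : ι} (ha₁ : a₁ ∈ S) (h : a ≠ a₁) :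
    S.erase a = insert a₁ ((S.erase a₁).erase a) := by
  ext x
  simp only [mem_erase, mem_insert]
  constructor
  · rintro ⟨hxa, hxS⟩
    by_cases hx : x = a₁
    · exact Or.inl hx
    · exact Or.inr ⟨hxa, hx, hxS⟩
  · rintro (rfl | ⟨hxa, _, hxS⟩)
    · exact ⟨fun e => h e.symm, ha₁⟩
    · exact ⟨hxa, hxS⟩

theorem prod_erase_ne_zero {T : ι → K} {S : Finset ι} (hT : Set.InjOn T S) {a : ι} (ha : a ∈ S) :
    ∏ c ∈ S.erase a, (T a - T c) ≠ 0 := by
  refine Finset.prod_ne_zero_iff.mpr fun c hc => ?_
  rw [mem_erase] at hc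
  exact sub_ne_zero.mpr fun e => hc.1 (hT hc.2 ha e.symm)

/-- The basic recursion: multiplying the values by the nodes. -/
theorem dd_node_mul (T w : ι → K) {S : Finset ι} {a₁ : ι} (ha₁ : a₁ ∈ S) (hT : Set.InjOn T S) :
    dd T (fun a => T a * w a) S = T a₁ * dd T w S + dd T w (S.erase a₁) := by
  have key : ∀ a ∈ S, T a * w a / ∏ c ∈ S.erase a, (T a - T c)
      = T a₁ * (w a / ∏ c ∈ S.erase a, (T a - T c))
        + (if a = a₁ then 0 else w a / ∏ c ∈ (S.erase a₁).erase a, (T a - T c)) := by
    intro a ha
    split_ifs with h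
    · subst h; ring
    · have hne : T a - T a₁ ≠ 0 := sub_ne_zero.mpr fun e => h (hT ha ha₁ e)
      have hprod : ∏ c ∈ S.erase a, (T a - T c)
          = (T a - T a₁) * ∏ c ∈ (S.erase a₁).erase a, (T a - T c) := by
        rw [erase_eq_insert_erase_erase ha₁ h, Finset.prod_insert (by simp)]
      have hP : ∏ c ∈ (S.erase a₁).erase a, (T a - T c) ≠ 0 :=
        prod_erase_ne_zero (hT.mono (by simp)) (mem_erase.mpr ⟨h, ha⟩)
      rw [hprod]
      field_simp
      ring
  unfold dd
  rw [Finset.sum_congr rfl key, Finset.sum_add_distrib, ← Finset.mul_sum]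
  congr 1
  rw [← Finset.sum_erase_add _ _ ha₁]
  simp only [if_true, add_zero]
  exact Finset.sum_congr rfl fun a ha => by rw [if_neg (ne_of_mem_erase ha)]

/-- The classical recursion for divided differences. -/
theorem sub_mul_dd (T w : ι → K) {S : Finset ι} {a₁ a₂ : ι} (ha₁ : a₁ ∈ S) (ha₂ : a₂ ∈ S)
    (hT : Set.InjOn T S) :
    (T a₁ - T a₂) * dd T w S = dd T w (S.erase a₂) - dd T w (S.erase a₁) := by
  have h1 := dd_node_mul T w ha₁ hT
  have h2 := dd_node_mul T w ha₂ hT
  linear_combination h2 - h1

/-- Lagrange's identity: divided differences of order `≥ 1` of a constant vanish. -/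
theorem dd_const (T : ι → K) (c : K) :
    ∀ (n : ℕ) (S : Finset ι), S.card = n + 2 → Set.InjOn T S → dd T (fun _ => c) S = 0 := by
  intro n
  induction n with
  | zero =>
    intro S hS hT
    obtain ⟨a₁, a₂, hne, rfl⟩ := Finset.card_eq_two.mp hS
    have h := sub_mul_dd T (fun _ => c) (S := {a₁, a₂}) (by simp) (by simp) hT (a₁ := a₁) (a₂ := a₂)
    have e1 : ({a₁, a₂} : Finset ι).erase a₂ = {a₁} := by
      ext x; simp only [mem_erase, mem_insert, mem_singleton]; constructor
      · rintro ⟨h1, h2 | h2⟩
        · exact h2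
        · exact absurd h2 h1
      · rintro rfl; exact ⟨hne, Or.inl rfl⟩
    have e2 : ({a₁, a₂} : Finset ι).erase a₁ = {a₂} := by
      ext x; simp only [mem_erase, mem_insert, mem_singleton]; constructor
      · rintro ⟨h1, h2 | h2⟩
        · exact absurd h2 h1
        · exact h2
      · rintro rfl; exact ⟨fun e => hne e.symm, Or.inr rfl⟩
    rw [e1, e2, dd_singleton, dd_singleton, sub_self] at h
    have hne' : T a₁ - T a₂ ≠ 0 :=
      sub_ne_zero.mpr fun e => hne (hT (by simp) (by simp) e)
    exact (mul_eq_zero.mp h).resolve_left hne'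
  | succ n ih =>
    intro S hS hT
    have hcard : 1 < S.card := by omega
    obtain ⟨a₁, ha₁, a₂, ha₂, hne⟩ := Finset.one_lt_card.mp hcard
    have h := sub_mul_dd T (fun _ => c) ha₁ ha₂ hT
    rw [ih (S.erase a₂) (by rw [Finset.card_erase_of_mem ha₂]; omega) (hT.mono (by simp)),
      ih (S.erase a₁) (by rw [Finset.card_erase_of_mem ha₁]; omega) (hT.mono (by simp)),
      sub_self] at h
    have hne' : T a₁ - T a₂ ≠ 0 := sub_ne_zero.mpr fun e => hne (hT ha₁ ha₂ e)
    exact (mul_eq_zero.mp h).resolve_left hne'

/-- Newton interpolation with remainder (nodes indexed by `ℕ`). -/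
theorem newton_remainder (T v : ℕ → K) (i : ℕ) (hT : Set.InjOn T (range (i + 1))) :
    ∀ m, m ≤ i → v i = ∑ j ∈ range m, (∏ l ∈ range j, (T i - T l)) * dd T v (range (j + 1))
      + (∏ l ∈ range m, (T i - T l)) * dd T v (insert i (range m)) := by
  intro m
  induction m with
  | zero => intro _; simp
  | succ m ih =>
    intro hm
    have hmi : m < i := hm
    rw [ih (by omega), Finset.sum_range_succ, Finset.prod_range_succ, add_assoc]
    congr 1
    -- dd (insert i (range m)) = dd (range (m+1)) + (T i - T m) * dd (insert i (range (m+1)))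
    have hsub : (insert i (range (m + 1)) : Finset ℕ) ⊆ range (i + 1) := by
      intro x hx
      rw [mem_insert, mem_range] at hx
      rw [mem_range]; omega
    have h := sub_mul_dd T v (S := insert i (range (m + 1))) (a₁ := i) (a₂ := m)
      (by simp) (by simp) (hT.mono (by exact_mod_cast hsub))
    have e1 : (insert i (range (m + 1))).erase m = insert i (range m) := by
      ext x; simp only [mem_erase, mem_insert, mem_range]; omega
    have e2 : (insert i (range (m + 1))).erase i = range (m + 1) := by
      ext x; simp only [mem_erase, mem_insert, mem_range]; omega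
    rw [e1, e2] at h
    linear_combination (-(∏ l ∈ range m, (T i - T l))) * h

/-- **Newton interpolation formula**: the value at the `i`-th node is the combination of the
divided differences over initial segments with the Newton basis. -/
theorem newton_interp (T v : ℕ → K) (i : ℕ) (hT : Set.InjOn T (range (i + 1))) :
    v i = ∑ j ∈ range (i + 1), (∏ l ∈ range j, (T i - T l)) * dd T v (range (j + 1)) := by
  have h := newton_remainder T v i hT i le_rfl
  rw [Finset.sum_range_succ]
  have e : insert i (range i) = range (i + 1) := by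
    ext x; simp only [mem_insert, mem_range]; omega
  rw [e] at h
  exact h

end Field

section Integral

variable {k : Type*} [Field k] {Oc : Type*} [CommRing Oc] [Algebra k Oc]
variable {B : Type*} [CommRing B] [Algebra k B]
variable {K : Type*} [Field K] [Algebra B K]
variable {ι : Type*} [DecidableEq ι]

/-- `IsTaylor t n f c`: `c` is an `n`-th Taylor coefficient of `f` with respect to the
parameter `t` (`f = c₀ + t (c₁ + t (… + t (cₙ + t g)))` with `cₙ = c`). -/
def IsTaylor (t : Oc) : ℕ → Oc → k → Prop
  | 0, f, c => ∃ g : Oc, f = algebraMap k Oc c + t * g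
  | n + 1, f, c => ∃ (c₀ : k) (g : Oc), f = algebraMap k Oc c₀ + t * g ∧ IsTaylor t n g c

/-- Taylor coefficients exist as soon as `Oc = k + t·Oc`. -/
theorem exists_isTaylor (t : Oc)
    (hdec : ∀ f : Oc, ∃ (c : k) (g : Oc), f = algebraMap k Oc c + t * g) :
    ∀ (n : ℕ) (f : Oc), ∃ c : k, IsTaylor t n f c := by
  intro n
  induction n with
  | zero =>
    intro f
    obtain ⟨c, g, h⟩ := hdec f
    exact ⟨c, g, h⟩
  | succ n ih =>
    intro f
    obtain ⟨c₀, g, h⟩ := hdec f
    obtain ⟨c, hc⟩ := ih g
    exact ⟨c, c₀, g, h, hc⟩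

/-- A Taylor expansion `f = p(t) + t^(n+1) g` with `p` a polynomial gives the Taylor
coefficient `p.coeff n`. -/
theorem isTaylor_of_eq_aeval (t : Oc) :
    ∀ (n : ℕ) (f g : Oc) (p : Polynomial k),
      f = Polynomial.aeval t p + t ^ (n + 1) * g → IsTaylor t n f (p.coeff n) := by
  intro n
  induction n with
  | zero =>
    intro f g p h
    refine ⟨Polynomial.aeval t p.divX + g, ?_⟩
    have hp : Polynomial.aeval t p
        = algebraMap k Oc (p.coeff 0) + t * Polynomial.aeval t p.divX := by
      conv_lhs => rw [← Polynomial.divX_mul_X_add p]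
      simp only [map_add, map_mul, Polynomial.aeval_X, Polynomial.aeval_C]
      ring
    rw [h, hp]; ring
  | succ n ih =>
    intro f g p h
    refine ⟨p.coeff 0, Polynomial.aeval t p.divX + t ^ (n + 1) * g, ?_, ?_⟩
    · have hp : Polynomial.aeval t p
          = algebraMap k Oc (p.coeff 0) + t * Polynomial.aeval t p.divX := by
        conv_lhs => rw [← Polynomial.divX_mul_X_add p]
        simp only [map_add, map_mul, Polynomial.aeval_X, Polynomial.aeval_C]
        ring
      rw [h, hp]; ring
    · have := ih (Polynomial.aeval t p.divX + t ^ (n + 1) * g) g p.divX rfl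
      rwa [Polynomial.coeff_divX] at this

/-- the nodes, in `K` -/
noncomputable def nodeK (K : Type*) [Field K] [Algebra B K] (t : Oc) (φ : ι → Oc →ₐ[k] B) :
    ι → K := fun a => algebraMap B K (φ a t)

/-- the values of `f` at the points, in `K` -/
noncomputable def valK (K : Type*) [Field K] [Algebra B K] (φ : ι → Oc →ₐ[k] B) (f : Oc) :
    ι → K := fun a => algebraMap B K (φ a f)

omit [DecidableEq ι] in
theorem valK_decomp (t : Oc) (φ : ι → Oc →ₐ[k] B) {f g : Oc} {c : k}
    (h : f = algebraMap k Oc c + t * g) (a : ι) :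
    valK K φ f a = algebraMap B K (algebraMap k B c) + nodeK K t φ a * valK K φ g a := by
  simp only [valK, nodeK, h, map_add, map_mul, AlgHom.commutes]

/-- The recursion for the divided differences of `f = c + t g` (order `≥ 1`). -/
theorem dd_valK_decomp (t : Oc) (φ : ι → Oc →ₐ[k] B) {f g : Oc} {c : k}
    (h : f = algebraMap k Oc c + t * g) {S : Finset ι} {n : ℕ} (hS : S.card = n + 2)
    (hT : Set.InjOn (nodeK K t φ) S) {a₁ : ι} (ha₁ : a₁ ∈ S) :
    dd (nodeK K t φ) (valK K φ f) S
      = nodeK K t φ a₁ * dd (nodeK K t φ) (valK K φ g) S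
        + dd (nodeK K t φ) (valK K φ g) (S.erase a₁) := by
  have e : dd (nodeK K t φ) (valK K φ f) S
      = dd (nodeK K t φ) (fun a => algebraMap B K (algebraMap k B c)
          + nodeK K t φ a * valK K φ g a) S :=
    dd_congr fun a _ => valK_decomp (K := K) t φ h a
  rw [e, dd_add, dd_const _ _ n S hS hT, zero_add, dd_node_mul _ _ ha₁ hT]

variable [IsNoetherianRing B] [IsLocalRing B]

/-- **Integrality of divided differences.** `B` a Noetherian local ring inside a field `K`,
`Oc = k + t·Oc`, points `φ a : Oc → B` with `φ a t ∈ 𝔪_B` pairwise distinct on `S`: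
every divided difference over `S` of every `f ∈ Oc` lies in `B`. -/
theorem exists_eq_dd (t : Oc) (hdec : ∀ f : Oc, ∃ (c : k) (g : Oc), f = algebraMap k Oc c + t * g)
    (φ : ι → Oc →ₐ[k] B) (ht : ∀ a, φ a t ∈ IsLocalRing.maximalIdeal B)
    (hBK : Function.Injective (algebraMap B K)) :
    ∀ (n : ℕ) (S : Finset ι), S.card = n → Set.InjOn (nodeK K t φ) S → ∀ f : Oc,
      ∃ d : B, algebraMap B K d = dd (nodeK K t φ) (valK K φ f) S := by
  intro n
  induction n with
  | zero =>
    intro S hS _ f
    rw [Finset.card_eq_zero] at hS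
    exact ⟨0, by rw [hS, dd_empty, map_zero]⟩
  | succ n ih =>
    intro S hS hT f
    rcases n with _ | n
    · obtain ⟨a, rfl⟩ := Finset.card_eq_one.mp hS
      exact ⟨φ a f, by rw [dd_singleton]; rfl⟩
    · -- card = n + 2
      obtain ⟨a₁, ha₁⟩ : S.Nonempty := Finset.card_pos.mp (by omega)
      have hS' : (S.erase a₁).card = n + 1 := by rw [Finset.card_erase_of_mem ha₁]; omega
      have hT' : Set.InjOn (nodeK K t φ) (S.erase a₁ : Finset ι) := hT.mono (by simp)
      -- the common denominator
      let P : ι → B := fun a => ∏ c ∈ S.erase a, (φ a t - φ c t)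
      have hPK : ∀ a, algebraMap B K (P a) = ∏ c ∈ S.erase a, (nodeK K t φ a - nodeK K t φ c) := by
        intro a; simp only [P, map_prod, map_sub, nodeK]
      let δ : B := ∏ a ∈ S, P a
      have hδK : algebraMap B K δ ≠ 0 := by
        simp only [δ, map_prod]
        refine Finset.prod_ne_zero_iff.mpr fun a ha => ?_
        rw [hPK]; exact prod_erase_ne_zero hT ha
      -- numerators
      let x : Oc → B := fun f => ∑ a ∈ S, φ a f * ∏ a' ∈ S.erase a, P a'
      have hx : ∀ f, algebraMap B K (x f)
          = algebraMap B K δ * dd (nodeK K t φ) (valK K φ f) S := by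
        intro f
        simp only [x, dd, map_sum, map_mul, Finset.mul_sum]
        refine Finset.sum_congr rfl fun a ha => ?_
        have hPa : algebraMap B K (P a) ≠ 0 := by rw [hPK]; exact prod_erase_ne_zero hT ha
        have hδ : algebraMap B K δ = algebraMap B K (P a) * algebraMap B K (∏ a' ∈ S.erase a, P a') := by
          rw [← map_mul]; congr 1
          simp only [δ]
          rw [← Finset.mul_prod_erase S P ha]
        rw [hδ, ← hPK a]
        simp only [valK]
        field_simp
      -- the ideal generated by the numerators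
      let I : Ideal B := Ideal.span (Set.range x)
      have hIfg : (I : Submodule B B).FG := IsNoetherian.noetherian I
      have hle : I ≤ Ideal.span {δ} ⊔ IsLocalRing.maximalIdeal B • I := by
        refine Ideal.span_le.mpr ?_
        rintro _ ⟨f, rfl⟩
        obtain ⟨c, g, hfg⟩ := hdec f
        obtain ⟨d', hd'⟩ := ih (S.erase a₁) hS' hT' g
        have hrec := dd_valK_decomp (K := K) t φ hfg hS hT ha₁
        have hxf : x f = δ * d' + φ a₁ t * x g := by
          apply hBK
          rw [hx, hrec, map_add, map_mul, map_mul, hd', hx]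
          simp only [nodeK]
          ring
        rw [hxf]
        refine Submodule.add_mem_sup ?_ ?_
        · exact Ideal.mul_mem_right _ _ (Ideal.subset_span rfl)
        · exact Submodule.smul_mem_smul (ht a₁) (Ideal.subset_span ⟨g, rfl⟩)
      have hI : I ≤ Ideal.span {δ} :=
        Submodule.le_of_le_smul_of_le_jacobson_bot hIfg
          (IsLocalRing.maximalIdeal_le_jacobson ⊥) hle
      have hxmem : x f ∈ Ideal.span {δ} := hI (Ideal.subset_span ⟨f, rfl⟩)
      obtain ⟨d, hd⟩ := Ideal.mem_span_singleton'.mp hxmem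
      refine ⟨d, ?_⟩
      have : algebraMap B K δ * algebraMap B K d
          = algebraMap B K δ * dd (nodeK K t φ) (valK K φ f) S := by
        rw [← hx, ← hd, map_mul, mul_comm]
      exact mul_left_cancel₀ hδK this

/-- **Divided differences reduce to Taylor coefficients.** In the situation of `exists_eq_dd`,
the divided difference of `f` over `n + 1` points is congruent modulo `𝔪_B` to any `n`-th Taylor
coefficient of `f`. -/
theorem exists_eq_dd_taylor (t : Oc)
    (hdec : ∀ f : Oc, ∃ (c : k) (g : Oc), f = algebraMap k Oc c + t * g)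
    (φ : ι → Oc →ₐ[k] B) (ht : ∀ a, φ a t ∈ IsLocalRing.maximalIdeal B)
    (hBK : Function.Injective (algebraMap B K)) :
    ∀ (n : ℕ) (S : Finset ι), S.card = n + 1 → Set.InjOn (nodeK K t φ) S → ∀ (f : Oc) (c : k),
      IsTaylor t n f c →
      ∃ d : B, algebraMap B K d = dd (nodeK K t φ) (valK K φ f) S ∧
        d - algebraMap k B c ∈ IsLocalRing.maximalIdeal B := by
  intro n
  induction n with
  | zero =>
    intro S hS _ f c hc
    obtain ⟨a, rfl⟩ := Finset.card_eq_one.mp hS
    obtain ⟨g, hg⟩ := hc
    refine ⟨φ a f, by rw [dd_singleton]; rfl, ?_⟩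
    have : φ a f - algebraMap k B c = φ a t * φ a g := by
      rw [hg, map_add, map_mul, AlgHom.commutes]; ring
    rw [this]
    exact Ideal.mul_mem_right _ _ (ht a)
  | succ n ih =>
    intro S hS hT f c hc
    obtain ⟨c₀, g, hfg, hg⟩ := hc
    obtain ⟨a₁, ha₁⟩ : S.Nonempty := Finset.card_pos.mp (by omega)
    have hS' : (S.erase a₁).card = n + 1 := by rw [Finset.card_erase_of_mem ha₁]; omega
    have hT' : Set.InjOn (nodeK K t φ) (S.erase a₁ : Finset ι) := hT.mono (by simp)
    obtain ⟨dg, hdg⟩ := exists_eq_dd (K := K) t hdec φ ht hBK (n + 2) S hS hT g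
    obtain ⟨d', hd', hres⟩ := ih (S.erase a₁) hS' hT' g c hg
    refine ⟨φ a₁ t * dg + d', ?_, ?_⟩
    · rw [dd_valK_decomp (K := K) t φ hfg hS hT ha₁, map_add, map_mul, hdg, hd']
      rfl
    · have : φ a₁ t * dg + d' - algebraMap k B c = φ a₁ t * dg + (d' - algebraMap k B c) := by ring
      rw [this]
      exact Ideal.add_mem _ (Ideal.mul_mem_right _ _ (ht a₁)) hres

end Integral

section Matrix

variable {k : Type*} [Field k] {Oc : Type*} [CommRing Oc] [Algebra k Oc]
variable {B : Type*} [CommRing B] [Algebra k B]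
variable {K : Type*} [Field K] [Algebra B K]

/-- The Newton (lower triangular) matrix of the nodes `φ 0 t, …, φ (s-1) t`. -/
def newtonU (t : Oc) (φ : ℕ → Oc →ₐ[k] B) (s : ℕ) : Matrix (Fin s) (Fin s) B :=
  fun i l => if (l : ℕ) ≤ i then ∏ m ∈ range l, (φ i t - φ m t) else 0

theorem det_newtonU (t : Oc) (φ : ℕ → Oc →ₐ[k] B) (s : ℕ) :
    (newtonU t φ s).det = ∏ i : Fin s, ∏ m ∈ range i, (φ i t - φ m t) := by
  rw [Matrix.det_of_isLowerTriangular]
  · refine Finset.prod_congr rfl fun i _ => ?_
    simp [newtonU]
  · intro i j hij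
    simp only [newtonU]
    rw [if_neg]
    exact not_le.mpr (by exact_mod_cast hij)

variable [IsNoetherianRing B] [IsLocalRing B]

/-- **Newton factorisation of an evaluation matrix.** For `s` points `φ 0, …, φ (s-1)` with
pairwise distinct parameters in `𝔪_B` and any family `f : m → Oc`, the evaluation matrix
`(φ i (f j))` is `newtonU * D` with `D` a matrix over `B` whose `i`-th row reduces modulo `𝔪_B`
to the `i`-th Taylor coefficients of the `f j`. -/
theorem exists_newton_factor (t : Oc)
    (hdec : ∀ f : Oc, ∃ (c : k) (g : Oc), f = algebraMap k Oc c + t * g)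
    (φ : ℕ → Oc →ₐ[k] B) (ht : ∀ a, φ a t ∈ IsLocalRing.maximalIdeal B)
    (hBK : Function.Injective (algebraMap B K)) (s : ℕ)
    (hT : Set.InjOn (nodeK K t φ) (range s)) {m : Type*} (f : m → Oc) :
    ∃ D : Matrix (Fin s) m B,
      (∀ (i : Fin s) (j : m), φ i (f j) = ∑ l : Fin s, newtonU t φ s i l * D l j) ∧
      (∀ (i : Fin s) (j : m) (c : k), IsTaylor t i (f j) c →
        D i j - algebraMap k B c ∈ IsLocalRing.maximalIdeal B) ∧
      (∀ (i : Fin s) (j : m), algebraMap B K (D i j)
        = dd (nodeK K t φ) (valK K φ (f j)) (range (i + 1))) := by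
  have hsub : ∀ i : Fin s, ((range (i + 1) : Finset ℕ) : Set ℕ) ⊆ range s := by
    intro i x hx
    have := i.2
    simp only [coe_range, Set.mem_Iio] at hx ⊢
    omega
  have hex : ∀ (i : Fin s) (j : m), ∃ d : B,
      algebraMap B K d = dd (nodeK K t φ) (valK K φ (f j)) (range (i + 1)) := fun i j =>
    exists_eq_dd (K := K) t hdec φ ht hBK (i + 1) (range (i + 1)) (by simp)
      (hT.mono (hsub i)) (f j)
  choose D hD using hex
  refine ⟨D, ?_, ?_, hD⟩
  · intro i j
    apply hBK
    have hN := newton_interp (nodeK K t φ) (valK K φ (f j)) i (hT.mono (hsub i))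
    have hlhs : algebraMap B K (φ i (f j)) = valK K φ (f j) i := rfl
    rw [hlhs, hN, map_sum]
    set G : ℕ → K := fun n => if n ≤ (i : ℕ) then
      (∏ m ∈ range n, (nodeK K t φ i - nodeK K t φ m))
        * dd (nodeK K t φ) (valK K φ (f j)) (range (n + 1)) else 0 with hG
    have hR : ∀ x : Fin s, algebraMap B K (newtonU t φ s i x * D x j) = G x := by
      intro x
      simp only [hG, newtonU, map_mul, hD]
      split_ifs with h
      · simp only [map_prod, map_sub, nodeK]
      · simp
    rw [Finset.sum_congr rfl fun x _ => hR x, Fin.sum_univ_eq_sum_range G s]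
    have hss : range ((i : ℕ) + 1) ⊆ range s := by
      intro x hx
      have := i.2
      rw [mem_range] at hx ⊢
      omega
    rw [← Finset.sum_subset hss]
    · refine Finset.sum_congr rfl fun n hn => ?_
      rw [mem_range] at hn
      simp only [hG]
      rw [if_pos (by omega)]
    · intro n _ hn
      rw [mem_range] at hn
      simp only [hG]
      rw [if_neg (by omega)]
  · intro i j c hc
    obtain ⟨d, hd, hres⟩ := exists_eq_dd_taylor (K := K) t hdec φ ht hBK i (range (i + 1))
      (by simp) (hT.mono (hsub i)) (f j) c hc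
    have : d = D i j := hBK (by rw [hd, hD])
    rw [← this]; exact hres

/-- Matrix form of `exists_newton_factor`. -/
theorem exists_newton_factor_matrix (t : Oc)
    (hdec : ∀ f : Oc, ∃ (c : k) (g : Oc), f = algebraMap k Oc c + t * g)
    (φ : ℕ → Oc →ₐ[k] B) (ht : ∀ a, φ a t ∈ IsLocalRing.maximalIdeal B)
    (hBK : Function.Injective (algebraMap B K)) (s : ℕ)
    (hT : Set.InjOn (nodeK K t φ) (range s)) {m : Type*} (f : m → Oc) :
    ∃ D : Matrix (Fin s) m B,
      (Matrix.of fun (i : Fin s) (j : m) => φ i (f j)) = newtonU t φ s * D ∧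
      (∀ (i : Fin s) (j : m) (c : k), IsTaylor t i (f j) c →
        D i j - algebraMap k B c ∈ IsLocalRing.maximalIdeal B) := by
  obtain ⟨D, h1, h2, -⟩ := exists_newton_factor (K := K) t hdec φ ht hBK s hT f
  refine ⟨D, ?_, h2⟩
  ext i j
  rw [Matrix.of_apply, Matrix.mul_apply]
  exact h1 i j

/-- **Valuative Vandermonde in one disc, determinant form**: the `s × s` evaluation determinant
is the Vandermonde product of the parameters times the determinant of a matrix over `B` whose
rows reduce modulo `𝔪_B` to the jets (Taylor coefficients) of the `f j` at the centre. -/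
theorem exists_det_factor (t : Oc)
    (hdec : ∀ f : Oc, ∃ (c : k) (g : Oc), f = algebraMap k Oc c + t * g)
    (φ : ℕ → Oc →ₐ[k] B) (ht : ∀ a, φ a t ∈ IsLocalRing.maximalIdeal B)
    (hBK : Function.Injective (algebraMap B K)) (s : ℕ)
    (hT : Set.InjOn (nodeK K t φ) (range s)) (f : Fin s → Oc) :
    ∃ D : Matrix (Fin s) (Fin s) B,
      (Matrix.of fun (i j : Fin s) => φ i (f j)).det
        = (∏ i : Fin s, ∏ m ∈ range i, (φ i t - φ m t)) * D.det ∧
      (∀ (i j : Fin s) (c : k), IsTaylor t i (f j) c →
        D i j - algebraMap k B c ∈ IsLocalRing.maximalIdeal B) := by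
  obtain ⟨D, h1, h2⟩ := exists_newton_factor_matrix (K := K) t hdec φ ht hBK s hT f
  exact ⟨D, by rw [h1, Matrix.det_mul, det_newtonU], h2⟩

end Matrix

end Fermat.Agent.GR.H.Newton
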