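/-
GATE-R / S17, node GR-H-ML part 2 (helper17): heights of tensor powers and homogeneous
polynomials as linear functionals of tensor powers.

* `tpow u : (Fin d → σ) → K`, `tpow u s = ∏ a, u (s a)`; `logHeight_tpow : logHeight (tpow u) =
  d * logHeight u` (Mathlib's Segre lemma `Height.logHeight_fun_prod_eq`);
* `exists_tensor_form` : a homogeneous polynomial of degree `d` evaluates as a linear functional
  of `tpow u`.

Mathlib only.
-/
import Mathlib

set_option autoImplicit false

namespace Fermat.Agent.GR.H.TensorPow

open Finset MvPolynomial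

section tpow

variable {K : Type*} [CommSemiring K] {σ α : Type*} [Fintype α]

/-- The `α`-fold tensor power of a vector, as a family indexed by `α → σ`. -/
def tpow (u : σ → K) : (α → σ) → K := fun s => ∏ a, u (s a)

theorem tpow_apply (u : σ → K) (s : α → σ) : tpow u s = ∏ a, u (s a) := rfl

/-- A product of linear forms is a linear functional of the tensor power. -/
theorem prod_sum_mul_eq [DecidableEq α] [Fintype σ] (c : α → σ → K) (u : σ → K) :
    ∏ a, (∑ t, c a t * u t) = ∑ s : α → σ, (∏ a, c a (s a)) * tpow u s := by
  classical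
  rw [Finset.prod_univ_sum]
  simp [Fintype.piFinset_univ, tpow_apply, Finset.prod_mul_distrib]

end tpow

section height

variable {K : Type*} [Field K]
variable {σ : Type*} {α : Type*} [Fintype α]

theorem tpow_ne_zero {u : σ → K} (hu : u ≠ 0) : (tpow u : (α → σ) → K) ≠ 0 := by
  obtain ⟨i, hi⟩ := Function.ne_iff.mp hu
  refine Function.ne_iff.mpr ⟨fun _ => i, ?_⟩
  simp only [tpow_apply, Pi.zero_apply]
  exact Finset.prod_ne_zero_iff.mpr fun _ _ => hi

/-- **Height of a tensor power.** -/
theorem logHeight_tpow [Height.AdmissibleAbsValues K] [Finite σ] {u : σ → K} (hu : u ≠ 0) :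
    Height.logHeight (tpow u : (α → σ) → K) = Fintype.card α * Height.logHeight u := by
  have h := Height.logHeight_fun_prod_eq (K := K) (α := α) (ι := fun _ => σ)
    (x := fun _ => u) (fun _ => hu)
  simp only [Finset.sum_const, Finset.card_univ, nsmul_eq_mul] at h
  exact h

end height

section homogeneous

variable {K : Type*} [CommSemiring K] {σ : Type*}

theorem prod_map_toMultiset (m : σ →₀ ℕ) (u : σ → K) :
    (Multiset.map u (Finsupp.toMultiset m)).prod = m.prod fun i k => u i ^ k := by
  classical
  refine m.induction ?_ ?_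
  · simp
  · intro a n f _ _ ih
    rw [Finsupp.toMultiset_add, Multiset.map_add, Multiset.prod_add, ih, Finsupp.toMultiset_single,
      Multiset.map_nsmul, Multiset.prod_nsmul,
      Finsupp.prod_add_index' (fun _ => pow_zero _) (fun _ _ _ => pow_add _ _ _)]
    congr 1
    rw [Finsupp.prod_single_index (h := fun i k => u i ^ k) (pow_zero _)]
    simp

/-- A monomial of degree `d` is a coordinate of the `d`-th tensor power. -/
theorem exists_tpow_eq_monomial (m : σ →₀ ℕ) {d : ℕ} (hm : m.degree = d) :
    ∃ s : Fin d → σ, ∀ u : σ → K, tpow u s = m.prod fun i k => u i ^ k := by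
  classical
  subst hm
  have hcard : (Finsupp.toMultiset m).toList.length = m.degree := by
    rw [Multiset.length_toList, Finsupp.card_toMultiset]
    rfl
  refine ⟨fun a => (Finsupp.toMultiset m).toList.get (Fin.cast hcard.symm a), fun u => ?_⟩
  rw [tpow_apply]
  have h1 : ∏ a : Fin m.degree, u ((Finsupp.toMultiset m).toList.get (Fin.cast hcard.symm a)) =
      ∏ a : Fin (Finsupp.toMultiset m).toList.length, u ((Finsupp.toMultiset m).toList.get a) := by
    refine Fintype.prod_equiv (finCongr hcard.symm) _ _ fun a => ?_
    rfl
  rw [h1]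
  have h2 : ∏ a : Fin (Finsupp.toMultiset m).toList.length,
      u ((Finsupp.toMultiset m).toList.get a) = ((Finsupp.toMultiset m).toList.map u).prod := by
    rw [← List.prod_ofFn]
    congr 1
    apply List.ext_get
    · simp
    · intro i h1 h2
      simp
  rw [h2, ← Multiset.prod_coe, ← Multiset.map_coe, Multiset.coe_toList, prod_map_toMultiset]

/-- A homogeneous polynomial of degree `d` evaluates as a linear functional of the `d`-th
tensor power of the point. -/
theorem exists_tensor_form [Fintype σ] {d : ℕ} {F : MvPolynomial σ K} (hF : F.IsHomogeneous d) :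
    ∃ c : (Fin d → σ) → K, ∀ u : σ → K, eval u F = ∑ s : Fin d → σ, c s * tpow u s := by
  classical
  have hsum : F = ∑ m ∈ F.support, monomial m (coeff m F) := (support_sum_monomial_coeff F).symm
  have key : ∀ m ∈ F.support, ∃ c : (Fin d → σ) → K, ∀ u : σ → K,
      eval u (monomial m (coeff m F)) = ∑ s : Fin d → σ, c s * tpow u s := by
    intro m hm
    have hdeg : m.degree = d := by
      have := hF (mem_support_iff.mp hm)
      rwa [Finsupp.degree_eq_weight_one]
    obtain ⟨s, hs⟩ := exists_tpow_eq_monomial (K := K) m hdeg
    refine ⟨Pi.single s (coeff m F), fun u => ?_⟩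
    rw [eval_monomial, Finset.sum_eq_single s]
    · simp [hs]
    · intro b _ hb
      simp [Pi.single_eq_of_ne hb]
    · intro h
      exact absurd (Finset.mem_univ s) h
  choose! c hc using key
  refine ⟨fun s => ∑ m ∈ F.support, c m s, fun u => ?_⟩
  conv_lhs => rw [hsum, map_sum]
  rw [Finset.sum_congr rfl fun m hm => hc m hm u, Finset.sum_comm]
  refine Finset.sum_congr rfl fun s _ => ?_
  rw [Finset.sum_mul]

end homogeneous

end Fermat.Agent.GR.H.TensorPow
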