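/-
GATE-R / S17, node GR-H-ML part 3 (helper17): the MULTIPLICATION LEMMA for Plücker heights.

Setting: `K` a field with an admissible family of absolute values; a bilinear "multiplication"
`(σ → K) × (ι → K) → (κ → K)` with structure constants `c : κ → ι → σ → K`, i.e. multiplication
by `u : σ → K` has the matrix `mulMat c u : Matrix κ ι K`, `mulMat c u k i = ∑ t, c k i t * u t`.
For a subspace of `ι → K` spanned by the rows of `W : Matrix n ι K`, the subspace `u · W` is
spanned by the rows of `W * (mulMat c u)ᵀ`.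

Hypothesis (left-inverse certificate, LIC): for every `s : σ` a matrix `G s` of forms of degree
`D` in `u` with `G s (u) * mulMat c u = (u s) ^ (D + 1) • 1`.

Conclusion (`abs_logHeight_minorsAll_mul_sub_le`): there is `C` with
  `|H(u · W) - (card n * h(u) + H(W))| ≤ C`   for all `u ≠ 0` and all `W` of full rank,
where `H = logHeight ∘ minorsAll` is the Plücker height and `h = logHeight`.

The upper bound needs no certificate.  Mathlib only.
-/
import Mathlib
import Fermat.Agent.GR.H.CauchyBinet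
import Fermat.Agent.GR.H.TensorPow

set_option autoImplicit false
set_option linter.unusedSectionVars false

namespace Fermat.Agent.GR.H.MulLemma

open Matrix Finset Height
open Fermat.Agent.GR.H.CauchyBinet Fermat.Agent.GR.H.TensorPow

variable {K : Type*} [Field K]
variable {σ ι κ n : Type*} [Fintype σ] [Fintype ι] [Fintype κ] [Fintype n] [DecidableEq n]

/-- The matrix of "multiplication by `u`" for the structure constants `c`. -/
def mulMat (c : κ → ι → σ → K) (u : σ → K) : Matrix κ ι K := fun k i => ∑ t, c k i t * u t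

theorem mulMat_apply (c : κ → ι → σ → K) (u : σ → K) (k : κ) (i : ι) :
    mulMat c u k i = ∑ t, c k i t * u t := rfl

/-- The minors of `u · W` are a linear image of the Segre vector `u^{⊗ n} ⊗ Pl(W)`. -/
theorem minorsAll_mul_mulMat (c : κ → ι → σ → K) (u : σ → K) (W : Matrix n ι K) (J' : n → κ) :
    minorsAll (W * (mulMat c u)ᵀ) J' =
      ∑ x : (n → σ) × (n → ι), (∏ a, c (J' a) (x.2 a) (x.1 a)) *
        (tpow u x.1 * minorsAll W x.2) := by
  classical
  rw [minorsAll_mul_transpose, Fintype.sum_prod_type, Finset.sum_comm]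
  refine Finset.sum_congr rfl fun J _ => ?_
  simp only [mulMat_apply]
  rw [prod_sum_mul_eq (fun a t => c (J' a) (J a) t) u, Finset.sum_mul]
  refine Finset.sum_congr rfl fun s _ => ?_
  ring

section upper

variable [Height.AdmissibleAbsValues K]

/-- **Multiplication lemma, upper bound** (no certificate needed). -/
theorem logHeight_minorsAll_mul_le (c : κ → ι → σ → K) :
    ∃ C : ℝ, ∀ (u : σ → K) (W : Matrix n ι K), u ≠ 0 → minorsAll W ≠ 0 →
      logHeight (minorsAll (W * (mulMat c u)ᵀ)) ≤
        C + (Fintype.card n * logHeight u + logHeight (minorsAll W)) := by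
  classical
  let Acoef : (n → κ) × ((n → σ) × (n → ι)) → K :=
    fun x => ∏ a, c (x.1 a) (x.2.2 a) (x.2.1 a)
  refine ⟨totalWeight K * Real.log (Nat.card ((n → σ) × (n → ι))) + logHeight Acoef,
    fun u W hu hW => ?_⟩
  have h1 : minorsAll (W * (mulMat c u)ᵀ) =
      fun J' => ∑ x : (n → σ) × (n → ι), Acoef (J', x) *
        ((fun x : (n → σ) × (n → ι) => tpow u x.1 * minorsAll W x.2) x) := by
    funext J'
    exact minorsAll_mul_mulMat c u W J'
  rw [h1]
  refine (logHeight_linearMap_apply_le Acoef _).trans ?_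
  rw [logHeight_fun_mul_eq (tpow_ne_zero hu) hW, logHeight_tpow hu]

end upper

section lower

variable [DecidableEq ι]

/-- Evaluated certificate matrix in tensor form. -/
def certMat {D : ℕ} (g : ι → κ → (Fin D → σ) → K) (u : σ → K) : Matrix ι κ K :=
  fun i k => ∑ t, g i k t * tpow u t

theorem certMat_apply {D : ℕ} (g : ι → κ → (Fin D → σ) → K) (u : σ → K) (i : ι) (k : κ) :
    certMat g u i k = ∑ t, g i k t * tpow u t := rfl

/-- The key identity of the lower bound: `(u s)^((D+1) * card n) * Pl(W)` is a linear image of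
`u^{⊗ n D} ⊗ Pl(u · W)`. -/
theorem pow_mul_minorsAll_eq (c : κ → ι → σ → K) {D : ℕ} (g : ι → κ → (Fin D → σ) → K)
    (u : σ → K) (e : K) (hg : certMat g u * mulMat c u = e • (1 : Matrix ι ι K))
    (W : Matrix n ι K) (J : n → ι) :
    e ^ Fintype.card n * minorsAll W J =
      ∑ x : (n → Fin D → σ) × (n → κ), (∏ a, g (J a) (x.2 a) (x.1 a)) *
        (tpow (tpow u) x.1 * minorsAll (W * (mulMat c u)ᵀ) x.2) := by
  classical
  have h1 : W * (mulMat c u)ᵀ * (certMat g u)ᵀ = e • W := by
    rw [Matrix.mul_assoc, ← Matrix.transpose_mul, hg]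
    simp
  have h2 : minorsAll (W * (mulMat c u)ᵀ * (certMat g u)ᵀ) J = e ^ Fintype.card n * minorsAll W J := by
    rw [h1, minorsAll_smul]
    simp
  rw [← h2, minorsAll_mul_transpose, Fintype.sum_prod_type, Finset.sum_comm]
  refine Finset.sum_congr rfl fun I' _ => ?_
  simp only [certMat_apply]
  rw [prod_sum_mul_eq (fun a t => g (J a) (I' a) t) (tpow u), Finset.sum_mul]
  refine Finset.sum_congr rfl fun T _ => ?_
  ring

variable [Height.AdmissibleAbsValues K]

/-- **Multiplication lemma, lower bound** from a left-inverse certificate in tensor form. -/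
theorem le_logHeight_minorsAll_mul (c : κ → ι → σ → K) {D : ℕ}
    (g : σ → ι → κ → (Fin D → σ) → K)
    (hg : ∀ (s : σ) (u : σ → K),
      certMat (g s) u * mulMat c u = (u s) ^ (D + 1) • (1 : Matrix ι ι K)) :
    ∃ C : ℝ, ∀ (u : σ → K) (W : Matrix n ι K), u ≠ 0 → minorsAll W ≠ 0 →
      minorsAll (W * (mulMat c u)ᵀ) ≠ 0 ∧
      Fintype.card n * logHeight u + logHeight (minorsAll W) ≤
        C + logHeight (minorsAll (W * (mulMat c u)ᵀ)) := by
  classical
  let Bcoef : (σ × (n → ι)) × ((n → Fin D → σ) × (n → κ)) → K :=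
    fun x => ∏ a, g x.1.1 (x.1.2 a) (x.2.2 a) (x.2.1 a)
  refine ⟨totalWeight K * Real.log (Nat.card ((n → Fin D → σ) × (n → κ))) + logHeight Bcoef,
    fun u W hu hW => ?_⟩
  set p := minorsAll W with hp
  set p' := minorsAll (W * (mulMat c u)ᵀ) with hp'
  set N := (D + 1) * Fintype.card n with hN
  -- the vector `z = (u^N) ⊗ p`
  have hz : (fun x : σ × (n → ι) => (u ^ N) x.1 * p x.2) =
      fun x => ∑ y : (n → Fin D → σ) × (n → κ), Bcoef (x, y) *
        ((fun y : (n → Fin D → σ) × (n → κ) => tpow (tpow u) y.1 * p' y.2) y) := by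
    funext x
    have := pow_mul_minorsAll_eq c (g x.1) u _ (hg x.1 u) W x.2
    simp only [Pi.pow_apply, hN, pow_mul]
    exact this
  have huN : u ^ N ≠ 0 := by
    obtain ⟨i, hi⟩ := Function.ne_iff.mp hu
    exact Function.ne_iff.mpr ⟨i, by simpa using pow_ne_zero N hi⟩
  have hp'0 : p' ≠ 0 := by
    intro h0
    obtain ⟨i, hi⟩ := Function.ne_iff.mp huN
    obtain ⟨J, hJ⟩ := Function.ne_iff.mp hW
    have := congrFun hz (i, J)
    simp only [h0, Pi.zero_apply, mul_zero, Finset.sum_const_zero] at this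
    exact mul_ne_zero hi hJ this
  refine ⟨hp'0, ?_⟩
  have hle := logHeight_linearMap_apply_le Bcoef
    (fun y : (n → Fin D → σ) × (n → κ) => tpow (tpow u) y.1 * p' y.2)
  rw [← hz, logHeight_fun_mul_eq huN hW, logHeight_pow,
    logHeight_fun_mul_eq (tpow_ne_zero (tpow_ne_zero hu)) hp'0, logHeight_tpow (tpow_ne_zero hu),
    logHeight_tpow hu] at hle
  simp only [Fintype.card_fin, hN, Nat.cast_mul, Nat.cast_add, Nat.cast_one] at hle
  linarith

/-- **Multiplication lemma** (tensor-form certificate). -/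
theorem abs_logHeight_minorsAll_mul_sub_le (c : κ → ι → σ → K) {D : ℕ}
    (g : σ → ι → κ → (Fin D → σ) → K)
    (hg : ∀ (s : σ) (u : σ → K),
      certMat (g s) u * mulMat c u = (u s) ^ (D + 1) • (1 : Matrix ι ι K)) :
    ∃ C : ℝ, ∀ (u : σ → K) (W : Matrix n ι K), u ≠ 0 → minorsAll W ≠ 0 →
      minorsAll (W * (mulMat c u)ᵀ) ≠ 0 ∧
      |logHeight (minorsAll (W * (mulMat c u)ᵀ)) -
        (Fintype.card n * logHeight u + logHeight (minorsAll W))| ≤ C := by
  obtain ⟨C₁, h₁⟩ := logHeight_minorsAll_mul_le (n := n) c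
  obtain ⟨C₂, h₂⟩ := le_logHeight_minorsAll_mul (n := n) c g hg
  refine ⟨max C₁ C₂, fun u W hu hW => ⟨(h₂ u W hu hW).1, ?_⟩⟩
  have a₁ := h₁ u W hu hW
  have a₂ := (h₂ u W hu hW).2
  rw [abs_le]
  constructor
  · have := le_max_right C₁ C₂
    linarith
  · have := le_max_left C₁ C₂
    linarith

open MvPolynomial in
/-- **Multiplication lemma** (certificate given by homogeneous polynomials, identity checked
after evaluation). -/
theorem abs_logHeight_minorsAll_mul_sub_le_of_eval (c : κ → ι → σ → K) {D : ℕ}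
    (G : σ → Matrix ι κ (MvPolynomial σ K)) (hG : ∀ s i k, (G s i k).IsHomogeneous D)
    (hGA : ∀ (s : σ) (u : σ → K),
      (G s).map (eval u) * mulMat c u = (u s) ^ (D + 1) • (1 : Matrix ι ι K)) :
    ∃ C : ℝ, ∀ (u : σ → K) (W : Matrix n ι K), u ≠ 0 → minorsAll W ≠ 0 →
      minorsAll (W * (mulMat c u)ᵀ) ≠ 0 ∧
      |logHeight (minorsAll (W * (mulMat c u)ᵀ)) -
        (Fintype.card n * logHeight u + logHeight (minorsAll W))| ≤ C := by
  choose g hg using fun s i k => exists_tensor_form (hG s i k)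
  refine abs_logHeight_minorsAll_mul_sub_le c g fun s u => ?_
  have : certMat (g s) u = (G s).map (eval u) := by
    ext i k
    rw [certMat_apply, Matrix.map_apply, hg s i k u]
  rw [this, hGA s u]

/-- The matrix of "multiplication by the generic point", with linear-form entries. -/
noncomputable def mulMatPoly (c : κ → ι → σ → K) : Matrix κ ι (MvPolynomial σ K) :=
  fun k i => ∑ t, MvPolynomial.C (c k i t) * MvPolynomial.X t

theorem mulMatPoly_map_eval (c : κ → ι → σ → K) (u : σ → K) :
    (mulMatPoly c).map (MvPolynomial.eval u) = mulMat c u := by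
  ext k i
  simp [mulMatPoly, mulMat_apply]

theorem mulMatPoly_isHomogeneous (c : κ → ι → σ → K) (k : κ) (i : ι) :
    (mulMatPoly c k i).IsHomogeneous 1 := by
  refine MvPolynomial.IsHomogeneous.sum _ _ _ fun t _ => ?_
  simpa using (MvPolynomial.isHomogeneous_C σ (c k i t)).mul (MvPolynomial.isHomogeneous_X K t)

open MvPolynomial in
/-- **Multiplication lemma** (symbolic left-inverse certificate
`G s * mulMatPoly c = X s ^ (D + 1) • 1`). -/
theorem abs_logHeight_minorsAll_mul_sub_le_of_cert (c : κ → ι → σ → K) {D : ℕ}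
    (G : σ → Matrix ι κ (MvPolynomial σ K)) (hG : ∀ s i k, (G s i k).IsHomogeneous D)
    (hGA : ∀ s : σ, G s * mulMatPoly c = (X s : MvPolynomial σ K) ^ (D + 1) • (1 : Matrix ι ι _)) :
    ∃ C : ℝ, ∀ (u : σ → K) (W : Matrix n ι K), u ≠ 0 → minorsAll W ≠ 0 →
      minorsAll (W * (mulMat c u)ᵀ) ≠ 0 ∧
      |logHeight (minorsAll (W * (mulMat c u)ᵀ)) -
        (Fintype.card n * logHeight u + logHeight (minorsAll W))| ≤ C := by
  refine abs_logHeight_minorsAll_mul_sub_le_of_eval c G hG fun s u => ?_
  have h := congrArg (fun M : Matrix ι ι (MvPolynomial σ K) => M.map (eval u)) (hGA s)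
  simp only [Matrix.map_mul, mulMatPoly_map_eval] at h
  rw [h]
  ext i j
  simp [Matrix.one_apply, Matrix.smul_apply]
  split_ifs <;> simp

end lower

end Fermat.Agent.GR.H.MulLemma
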