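/-
GATE-R / S17, node GR-H-ML part 4 = ML-CERT (helper17): the left-inverse certificate of the
multiplication lemma from the ONE geometric input "the bilinear multiplication has no zero
divisors over an algebraically closed extension", hence the hypothesis-free multiplication lemma
for Plücker heights.

* `exists_minor_ne_zero_of_mulVec_injective` : an injective matrix over a field has a nonzero
  maximal minor (Cauchy–Binet against a left inverse);
* `minorsAll_ne_zero_iff` : the Plücker vector `minorsAll W` is nonzero iff the rows of `W` are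
  linearly independent;
* `det_isHomogeneous` : determinant of a matrix of forms with row degrees `d r`;
* `exists_cert` : no zero divisors over `L` ⟹ `∃ D G`, `G s` homogeneous of degree `D`,
  `G s * mulMatPoly c = X s ^ (D + 1) • 1` (helper4's projective Nullstellensatz certificate for
  the maximal minors + adjugates + homogeneous components);
* `mulLemma` : `|H(u · W) - (card n * h(u) + H(W))| ≤ C`.

Mathlib + GR/H/{CauchyBinet,TensorPow,MulLemma,ProjNSS}.
-/
import Mathlib
import Fermat.Agent.GR.H.MulLemma
import Fermat.Agent.GR.H.ProjNSS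

set_option autoImplicit false
set_option linter.unusedSectionVars false

namespace Fermat.Agent.GR.H.MulCert

open Matrix Finset Height MvPolynomial
open Fermat.Agent.GR.H.CauchyBinet Fermat.Agent.GR.H.TensorPow Fermat.Agent.GR.H.MulLemma

section rank

variable {F : Type*} [Field F] {ι κ n : Type*} [Fintype ι] [DecidableEq ι] [Fintype κ]
  [DecidableEq κ] [Fintype n] [DecidableEq n]

/-- An injective matrix over a field has a nonzero maximal minor. -/
theorem exists_minor_ne_zero_of_mulVec_injective (M : Matrix κ ι F)
    (h : Function.Injective M.mulVec) : ∃ τ : ι → κ, minorsAll Mᵀ τ ≠ 0 := by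
  have hker : LinearMap.ker (Matrix.toLin' M) = ⊥ := by
    rw [LinearMap.ker_eq_bot, Matrix.toLin'_apply']
    exact h
  obtain ⟨g, hg⟩ := (Matrix.toLin' M).exists_leftInverse_of_injective hker
  have hBM : LinearMap.toMatrix' g * M = 1 := by
    have := congrArg LinearMap.toMatrix' hg
    rwa [LinearMap.toMatrix'_comp, LinearMap.toMatrix'_toLin', LinearMap.toMatrix'_id] at this
  by_contra hcon
  push Not at hcon
  have h1 : (Mᵀ * (LinearMap.toMatrix' g)ᵀ).det = 1 := by
    rw [← Matrix.transpose_mul, Matrix.det_transpose, hBM, Matrix.det_one]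
  rw [det_mul_transpose] at h1
  simp [hcon] at h1

/-- Linearly independent rows give a nonzero Plücker vector. -/
theorem minorsAll_ne_zero_of_linearIndependent (W : Matrix n ι F)
    (h : LinearIndependent F W.row) : minorsAll W ≠ 0 := by
  have hinj : Function.Injective (Wᵀ).mulVec := by
    rw [Matrix.mulVec_injective_iff, Matrix.col_transpose]
    exact h
  obtain ⟨τ, hτ⟩ := exists_minor_ne_zero_of_mulVec_injective Wᵀ hinj
  rw [Matrix.transpose_transpose] at hτ
  exact Function.ne_iff.mpr ⟨τ, hτ⟩

/-- A nonzero Plücker vector forces linearly independent rows. -/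
theorem linearIndependent_of_minorsAll_ne_zero (W : Matrix n ι F) (h : minorsAll W ≠ 0) :
    LinearIndependent F W.row := by
  obtain ⟨J, hJ⟩ := Function.ne_iff.mp h
  rw [Pi.zero_apply, minorsAll_apply] at hJ
  have hrows : LinearIndependent F (W.submatrix id J).row :=
    Matrix.linearIndependent_rows_of_det_ne_zero hJ
  refine LinearIndependent.of_comp (LinearMap.funLeft F F J) ?_
  convert hrows using 1
  exact funext fun a => rfl

theorem minorsAll_ne_zero_iff (W : Matrix n ι F) :
    minorsAll W ≠ 0 ↔ LinearIndependent F W.row :=
  ⟨linearIndependent_of_minorsAll_ne_zero W, minorsAll_ne_zero_of_linearIndependent W⟩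

end rank

section homog

variable {K : Type*} [CommRing K] {σ m : Type*} [Fintype m] [DecidableEq m]

/-- Determinant of a matrix of forms whose `r`-th row consists of forms of degree `d r`. -/
theorem det_isHomogeneous (M : Matrix m m (MvPolynomial σ K)) (d : m → ℕ)
    (hM : ∀ r c, (M r c).IsHomogeneous (d r)) : M.det.IsHomogeneous (∑ r, d r) := by
  rw [Matrix.det_apply]
  refine IsHomogeneous.sum _ _ _ fun π _ => ?_
  have hprod : (∏ a, M (π a) a).IsHomogeneous (∑ r, d r) := by
    have := IsHomogeneous.prod Finset.univ (fun a => M (π a) a) (fun a => d (π a))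
      fun a _ => hM (π a) a
    rwa [Equiv.sum_comp π d] at this
  rcases Int.units_eq_one_or (Equiv.Perm.sign π) with h | h
  · rw [h, one_smul]
    exact hprod
  · rw [h, Units.neg_smul, one_smul]
    exact hprod.neg

end homog

section cert

variable {K L : Type*} [Field K] [Field L] [Algebra K L] [IsAlgClosed L]
variable {σ ι κ : Type*} [Fintype σ] [Fintype ι] [Fintype κ] [DecidableEq ι] [DecidableEq κ]

/-- The maximal minors of the generic multiplication matrix. -/
noncomputable def minorPoly (c : κ → ι → σ → K) (τ : ι → κ) : MvPolynomial σ K :=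
  minorsAll (mulMatPoly c)ᵀ τ

theorem mulMatPoly_isHomogeneous' (c : κ → ι → σ → K) (k : κ) (i : ι) :
    (mulMatPoly c k i).IsHomogeneous 1 := by
  refine MvPolynomial.IsHomogeneous.sum _ _ _ fun t _ => ?_
  simpa using (MvPolynomial.isHomogeneous_C σ (c k i t)).mul (MvPolynomial.isHomogeneous_X K t)

theorem minorPoly_isHomogeneous (c : κ → ι → σ → K) (τ : ι → κ) :
    (minorPoly c τ).IsHomogeneous (Fintype.card ι) := by
  have := det_isHomogeneous (((mulMatPoly c)ᵀ).submatrix id τ) (fun _ => 1) fun r k => by
    simpa using mulMatPoly_isHomogeneous' c (τ k) r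
  simpa [minorPoly, minorsAll_apply] using this

theorem aeval_minorPoly (c : κ → ι → σ → K) (τ : ι → κ) (u : σ → L) :
    aeval u (minorPoly c τ) =
      minorsAll (mulMat (fun k i t => algebraMap K L (c k i t)) u)ᵀ τ := by
  rw [minorPoly, minorsAll_apply, minorsAll_apply, AlgHom.map_det]
  congr 1
  ext a b
  simp [mulMatPoly, mulMat_apply]

/-- The row selector: `selMat τ * A = A.submatrix τ id`. -/
def selMat (R : Type*) [Zero R] [One R] (τ : ι → κ) : Matrix ι κ R :=
  fun i k => if τ i = k then 1 else 0

theorem selMat_mul {R : Type*} [CommRing R] (τ : ι → κ) (A : Matrix κ ι R) :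
    selMat R τ * A = A.submatrix τ id := by
  ext i j
  simp [selMat, Matrix.mul_apply]

theorem det_submatrix_eq_minorsAll_transpose {R : Type*} [CommRing R] (A : Matrix κ ι R)
    (τ : ι → κ) : (A.submatrix τ id).det = minorsAll Aᵀ τ := by
  rw [minorsAll_apply, ← Matrix.det_transpose]
  rfl

/-- **ML-CERT**: if multiplication by every nonzero `u` over the algebraically closed `L` is
injective, there is a homogeneous polynomial left inverse of the generic multiplication matrix
up to a power of each variable. -/
theorem exists_cert [Nonempty ι] (c : κ → ι → σ → K)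
    (hinj : ∀ u : σ → L, u ≠ 0 →
      Function.Injective (mulMat (fun k i t => algebraMap K L (c k i t)) u).mulVec) :
    ∃ (D : ℕ) (G : σ → Matrix ι κ (MvPolynomial σ K)),
      (∀ s i k, (G s i k).IsHomogeneous D) ∧
      ∀ s : σ, G s * mulMatPoly c =
        (X s : MvPolynomial σ K) ^ (D + 1) • (1 : Matrix ι ι (MvPolynomial σ K)) := by
  classical
  -- the certificate for the maximal minors
  obtain ⟨M, q, -, hcert⟩ := ProjNSS.exists_certificate (L := L) (minorPoly c)
    (minorPoly_isHomogeneous c) (by
      intro u hu
      by_contra hu0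
      obtain ⟨τ, hτ⟩ := exists_minor_ne_zero_of_mulVec_injective _ (hinj u hu0)
      exact hτ (by rw [← aeval_minorPoly]; exact hu τ))
  -- a (not yet homogeneous) left inverse
  set E : ℕ := M + Fintype.card ι with hE
  have hE1 : 1 ≤ E := by
    have : 0 < Fintype.card ι := Fintype.card_pos
    omega
  let G₀ : σ → Matrix ι κ (MvPolynomial σ K) := fun s =>
    ∑ τ : ι → κ, q (s, τ) • (adjugate ((mulMatPoly c).submatrix τ id) *
      selMat (MvPolynomial σ K) τ)
  have hG₀ : ∀ s, G₀ s * mulMatPoly c = (X s : MvPolynomial σ K) ^ E • (1 : Matrix ι ι _) := by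
    intro s
    simp only [G₀, Matrix.sum_mul, Matrix.smul_mul, Matrix.mul_assoc, selMat_mul,
      Matrix.adjugate_mul, det_submatrix_eq_minorsAll_transpose, smul_smul]
    rw [← Finset.sum_smul]
    congr 1
    exact hcert s
  -- take homogeneous components
  refine ⟨E - 1, fun s => Matrix.of fun i k => homogeneousComponent (E - 1) (G₀ s i k),
    fun s i k => homogeneousComponent_isHomogeneous _ _, fun s => ?_⟩
  have hE' : E - 1 + 1 = E := Nat.sub_add_cancel hE1
  rw [hE']
  refine Matrix.ext fun i j => ?_
  have hij := congrFun (congrFun (hG₀ s) i) j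
  rw [Matrix.mul_apply] at hij ⊢
  simp only [Matrix.of_apply]
  have hX : ((X s : MvPolynomial σ K) ^ E • (1 : Matrix ι ι (MvPolynomial σ K))) i j =
      homogeneousComponent E (((X s : MvPolynomial σ K) ^ E • (1 : Matrix ι ι _)) i j) := by
    have hhom : (((X s : MvPolynomial σ K) ^ E • (1 : Matrix ι ι (MvPolynomial σ K))) i j).IsHomogeneous E := by
      rw [Matrix.smul_apply, Matrix.one_apply]
      split_ifs
      · simpa using (isHomogeneous_X K s).pow E
      · simpa using isHomogeneous_zero σ K E
    exact (homogeneousComponent_eq_self hhom).symm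
  rw [hX, ← hij, map_sum]
  refine Finset.sum_congr rfl fun k _ => ?_
  exact (ProjNSS.homogeneousComponent_mul_of_isHomogeneous (mulMatPoly_isHomogeneous' c k j)
    hE1).symm

end cert

section final

variable {K L : Type*} [Field K] [Field L] [Algebra K L] [IsAlgClosed L]
variable [Height.AdmissibleAbsValues K]
variable {σ ι κ n : Type*} [Fintype σ] [Fintype ι] [Fintype κ] [DecidableEq ι] [DecidableEq κ]
  [Fintype n] [DecidableEq n]

/-- **Multiplication lemma for Plücker heights** (final form): if the bilinear multiplication
with structure constants `c` has no zero divisors over an algebraically closed extension `L` of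
`K`, then `H(u · W) = card n * h(u) + H(W) + O(1)` uniformly in `u ≠ 0` and in `W` of full
rank. -/
theorem mulLemma (c : κ → ι → σ → K)
    (hinj : ∀ u : σ → L, u ≠ 0 →
      Function.Injective (mulMat (fun k i t => algebraMap K L (c k i t)) u).mulVec) :
    ∃ C : ℝ, ∀ (u : σ → K) (W : Matrix n ι K), u ≠ 0 → minorsAll W ≠ 0 →
      minorsAll (W * (mulMat c u)ᵀ) ≠ 0 ∧
      |logHeight (minorsAll (W * (mulMat c u)ᵀ)) -
        (Fintype.card n * logHeight u + logHeight (minorsAll W))| ≤ C := by
  rcases isEmpty_or_nonempty ι with hι | hι
  · -- degenerate case: `n` must be empty as well, all Plücker vectors are `![1]`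
    refine ⟨0, fun u W hu hW => ?_⟩
    have hn : IsEmpty n := by
      by_contra hne
      rw [not_isEmpty_iff] at hne
      obtain ⟨a⟩ := hne
      apply hW
      funext J
      exact (hι.false (J a)).elim
    have h1 : ∀ V : Matrix n κ K, minorsAll V = 1 := by
      intro V
      funext J
      simp [minorsAll_apply]
    have h2 : ∀ V : Matrix n ι K, minorsAll V = 1 := by
      intro V
      funext J
      simp [minorsAll_apply]
    refine ⟨?_, ?_⟩
    · rw [h1]
      intro h0
      have := congrFun h0 (fun a => (hn.false a).elim)
      simp at this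
    · rw [h1, h2, logHeight_one, logHeight_one]
      simp
  · obtain ⟨D, G, hG, hGA⟩ := exists_cert (L := L) c hinj
    exact abs_logHeight_minorsAll_mul_sub_le_of_cert c G hG hGA

end final

end Fermat.Agent.GR.H.MulCert
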