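/-
GATE-R (S17), node H1, Mathlib-only leaf (helper43): the NORTHCOTT PROPERTY FOR PROJECTIVE SPACE.

Mathlib's `NumberTheory/Height/Northcott.lean` lists it as a TODO.  For a field `K` with admissible
absolute values satisfying Northcott for `mulHeight₁` (e.g. any number field, in particular `ℚ`)
and a finite index type `ι`:

* `mulHeight₁_div_le`          : `H₁(x j / x i) ≤ H(x)`;
* `finite_normalised`          : tuples with `x i₀ = 1` and `H(x) ≤ B` are finitely many;
* `finite_setOf_mulHeight_le`  : points of `ℙ(ι → K)` of multiplicative height `≤ B` are finitely many;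
* instances `Northcott Projectivization.mulHeight`, `Northcott Projectivization.logHeight`;
* `finite_of_logHeight_le_of_injective` : a map into nonzero tuples which is injective up to scaling
  pulls Northcott back (the shape used for Plücker vectors of subspaces).
-/
import Mathlib

set_option autoImplicit false

namespace Fermat.Agent.GR.H.NorthcottProj

open Height

variable {K : Type*} [Field K] [AdmissibleAbsValues K] {ι : Type*} [Finite ι]

/-- the height of a ratio of two coordinates is bounded by the height of the tuple -/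
theorem mulHeight₁_div_le (x : ι → K) (i j : ι) : mulHeight₁ (x j / x i) ≤ mulHeight x := by
  rw [mulHeight₁_div_eq_mulHeight]
  have h : (![x j, x i] : Fin 2 → K) = x ∘ ![j, i] := by
    ext k; fin_cases k <;> rfl
  rw [h]
  exact mulHeight_comp_le _ _

/-- tuples normalised at the coordinate `i₀` and of bounded height are finitely many -/
theorem finite_normalised [Northcott (mulHeight₁ (K := K))] (i₀ : ι) (B : ℝ) :
    {x : ι → K | x i₀ = 1 ∧ mulHeight x ≤ B}.Finite := by
  have hS : {y : K | mulHeight₁ y ≤ B}.Finite := Northcott.finite_le B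
  refine (Set.Finite.pi' (fun _ : ι => hS)).subset ?_
  rintro x ⟨h1, hB⟩ j
  have h := mulHeight₁_div_le x i₀ j
  rw [h1, div_one] at h
  exact h.trans hB

/-- **Northcott for projective space**, multiplicative height. -/
theorem finite_setOf_mulHeight_le [Northcott (mulHeight₁ (K := K))] (B : ℝ) :
    {p : Projectivization K (ι → K) | p.mulHeight ≤ B}.Finite := by
  classical
  -- the normalised representatives, as nonzero vectors
  set F : ι → Set {v : ι → K // v ≠ 0} := fun i₀ => {x | x.1 i₀ = 1 ∧ mulHeight x.1 ≤ B} with hF
  have hFfin : ∀ i₀, (F i₀).Finite := fun i₀ =>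
    (finite_normalised (K := K) i₀ B).preimage (Subtype.val_injective.injOn)
  have hcover : {p : Projectivization K (ι → K) | p.mulHeight ≤ B} ⊆
      ⋃ i₀, (fun x : {v : ι → K // v ≠ 0} => Projectivization.mk K x.1 x.2) '' F i₀ := by
    intro p hp
    have hv : p.rep ≠ 0 := p.rep_nonzero
    obtain ⟨i₀, hi₀⟩ : ∃ i₀, p.rep i₀ ≠ 0 := by
      by_contra hcon
      exact hv (funext fun i => by_contra fun hi => hcon ⟨i, hi⟩)
    have hc : (p.rep i₀)⁻¹ ≠ 0 := inv_ne_zero hi₀
    have hx : (p.rep i₀)⁻¹ • p.rep ≠ 0 := smul_ne_zero hc hv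
    rw [Set.mem_iUnion]
    refine ⟨i₀, ⟨(p.rep i₀)⁻¹ • p.rep, hx⟩, ⟨?_, ?_⟩, ?_⟩
    · simp [inv_mul_cancel₀ hi₀]
    · rw [mulHeight_smul_eq_mulHeight _ hc]
      have : p.mulHeight = mulHeight p.rep := by
        conv_lhs => rw [← p.mk_rep]
        rfl
      rw [← this]; exact hp
    · have h1 : Projectivization.mk K ((p.rep i₀)⁻¹ • p.rep) hx = Projectivization.mk K p.rep hv := by
        rw [Projectivization.mk_eq_mk_iff]
        exact ⟨Units.mk0 _ hc, rfl⟩
      exact h1.trans p.mk_rep
  exact (Set.finite_iUnion fun i₀ => (hFfin i₀).image _).subset hcover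

instance [Northcott (mulHeight₁ (K := K))] :
    Northcott (Projectivization.mulHeight (K := K) (ι := ι)) where
  finite_le := finite_setOf_mulHeight_le

/-- **Northcott for projective space**, logarithmic height. -/
instance [Northcott (mulHeight₁ (K := K))] :
    Northcott (Projectivization.logHeight (K := K) (ι := ι)) where
  finite_le B := by
    refine (finite_setOf_mulHeight_le (K := K) (ι := ι) (Real.exp B)).subset ?_
    intro p hp
    have h : p.logHeight ≤ B := hp
    rw [Projectivization.logHeight_eq_log_mulHeight] at h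
    exact (Real.log_le_iff_le_exp p.mulHeight_pos).mp h

/-- Pull-back form: a map `P : α → (ι → K)` into NONZERO tuples which is injective up to scaling
(`P a = c • P b → a = b`) makes `logHeight ∘ P` Northcott.  (Shape for Plücker vectors.) -/
theorem northcott_of_injective_mod_scalars [Northcott (mulHeight₁ (K := K))] {α : Type*}
    (P : α → ι → K) (hP0 : ∀ a, P a ≠ 0)
    (hinj : ∀ a b, (∃ c : K, c ≠ 0 ∧ P a = c • P b) → a = b) :
    Northcott (fun a => logHeight (P a)) where
  finite_le B := by
    have hfin := Northcott.finite_le (h := Projectivization.logHeight (K := K) (ι := ι)) B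
    refine Set.Finite.of_finite_image (f := fun a => Projectivization.mk K (P a) (hP0 a)) ?_ ?_
    · refine hfin.subset ?_
      rintro _ ⟨a, ha, rfl⟩
      exact ha
    · intro a _ b _ hab
      have hab' : Projectivization.mk K (P a) (hP0 a) = Projectivization.mk K (P b) (hP0 b) := hab
      rw [Projectivization.mk_eq_mk_iff] at hab'
      obtain ⟨c, hc⟩ := hab'
      exact hinj a b ⟨c, c.ne_zero, hc.symm⟩

/-- the same over `ℚ` (the instance `Northcott mulHeight₁` for number fields is in Mathlib). -/
theorem northcott_rat_of_injective_mod_scalars {α : Type*} (P : α → ι → ℚ) (hP0 : ∀ a, P a ≠ 0)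
    (hinj : ∀ a b, (∃ c : ℚ, c ≠ 0 ∧ P a = c • P b) → a = b) :
    Northcott (fun a => logHeight (P a)) :=
  northcott_of_injective_mod_scalars P hP0 hinj

end Fermat.Agent.GR.H.NorthcottProj
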