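/-
GATE-R / S17, node GR-H-SMALLVEC (helper95): **a small integer vector in a subspace of `ℚ^ι`**
(Minkowski's first minimum for the sup-norm, with the SHARP exponent `1/k`, by pure pigeonhole).

For `k ≥ 1` linearly independent vectors `v c : ι → ℚ` spanning `W`, with Plücker vector
`pluecker v : (Fin k → ι) → ℚ` (all `k × k` minors, indexed by ALL row selections), there is a
nonzero integer vector `x ∈ W` with

  `|x i| ^ k ≤ k ^ k * mulHeight (pluecker v)`        (`exists_small_vector`),
  `logHeight x ≤ (1/k) * logHeight (pluecker v) + log k`  (`exists_small_vector_logHeight`),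

hence `k * c - k * log k ≤ logHeight (pluecker v)` as soon as every nonzero vector of `W` has
logarithmic height `≥ c` (`le_logHeight_pluecker`): the Plücker height of a subspace is bounded
below by `dim` times the minimal height of its vectors.  This is the engine of positivity and of
Northcott for heights of the shape `H(L(m∞ − D)) − dim · η(D)`.

Proof: `Λ := W ∩ ℤ^ι` has a `ℤ`-basis `b` (`exists_int_basis`); its Plücker vector `P` is
primitive because `Λ` is saturated (`gcd_pluecker_eq_one`, by reduction mod `ℓ` and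
`exists_pluecker_ne_zero`), so `mulHeight (pluecker v) = max |P_f| = |P_{f₀}|`
(`mulHeight_pluecker_eq`); the projection of `Λ` to the rows `f₀` has index `|P_{f₀}|` in `ℤ^k`, so
the pigeonhole principle gives a nonzero vector of it in a box of side `B`, `B^k ≤ |P_{f₀}|`
(`exists_small_in_sublattice`); Cramer's rule (`pluecker_mul_coord`) and the maximality of
`|P_{f₀}|` bound the other coordinates by `k·B` (`exists_small_of_basis`).
Mathlib-only.
-/
import Mathlib

set_option autoImplicit false

namespace Fermat.Agent.GR.H.SmallVec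

open Module Matrix

/-- The Plücker vector of `k` vectors `v c : ι → R`: all `k × k` minors of the `ι × k` matrix with
columns `v c`, indexed by ALL row selections `f : Fin k → ι` (repeated rows give `0`, permuted
rows give `±` the same minor, so its height is the usual Plücker height). -/
def pluecker {R : Type*} [CommRing R] {ι : Type*} {k : ℕ} (v : Fin k → ι → R) :
    (Fin k → ι) → R :=
  fun f => Matrix.det (Matrix.of fun a c => v c (f a))

/-- Over a field, linearly independent vectors have a nonvanishing Plücker coordinate. -/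
theorem exists_pluecker_ne_zero {F : Type*} [Field F] {ι : Type*} [Finite ι] {k : ℕ}
    (u : Fin k → ι → F) (hu : LinearIndependent F u) : ∃ f : Fin k → ι, pluecker u f ≠ 0 := by
  classical
  cases nonempty_fintype ι
  -- the matrix with rows `u c`
  let A : Matrix (Fin k) ι F := Matrix.of u
  have hrank : A.rank = k := by
    have := LinearIndependent.rank_matrix (M := A) (show LinearIndependent F u from hu)
    simpa using this
  -- columns span everything
  have hspan : Submodule.span F (Set.range A.col) = ⊤ := by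
    apply Submodule.eq_top_of_finrank_eq
    rw [← Matrix.rank_eq_finrank_span_cols, hrank]
    simp
  obtain ⟨s, hs, hspan', hli⟩ := exists_linearIndependent F (Set.range A.col)
  rw [hspan] at hspan'
  -- `s` is a basis of `Fin k → F`
  let B : Basis s F (Fin k → F) := Basis.mk hli (by rw [Subtype.range_coe]; exact hspan'.ge)
  have hfin : Finite s := Module.Finite.finite_basis B
  cases nonempty_fintype s
  have hcard : Fintype.card s = k := by
    rw [← Module.finrank_eq_card_basis B]; simp
  let e : Fin k ≃ s := (Fintype.equivFinOfCardEq hcard).symm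
  have hmem : ∀ a : Fin k, ∃ i : ι, A.col i = (e a : Fin k → F) := fun a => hs (e a).2
  choose f hf using hmem
  refine ⟨f, ?_⟩
  -- rows of the minor are `e a`
  have hrows : LinearIndependent F (fun a : Fin k => (e a : Fin k → F)) :=
    hli.comp e e.injective
  have hM : (Matrix.of fun a c => u c (f a)) = Matrix.of (fun a : Fin k => (e a : Fin k → F)) := by
    ext a c
    have := congrFun (hf a) c
    simpa [A, Matrix.col] using this
  unfold pluecker
  rw [hM]
  have := (Matrix.linearIndependent_rows_iff_isUnit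
    (A := Matrix.of (fun a : Fin k => (e a : Fin k → F)))).1 hrows
  exact ((Matrix.isUnit_iff_isUnit_det _).1 this).ne_zero

/-- Plücker coordinates commute with ring homomorphisms. -/
theorem pluecker_map {R S : Type*} [CommRing R] [CommRing S] (φ : R →+* S) {ι : Type*} {k : ℕ}
    (v : Fin k → ι → R) (f : Fin k → ι) :
    pluecker (fun c i => φ (v c i)) f = φ (pluecker v f) := by
  unfold pluecker
  rw [RingHom.map_det]
  rfl

/-- Change of basis: if the `v c` lie in the span of the `u d`, the Plücker vector of `v` is a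
scalar multiple of that of `u`. -/
theorem pluecker_of_mem_span {ι : Type*} {k : ℕ} (u v : Fin k → ι → ℚ)
    (h : ∀ c, v c ∈ Submodule.span ℚ (Set.range u)) :
    ∃ t : ℚ, pluecker v = t • pluecker u := by
  classical
  choose g hg using fun c => (Submodule.mem_span_range_iff_exists_fun ℚ).1 (h c)
  refine ⟨(Matrix.of fun d c => g c d).det, ?_⟩
  funext f
  have : (Matrix.of fun a c => v c (f a)) =
      (Matrix.of fun a d => u d (f a)) * (Matrix.of fun d c => g c d) := by
    ext a c
    rw [Matrix.mul_apply]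
    simp only [Matrix.of_apply]
    rw [← hg c]
    simp [Finset.sum_apply, mul_comm]
  simp only [pluecker, Pi.smul_apply, smul_eq_mul]
  rw [this, Matrix.det_mul, mul_comm]

/-- **Cramer's rule** for the coordinates of a vector `∑ m_c b_c` in terms of its coordinates in
the rows selected by `f₀`. -/
theorem pluecker_mul_coord {R : Type*} [CommRing R] {ι : Type*} [DecidableEq ι] {k : ℕ}
    (b : Fin k → ι → R) (f₀ : Fin k → ι) (m : Fin k → R) (i : ι) :
    pluecker b f₀ * (∑ c, m c * b c i) =
      ∑ a, pluecker b (Function.update f₀ a i) * (∑ c, m c * b c (f₀ a)) := by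
  classical
  set Y : Matrix (Fin k) (Fin k) R := Matrix.of fun a c => b c (f₀ a) with hY
  set r : Fin k → R := fun c => b c i with hr
  have h1 : ∀ a, pluecker b (Function.update f₀ a i) = cramer Yᵀ r a := by
    intro a
    rw [cramer_transpose_apply]
    unfold pluecker
    congr 1
    ext a' c
    by_cases h : a' = a
    · subst h; simp [Y, r]
    · simp [Y, r, Matrix.updateRow_ne h, Function.update_of_ne h]
  have h2 : ∀ a, (∑ c, m c * b c (f₀ a)) = (Y *ᵥ m) a := by
    intro a
    simp [Y, Matrix.mulVec, dotProduct, mul_comm]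
  have h3 : (∑ c, m c * b c i) = r ⬝ᵥ m := by
    simp [r, dotProduct, mul_comm]
  simp_rw [h1, h2, h3]
  change _ = cramer Yᵀ r ⬝ᵥ (Y *ᵥ m)
  rw [Matrix.dotProduct_mulVec, ← Matrix.mulVec_transpose, mulVec_cramer, det_transpose]
  simp [pluecker, Y]

/-! ### Integer vectors and their casts -/

/-- The integer cast of a family of integer vectors. -/
def castFam {ι : Type*} {k : ℕ} (b : Fin k → ι → ℤ) : Fin k → ι → ℚ := fun c i => (b c i : ℚ)

/-- The coordinatewise cast `ℤ^ι → ℚ^ι` as a `ℤ`-linear map. -/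
def castLin (ι : Type*) : (ι → ℤ) →ₗ[ℤ] (ι → ℚ) := ((Int.castAddHom ℚ).compLeft ι).toIntLinearMap

@[simp] theorem castLin_apply {ι : Type*} (x : ι → ℤ) (i : ι) : castLin ι x i = (x i : ℚ) := rfl

theorem castLin_injective (ι : Type*) : Function.Injective (castLin ι) := by
  intro x y hxy
  funext i
  have := congrFun hxy i
  simpa using this

theorem castFam_linearIndependent {ι : Type*} {k : ℕ} (b : Fin k → ι → ℤ)
    (hb : LinearIndependent ℤ b) : LinearIndependent ℚ (castFam b) := by
  rw [← LinearIndependent.iff_fractionRing ℤ ℚ]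
  exact hb.map' (castLin ι) (LinearMap.ker_eq_bot.2 (castLin_injective ι))

theorem pluecker_castFam {ι : Type*} {k : ℕ} (b : Fin k → ι → ℤ) :
    pluecker (castFam b) = ((↑) : ℤ → ℚ) ∘ pluecker b := by
  funext f
  have := pluecker_map (Int.castRingHom ℚ) b f
  simp only [eq_intCast] at this
  exact this

/-- Clearing denominators. -/
theorem exists_int_multiple {ι : Type*} [Fintype ι] (w : ι → ℚ) :
    ∃ (d : ℤ) (x : ι → ℤ), d ≠ 0 ∧ castLin ι x = (d : ℚ) • w := by
  obtain ⟨d, hd⟩ := IsLocalization.exist_integer_multiples (nonZeroDivisors ℤ) Finset.univ w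
  choose x hx using fun i => hd i (Finset.mem_univ i)
  refine ⟨d, x, nonZeroDivisors.coe_ne_zero d, ?_⟩
  funext i
  have := hx i
  simp only [castLin_apply, Pi.smul_apply]
  rw [eq_intCast] at this
  rw [this, zsmul_eq_mul, smul_eq_mul]

/-- The cast of an element of the `ℤ`-span lies in the `ℚ`-span of the casts. -/
theorem castLin_mem_span {ι : Type*} {k : ℕ} (b : Fin k → ι → ℤ) {x : ι → ℤ}
    (hx : x ∈ Submodule.span ℤ (Set.range b)) :
    castLin ι x ∈ Submodule.span ℚ (Set.range (castFam b)) := by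
  obtain ⟨m, rfl⟩ := (Submodule.mem_span_range_iff_exists_fun ℤ).1 hx
  rw [map_sum]
  refine Submodule.sum_mem _ fun c _ => ?_
  rw [map_smul]
  have : castLin ι (b c) = castFam b c := rfl
  rw [this, ← Int.cast_smul_eq_zsmul ℚ]
  exact Submodule.smul_mem _ _ (Submodule.subset_span ⟨c, rfl⟩)

/-- **A `ℤ`-basis of `W ∩ ℤ^ι`**, `W` the span of `k` linearly independent rational vectors. -/
theorem exists_int_basis {ι : Type*} [Fintype ι] {k : ℕ} (v : Fin k → ι → ℚ)
    (hv : LinearIndependent ℚ v) :
    ∃ b : Fin k → ι → ℤ, LinearIndependent ℤ b ∧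
      (∀ x : ι → ℤ, castLin ι x ∈ Submodule.span ℚ (Set.range v) ↔
        x ∈ Submodule.span ℤ (Set.range b)) ∧
      Submodule.span ℚ (Set.range (castFam b)) = Submodule.span ℚ (Set.range v) := by
  classical
  set W : Submodule ℚ (ι → ℚ) := Submodule.span ℚ (Set.range v) with hW
  let Λ : Submodule ℤ (ι → ℤ) := Submodule.comap (castLin ι) (W.restrictScalars ℤ)
  obtain ⟨r, ⟨β⟩⟩ : ∃ r : ℕ, Nonempty (Basis (Fin r) ℤ Λ) := ⟨_, ⟨Module.finBasis ℤ Λ⟩⟩
  let b' : Fin r → ι → ℤ := fun c => (β c : ι → ℤ)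
  have hli : LinearIndependent ℤ b' :=
    β.linearIndependent.map' Λ.subtype (Submodule.ker_subtype Λ)
  have hspan : Submodule.span ℤ (Set.range b') = Λ := by
    have : Set.range b' = Λ.subtype '' Set.range β := by
      rw [← Set.range_comp]; rfl
    rw [this, ← Submodule.map_span, β.span_eq, Submodule.map_subtype_top]
  have hmem : ∀ x : ι → ℤ, castLin ι x ∈ W ↔ x ∈ Submodule.span ℤ (Set.range b') := by
    intro x
    rw [hspan]
    rfl
  have hle : Submodule.span ℚ (Set.range (castFam b')) ≤ W := by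
    rw [Submodule.span_le]
    rintro _ ⟨c, rfl⟩
    exact (β c).2
  have hge : W ≤ Submodule.span ℚ (Set.range (castFam b')) := by
    intro w hw
    obtain ⟨d, x, hd, hx⟩ := exists_int_multiple w
    have hxW : castLin ι x ∈ W := by rw [hx]; exact W.smul_mem _ hw
    have := castLin_mem_span b' ((hmem x).1 hxW)
    rw [hx] at this
    have hd' : (d : ℚ) ≠ 0 := by exact_mod_cast hd
    have h2 := Submodule.smul_mem _ ((d : ℚ)⁻¹) this
    rwa [smul_smul, inv_mul_cancel₀ hd', one_smul] at h2
  have heq : Submodule.span ℚ (Set.range (castFam b')) = W := le_antisymm hle hge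
  have hr : r = k := by
    have h1 : finrank ℚ W = k := by
      rw [hW, finrank_span_eq_card hv]; simp
    have h2 : finrank ℚ W = r := by
      rw [← heq, finrank_span_eq_card (castFam_linearIndependent b' hli)]; simp
    omega
  subst hr
  exact ⟨b', hli, hmem, heq⟩

/-! ### Primitivity of the Plücker vector of a saturated lattice -/

/-- If `span b` is `ℓ`-saturated, the prime `ℓ` does not divide all Plücker coordinates of the
linearly independent integer family `b`. -/
theorem not_dvd_pluecker_of_saturated {ι : Type*} [Fintype ι] {k : ℕ}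
    (b : Fin k → ι → ℤ) (hb : LinearIndependent ℤ b) (ℓ : ℕ) (hℓ : ℓ.Prime)
    (hsat : ∀ x : ι → ℤ, (ℓ : ℤ) • x ∈ Submodule.span ℤ (Set.range b) →
      x ∈ Submodule.span ℤ (Set.range b)) :
    ¬ ∀ f, (ℓ : ℤ) ∣ pluecker b f := by
  classical
  intro hdvd
  have : Fact ℓ.Prime := ⟨hℓ⟩
  let bbar : Fin k → ι → ZMod ℓ := fun c i => ((b c i : ℤ) : ZMod ℓ)
  have hzero : ∀ f, pluecker bbar f = 0 := by
    intro f
    have := pluecker_map (Int.castRingHom (ZMod ℓ)) b f
    simp only [eq_intCast] at this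
    change pluecker bbar f = _ at this
    rw [this]
    exact (ZMod.intCast_zmod_eq_zero_iff_dvd _ _).2 (hdvd f)
  have hnli : ¬ LinearIndependent (ZMod ℓ) bbar := by
    intro hli
    obtain ⟨f, hf⟩ := exists_pluecker_ne_zero bbar hli
    exact hf (hzero f)
  obtain ⟨g, hg, j₀, hj₀⟩ := Fintype.not_linearIndependent_iff.1 hnli
  let c : Fin k → ℤ := fun j => (g j).cast
  have hc : ∀ j, ((c j : ℤ) : ZMod ℓ) = g j := fun j => ZMod.intCast_zmod_cast (g j)
  let x : ι → ℤ := ∑ j, c j • b j
  have hx : ∀ i, (ℓ : ℤ) ∣ x i := by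
    intro i
    rw [← ZMod.intCast_zmod_eq_zero_iff_dvd]
    have := congrFun hg i
    simp only [x, Finset.sum_apply, Pi.smul_apply, smul_eq_mul, Int.cast_sum, Int.cast_mul, hc]
    simpa [bbar] using this
  choose y hy using hx
  have hxy : (ℓ : ℤ) • y = x := by
    funext i
    simp [hy i]
  have hxmem : x ∈ Submodule.span ℤ (Set.range b) :=
    Submodule.sum_mem _ fun j _ => Submodule.smul_mem _ _ (Submodule.subset_span ⟨j, rfl⟩)
  have hymem := hsat y (hxy ▸ hxmem)
  obtain ⟨d, hd⟩ := (Submodule.mem_span_range_iff_exists_fun ℤ).1 hymem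
  have hrel : ∑ j, (c j - (ℓ : ℤ) * d j) • b j = 0 := by
    simp only [sub_smul, Finset.sum_sub_distrib, mul_smul]
    rw [← Finset.smul_sum, hd, hxy]
    exact sub_self _
  have := Fintype.linearIndependent_iff.1 hb _ hrel j₀
  apply hj₀
  rw [← hc j₀, sub_eq_zero.1 this]
  simp

/-- The Plücker vector of a `ℤ`-basis of a saturated sublattice of `ℤ^ι` is primitive. -/
theorem gcd_pluecker_eq_one {ι : Type*} [Fintype ι] {k : ℕ}
    (b : Fin k → ι → ℤ) (hb : LinearIndependent ℤ b) (hne : ∃ f, pluecker b f ≠ 0)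
    (hsat : ∀ ℓ : ℕ, ℓ.Prime → ∀ x : ι → ℤ, (ℓ : ℤ) • x ∈ Submodule.span ℤ (Set.range b) →
      x ∈ Submodule.span ℤ (Set.range b)) :
    Finset.univ.gcd (pluecker b) = 1 := by
  classical
  set g := Finset.univ.gcd (pluecker b) with hg
  have hdvd : ∀ f, g ∣ pluecker b f := fun f => Finset.gcd_dvd (Finset.mem_univ f)
  have hg0 : g ≠ 0 := by
    obtain ⟨f, hf⟩ := hne
    intro h0
    exact hf (zero_dvd_iff.1 (h0 ▸ hdvd f))
  have hnat : g.natAbs = 1 := by
    rw [Nat.eq_one_iff_not_exists_prime_dvd]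
    intro ℓ hℓ hℓg
    refine not_dvd_pluecker_of_saturated b hb ℓ hℓ (hsat ℓ hℓ) fun f => ?_
    exact (Int.natCast_dvd.2 hℓg).trans (hdvd f)
  have hnn : 0 ≤ g := Int.nonneg_of_normalize_eq_self (Finset.normalize_gcd)
  rw [← Int.natAbs_of_nonneg hnn, hnat]
  rfl

/-! ### The pigeonhole step -/

/-- **Pigeonhole**: the sublattice of `ℤ^k` spanned by the rows of an integer matrix `y` of
determinant `D ≠ 0` contains a nonzero vector of sup-norm `≤ B` as soon as `|D| < (B+1)^k`. -/
theorem exists_small_in_sublattice {k : ℕ} (y : Fin k → Fin k → ℤ)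
    (hdet : (Matrix.of y).det ≠ 0) (B : ℕ) (hB : (Matrix.of y).det.natAbs < (B + 1) ^ k) :
    ∃ m : Fin k → ℤ, m ≠ 0 ∧ ∀ a, |∑ c, m c * y c a| ≤ B := by
  classical
  have hyli : LinearIndependent ℤ y := Matrix.linearIndependent_rows_of_det_ne_zero hdet
  let N : Submodule ℤ (Fin k → ℤ) := Submodule.span ℤ (Set.range y)
  let bN : Basis (Fin k) ℤ N := Basis.span hyli
  have hcard : Nat.card ((Fin k → ℤ) ⧸ N) = (Matrix.of y).det.natAbs := by
    rw [← Submodule.natAbs_det_basis_change (Pi.basisFun ℤ (Fin k)) N bN, Pi.basisFun_det_apply]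
    congr 3
    ext c a
    exact congrFun (Basis.coe_span_apply hyli c) a
  have hfin : Finite ((Fin k → ℤ) ⧸ N) :=
    Nat.finite_of_card_ne_zero (by rw [hcard]; exact Int.natAbs_ne_zero.mpr hdet)
  let _ := Fintype.ofFinite ((Fin k → ℤ) ⧸ N)
  let S : Finset (Fin k → ℤ) := Fintype.piFinset (fun _ : Fin k => Finset.Icc (0:ℤ) B)
  have hS : S.card = (B + 1) ^ k := by
    simp [S, Fintype.card_piFinset]
  have hlt : (Finset.univ : Finset ((Fin k → ℤ) ⧸ N)).card < S.card := by
    rw [hS, Finset.card_univ, ← Nat.card_eq_fintype_card, hcard]; exact hB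
  obtain ⟨z, hz, z', hz', hne, heq⟩ :=
    Finset.exists_ne_map_eq_of_card_lt_of_maps_to hlt
      (f := fun z => (Submodule.Quotient.mk z : (Fin k → ℤ) ⧸ N)) (fun a _ => Finset.mem_univ _)
  have hmem : z - z' ∈ N := (Submodule.Quotient.eq N).1 heq
  obtain ⟨m, hm⟩ := (Submodule.mem_span_range_iff_exists_fun ℤ).1 hmem
  refine ⟨m, ?_, fun a => ?_⟩
  · rintro rfl
    apply hne
    simpa [sub_eq_zero] using hm.symm
  · have h1 : ∑ c, m c * y c a = (z - z') a := by
      rw [← hm]; simp [Finset.sum_apply]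
    rw [h1]
    have hza := (Fintype.mem_piFinset.1 hz) a
    have hza' := (Fintype.mem_piFinset.1 hz') a
    rw [Finset.mem_Icc] at hza hza'
    rw [Pi.sub_apply, abs_le]
    constructor <;> linarith [hza.1, hza.2, hza'.1, hza'.2]

/-- **Small vector from a `ℤ`-basis**: a maximal Plücker coordinate `f₀`, a nonzero coefficient
vector `m` and a bound `B` with `B^k ≤ |P_{f₀}|` such that all coordinates of `∑ m_c b_c` are
bounded by `k·B`. -/
theorem exists_small_of_basis {ι : Type*} [Fintype ι] {k : ℕ} (hk : 0 < k)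
    (b : Fin k → ι → ℤ) (hb : LinearIndependent ℤ b) :
    ∃ (f₀ : Fin k → ι) (m : Fin k → ℤ) (B : ℕ), (∀ f, |pluecker b f| ≤ |pluecker b f₀|) ∧
      pluecker b f₀ ≠ 0 ∧ m ≠ 0 ∧ (B : ℤ) ^ k ≤ |pluecker b f₀| ∧
      ∀ i, |∑ c, m c * b c i| ≤ k * B := by
  classical
  obtain ⟨f₁, hf₁⟩ := exists_pluecker_ne_zero (castFam b) (castFam_linearIndependent b hb)
  have hf₁' : pluecker b f₁ ≠ 0 := by
    intro h
    apply hf₁
    rw [pluecker_castFam, Function.comp_apply, h]; simp
  obtain ⟨f₀, -, hf₀⟩ := Finset.exists_max_image Finset.univ (fun f => |pluecker b f|)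
    ⟨f₁, Finset.mem_univ _⟩
  have hmax : ∀ f, |pluecker b f| ≤ |pluecker b f₀| := fun f => hf₀ f (Finset.mem_univ _)
  have hD : pluecker b f₀ ≠ 0 := by
    intro h
    have := hmax f₁
    rw [h, abs_zero] at this
    exact hf₁' (abs_nonpos_iff.1 this)
  set D : ℕ := (pluecker b f₀).natAbs with hDdef
  -- the bound `B`
  have hex : ∃ B : ℕ, D < (B + 1) ^ k := ⟨D, by
    calc D < D + 1 := Nat.lt_succ_self D
      _ = (D + 1) ^ 1 := (pow_one _).symm
      _ ≤ (D + 1) ^ k := Nat.pow_le_pow_right (Nat.succ_pos D) hk⟩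
  let B := Nat.find hex
  have hB1 : D < (B + 1) ^ k := Nat.find_spec hex
  have hB2 : B ^ k ≤ D := by
    rcases Nat.eq_zero_or_pos B with h0 | hpos
    · rw [h0, zero_pow hk.ne']; exact Nat.zero_le _
    · have := Nat.find_min hex (m := B - 1) (Nat.sub_lt hpos Nat.one_pos)
      rw [Nat.sub_add_cancel hpos] at this
      exact not_lt.1 this
  -- the sublattice
  let y : Fin k → Fin k → ℤ := fun c a => b c (f₀ a)
  have hy : (Matrix.of y).det = pluecker b f₀ := by
    unfold pluecker
    rw [← Matrix.det_transpose]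
    rfl
  obtain ⟨m, hm0, hm⟩ :=
    exists_small_in_sublattice y (by rw [hy]; exact hD) B (by rw [hy]; exact hB1)
  refine ⟨f₀, m, B, hmax, hD, hm0, ?_, fun i => ?_⟩
  · have : ((B ^ k : ℕ) : ℤ) ≤ (D : ℤ) := by exact_mod_cast hB2
    rw [hDdef, Int.natCast_natAbs] at this
    simpa using this
  · have hcr := pluecker_mul_coord b f₀ m i
    have habs : |pluecker b f₀| * |∑ c, m c * b c i| ≤ |pluecker b f₀| * (k * B) := by
      rw [← abs_mul, hcr]
      calc |∑ a, pluecker b (Function.update f₀ a i) * (∑ c, m c * b c (f₀ a))|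
          ≤ ∑ a, |pluecker b (Function.update f₀ a i) * (∑ c, m c * b c (f₀ a))| :=
            Finset.abs_sum_le_sum_abs _ _
        _ ≤ ∑ _a : Fin k, |pluecker b f₀| * B := by
            apply Finset.sum_le_sum
            intro a _
            rw [abs_mul]
            exact mul_le_mul (hmax _) (hm a) (abs_nonneg _) (abs_nonneg _)
        _ = |pluecker b f₀| * (k * B) := by
            rw [Finset.sum_const, Finset.card_univ, Fintype.card_fin, nsmul_eq_mul]; ring
    exact le_of_mul_le_mul_left habs (abs_pos.mpr hD)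

/-! ### Heights -/

/-- The height of the Plücker vector of `v` is the maximal Plücker coordinate of a `ℤ`-basis of
`W ∩ ℤ^ι`. -/
theorem mulHeight_pluecker_eq {ι : Type*} [Fintype ι] {k : ℕ} (v : Fin k → ι → ℚ)
    (hv : LinearIndependent ℚ v) (b : Fin k → ι → ℤ) (hb : LinearIndependent ℤ b)
    (hmem : ∀ x : ι → ℤ, castLin ι x ∈ Submodule.span ℚ (Set.range v) ↔
        x ∈ Submodule.span ℤ (Set.range b))
    (hspan : Submodule.span ℚ (Set.range (castFam b)) = Submodule.span ℚ (Set.range v))
    (f₀ : Fin k → ι) (hmax : ∀ f, |pluecker b f| ≤ |pluecker b f₀|) (h0 : pluecker b f₀ ≠ 0) :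
    Height.mulHeight (pluecker v) = |((pluecker b f₀ : ℤ) : ℝ)| := by
  classical
  have : Nonempty (Fin k → ι) := ⟨f₀⟩
  -- scaling
  obtain ⟨t, ht⟩ := pluecker_of_mem_span (castFam b) v (fun c => by
    rw [hspan]; exact Submodule.subset_span ⟨c, rfl⟩)
  have ht0 : t ≠ 0 := by
    rintro rfl
    obtain ⟨f, hf⟩ := exists_pluecker_ne_zero v hv
    apply hf
    rw [ht]; simp
  rw [ht, Height.mulHeight_smul_eq_mulHeight _ ht0, pluecker_castFam]
  -- saturation
  have hsat : ∀ ℓ : ℕ, ℓ.Prime → ∀ x : ι → ℤ, (ℓ : ℤ) • x ∈ Submodule.span ℤ (Set.range b) →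
      x ∈ Submodule.span ℤ (Set.range b) := by
    intro ℓ hℓ x hx
    rw [← hmem] at hx ⊢
    rw [map_smul] at hx
    have hℓ0 : ((ℓ : ℤ) : ℚ) ≠ 0 := by exact_mod_cast hℓ.ne_zero
    have h2 := Submodule.smul_mem _ (((ℓ : ℤ) : ℚ)⁻¹) hx
    rwa [← Int.cast_smul_eq_zsmul ℚ, smul_smul, inv_mul_cancel₀ hℓ0, one_smul] at h2
  rw [Rat.mulHeight_eq_max_abs_of_gcd_eq_one (gcd_pluecker_eq_one b hb ⟨f₀, h0⟩ hsat)]
  have : (⨆ f, |pluecker b f|) = |pluecker b f₀| :=
    le_antisymm (ciSup_le hmax)
      (le_ciSup (f := fun f => |pluecker b f|) (Finite.bddAbove_range _) f₀)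
  rw [this]
  simp

/-- The height of a nonzero integer vector is at most (the absolute value of) one of its
coordinates. -/
theorem exists_mulHeight_castLin_le {ι : Type*} [Fintype ι] (x : ι → ℤ) (hx : x ≠ 0) :
    ∃ i, Height.mulHeight (castLin ι x) ≤ |(x i : ℝ)| := by
  classical
  have hne : Nonempty ι := by
    by_contra h
    rw [not_nonempty_iff] at h
    exact hx (Subsingleton.elim _ _)
  obtain ⟨x', hx', hgcd⟩ := Finset.extract_gcd x (Finset.univ_nonempty (α := ι))
  set g := Finset.univ.gcd x with hg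
  have hg0 : g ≠ 0 := by
    intro h0
    apply hx
    funext i
    rw [hx' i (Finset.mem_univ i), h0, zero_mul]; rfl
  have hcast : castLin ι x = (g : ℚ) • (((↑) : ℤ → ℚ) ∘ x') := by
    funext i
    simp [hx' i (Finset.mem_univ i)]
  have hg0' : (g : ℚ) ≠ 0 := by exact_mod_cast hg0
  rw [hcast, Height.mulHeight_smul_eq_mulHeight _ hg0',
    Rat.mulHeight_eq_max_abs_of_gcd_eq_one hgcd]
  obtain ⟨i, hi⟩ := exists_eq_ciSup_of_finite (f := fun i => |x' i|)
  refine ⟨i, ?_⟩
  rw [← hi, hx' i (Finset.mem_univ i)]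
  have h1 : (1 : ℤ) ≤ |g| := Int.one_le_abs hg0
  have : |x' i| ≤ |g * x' i| := by
    rw [abs_mul]
    exact le_mul_of_one_le_left (abs_nonneg _) h1
  exact_mod_cast this

/-- **Small integer vector** (Minkowski's first minimum for the sup-norm, by pigeonhole): the span
`W` of `k ≥ 1` linearly independent rational vectors contains a nonzero integer vector all of
whose coordinates satisfy `|x i| ^ k ≤ k ^ k * H(W)`, `H(W)` the multiplicative Plücker height. -/
theorem exists_small_vector {ι : Type*} [Fintype ι] {k : ℕ} (hk : 0 < k)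
    (v : Fin k → ι → ℚ) (hv : LinearIndependent ℚ v) :
    ∃ x : ι → ℤ, x ≠ 0 ∧ castLin ι x ∈ Submodule.span ℚ (Set.range v) ∧
      ∀ i, (|x i| : ℝ) ^ k ≤ (k : ℝ) ^ k * Height.mulHeight (pluecker v) := by
  classical
  obtain ⟨b, hb, hmem, hspan⟩ := exists_int_basis v hv
  obtain ⟨f₀, m, B, hmax, h0, hm0, hB, hx⟩ := exists_small_of_basis hk b hb
  have hH := mulHeight_pluecker_eq v hv b hb hmem hspan f₀ hmax h0
  refine ⟨∑ c, m c • b c, ?_, ?_, fun i => ?_⟩
  · intro h
    apply hm0
    funext c
    exact Fintype.linearIndependent_iff.1 hb m h c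
  · rw [hmem]
    exact Submodule.sum_mem _ fun c _ => Submodule.smul_mem _ _ (Submodule.subset_span ⟨c, rfl⟩)
  · have h1 : |(∑ c, m c • b c) i| ≤ k * B := by
      have := hx i
      simpa [Finset.sum_apply] using this
    have h2 : (|((∑ c, m c • b c) i : ℤ)| : ℝ) ≤ k * B := by exact_mod_cast h1
    have h3 : ((B : ℝ)) ^ k ≤ |((pluecker b f₀ : ℤ) : ℝ)| := by exact_mod_cast hB
    rw [hH]
    calc (|((∑ c, m c • b c) i : ℤ)| : ℝ) ^ k ≤ ((k : ℝ) * B) ^ k := by
          apply pow_le_pow_left₀ (abs_nonneg _) h2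
      _ = (k : ℝ) ^ k * (B : ℝ) ^ k := mul_pow _ _ _
      _ ≤ (k : ℝ) ^ k * |((pluecker b f₀ : ℤ) : ℝ)| := by
          apply mul_le_mul_of_nonneg_left h3 (by positivity)

/-- **Small integer vector, logarithmic form**:
`logHeight x ≤ (1/k) · logHeight (Plücker W) + log k`. -/
theorem exists_small_vector_logHeight {ι : Type*} [Fintype ι] {k : ℕ} (hk : 0 < k)
    (v : Fin k → ι → ℚ) (hv : LinearIndependent ℚ v) :
    ∃ x : ι → ℤ, x ≠ 0 ∧ castLin ι x ∈ Submodule.span ℚ (Set.range v) ∧
      Height.logHeight (castLin ι x) ≤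
        (1 / (k : ℝ)) * Height.logHeight (pluecker v) + Real.log k := by
  obtain ⟨x, hx0, hxW, hx⟩ := exists_small_vector hk v hv
  refine ⟨x, hx0, hxW, ?_⟩
  obtain ⟨i, hi⟩ := exists_mulHeight_castLin_le x hx0
  have hkR : (0 : ℝ) < k := by exact_mod_cast hk
  have hpos : 0 < Height.mulHeight (castLin ι x) := Height.mulHeight_pos _
  have hposP : 0 < Height.mulHeight (pluecker v) := Height.mulHeight_pos _
  have hpow : Height.mulHeight (castLin ι x) ^ k ≤ (k : ℝ) ^ k * Height.mulHeight (pluecker v) :=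
    (pow_le_pow_left₀ hpos.le hi k).trans (by simpa using hx i)
  have hlog := Real.log_le_log (pow_pos hpos k) hpow
  rw [Real.log_pow, Real.log_mul (pow_pos hkR k).ne' hposP.ne', Real.log_pow] at hlog
  rw [Height.logHeight_eq_log_mulHeight, Height.logHeight_eq_log_mulHeight]
  have : Real.log (Height.mulHeight (castLin ι x)) ≤
      (k : ℝ)⁻¹ * (k * Real.log k + Real.log (Height.mulHeight (pluecker v))) := by
    rw [le_inv_mul_iff₀ hkR]; exact hlog
  calc Real.log (Height.mulHeight (castLin ι x))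
      ≤ (k : ℝ)⁻¹ * (k * Real.log k + Real.log (Height.mulHeight (pluecker v))) := this
    _ = 1 / (k : ℝ) * Real.log (Height.mulHeight (pluecker v)) + Real.log k := by
        field_simp; ring

/-- **Lower bound for the Plücker height**: if every nonzero vector of `W` has logarithmic height
at least `c`, then `k · c − k · log k ≤ logHeight (Plücker W)`. -/
theorem le_logHeight_pluecker {ι : Type*} [Fintype ι] {k : ℕ} (hk : 0 < k)
    (v : Fin k → ι → ℚ) (hv : LinearIndependent ℚ v) (c : ℝ)
    (hc : ∀ w ∈ Submodule.span ℚ (Set.range v), w ≠ 0 → c ≤ Height.logHeight w) :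
    k * c - k * Real.log k ≤ Height.logHeight (pluecker v) := by
  obtain ⟨x, hx0, hxW, hx⟩ := exists_small_vector_logHeight hk v hv
  have hne : castLin ι x ≠ 0 := by
    intro h
    exact hx0 (castLin_injective ι (h.trans (map_zero _).symm))
  have h1 := (hc _ hxW hne).trans hx
  have hkR : (0 : ℝ) < k := by exact_mod_cast hk
  have h2 := mul_le_mul_of_nonneg_left h1 hkR.le
  have h3 : (k : ℝ) * (1 / (k : ℝ) * Height.logHeight (pluecker v) + Real.log k) =
      Height.logHeight (pluecker v) + k * Real.log k := by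
    field_simp
  rw [h3] at h2
  linarith

end Fermat.Agent.GR.H.SmallVec
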