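/-
GATE-R / S17, node GR-H-SMALLVEC, companion (helper95): **the Plücker vector determines the
subspace** (injectivity of the Plücker embedding), in both spellings `pluecker` (GR/H/SmallVec) and
`minorsAll` (GR/H/CauchyBinet).  Mathlib-only linear algebra, any field `K`.

* `span_eq_of_pluecker_smul` : `u v : Fin k → ι → K` linearly independent with
  `pluecker u = t • pluecker v` have the same span;
* `span_rows_eq_of_minorsAll_smul` : the same for matrices `W W' : Matrix n ι K` with independent
  rows and `minorsAll W = t • minorsAll W'`.

* `northcott_logHeight_minorsAll` : a family of `ℚ`-matrices with independent rows and pairwise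
  distinct row spaces is Northcott for `a ↦ logHeight (minorsAll (W a))`
  (= "bounded Plücker height ⟹ finitely many subspaces", the step (NC) of DESIGN-H v2, via
  helper43's `GR/H/NorthcottProj.northcott_rat_of_injective_mod_scalars`).

Proof: the row space is cut out by the Cramer relations
`P_{f₀} x_i = ∑_a P_{f₀[a ↦ i]} x_{f₀ a}` (`pluecker_mul_coord`), for any `f₀` with `P_{f₀} ≠ 0`:
the solution space of these relations injects into `K^k` by `x ↦ x ∘ f₀`, so it has dimension
`≤ k` and must equal the row space; and the relations only depend on `P` up to a scalar.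
-/
import Mathlib
import Fermat.Agent.GR.H.SmallVec
import Fermat.Agent.GR.H.CauchyBinet
import Fermat.Agent.GR.H.NorthcottProj

set_option autoImplicit false

namespace Fermat.Agent.GR.H.MinorsRowSpace

open Module Matrix
open Fermat.Agent.GR.H.SmallVec Fermat.Agent.GR.H.CauchyBinet

variable {K : Type*} [Field K] {ι : Type*} [DecidableEq ι] {k : ℕ}

/-- The space cut out by the Cramer relations attached to a Plücker-type vector `P` and a row
selection `f₀`. -/
def cramerSpace (P : (Fin k → ι) → K) (f₀ : Fin k → ι) : Submodule K (ι → K) where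
  carrier := {x | ∀ i, P f₀ * x i = ∑ a, P (Function.update f₀ a i) * x (f₀ a)}
  add_mem' := by
    intro x y hx hy i
    have hx' : P f₀ * x i = ∑ a, P (Function.update f₀ a i) * x (f₀ a) := hx i
    have hy' : P f₀ * y i = ∑ a, P (Function.update f₀ a i) * y (f₀ a) := hy i
    simp only [Pi.add_apply, mul_add, Finset.sum_add_distrib, hx', hy']
  zero_mem' := by
    intro i
    simp
  smul_mem' := by
    intro c x hx i
    have hx' : P f₀ * x i = ∑ a, P (Function.update f₀ a i) * x (f₀ a) := hx i
    simp only [Pi.smul_apply, smul_eq_mul]
    rw [mul_left_comm, hx', Finset.mul_sum]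
    exact Finset.sum_congr rfl fun a _ => by ring

omit [DecidableEq ι] in
theorem mem_cramerSpace [DecidableEq ι] (P : (Fin k → ι) → K) (f₀ : Fin k → ι) (x : ι → K) :
    x ∈ cramerSpace P f₀ ↔ ∀ i, P f₀ * x i = ∑ a, P (Function.update f₀ a i) * x (f₀ a) :=
  Iff.rfl

/-- The Cramer space only depends on `P` up to a nonzero scalar. -/
theorem cramerSpace_smul (P : (Fin k → ι) → K) (f₀ : Fin k → ι) {t : K} (ht : t ≠ 0) :
    cramerSpace (t • P) f₀ = cramerSpace P f₀ := by
  ext x
  simp only [mem_cramerSpace, Pi.smul_apply, smul_eq_mul]
  refine forall_congr' fun i => ?_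
  have : ∑ a, t * P (Function.update f₀ a i) * x (f₀ a) =
      t * ∑ a, P (Function.update f₀ a i) * x (f₀ a) := by
    rw [Finset.mul_sum]; exact Finset.sum_congr rfl fun a _ => by ring
  rw [this, mul_assoc]
  exact ⟨fun h => mul_left_cancel₀ ht h, fun h => by rw [h]⟩

/-- The Cramer space has dimension at most `k` when `P f₀ ≠ 0`. -/
theorem finrank_cramerSpace_le [Finite ι] (P : (Fin k → ι) → K) (f₀ : Fin k → ι)
    (h0 : P f₀ ≠ 0) : finrank K (cramerSpace P f₀) ≤ k := by
  classical
  cases nonempty_fintype ι
  let φ : cramerSpace P f₀ →ₗ[K] (Fin k → K) :=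
    (LinearMap.funLeft K K f₀).comp (cramerSpace P f₀).subtype
  have hφ : Function.Injective φ := by
    rw [← LinearMap.ker_eq_bot, LinearMap.ker_eq_bot']
    intro x hx
    have hx' : ∀ a, (x : ι → K) (f₀ a) = 0 := fun a => congrFun hx a
    ext i
    have := (mem_cramerSpace P f₀ x).1 x.2 i
    simp only [hx', mul_zero, Finset.sum_const_zero] at this
    simpa using (mul_eq_zero.1 this).resolve_left h0
  have := LinearMap.finrank_le_finrank_of_injective hφ
  simpa using this

/-- The span of linearly independent vectors is the Cramer space of their Plücker vector. -/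
theorem span_eq_cramerSpace [Finite ι] (u : Fin k → ι → K) (hu : LinearIndependent K u)
    (f₀ : Fin k → ι) (h0 : pluecker u f₀ ≠ 0) :
    Submodule.span K (Set.range u) = cramerSpace (pluecker u) f₀ := by
  classical
  cases nonempty_fintype ι
  have hle : Submodule.span K (Set.range u) ≤ cramerSpace (pluecker u) f₀ := by
    intro x hx
    obtain ⟨m, rfl⟩ := (Submodule.mem_span_range_iff_exists_fun K).1 hx
    intro i
    have := pluecker_mul_coord u f₀ m i
    simpa [Finset.sum_apply] using this
  have hfin : finrank K (Submodule.span K (Set.range u)) = k := by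
    rw [finrank_span_eq_card hu]; simp
  exact Submodule.eq_of_le_of_finrank_le hle
    (by rw [hfin]; exact finrank_cramerSpace_le _ f₀ h0)

/-- **Injectivity of the Plücker embedding**, `pluecker` spelling. -/
theorem span_eq_of_pluecker_smul [Finite ι] (u v : Fin k → ι → K) (hu : LinearIndependent K u)
    (hv : LinearIndependent K v) (t : K) (h : pluecker u = t • pluecker v) :
    Submodule.span K (Set.range u) = Submodule.span K (Set.range v) := by
  classical
  obtain ⟨f₀, hf₀⟩ := exists_pluecker_ne_zero u hu
  have ht : t ≠ 0 := by
    rintro rfl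
    apply hf₀
    rw [h]; simp
  have hf₀' : pluecker v f₀ ≠ 0 := by
    intro h0
    apply hf₀
    rw [h]; simp [h0]
  rw [span_eq_cramerSpace u hu f₀ hf₀, span_eq_cramerSpace v hv f₀ hf₀', h,
    cramerSpace_smul _ _ ht]

omit [DecidableEq ι] in
/-- `minorsAll` of a matrix with rows indexed by `n` in terms of `pluecker` of the rows enumerated
by `Fin (card n)`. -/
theorem pluecker_equivFin_eq_minorsAll {n : Type*} [Fintype n] [DecidableEq n]
    (M : Matrix n ι K) (f : Fin (Fintype.card n) → ι) :
    pluecker (fun c => M ((Fintype.equivFin n).symm c)) f =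
      minorsAll M (f ∘ (Fintype.equivFin n)) := by
  set e : Fin (Fintype.card n) ≃ n := (Fintype.equivFin n).symm with he
  have he' : (Fintype.equivFin n) = e.symm := by simp [he]
  rw [he', minorsAll_apply, ← Matrix.det_transpose]
  have : (M.submatrix id (f ∘ e.symm))ᵀ =
      (Matrix.of fun a c => M (e c) (f a)).submatrix e.symm e.symm := by
    ext a c
    simp
  rw [this, Matrix.det_submatrix_equiv_self]
  rfl

omit [DecidableEq ι] in
/-- A matrix with linearly independent rows has a nonzero maximal minor. -/
theorem minorsAll_ne_zero [Finite ι] {n : Type*} [Fintype n] [DecidableEq n]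
    (W : Matrix n ι K) (hW : LinearIndependent K (fun a => W a)) : minorsAll W ≠ 0 := by
  classical
  obtain ⟨f, hf⟩ := exists_pluecker_ne_zero (fun c => W ((Fintype.equivFin n).symm c))
    (hW.comp _ (Fintype.equivFin n).symm.injective)
  rw [pluecker_equivFin_eq_minorsAll] at hf
  intro h0
  apply hf
  rw [h0]; rfl

omit [DecidableEq ι] in
/-- **Injectivity of the Plücker embedding**, `minorsAll` spelling: two matrices with linearly
independent rows and proportional maximal minors have the same row space. -/
theorem span_rows_eq_of_minorsAll_smul [Finite ι] {n : Type*} [Fintype n] [DecidableEq n]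
    (W W' : Matrix n ι K) (hW : LinearIndependent K (fun a => W a))
    (hW' : LinearIndependent K (fun a => W' a)) (t : K) (h : minorsAll W = t • minorsAll W') :
    Submodule.span K (Set.range fun a => W a) = Submodule.span K (Set.range fun a => W' a) := by
  classical
  let e : Fin (Fintype.card n) ≃ n := (Fintype.equivFin n).symm
  have hP : pluecker (fun c => W (e c)) = t • pluecker (fun c => W' (e c)) := by
    funext f
    rw [pluecker_equivFin_eq_minorsAll, h, Pi.smul_apply, Pi.smul_apply,
      pluecker_equivFin_eq_minorsAll]
  have hrange : ∀ M : Matrix n ι K, (Set.range fun c => M (e c)) = Set.range fun a => M a := by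
    intro M
    ext x
    constructor
    · rintro ⟨c, rfl⟩; exact ⟨e c, rfl⟩
    · rintro ⟨a, rfl⟩; exact ⟨e.symm a, by simp⟩
  have := span_eq_of_pluecker_smul (fun c => W (e c)) (fun c => W' (e c))
    (hW.comp e e.injective) (hW'.comp e e.injective) t hP
  rwa [hrange, hrange] at this

omit [DecidableEq ι] in
/-- **Northcott for Plücker heights of subspaces of `ℚ^ι`**: a family of matrices with linearly
independent rows whose row spaces are pairwise distinct has the Northcott property for
`a ↦ logHeight (minorsAll (W a))`. -/
theorem northcott_logHeight_minorsAll [Finite ι] {n : Type*} [Fintype n] [DecidableEq n]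
    {α : Type*} (W : α → Matrix n ι ℚ) (hW : ∀ a, LinearIndependent ℚ (fun r => W a r))
    (hinj : ∀ a b, Submodule.span ℚ (Set.range fun r => W a r) =
      Submodule.span ℚ (Set.range fun r => W b r) → a = b) :
    Northcott (fun a => Height.logHeight (minorsAll (W a))) :=
  NorthcottProj.northcott_rat_of_injective_mod_scalars (fun a => minorsAll (W a))
    (fun a => minorsAll_ne_zero (W a) (hW a))
    (fun a b ⟨c, _, hc⟩ => hinj a b (span_rows_eq_of_minorsAll_smul _ _ (hW a) (hW b) c hc))

end Fermat.Agent.GR.H.MinorsRowSpace
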