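/-
GATE-R / H (helper70): **monogenicity at a centre** = Newton divided differences are integral.

`A` a finitely generated algebra over a field `k`, `𝔭` a `k`-rational point (`A = k + 𝔭`) whose
cotangent space is spanned by `t` (`t ∈ 𝔭 ≤ (t) + 𝔭²`; e.g. `A` = integral closure of `k[t]` in a
function field, `𝔭` a place where `t` is a uniformiser).  `O` ANY local ring containing `k`, `T` a
commutative `O`-algebra which is a finite `O`-module (`T = O^r`: `r` points; `T = ∏ O[ε]/(εⁿ)`: jets)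
and `Φ : A → T` a `k`-algebra map "centred at `𝔭`" (`Φ b` nilpotent modulo `𝔪 T` for `b ∈ 𝔭`).  Then

  `O[Φ(A)] = O[Φ(t)]`   (`adjoin_range_eq_adjoin_singleton`)

i.e. every `Φ a` is a polynomial in `Φ t` with coefficients in `O`.  For `T = O^r` this says that the
Newton interpolation polynomial (= all divided differences) of `a` at the `r` points has coefficients
in `O`; its reduction modulo `𝔪` is the Taylor polynomial of `a` at `𝔭`
(`exists_interpolation_reduction`).  Proof: Nakayama + Cayley–Hamilton; no noetherianity of tensor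
powers, no Krull intersection, no étale presentation.  Mathlib only.
-/
import Mathlib

set_option autoImplicit false

open Polynomial

namespace Fermat.Agent.GR.H.Mono

section general

variable {k : Type*} [Field k] {A : Type*} [CommRing A] [Algebra k A]
variable {O : Type*} [CommRing O] [Algebra k O]
variable {T : Type*} [CommRing T] [Algebra O T] [Algebra k T] [IsScalarTower k O T]

/-- elements of `𝔭^M` are multiples of `t^M` modulo `𝔭^(M+1)`, if `A = k + 𝔭`, `t ∈ 𝔭 ≤ (t) + 𝔭²` -/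
theorem exists_smul_pow_sub_mem_pow (t : A) (𝔭 : Ideal A)
    (hk : ∀ a : A, ∃ c : k, a - algebraMap k A c ∈ 𝔭) (ht : t ∈ 𝔭)
    (h𝔭 : 𝔭 ≤ Ideal.span {t} ⊔ 𝔭 ^ 2) (M : ℕ) :
    ∀ b ∈ 𝔭 ^ M, ∃ c : k, b - algebraMap k A c * t ^ M ∈ 𝔭 ^ (M + 1) := by
  induction M with
  | zero =>
    intro b _
    obtain ⟨c, hc⟩ := hk b
    exact ⟨c, by simpa using hc⟩
  | succ M ih =>
    intro b hb
    rw [pow_succ] at hb
    refine Submodule.mul_induction_on hb ?_ ?_
    · intro x hx y hy
      obtain ⟨u', hu', z, hz, hyz⟩ := Submodule.mem_sup.mp (h𝔭 hy)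
      obtain ⟨u, rfl⟩ := Ideal.mem_span_singleton'.mp hu'
      obtain ⟨c, hc⟩ := ih (x * u) (Ideal.mul_mem_right _ _ hx)
      refine ⟨c, ?_⟩
      have e : x * y - algebraMap k A c * t ^ (M + 1)
          = t * (x * u - algebraMap k A c * t ^ M) + x * z := by
        rw [← hyz]; ring
      rw [e]
      refine Ideal.add_mem _ ?_ ?_
      · rw [pow_succ' _ (M + 1)]
        exact Ideal.mul_mem_mul ht hc
      · have : x * z ∈ 𝔭 ^ M * 𝔭 ^ 2 := Ideal.mul_mem_mul hx hz
        rwa [← pow_add] at this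
    · rintro x y ⟨c₁, h₁⟩ ⟨c₂, h₂⟩
      refine ⟨c₁ + c₂, ?_⟩
      have e : x + y - algebraMap k A (c₁ + c₂) * t ^ (M + 1)
          = (x - algebraMap k A c₁ * t ^ (M + 1)) + (y - algebraMap k A c₂ * t ^ (M + 1)) := by
        rw [map_add]; ring
      rw [e]
      exact Ideal.add_mem _ h₁ h₂

/-- **Taylor polynomials**: `A = k[t]_{<M} + 𝔭^M` for every `M`, if `A = k + 𝔭` and
`t ∈ 𝔭 ≤ (t) + 𝔭²`. -/
theorem exists_aeval_sub_mem_pow (t : A) (𝔭 : Ideal A)
    (hk : ∀ a : A, ∃ c : k, a - algebraMap k A c ∈ 𝔭) (ht : t ∈ 𝔭)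
    (h𝔭 : 𝔭 ≤ Ideal.span {t} ⊔ 𝔭 ^ 2) (M : ℕ) (a : A) :
    ∃ q : k[X], q.degree < M ∧ a - aeval t q ∈ 𝔭 ^ M := by
  induction M with
  | zero => exact ⟨0, by simp⟩
  | succ M ih =>
    obtain ⟨q, hdeg, hq⟩ := ih
    obtain ⟨c, hc⟩ := exists_smul_pow_sub_mem_pow t 𝔭 hk ht h𝔭 M _ hq
    refine ⟨q + C c * X ^ M, ?_, ?_⟩
    · refine (degree_add_le _ _).trans_lt (max_lt ?_ ?_)
      · exact hdeg.trans_le (by exact_mod_cast Nat.le_succ M)
      · refine (degree_C_mul_X_pow_le M c).trans_lt ?_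
        exact_mod_cast Nat.lt_succ_self M
    · have e : a - aeval t (q + C c * X ^ M) = a - aeval t q - algebraMap k A c * t ^ M := by
        simp only [map_add, map_mul, aeval_C, map_pow, aeval_X]; ring
      rwa [e]

/-- the image of a finitely generated `k`-algebra generates a finite `O`-module inside a finite
`O`-algebra -/
theorem fg_adjoin_range [Algebra.FiniteType k A] [Module.Finite O T] (Φ : A →ₐ[k] T) :
    (Subalgebra.toSubmodule (Algebra.adjoin O (Set.range Φ))).FG := by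
  obtain ⟨s, hs⟩ := (Algebra.FiniteType.out : (⊤ : Subalgebra k A).FG)
  have hle : Algebra.adjoin O (Set.range Φ) = Algebra.adjoin O (Φ '' (s : Set A)) := by
    refine le_antisymm (Algebra.adjoin_le ?_) (Algebra.adjoin_mono (Set.image_subset_range _ _))
    rintro _ ⟨a, rfl⟩
    have ha : a ∈ Algebra.adjoin k (s : Set A) := by rw [hs]; exact Algebra.mem_top
    induction ha using Algebra.adjoin_induction with
    | mem x hx => exact Algebra.subset_adjoin ⟨x, hx, rfl⟩
    | algebraMap c =>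
      rw [AlgHom.commutes, IsScalarTower.algebraMap_apply k O T]
      exact Subalgebra.algebraMap_mem _ _
    | add x y _ _ hx hy => rw [map_add]; exact Subalgebra.add_mem _ hx hy
    | mul x y _ _ hx hy => rw [map_mul]; exact Subalgebra.mul_mem _ hx hy
  rw [hle]
  exact fg_adjoin_of_finite (s.finite_toSet.image _) fun x _ => IsIntegral.of_finite O x

/-- **Cayley–Hamilton step**: an element `y` of a subalgebra `R` of a finite `O`-algebra `T` with
`y ∈ 𝔪 T` is nilpotent modulo `𝔪 R`. -/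
theorem exists_pow_mem_map_of_mem_map [Module.Finite O T] (𝔪 : Ideal O) (R : Subalgebra O T)
    (y : R) (hy : (y : T) ∈ Ideal.map (algebraMap O T) 𝔪) :
    ∃ d : ℕ, y ^ d ∈ Ideal.map (algebraMap O R) 𝔪 := by
  classical
  set I : Ideal R := Ideal.map (algebraMap O R) 𝔪 with hI
  have : Module.Finite R T := Module.Finite.of_restrictScalars_finite O R T
  let f : Module.End R T := Algebra.lsmul R R T y
  have hmap : I.map (algebraMap R T) = Ideal.map (algebraMap O T) 𝔪 := by
    rw [hI, Ideal.map_map]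
    congr 1
  have hrange : LinearMap.range f ≤ I • ⊤ := by
    rintro _ ⟨x, rfl⟩
    rw [Ideal.smul_top_eq_map]
    show (y : T) * x ∈ I.map (algebraMap R T)
    rw [hmap]
    exact Ideal.mul_mem_right _ _ hy
  obtain ⟨p, hmonic, -, hcoeff, hp⟩ :=
    LinearMap.exists_monic_and_natDegree_eq_and_coeff_mem_pow_and_aeval_eq_zero R f I hrange
  have h1 : aeval y p = 0 := by
    have h2 : aeval f p = Algebra.lsmul R R T (aeval y p) := by
      simp only [f]; rw [aeval_algHom_apply]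
    have h3 := congrArg (fun g : Module.End R T => g 1) hp
    simp only [h2, Algebra.lsmul_coe, LinearMap.zero_apply] at h3
    apply Subtype.ext
    simpa [Subalgebra.smul_def] using h3
  refine ⟨p.natDegree, ?_⟩
  have h4 : y ^ p.natDegree = - ∑ j ∈ Finset.range p.natDegree, p.coeff j * y ^ j := by
    rw [aeval_eq_sum_range, Finset.sum_range_succ, hmonic.coeff_natDegree, one_smul] at h1
    rw [eq_neg_iff_add_eq_zero, add_comm]
    simpa [smul_eq_mul] using h1
  rw [h4]
  refine neg_mem (Ideal.sum_mem _ fun j hj => Ideal.mul_mem_right _ _ ?_)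
  have hj' : j < p.natDegree := Finset.mem_range.mp hj
  exact Ideal.pow_le_self (by omega) (hcoeff j)

/-- **Monogenicity at a centre.**  `A` a finitely generated `k`-algebra, `𝔭` a `k`-rational point
whose cotangent space is spanned by `t`; `O` a local ring, `T` a finite `O`-algebra, `Φ : A → T`
centred at `𝔭`.  Then the `O`-subalgebra of `T` generated by `Φ(A)` is generated by `Φ t`. -/
theorem adjoin_range_eq_adjoin_singleton [Algebra.FiniteType k A] [IsLocalRing O]
    [Module.Finite O T] (t : A) (𝔭 : Ideal A)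
    (hk : ∀ a : A, ∃ c : k, a - algebraMap k A c ∈ 𝔭) (ht : t ∈ 𝔭)
    (h𝔭 : 𝔭 ≤ Ideal.span {t} ⊔ 𝔭 ^ 2) (Φ : A →ₐ[k] T)
    (hnil : ∀ b ∈ 𝔭, ∃ N : ℕ,
      Φ b ^ N ∈ Ideal.map (algebraMap O T) (IsLocalRing.maximalIdeal O)) :
    Algebra.adjoin O (Set.range Φ) = Algebra.adjoin O {Φ t} := by
  classical
  set 𝔪 := IsLocalRing.maximalIdeal O with h𝔪
  set R : Subalgebra O T := Algebra.adjoin O (Set.range Φ) with hR
  set R₀ : Subalgebra O T := Algebra.adjoin O {Φ t} with hR₀
  have hR₀R : R₀ ≤ R := Algebra.adjoin_mono (by rintro _ rfl; exact ⟨t, rfl⟩)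
  refine le_antisymm ?_ hR₀R
  have hmemR : ∀ a : A, Φ a ∈ R := fun a => Algebra.subset_adjoin ⟨a, rfl⟩
  let ΦR : A →+* R := (Φ : A →+* T).codRestrict R hmemR
  have hΦR : ∀ a, (ΦR a : T) = Φ a := fun _ => rfl
  set I : Ideal R := Ideal.map (algebraMap O R) 𝔪 with hI
  -- nilpotency modulo `𝔪 R`
  have hnilR : ∀ b ∈ 𝔭, ∃ n : ℕ, ΦR b ^ n ∈ I := by
    intro b hb
    obtain ⟨N, hN⟩ := hnil b hb
    obtain ⟨d, hd⟩ := exists_pow_mem_map_of_mem_map 𝔪 R (ΦR b ^ N) (by simpa [hΦR] using hN)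
    exact ⟨N * d, by rwa [pow_mul]⟩
  -- a uniform exponent
  have : IsNoetherianRing A := Algebra.FiniteType.isNoetherianRing k A
  have hrad : 𝔭 ≤ (I.comap ΦR).radical := by
    intro b hb
    obtain ⟨n, hn⟩ := hnilR b hb
    exact ⟨n, by simpa [Ideal.mem_comap] using hn⟩
  obtain ⟨M, hM⟩ := Ideal.exists_pow_le_of_le_radical_of_fg hrad (IsNoetherian.noetherian 𝔭)
  -- every `Φ a` lies in `R₀ + 𝔪 R`
  have hsum : ∀ a : A, Φ a ∈ Subalgebra.toSubmodule R₀ ⊔ 𝔪 • Subalgebra.toSubmodule R := by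
    intro a
    obtain ⟨q, -, hq⟩ := exists_aeval_sub_mem_pow t 𝔭 hk ht h𝔭 M a
    have hb : ΦR (a - aeval t q) ∈ I := hM hq
    have e : Φ a = aeval (Φ t) q + Φ (a - aeval t q) := by
      rw [map_sub, ← aeval_algHom_apply]; ring
    rw [e]
    refine Submodule.add_mem_sup ?_ ?_
    · rw [← aeval_map_algebraMap O (Φ t) q]
      exact aeval_mem_adjoin_singleton _ _
    · have h1 : ΦR (a - aeval t q) ∈ 𝔪 • (⊤ : Submodule O R) := by
        rw [Ideal.smul_top_eq_map]; exact hb
      have h2 := Submodule.mem_map_of_mem (f := R.val.toLinearMap) h1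
      rw [Submodule.map_smul'', Submodule.map_top] at h2
      have h3 : LinearMap.range R.val.toLinearMap = Subalgebra.toSubmodule R := by
        ext x; simp
      rw [h3] at h2
      exact h2
  -- Nakayama
  have hspan : Subalgebra.toSubmodule R = Submodule.span O (Set.range Φ) := by
    rw [hR, Algebra.adjoin_eq_span]
    congr 1
    have : Set.range Φ = ((MonoidHom.mrange (Φ : A →* T) : Submonoid T) : Set T) := by
      ext x; simp
    rw [this, Submonoid.closure_eq]
  have hle : Subalgebra.toSubmodule R ≤ Subalgebra.toSubmodule R₀ ⊔ 𝔪 • Subalgebra.toSubmodule R := by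
    rw [hspan]
    refine Submodule.span_le.mpr ?_
    rintro _ ⟨a, rfl⟩
    have := hsum a
    rwa [hspan] at this
  have hfg : (Subalgebra.toSubmodule R).FG := fg_adjoin_range Φ
  have := Submodule.le_of_le_smul_of_le_jacobson_bot hfg
    (IsLocalRing.maximalIdeal_le_jacobson ⊥) hle
  exact this

/-- polynomial form of `adjoin_range_eq_adjoin_singleton` -/
theorem exists_polynomial_aeval_eq [Algebra.FiniteType k A] [IsLocalRing O]
    [Module.Finite O T] (t : A) (𝔭 : Ideal A)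
    (hk : ∀ a : A, ∃ c : k, a - algebraMap k A c ∈ 𝔭) (ht : t ∈ 𝔭)
    (h𝔭 : 𝔭 ≤ Ideal.span {t} ⊔ 𝔭 ^ 2) (Φ : A →ₐ[k] T)
    (hnil : ∀ b ∈ 𝔭, ∃ N : ℕ,
      Φ b ^ N ∈ Ideal.map (algebraMap O T) (IsLocalRing.maximalIdeal O)) (a : A) :
    ∃ p : O[X], Φ a = aeval (Φ t) p := by
  have h : Φ a ∈ Algebra.adjoin O {Φ t} := by
    rw [← adjoin_range_eq_adjoin_singleton t 𝔭 hk ht h𝔭 Φ hnil]
    exact Algebra.subset_adjoin ⟨a, rfl⟩
  rw [Algebra.adjoin_singleton_eq_range_aeval] at h
  obtain ⟨p, hp⟩ := h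
  exact ⟨p, hp.symm⟩

/-- **Units**: for `b ∉ 𝔭` the element `Φ b` is invertible in `O[Φ t]`; hence any `x ∈ T` with
`x * Φ b = Φ a` (the value of the fraction `a / b ∈ A_𝔭`) lies in `O[Φ t]`. -/
theorem mem_adjoin_singleton_of_mul_eq [Algebra.FiniteType k A] [IsLocalRing O]
    [Module.Finite O T] (t : A) (𝔭 : Ideal A)
    (hk : ∀ a : A, ∃ c : k, a - algebraMap k A c ∈ 𝔭) (ht : t ∈ 𝔭)
    (h𝔭 : 𝔭 ≤ Ideal.span {t} ⊔ 𝔭 ^ 2) (Φ : A →ₐ[k] T)
    (hnil : ∀ b ∈ 𝔭, ∃ N : ℕ,
      Φ b ^ N ∈ Ideal.map (algebraMap O T) (IsLocalRing.maximalIdeal O))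
    (x : T) (a b : A) (hb : b ∉ 𝔭) (hx : x * Φ b = Φ a) :
    x ∈ Algebra.adjoin O {Φ t} := by
  classical
  have hmain := adjoin_range_eq_adjoin_singleton t 𝔭 hk ht h𝔭 Φ hnil
  set 𝔪 := IsLocalRing.maximalIdeal O with h𝔪
  set R : Subalgebra O T := Algebra.adjoin O (Set.range Φ) with hR
  have hmemR : ∀ a : A, Φ a ∈ R := fun a => Algebra.subset_adjoin ⟨a, rfl⟩
  let ΦR : A →+* R := (Φ : A →+* T).codRestrict R hmemR
  have hΦR : ∀ a, (ΦR a : T) = Φ a := fun _ => rfl
  set I : Ideal R := Ideal.map (algebraMap O R) 𝔪 with hI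
  -- `b = c + b'` with `c ≠ 0`, `b' ∈ 𝔭`
  obtain ⟨c, hc⟩ := hk b
  have hc0 : c ≠ 0 := by
    rintro rfl
    exact hb (by simpa using hc)
  obtain ⟨N, hN⟩ := hnil _ hc
  obtain ⟨d, hd⟩ := exists_pow_mem_map_of_mem_map 𝔪 R (ΦR (b - algebraMap k A c) ^ N)
    (by simpa [hΦR] using hN)
  rw [← pow_mul] at hd
  set z : R := ΦR (b - algebraMap k A c) with hz
  set n := N * d with hn
  -- the scalar `c` in `R`
  let cR : R := algebraMap O R (algebraMap k O c)
  let cR' : R := algebraMap O R (algebraMap k O c⁻¹)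
  have hcc : cR * cR' = 1 := by
    simp only [cR, cR', ← map_mul, mul_inv_cancel₀ hc0, map_one]
  have hΦRb : ΦR b = cR + z := by
    apply Subtype.ext
    have : (cR : T) = Φ (algebraMap k A c) := by
      simp only [cR, Subalgebra.coe_algebraMap, AlgHom.commutes]
      rw [IsScalarTower.algebraMap_apply k O T]
    rw [Subalgebra.coe_add, this, hz, hΦR, hΦR, ← map_add]
    congr 1; ring
  -- an inverse modulo `I`
  obtain ⟨v, hv⟩ : ∃ v : R, ΦR b * v - 1 ∈ I := by
    refine ⟨cR' * ∑ j ∈ Finset.range n, (-(cR' * z)) ^ j, ?_⟩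
    have h1 : ΦR b * (cR' * ∑ j ∈ Finset.range n, (-(cR' * z)) ^ j)
        = (1 - -(cR' * z)) * ∑ j ∈ Finset.range n, (-(cR' * z)) ^ j := by
      rw [hΦRb, ← mul_assoc]
      congr 1
      have : (cR + z) * cR' = cR * cR' + cR' * z := by ring
      rw [this, hcc]; ring
    rw [h1, mul_neg_geom_sum]
    have h2 : (1 : R) - (-(cR' * z)) ^ n - 1 = (-(-cR') ^ n) * z ^ n := by
      rw [show -(cR' * z) = (-cR') * z by ring, mul_pow]; ring
    rw [h2]
    exact Ideal.mul_mem_left _ _ hd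
  -- Nakayama: `ΦR b` generates the unit ideal
  have hfg : (⊤ : Submodule O R).FG := by
    have h := fg_adjoin_range (O := O) Φ
    rw [← hR] at h
    have : Module.Finite O R := Module.Finite.of_fg h
    exact Module.Finite.fg_top
  have hle : (⊤ : Submodule O R) ≤ (Ideal.span {ΦR b}).restrictScalars O ⊔ 𝔪 • ⊤ := by
    intro w _
    have e : w = ΦR b * (v * w) + -((ΦR b * v - 1) * w) := by ring
    rw [e]
    refine Submodule.add_mem_sup ?_ ?_
    · exact Ideal.mul_mem_right _ _ (Ideal.subset_span rfl)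
    · rw [Ideal.smul_top_eq_map]
      exact neg_mem (Ideal.mul_mem_right _ _ hv)
  have htop := Submodule.le_of_le_smul_of_le_jacobson_bot hfg
    (IsLocalRing.maximalIdeal_le_jacobson ⊥) hle
  have h1 : (1 : R) ∈ Ideal.span {ΦR b} := htop (Submodule.mem_top)
  obtain ⟨u, hu⟩ := Ideal.mem_span_singleton'.mp h1
  have hu' : (u : T) * Φ b = 1 := by
    have := congrArg (Subtype.val) hu
    simpa [hΦR] using this
  have hxe : x = Φ a * u := by
    calc x = x * ((u : T) * Φ b) := by rw [hu', mul_one]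
      _ = (x * Φ b) * u := by ring
      _ = Φ a * u := by rw [hx]
  rw [hxe, ← hmain]
  exact Subalgebra.mul_mem _ (hmemR a) u.2

end general

section newton

variable {O : Type*} [CommRing O]

/-- the Newton basis polynomial `∏_{c<b} (X - τ c)` -/
noncomputable def newtonPoly (τ : ℕ → O) (b : ℕ) : O[X] :=
  ∏ c ∈ Finset.range b, (X - C (τ c))

theorem newtonPoly_monic (τ : ℕ → O) (b : ℕ) : (newtonPoly τ b).Monic :=
  monic_prod_of_monic _ _ fun _ _ => monic_X_sub_C _

theorem natDegree_newtonPoly [Nontrivial O] (τ : ℕ → O) (b : ℕ) :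
    (newtonPoly τ b).natDegree = b := by
  rw [newtonPoly, natDegree_finsetProd_X_sub_C_eq_card, Finset.card_range]

theorem eval_newtonPoly (τ : ℕ → O) (b : ℕ) (x : O) :
    (newtonPoly τ b).eval x = ∏ c ∈ Finset.range b, (x - τ c) := by
  simp [newtonPoly, eval_prod]

theorem map_newtonPoly {κ : Type*} [CommRing κ] (φ : O →+* κ) (τ : ℕ → O)
    (hτ : ∀ c, φ (τ c) = 0) (b : ℕ) : (newtonPoly τ b).map φ = X ^ b := by
  simp [newtonPoly, Polynomial.map_prod, hτ]

/-- **Newton form**: every polynomial of degree `< r` is a combination of the Newton basis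
polynomials for ANY nodes, over any commutative ring. -/
theorem exists_newton_form [Nontrivial O] (τ : ℕ → O) (r : ℕ) :
    ∀ p : O[X], p.degree < r →
      ∃ d : ℕ → O, p = ∑ b ∈ Finset.range r, C (d b) * newtonPoly τ b := by
  induction r with
  | zero =>
    intro p hp
    have : p = 0 := by
      rw [← degree_eq_bot]
      exact Nat.WithBot.lt_zero_iff.mp (by exact_mod_cast hp)
    exact ⟨fun _ => 0, by simp [this]⟩
  | succ r ih =>
    intro p hp
    set a := p.coeff r with ha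
    have hp' : (p - C a * newtonPoly τ r).degree < r := by
      rw [degree_lt_iff_coeff_zero]
      intro m hm
      rw [coeff_sub, coeff_C_mul]
      rcases Nat.eq_or_lt_of_le hm with rfl | hlt
      · have : (newtonPoly τ r).coeff r = 1 := by
          have h := (newtonPoly_monic τ r).coeff_natDegree
          rwa [natDegree_newtonPoly] at h
        rw [this, mul_one, ha, sub_self]
      · have h1 : p.coeff m = 0 := by
          refine coeff_eq_zero_of_degree_lt (hp.trans_le ?_)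
          exact_mod_cast hlt
        have h2 : (newtonPoly τ r).coeff m = 0 :=
          coeff_eq_zero_of_natDegree_lt (by rw [natDegree_newtonPoly]; exact hlt)
        rw [h1, h2, mul_zero, sub_zero]
    obtain ⟨d, hd⟩ := ih _ hp'
    refine ⟨Function.update d r a, ?_⟩
    rw [Finset.sum_range_succ, Function.update_self]
    have : ∑ b ∈ Finset.range r, C (Function.update d r a b) * newtonPoly τ b
        = ∑ b ∈ Finset.range r, C (d b) * newtonPoly τ b := by
      refine Finset.sum_congr rfl fun b hb => ?_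
      rw [Function.update_of_ne (Finset.mem_range.mp hb).ne]
    rw [this, ← hd]; ring

/-- the coefficients of the Newton form reduce to the monomial coefficients when the nodes
reduce to `0` -/
theorem coeff_map_of_newton_form {κ : Type*} [CommRing κ] (φ : O →+* κ) (τ : ℕ → O)
    (hτ : ∀ c, φ (τ c) = 0) (r : ℕ) (d : ℕ → O) (p : O[X])
    (hp : p = ∑ b ∈ Finset.range r, C (d b) * newtonPoly τ b) (b : ℕ) (hb : b < r) :
    (p.map φ).coeff b = φ (d b) := by
  rw [hp, Polynomial.map_sum, finsetSum_coeff]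
  simp only [Polynomial.map_mul, map_C, map_newtonPoly φ τ hτ, coeff_C_mul, coeff_X_pow]
  rw [Finset.sum_eq_single b]
  · simp
  · intro c _ hc; simp [hc.symm]
  · intro h; exact absurd (Finset.mem_range.mpr hb) h

end newton

section points

variable {k : Type*} [Field k] {A : Type*} [CommRing A] [Algebra k A] [Algebra.FiniteType k A]
variable {O : Type*} [CommRing O] [IsLocalRing O] [Algebra k O]
variable {ι : Type*} [Finite ι]

/-- **Newton interpolation over a local ring**: `r` points `P i : A → O` with the same centre `𝔭`;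
every `a ∈ A` is interpolated at ALL of them by ONE polynomial with coefficients in `O`. -/
theorem exists_polynomial_eval_eq (t : A) (𝔭 : Ideal A)
    (hk : ∀ a : A, ∃ c : k, a - algebraMap k A c ∈ 𝔭) (ht : t ∈ 𝔭)
    (h𝔭 : 𝔭 ≤ Ideal.span {t} ⊔ 𝔭 ^ 2) (P : ι → A →ₐ[k] O)
    (hP : ∀ i, ∀ b ∈ 𝔭, P i b ∈ IsLocalRing.maximalIdeal O) (a : A) :
    ∃ p : O[X], ∀ i, P i a = p.eval (P i t) := by
  classical
  have := Fintype.ofFinite ι
  let Φ : A →ₐ[k] (ι → O) := AlgHom.pi P
  have hnil : ∀ b ∈ 𝔭, ∃ N : ℕ,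
      Φ b ^ N ∈ Ideal.map (algebraMap O (ι → O)) (IsLocalRing.maximalIdeal O) := by
    intro b hb
    refine ⟨1, ?_⟩
    rw [pow_one]
    have e : Φ b = ∑ i, algebraMap O (ι → O) (P i b) * Pi.single i 1 := by
      ext j
      simp [Φ, Finset.sum_apply, Pi.single_apply]
    rw [e]
    exact Ideal.sum_mem _ fun i _ =>
      Ideal.mul_mem_right _ _ (Ideal.mem_map_of_mem _ (hP i b hb))
  obtain ⟨p, hp⟩ := exists_polynomial_aeval_eq t 𝔭 hk ht h𝔭 Φ hnil a
  refine ⟨p, fun i => ?_⟩
  have := congrFun hp i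
  rw [← Pi.evalAlgHom_apply O (fun _ => O) i (aeval (Φ t) p), ← aeval_algHom_apply] at this
  simpa [Φ, aeval_def, eval₂_eq_eval_map] using this

/-- interpolation of fractions `a / b`, `b ∉ 𝔭`: values `x i ∈ O` with `x i * P i b = P i a` are
interpolated at all the points by ONE polynomial over `O`. -/
theorem exists_polynomial_eval_eq_of_mul_eq (t : A) (𝔭 : Ideal A)
    (hk : ∀ a : A, ∃ c : k, a - algebraMap k A c ∈ 𝔭) (ht : t ∈ 𝔭)
    (h𝔭 : 𝔭 ≤ Ideal.span {t} ⊔ 𝔭 ^ 2) (P : ι → A →ₐ[k] O)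
    (hP : ∀ i, ∀ b ∈ 𝔭, P i b ∈ IsLocalRing.maximalIdeal O) (a b : A) (hb : b ∉ 𝔭)
    (x : ι → O) (hx : ∀ i, x i * P i b = P i a) :
    ∃ p : O[X], ∀ i, x i = p.eval (P i t) := by
  classical
  have := Fintype.ofFinite ι
  let Φ : A →ₐ[k] (ι → O) := AlgHom.pi P
  have hnil : ∀ b ∈ 𝔭, ∃ N : ℕ,
      Φ b ^ N ∈ Ideal.map (algebraMap O (ι → O)) (IsLocalRing.maximalIdeal O) := by
    intro b hb
    refine ⟨1, ?_⟩
    rw [pow_one]
    have e : Φ b = ∑ i, algebraMap O (ι → O) (P i b) * Pi.single i 1 := by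
      ext j
      simp [Φ, Finset.sum_apply, Pi.single_apply]
    rw [e]
    exact Ideal.sum_mem _ fun i _ =>
      Ideal.mul_mem_right _ _ (Ideal.mem_map_of_mem _ (hP i b hb))
  have h := mem_adjoin_singleton_of_mul_eq t 𝔭 hk ht h𝔭 Φ hnil x a b hb
    (by ext i; simpa [Φ] using hx i)
  rw [Algebra.adjoin_singleton_eq_range_aeval] at h
  obtain ⟨p, hp⟩ := h
  refine ⟨p, fun i => ?_⟩
  have hp' : aeval (Φ t) p = x := hp
  have := congrFun hp' i
  rw [← Pi.evalAlgHom_apply O (fun _ => O) i (aeval (Φ t) p), ← aeval_algHom_apply] at this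
  simpa [Φ, aeval_def, eval₂_eq_eval_map] using this.symm

/-- interpolants of elements of `𝔭^n` can be chosen divisible by `X^n` modulo `𝔪` -/
theorem exists_polynomial_eval_eq_of_mem_pow (t : A) (𝔭 : Ideal A)
    (hk : ∀ a : A, ∃ c : k, a - algebraMap k A c ∈ 𝔭) (ht : t ∈ 𝔭)
    (h𝔭 : 𝔭 ≤ Ideal.span {t} ⊔ 𝔭 ^ 2) (P : ι → A →ₐ[k] O)
    (hP : ∀ i, ∀ b ∈ 𝔭, P i b ∈ IsLocalRing.maximalIdeal O) (n : ℕ) :
    ∀ b ∈ 𝔭 ^ n, ∃ p : O[X], (∀ i, P i b = p.eval (P i t)) ∧
      X ^ n ∣ p.map (IsLocalRing.residue O) := by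
  rcases isEmpty_or_nonempty ι with hι | ⟨⟨i₀⟩⟩
  · intro b _
    exact ⟨0, fun i => (hι.false i).elim, by simp⟩
  induction n with
  | zero =>
    intro b _
    obtain ⟨p, hp⟩ := exists_polynomial_eval_eq t 𝔭 hk ht h𝔭 P hP b
    exact ⟨p, hp, by simp⟩
  | succ n ih =>
    intro b hb
    rw [pow_succ] at hb
    refine Submodule.mul_induction_on hb ?_ ?_
    · intro x hx y hy
      obtain ⟨px, hpx, hdx⟩ := ih x hx
      obtain ⟨py, hpy⟩ := exists_polynomial_eval_eq t 𝔭 hk ht h𝔭 P hP y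
      have hdy : X ∣ py.map (IsLocalRing.residue O) := by
        rw [X_dvd_iff, coeff_zero_eq_eval_zero]
        have h1 : IsLocalRing.residue O (P i₀ t) = 0 :=
          (IsLocalRing.residue_eq_zero_iff _).mpr (hP i₀ t ht)
        have h2 : IsLocalRing.residue O (P i₀ y) = 0 :=
          (IsLocalRing.residue_eq_zero_iff _).mpr (hP i₀ y hy)
        have h3 : (py.map (IsLocalRing.residue O)).eval (IsLocalRing.residue O (P i₀ t))
            = IsLocalRing.residue O (py.eval (P i₀ t)) := by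
          rw [eval_map, eval₂_at_apply]
        rw [h1, ← hpy i₀, h2] at h3
        exact h3
      refine ⟨px * py, fun i => ?_, ?_⟩
      · rw [map_mul, hpx i, hpy i, eval_mul]
      · rw [Polynomial.map_mul, pow_succ]
        exact mul_dvd_mul hdx hdy
    · rintro x y ⟨p₁, h₁, d₁⟩ ⟨p₂, h₂, d₂⟩
      refine ⟨p₁ + p₂, fun i => ?_, ?_⟩
      · rw [map_add, h₁ i, h₂ i, eval_add]
      · rw [Polynomial.map_add]
        exact dvd_add d₁ d₂

/-- **Claim A** (interpolation + reduction).  `r = #ι` points `P i : A → O` with common centre `𝔭`,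
`q₀` the Taylor polynomial of `a` at `𝔭` to order `r` (`deg q₀ < r`, `a - q₀(t) ∈ 𝔭^r`).  Then `a` is
interpolated at all the points by a polynomial `p ∈ O[X]` of degree `< r` whose reduction modulo the
maximal ideal is `q₀`. -/
theorem exists_interpolation_reduction (t : A) (𝔭 : Ideal A)
    (hk : ∀ a : A, ∃ c : k, a - algebraMap k A c ∈ 𝔭) (ht : t ∈ 𝔭)
    (h𝔭 : 𝔭 ≤ Ideal.span {t} ⊔ 𝔭 ^ 2) (P : ι → A →ₐ[k] O)
    (hP : ∀ i, ∀ b ∈ 𝔭, P i b ∈ IsLocalRing.maximalIdeal O) (a : A) (q₀ : k[X])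
    (hq₀ : q₀.degree < Nat.card ι) (ha : a - aeval t q₀ ∈ 𝔭 ^ Nat.card ι) :
    ∃ p : O[X], p.degree < Nat.card ι ∧ (∀ i, P i a = p.eval (P i t)) ∧
      p.map (IsLocalRing.residue O)
        = q₀.map ((IsLocalRing.residue O).comp (algebraMap k O)) := by
  classical
  have := Fintype.ofFinite ι
  set r := Nat.card ι with hr
  have hr' : r = Fintype.card ι := Nat.card_eq_fintype_card
  obtain ⟨pb, hpb, hdvd⟩ :=
    exists_polynomial_eval_eq_of_mem_pow t 𝔭 hk ht h𝔭 P hP r _ ha
  set φ := IsLocalRing.residue O with hφ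
  let q : O[X] := ∏ i, (X - C (P i t))
  have hq : q.Monic := monic_prod_of_monic _ _ fun i _ => monic_X_sub_C _
  have hqdeg : q.degree = r := by
    rw [degree_eq_natDegree hq.ne_zero, natDegree_finsetProd_X_sub_C_eq_card, hr',
      Finset.card_univ]
  have hqmap : q.map φ = X ^ r := by
    simp only [q, Polynomial.map_prod, Polynomial.map_sub, map_X, map_C]
    have : ∀ i, φ (P i t) = 0 := fun i =>
      (IsLocalRing.residue_eq_zero_iff _).mpr (hP i t ht)
    simp [this, hr']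
  have hqev : ∀ i, q.eval (P i t) = 0 := by
    intro i
    simp only [q, eval_prod]
    exact Finset.prod_eq_zero (Finset.mem_univ i) (by simp)
  set g : O[X] := q₀.map (algebraMap k O) + pb with hg
  refine ⟨g %ₘ q, ?_, fun i => ?_, ?_⟩
  · rw [← hqdeg]; exact degree_modByMonic_lt _ hq
  · have h1 : (g %ₘ q).eval (P i t) = g.eval (P i t) := by
      conv_rhs => rw [← modByMonic_add_div g q]
      rw [eval_add, eval_mul, hqev i, zero_mul, add_zero]
    rw [h1, hg, eval_add, ← hpb i, eval_map, ← aeval_def, aeval_algHom_apply, ← map_add]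
    congr 1; ring
  · rw [map_modByMonic φ hq, hqmap, hg, Polynomial.map_add, add_modByMonic, Polynomial.map_map]
    have hX : (X ^ r : (IsLocalRing.ResidueField O)[X]).Monic := monic_X_pow r
    have h2 : pb.map φ %ₘ X ^ r = 0 := (modByMonic_eq_zero_iff_dvd hX).mpr hdvd
    have h3 : q₀.map (φ.comp (algebraMap k O)) %ₘ X ^ r = q₀.map (φ.comp (algebraMap k O)) := by
      rw [modByMonic_eq_self_iff hX, degree_X_pow]
      exact (degree_map_le).trans_lt hq₀
    rw [h2, h3, add_zero]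

/-- **Claim A, divided-difference form.**  `r` points `P 0, …, P (r-1) : A → O` with common centre
`𝔭`, nodes `τ c := P c t`.  Every `a ∈ A` has Newton divided differences `d b ∈ O` (`b < r`):
`P i a = ∑_b d b · ∏_{c<b} (τ i - τ c)` for ALL `i`, and `d b` reduces modulo the maximal ideal to the
`b`-th Taylor coefficient of `a` at `𝔭` (w.r.t. `t`). -/
theorem exists_divided_differences (t : A) (𝔭 : Ideal A)
    (hk : ∀ a : A, ∃ c : k, a - algebraMap k A c ∈ 𝔭) (ht : t ∈ 𝔭)
    (h𝔭 : 𝔭 ≤ Ideal.span {t} ⊔ 𝔭 ^ 2) (r : ℕ) (P : Fin r → A →ₐ[k] O)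
    (hP : ∀ i, ∀ b ∈ 𝔭, P i b ∈ IsLocalRing.maximalIdeal O) (a : A) (q₀ : k[X])
    (hq₀ : q₀.degree < r) (ha : a - aeval t q₀ ∈ 𝔭 ^ r) :
    ∃ d : Fin r → O,
      (∀ i : Fin r, P i a = ∑ b : Fin r, d b * ∏ c ∈ Finset.Iio b, (P i t - P c t)) ∧
      ∀ b : Fin r, IsLocalRing.residue O (d b)
        = IsLocalRing.residue O (algebraMap k O (q₀.coeff b)) := by
  classical
  have hcard : Nat.card (Fin r) = r := Nat.card_fin r
  obtain ⟨p, hpdeg, hpev, hpmap⟩ := exists_interpolation_reduction t 𝔭 hk ht h𝔭 P hP a q₀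
    (by rw [hcard]; exact hq₀) (by rw [hcard]; exact ha)
  rw [hcard] at hpdeg
  set φ := IsLocalRing.residue O with hφ
  let τ : ℕ → O := fun c => if h : c < r then P ⟨c, h⟩ t else 0
  have hτ : ∀ c, φ (τ c) = 0 := by
    intro c
    by_cases h : c < r
    · simp only [τ, dif_pos h]
      exact (IsLocalRing.residue_eq_zero_iff _).mpr (hP _ t ht)
    · simp [τ, dif_neg h]
  obtain ⟨d', hd'⟩ := exists_newton_form τ r p hpdeg
  refine ⟨fun b => d' b, fun i => ?_, fun b => ?_⟩
  · rw [hpev i]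
    conv_lhs => rw [hd']
    rw [eval_finsetSum, ← Fin.sum_univ_eq_sum_range]
    refine Finset.sum_congr rfl fun b _ => ?_
    rw [eval_mul, eval_C, eval_newtonPoly]
    congr 1
    rw [← Nat.Iio_eq_range, ← Fin.map_valEmbedding_Iio, Finset.prod_map]
    refine Finset.prod_congr rfl fun c _ => ?_
    simp [τ]
  · have h1 := coeff_map_of_newton_form φ τ hτ r d' p hd' b b.isLt
    rw [← h1, hpmap, coeff_map]
    rfl

end points

end Fermat.Agent.GR.H.Mono
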