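/-
GATE-R (S17) / node GR-H-MOVE (helper4), part 1: **a nonconstant function has only finitely many
ramified places.**

`K` algebraically closed of characteristic zero, `s` a generator of the function field `F / K`
(`IsGen K s`: transcendental with `F / K(s)` finite).  Then

* `finite_ramified`   : `{v | ∃ c, 2 ≤ ord_v (s - c)}` is finite (the different of the integral
  closure of `K[s]` is a nonzero ideal; `P ^ (e_P - 1)` divides it; `e_P = ord_v (s - c)` by
  `GL/Genus/DualPlace.ramificationIdx_eq_ord`);
* `finite_bad_values` : for a finite set `S` of places, all but finitely many `c : K` are such that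
  every zero of `s - c` is simple and lies outside `S`.
-/
import Mathlib
import Fermat.Agent.GL.Genus.DualPlace

set_option autoImplicit false
set_option linter.unusedSectionVars false

namespace Fermat.Agent.GR.H.Pencil

open Fermat.Agent.S24 Fermat.Agent.GJ.J1 Fermat.Agent.S24_helper6 Fermat.Agent.GL.Genus
  IntermediateField IsDedekindDomain AlgebraicCurve

variable {K F : Type*} [Field K] [Field F] [Algebra K F]

noncomputable local instance instAlgRxKsP (s : F) : Algebra (Rx K s) K⟮s⟯ :=
  algebraAdjoinAdjoin.instAlgebraSubtypeMemSubalgebraAdjoinAdjoin K {s}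

local instance instFracRxKsP (s : F) : IsFractionRing (Rx K s) K⟮s⟯ :=
  algebraAdjoinAdjoin.instIsFractionRingSubtypeMemSubalgebraAdjoinAdjoin K {s}

local instance instTowerRxKsFP (s : F) : IsScalarTower (Rx K s) K⟮s⟯ F :=
  algebraAdjoinAdjoin.instIsScalarTowerSubtypeMemSubalgebraAdjoinAdjoin_1 K {s} F

local instance instTowerKRxKsP (s : F) : IsScalarTower K (Rx K s) K⟮s⟯ :=
  algebraAdjoinAdjoin.instIsScalarTowerSubtypeMemSubalgebraAdjoinAdjoin K {s} K

local instance instFaithfulRxKsP (s : F) : FaithfulSMul (Rx K s) K⟮s⟯ :=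
  algebraAdjoinAdjoin.instFaithfulSMulSubtypeMemSubalgebraAdjoinAdjoin K {s}

section Abstract

attribute [local instance] FractionRing.liftAlgebra FractionRing.isScalarTower_liftAlgebra

variable (A L₀ L B : Type*) [CommRing A] [Field L₀] [CommRing B] [Field L]
  [Algebra A L₀] [Algebra B L] [Algebra A B] [Algebra L₀ L] [Algebra A L]
  [IsScalarTower A L₀ L] [IsScalarTower A B L]
  [IsFractionRing A L₀] [IsFractionRing B L] [IsDedekindDomain A] [IsDedekindDomain B]
  [Module.IsTorsionFree A B] [Module.Finite A B] [FiniteDimensional L₀ L] [Algebra.IsSeparable L₀ L]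

include L₀ L in
/-- in a finite separable extension of Dedekind domains only finitely many primes ramify -/
theorem finite_ramified_primes :
    {P : HeightOneSpectrum B | 2 ≤ P.asIdeal.ramificationIdx A}.Finite := by
  have hsep : Algebra.IsSeparable (FractionRing A) (FractionRing B) :=
    Different.isSeparable_fractionRing A L₀ L B
  have hD : differentIdeal A B ≠ ⊥ := Different.differentIdeal_ne_bot' A L₀ L B
  refine Set.Finite.subset (Ideal.finite_factors hD) ?_
  intro P hP
  have hdvd := Different.pow_ramificationIdx_sub_one_dvd_differentIdeal A P.asIdeal P.ne_bot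
  have hP' : 2 ≤ P.asIdeal.ramificationIdx A := hP
  show P.asIdeal ∣ differentIdeal A B
  exact dvd_trans (dvd_pow_self _ (by omega)) hdvd

end Abstract

variable (K) (s : F) [hs : IsGen K s] [CharZero K] [IsAlgClosed K]

/-- **finitely many ramified places**: the places where some `s - c` vanishes to order `≥ 2`. -/
theorem finite_ramified :
    {v : Place K F | ∃ c : K, 2 ≤ v.ord (s - algebraMap K F c)}.Finite := by
  have hfin := finite_ramified_primes (Rx K s) K⟮s⟯ F (Ax K s)
  refine Set.Finite.subset (hfin.image (placeOfPrime (K := K) (F := F))) ?_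
  rintro v ⟨c, hc⟩
  have hsv : s ∈ v.toValuationSubring := by
    have h1 := mem_of_ord_pos K (s - algebraMap K F c) v (by omega)
    have h2 := v.toValuationSubring.add_mem _ _ h1 (v.algebraMap_mem' c)
    simpa using h2
  have hB := containsB_of_mem K s v hsv
  have hvP : placeOfPrime (K := K) (F := F) (primeOfPlace v hB) = v :=
    placeOfPrime_primeOfPlace v hB
  refine ⟨primeOfPlace v hB, ?_, hvP⟩
  have he := ramificationIdx_eq_ord K s (primeOfPlace v hB) c (by rw [hvP]; omega)
  rw [hvP] at he
  have : (2 : ℤ) ≤ ((primeOfPlace v hB).asIdeal.ramificationIdx (Rx K s) : ℤ) := by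
    rw [he]; exact hc
  show 2 ≤ (primeOfPlace v hB).asIdeal.ramificationIdx (Rx K s)
  exact_mod_cast this

omit hs [CharZero K] [IsAlgClosed K] in
/-- the value of `s` at a place is unique -/
theorem subsingleton_center (v : Place K F) :
    {c : K | 0 < v.ord (s - algebraMap K F c)}.Subsingleton := by
  intro c hc c' hc'
  by_contra hne
  exact Hurwitz.not_pos_ord_sub_of_ne v s hne hc hc'

/-- **all but finitely many fibres of `s` are reduced and miss a given finite set of places.** -/
theorem finite_bad_values {S : Set (Place K F)} (hS : S.Finite) :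
    {c : K | ∃ v : Place K F, 0 < v.ord (s - algebraMap K F c) ∧
      (2 ≤ v.ord (s - algebraMap K F c) ∨ v ∈ S)}.Finite := by
  have hT : ({v : Place K F | ∃ c : K, 2 ≤ v.ord (s - algebraMap K F c)} ∪ S).Finite :=
    (finite_ramified K s).union hS
  refine Set.Finite.subset
    (hT.biUnion fun v _ => (subsingleton_center K s v).finite) ?_
  rintro c ⟨v, hpos, h | h⟩
  · exact Set.mem_biUnion (Set.mem_union_left _ ⟨c, h⟩) hpos
  · exact Set.mem_biUnion (Set.mem_union_right _ h) hpos

/-- for an infinite subset of constants, a good value exists -/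
theorem exists_good_value {S : Set (Place K F)} (hS : S.Finite) {T : Set K} (hT : T.Infinite) :
    ∃ c ∈ T, ∀ v : Place K F, 0 < v.ord (s - algebraMap K F c) →
      v.ord (s - algebraMap K F c) = 1 ∧ v ∉ S := by
  obtain ⟨c, hcT, hc⟩ := (hT.sdiff (finite_bad_values K s hS)).nonempty
  refine ⟨c, hcT, fun v hv => ?_⟩
  have h1 : ¬ 2 ≤ v.ord (s - algebraMap K F c) := fun h' => hc ⟨v, hv, Or.inl h'⟩
  have h2 : v ∉ S := fun h' => hc ⟨v, hv, Or.inr h'⟩
  exact ⟨by omega, h2⟩

end Fermat.Agent.GR.H.Pencil
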