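/-
GATE-R (S17) / node GR-H-MOVE (helper4), part 2: **the moving lemma.**

`K` algebraically closed of characteristic zero, `F / K` a function field with the Riemann–Roch
package of `GJ/J1/InstGen` (`genusRR`, `boundRR`).  Let `k` be an infinite field acting on `F`
through `K`, `E` a divisor of large degree and `W ⊆ L(E)` a `k`-subspace that spans `L(E)` over
`K` (e.g. `k = ℚ`, `K = ℚ̄`, `W` the Galois-fixed functions of `L(E)` for a Galois-stable `E`).
Then for every finite set `S` of places there is `f ∈ W ∖ 0` such that the effective divisor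
`div f + E` is REDUCED (all multiplicities `≤ 1`) and DISJOINT from `S`:

* `exists_not_mem_sub_single` : base-point freeness, `L(E - P) ≠ L(E)` (Riemann at large degree);
* `exists_reduced`            : the moving lemma in `ord` form;
* `exists_reduced_divisor`    : the same with the divisor `div f + E` packaged.

Proof: pick `f₀ ∈ W ∖ 0`, `E₀ := div f₀ + E`; pick `f₁ ∈ W` outside the finitely many proper
`k`-subspaces `W ∩ L(E - P)`, `P ∈ supp E₀` (`k` infinite); `φ := f₁ / f₀` has polar divisor exactly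
`E₀`, so `div (f₁ - c f₀) + E` is the zero divisor of `φ - c`, which is reduced and misses `S` for
all but finitely many `c` (`GR/H/Pencil`).
-/
import Mathlib
import Fermat.Agent.GR.H.Pencil
import Fermat.Agent.GJ.J1.InstGen
import Fermat.Agent.S24.DegOne
import Fermat.Agent.S24_helper38.OrdBasic

set_option autoImplicit false
set_option linter.unusedSectionVars false

noncomputable section

namespace Fermat.Agent.GR.H.Move

open AlgebraicCurve Fermat.Agent.S24 Fermat.Agent.RRh45 Fermat.Agent.GJ.J1.InstGen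

variable {K F : Type*} [Field K] [Field F] [Algebra K F]

/-! ### small `ord` facts -/

/-- constants have order zero (also `0`, by the convention `ord 0 = 0`). -/
theorem ord_algebraMap_eq_zero (v : Place K F) (c : K) : v.ord (algebraMap K F c) = 0 := by
  rcases eq_or_ne c 0 with rfl | hc
  · simp
  · exact PlaceB.ord_algebraMap v hc

/-- an element algebraic over an algebraically closed constant field is a constant. -/
theorem exists_eq_algebraMap_of_isAlgebraic [IsAlgClosed K] {f : F} (hf : IsAlgebraic K f) :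
    ∃ c : K, f = algebraMap K F c := by
  have hint : IsIntegral K f := hf.isIntegral
  have hdeg : (minpoly K f).degree = 1 :=
    IsAlgClosed.degree_eq_one_of_irreducible K (minpoly.irreducible hint)
  obtain ⟨c, hc⟩ := minpoly.mem_range_of_degree_eq_one K f hdeg
  exact ⟨c, hc.symm⟩

/-- a function with a pole is transcendental. -/
theorem transcendental_of_ord_neg [IsAlgClosed K] {f : F} {v : Place K F} (h : v.ord f < 0) :
    Transcendental K f := by
  intro halg
  obtain ⟨c, rfl⟩ := exists_eq_algebraMap_of_isAlgebraic halg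
  rw [ord_algebraMap_eq_zero] at h
  exact lt_irrefl _ h

/-- `ord (f - c) = ord f` at a pole of `f`. -/
theorem ord_sub_algebraMap_of_neg (v : Place K F) {f : F} (c : K) (h : v.ord f < 0) :
    v.ord (f - algebraMap K F c) = v.ord f := by
  rcases eq_or_ne c 0 with rfl | hc
  · simp
  have hf : f ≠ 0 := by rintro rfl; simp at h
  have hc' : -algebraMap K F c ≠ 0 := by
    rw [neg_ne_zero]; simpa using hc
  have := Fermat.Agent.S24_helper38.ord_add_eq_of_lt v hf hc'
    (by rw [PlaceB.ord_neg, ord_algebraMap_eq_zero]; exact h)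
  rw [sub_eq_add_neg]
  exact this.2

/-- `f - c` is regular where `f` is. -/
theorem ord_sub_algebraMap_nonneg (v : Place K F) {f : F} (c : K) (h : 0 ≤ v.ord f) :
    0 ≤ v.ord (f - algebraMap K F c) := by
  rcases eq_or_ne (f - algebraMap K F c) 0 with h0 | h0
  · rw [h0]; simp
  rcases eq_or_ne f 0 with rfl | hf
  · rw [zero_sub, PlaceB.ord_neg, ord_algebraMap_eq_zero]
  rcases eq_or_ne c 0 with rfl | hc
  · simpa using h
  have hc' : -algebraMap K F c ≠ 0 := by
    rw [neg_ne_zero]; simpa using hc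
  have := PlaceB.ord_add_ge v hf hc' (by rwa [← sub_eq_add_neg])
  rw [PlaceB.ord_neg, ord_algebraMap_eq_zero, ← sub_eq_add_neg] at this
  exact le_trans (le_min h le_rfl) this

/-! ### base-point freeness -/

section BPF

variable [IsAlgClosed K] [FiniteResidues K F] [HasPrincipalDivisors K F] [Nonempty (Place K F)]

/-- **base-point freeness at large degree**: `L(E - P)` is a proper subspace of `L(E)`. -/
theorem exists_not_mem_sub_single (x₀ : F) [IsGen K x₀] (E : Divisor K F)
    (hE : boundRR K F + 1 ≤ Divisor.degree E) (P : Place K F) :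
    ∃ f ∈ riemannRochSpace E, f ∉ riemannRochSpace (E - Finsupp.single P 1) := by
  have hdeg : Divisor.degree (E - Finsupp.single P 1) = Divisor.degree E - 1 := by
    rw [map_sub, Divisor.degree_single, PlaceB.deg_eq_one P x₀]; simp
  have h1 := finrank_eq_of_boundRR_le (K := K) (F := F) (D := E) (by omega)
  have h2 := finrank_eq_of_boundRR_le (K := K) (F := F) (D := E - Finsupp.single P 1)
    (by rw [hdeg]; omega)
  rw [hdeg] at h2
  by_contra hcon
  push Not at hcon
  have hle : riemannRochSpace E ≤ riemannRochSpace (E - Finsupp.single P 1) := hcon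
  have := Submodule.finrank_mono hle
  omega

/-- the order of a function of `L(E)` outside `L(E - P)` at `P` is exactly `-E P`. -/
theorem ord_eq_of_not_mem_sub_single {E : Divisor K F} {P : Place K F} {f : F}
    (hf : f ∈ riemannRochSpace E) (hf' : f ∉ riemannRochSpace (E - Finsupp.single P 1)) :
    f ≠ 0 ∧ P.ord f = -E P := by
  classical
  have hf0 : f ≠ 0 := by
    rintro rfl
    exact hf' (Submodule.zero_mem _)
  refine ⟨hf0, ?_⟩
  rw [mem_riemannRochSpace_iff] at hf hf'
  push Not at hf'
  obtain ⟨w, -, hw⟩ := hf'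
  have hw1 := (hf w).resolve_left hf0
  by_cases hwP : w = P
  · subst hwP
    rw [Finsupp.sub_apply, Finsupp.single_apply, if_pos rfl] at hw
    omega
  · rw [Finsupp.sub_apply, Finsupp.single_apply, if_neg (Ne.symm hwP)] at hw
    omega

end BPF

/-! ### the moving lemma -/

section Main

variable [IsAlgClosed K] [CharZero K] [FiniteResidues K F] [HasPrincipalDivisors K F]
  [Nonempty (Place K F)]

variable {k : Type*} [Field k] [Infinite k] [Algebra k K] [Module k F] [IsScalarTower k K F]

/-- **the moving lemma**: a `k`-form `W` of `L(E)`, `deg E` large, contains a nonzero `f` with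
`div f + E` reduced and disjoint from the finite set `S`. -/
theorem exists_reduced (x₀ : F) [IsGen K x₀] (E : Divisor K F)
    (hE : boundRR K F + 1 ≤ Divisor.degree E) (hE1 : 1 ≤ Divisor.degree E)
    (W : Submodule k F) (hW : ∀ f ∈ W, f ∈ riemannRochSpace E)
    (hspan : riemannRochSpace E ≤ Submodule.span K (W : Set F)) (S : Finset (Place K F)) :
    ∃ f ∈ W, f ≠ 0 ∧ (∀ v : Place K F, 0 ≤ v.ord f + E v ∧ v.ord f + E v ≤ 1) ∧
      ∀ v ∈ S, v.ord f + E v = 0 := by
  classical
  -- `W` is not contained in `L(E - P)`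
  have hnot : ∀ P : Place K F, ∃ f ∈ W, f ∉ riemannRochSpace (E - Finsupp.single P 1) := by
    intro P
    obtain ⟨g, hg, hg'⟩ := exists_not_mem_sub_single x₀ E hE P
    by_contra hcon
    push Not at hcon
    have : Submodule.span K (W : Set F) ≤ riemannRochSpace (E - Finsupp.single P 1) :=
      Submodule.span_le.mpr hcon
    exact hg' (this (hspan hg))
  -- a first nonzero element
  obtain ⟨f₀, hf₀W, hf₀0⟩ : ∃ f ∈ W, f ≠ 0 := by
    obtain ⟨P⟩ := ‹Nonempty (Place K F)›
    obtain ⟨f, hf, hf'⟩ := hnot P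
    exact ⟨f, hf, fun h => hf' (h ▸ Submodule.zero_mem _)⟩
  obtain ⟨D₀, hD₀, hD₀deg⟩ := HasPrincipalDivisors.exists_divisor (K := K) f₀ hf₀0
  have hE₀nn : ∀ v : Place K F, 0 ≤ (D₀ + E) v := by
    intro v
    have := ((mem_riemannRochSpace_iff.mp (hW f₀ hf₀W)) v).resolve_left hf₀0
    rw [Finsupp.add_apply, hD₀ v]
    omega
  -- the support of `E₀` is nonempty
  have hdegE₀ : Divisor.degree (D₀ + E) = Divisor.degree E := by
    rw [map_add, hD₀deg, zero_add]
  have hne : (D₀ + E).support.Nonempty := by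
    rw [Finsupp.support_nonempty_iff]
    intro h0
    rw [h0, map_zero] at hdegE₀
    omega
  -- the second element, avoiding `L(E - P)` for `P ∈ supp E₀`
  obtain ⟨f₁, hf₁W, hf₁⟩ : ∃ f ∈ W, ∀ P ∈ (D₀ + E).support,
      f ∉ riemannRochSpace (E - Finsupp.single P 1) := by
    let p : (D₀ + E).support → Submodule k W := fun P =>
      Submodule.comap W.subtype
        ((riemannRochSpace (E - Finsupp.single (P : Place K F) 1)).restrictScalars k)
    have hp : ∀ P, p P ≠ ⊤ := by
      intro P htop
      obtain ⟨f, hf, hf'⟩ := hnot P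
      have : (⟨f, hf⟩ : W) ∈ p P := by rw [htop]; exact Submodule.mem_top
      exact hf' this
    obtain ⟨f, hf⟩ := Submodule.exists_forall_notMem_of_forall_ne_top p hp
    exact ⟨f, f.2, fun P hP => hf ⟨P, hP⟩⟩
  have hf₁L := hW f₁ hf₁W
  -- `φ := f₁ / f₀`
  set φ : F := f₁ / f₀ with hφ
  have hφpole : ∀ v ∈ (D₀ + E).support, v.ord φ = -(D₀ + E) v ∧ v.ord φ < 0 := by
    intro v hv
    obtain ⟨hf₁0, hord⟩ := ord_eq_of_not_mem_sub_single hf₁L (hf₁ v hv)
    have h1 : v.ord φ = v.ord f₁ - v.ord f₀ := by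
      rw [hφ, div_eq_mul_inv, v.ord_mul hf₁0 (inv_ne_zero hf₀0), v.ord_inv]; ring
    have h2 : (D₀ + E) v ≠ 0 := Finsupp.mem_support_iff.mp hv
    have h3 := hE₀nn v
    rw [Finsupp.add_apply, hD₀ v] at h2 h3 ⊢
    constructor <;> omega
  have hφreg : ∀ v ∉ (D₀ + E).support, v.ord f₀ = -E v ∧ 0 ≤ v.ord φ := by
    intro v hv
    have h2 : (D₀ + E) v = 0 := Finsupp.notMem_support_iff.mp hv
    rw [Finsupp.add_apply, hD₀ v] at h2
    refine ⟨by omega, ?_⟩
    rcases eq_or_ne f₁ 0 with h0 | hf₁0
    · rw [hφ, h0, zero_div]; simp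
    have h1 : v.ord φ = v.ord f₁ - v.ord f₀ := by
      rw [hφ, div_eq_mul_inv, v.ord_mul hf₁0 (inv_ne_zero hf₀0), v.ord_inv]; ring
    have h3 := ((mem_riemannRochSpace_iff.mp hf₁L) v).resolve_left hf₁0
    omega
  obtain ⟨v₀, hv₀⟩ := hne
  have hφtr : Transcendental K φ := transcendental_of_ord_neg (hφpole v₀ hv₀).2
  have hφgen : IsGen K φ := IsGen.of_transcendental x₀ hφtr
  -- a good value in `k`
  have hT : (Set.range (algebraMap k K)).Infinite :=
    Set.infinite_range_of_injective (algebraMap k K).injective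
  obtain ⟨c, ⟨c₀, hc₀⟩, hc⟩ := Pencil.exists_good_value K φ (S := (S : Set (Place K F)))
    S.finite_toSet hT
  have hφc : φ - algebraMap K F c ≠ 0 := by
    intro h0
    apply hφtr
    rw [sub_eq_zero.mp h0]
    exact isAlgebraic_algebraMap c
  have hfeq : f₁ - c₀ • f₀ = f₀ * (φ - algebraMap K F c) := by
    rw [← algebraMap_smul K c₀ f₀, Algebra.smul_def, hφ, hc₀]
    field_simp
  have hford : ∀ v : Place K F,
      v.ord (f₁ - c₀ • f₀) = v.ord f₀ + v.ord (φ - algebraMap K F c) := by
    intro v
    rw [hfeq, v.ord_mul hf₀0 hφc]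
  have hkey : ∀ v : Place K F,
      (v.ord (f₁ - c₀ • f₀) + E v = 0) ∨
        (v.ord (f₁ - c₀ • f₀) + E v = 1 ∧ v ∉ (S : Set (Place K F))) := by
    intro v
    by_cases hv : v ∈ (D₀ + E).support
    · left
      obtain ⟨h1, h2⟩ := hφpole v hv
      rw [hford v, ord_sub_algebraMap_of_neg v c h2, h1, Finsupp.add_apply, hD₀ v]
      ring
    · obtain ⟨h1, h2⟩ := hφreg v hv
      have h3 := ord_sub_algebraMap_nonneg v c h2
      rw [hford v, h1]
      rcases h3.eq_or_lt with h4 | h4
      · left; omega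
      · right
        obtain ⟨h5, h6⟩ := hc v h4
        exact ⟨by omega, h6⟩
  refine ⟨f₁ - c₀ • f₀, W.sub_mem hf₁W (W.smul_mem c₀ hf₀W), ?_, fun v => ?_, fun v hv => ?_⟩
  · rw [hfeq]
    exact mul_ne_zero hf₀0 hφc
  · rcases hkey v with h | ⟨h, -⟩ <;> omega
  · rcases hkey v with h | ⟨-, h⟩
    · exact h
    · exact absurd (Finset.mem_coe.mpr hv) h

/-- **the moving lemma, divisor form**: the reduced effective divisor `D = div f + E` itself. -/
theorem exists_reduced_divisor (x₀ : F) [IsGen K x₀] (E : Divisor K F)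
    (hE : boundRR K F + 1 ≤ Divisor.degree E) (hE1 : 1 ≤ Divisor.degree E)
    (W : Submodule k F) (hW : ∀ f ∈ W, f ∈ riemannRochSpace E)
    (hspan : riemannRochSpace E ≤ Submodule.span K (W : Set F)) (S : Finset (Place K F)) :
    ∃ f ∈ W, f ≠ 0 ∧ ∃ D : Divisor K F, (∀ v : Place K F, D v = v.ord f + E v) ∧
      (∀ v : Place K F, D v = 0 ∨ D v = 1) ∧ (∀ v ∈ S, D v = 0) ∧
      Divisor.degree D = Divisor.degree E := by
  obtain ⟨f, hfW, hf0, hred, hS⟩ := exists_reduced x₀ E hE hE1 W hW hspan S
  obtain ⟨D₀, hD₀, hD₀deg⟩ := HasPrincipalDivisors.exists_divisor (K := K) f hf0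
  refine ⟨f, hfW, hf0, D₀ + E, fun v => by rw [Finsupp.add_apply, hD₀ v], fun v => ?_,
    fun v hv => ?_, by rw [map_add, hD₀deg, zero_add]⟩
  · have := hred v
    rw [Finsupp.add_apply, hD₀ v]
    omega
  · rw [Finsupp.add_apply, hD₀ v]
    exact hS v hv

end Main

end Fermat.Agent.GR.H.Move
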