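/-
GATE-R (S17) / node GR-H-MOVE (helper4), part 3: **the moving lemma on `X₀(N)` in the rational
frame `GR/H/PL/Rat`** (helper43), in the shapes of the fields `move1`, `move2` of helper20's
`HeightFrame` (board 4875).  `F = ℚ̄(X₀(N))`, `∞ = oo N`, rational = fixed by `G_ℚ`.

* `moveBound N : ℕ` : the degree threshold (`boundRR + 1`, at least `1`);
* `exists_reduced_I` : `D` rational, `m ≥ deg D + moveBound N` ⟹ some `f ∈ I m D ∖ 0` has
  `D' := div f + m ∞ - D` rational, effective, REDUCED, disjoint from a given finite set `S`,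
  of degree `m - deg D`;
* `exists_section` (`move2`) : `D ≥ 0` rational, `k ≥ deg D + moveBound N` ⟹ a section
  `s ∈ V k ∖ 0` with `div₀ s = D + D'`, `D'` rational, effective, reduced, disjoint from `S`;
* `exists_rep` (`move1`) : every `c ∈ J₀(N)(ℚ)` and every `d ≥ moveBound N` admit a rational,
  effective, reduced divisor `D` of degree `d`, disjoint from `S`, with `c = [D - d ∞]`.
-/
import Fermat.Agent.GR.H.Move
import Fermat.Agent.GR.H.PL.Rat

set_option autoImplicit false

noncomputable section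

open AlgebraicCurve ModularCurve

namespace Fermat.Agent.GR.H.MoveInst

open Fermat.Agent.GR.H.PL Fermat.Agent.RR.Bound Fermat.Agent.GJ.J1.InstGen Fermat.Agent.RRh45
  Fermat.Agent.S24

local notation "Qb" => AlgebraicClosure ℚ
local notation "GQ" => (AlgebraicClosure ℚ ≃ₐ[ℚ] AlgebraicClosure ℚ)

variable (N : ℕ) [NeZero N]

local instance instFiniteResiduesFNb : FiniteResidues Qb (FNb N) :=
  Fermat.Agent.RR.ModularBar.finiteResidues N

local instance instNonemptyPlaceFNb : Nonempty (Place Qb (FNb N)) :=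
  Fermat.Agent.RR.ModularBar.nonempty_place N

/-- the degree threshold of the moving lemma on `X₀(N)` -/
def moveBound : ℕ := (max (boundRR Qb (FNb N) + 1) 1).toNat

theorem boundRR_lt_moveBound : boundRR Qb (FNb N) + 1 ≤ (moveBound N : ℤ) := by
  unfold moveBound
  have h1 : (0 : ℤ) ≤ max (boundRR Qb (FNb N) + 1) 1 := le_trans zero_le_one (le_max_right _ _)
  rw [Int.toNat_of_nonneg h1]
  exact le_max_left _ _

theorem one_le_moveBound : (1 : ℤ) ≤ (moveBound N : ℤ) := by
  unfold moveBound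
  have h1 : (0 : ℤ) ≤ max (boundRR Qb (FNb N) + 1) 1 := le_trans zero_le_one (le_max_right _ _)
  rw [Int.toNat_of_nonneg h1]
  exact le_max_right _ _

variable {N}

theorem isRatFun_of_mem_I {m : ℤ} {D : Divisor Qb (FNb N)} {f : FNb N} (hf : f ∈ I m D) :
    IsRatFun f := (mem_I.1 hf).1

/-- the divisor of a rational function is rational -/
theorem isRatDiv_divOf {f : FNb N} (hf : IsRatFun f) : IsRatDiv (divOf Qb f) := fun σ => by
  rw [gal_smul_divOf, hf σ]

/-- **the moving lemma in the rational frame.** -/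
theorem exists_reduced_I {D : Divisor Qb (FNb N)} (hD : IsRatDiv D) {m : ℤ}
    (hm : (moveBound N : ℤ) + Divisor.degree D ≤ m) (S : Finset (Place Qb (FNb N))) :
    ∃ f ∈ I m D, f ≠ 0 ∧ IsRatDiv (divOf Qb f + twist m D) ∧ 0 ≤ divOf Qb f + twist m D ∧
      (∀ v : Place Qb (FNb N), (divOf Qb f + twist m D) v = 0 ∨ (divOf Qb f + twist m D) v = 1) ∧
      (∀ v ∈ S, (divOf Qb f + twist m D) v = 0) ∧
      Divisor.degree (divOf Qb f + twist m D) = m - Divisor.degree D := by
  have hgen := Fermat.Agent.RR.ModularBar.isGen_jF N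
  have hdeg : Divisor.degree (twist m D) = m - Divisor.degree D := degree_twist m D
  have h1 := boundRR_lt_moveBound N
  have h2 := one_le_moveBound N
  obtain ⟨f, hfW, hf0, hred, hS⟩ := Move.exists_reduced (k := ℚ) (jF N) (twist m D)
    (by rw [hdeg]; exact le_trans h1 (by omega)) (by rw [hdeg]; omega) (I m D) (fun f hf => (mem_I.1 hf).2)
    (by rw [span_I hD m]) S
  have happ : ∀ v : Place Qb (FNb N),
      (divOf Qb f + twist m D) v = v.ord f + (twist m D) v := fun v => by
    rw [Finsupp.add_apply, divOf_apply hf0]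
  refine ⟨f, hfW, hf0, (isRatDiv_divOf (isRatFun_of_mem_I hfW)).add (hD.twist m), ?_,
    fun v => ?_, fun v hv => ?_, ?_⟩
  · rw [Finsupp.le_def]
    intro v
    rw [happ v]
    exact (hred v).1
  · rw [happ v]
    have := hred v
    omega
  · rw [happ v]
    exact hS v hv
  · rw [map_add, degree_divOf, zero_add, hdeg]

/-- **`move2`**: a rational section through a rational effective divisor `D` whose residual
divisor `D'` is rational, effective, reduced and disjoint from the finite set `S`. -/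
theorem exists_section {D : Divisor Qb (FNb N)} (hD : IsRatDiv D) (hD0 : 0 ≤ D) {k : ℤ}
    (hk : (moveBound N : ℤ) + Divisor.degree D ≤ k) (S : Finset (Place Qb (FNb N))) :
    ∃ s ∈ V (N := N) k, s ≠ 0 ∧ ∃ D' : Divisor Qb (FNb N), IsRatDiv D' ∧ 0 ≤ D' ∧
      div0 k s = D + D' ∧ (∀ v : Place Qb (FNb N), D' v = 0 ∨ D' v = 1) ∧
      (∀ v ∈ S, D' v = 0) ∧ Divisor.degree D' = k - Divisor.degree D := by
  obtain ⟨f, hf, hf0, hrat, hnn, hred, hS, hdeg⟩ := exists_reduced_I hD hk S
  refine ⟨f, I_le_V hD0 hf, hf0, divOf Qb f + twist k D, hrat, hnn, ?_, hred, hS, hdeg⟩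
  unfold div0 twist
  abel

/-- **`move1`**: every rational class has a rational, effective, reduced representative of any
degree `d ≥ moveBound N` disjoint from the finite set `S`. -/
theorem exists_rep (c : ↥(FixedPoints.addSubgroup GQ (JZero N))) {d : ℕ} (hd : moveBound N ≤ d)
    (S : Finset (Place Qb (FNb N))) :
    ∃ D : Divisor Qb (FNb N), IsRatDiv D ∧ 0 ≤ D ∧ (∀ v : Place Qb (FNb N), D v = 0 ∨ D v = 1) ∧
      (∀ v ∈ S, D v = 0) ∧ Divisor.degree D = d ∧
      ∃ h : D - Finsupp.single (oo N) (d : ℤ) ∈ Divisor.degZero (K := Qb) (F := FNb N),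
        (c : JZero N) = Pic0.mk ⟨D - Finsupp.single (oo N) (d : ℤ), h⟩ := by
  obtain ⟨n, -, E, -, hEdeg, hErat, hE0, hcE⟩ :=
    Fermat.Agent.GR.W.RatRep.exists_rational_effective_rep_of_mem N c
  have hnegrat : IsRatDiv (-E) := fun σ => by rw [smul_neg, hErat σ]
  have hm : (moveBound N : ℤ) + Divisor.degree (-E) ≤ (d : ℤ) - n := by
    rw [map_neg, hEdeg]
    have : (moveBound N : ℤ) ≤ d := by exact_mod_cast hd
    omega
  obtain ⟨f, hf, hf0, hrat, hnn, hred, hS, hdeg⟩ := exists_reduced_I hnegrat hm S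
  have hdeg' : Divisor.degree (divOf Qb f + twist ((d : ℤ) - n) (-E)) = d := by
    rw [hdeg, map_neg, hEdeg]; ring
  have hmem : divOf Qb f + twist ((d : ℤ) - n) (-E) - Finsupp.single (oo N) (d : ℤ)
      ∈ Divisor.degZero (K := Qb) (F := FNb N) := by
    rw [Divisor.mem_degZero, map_sub, hdeg', Divisor.degree_single,
      Fermat.Agent.GR.W.RatRep.deg_cuspInf N]
    simp
  refine ⟨_, hrat, hnn, hred, hS, hdeg', hmem, ?_⟩
  rw [hcE, Fermat.Agent.GR.W.RatRep.mk_eq_mk_iff]
  refine Divisor.mem_principal.mpr ⟨f, hf0, fun v => ?_⟩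
  have hsub : (divOf Qb f + twist ((d : ℤ) - n) (-E) - Finsupp.single (oo N) (d : ℤ))
      - (E - Finsupp.single (oo N) (n : ℤ)) = divOf Qb f := by
    unfold twist
    rw [Finsupp.single_sub]
    abel
  show ((divOf Qb f + twist ((d : ℤ) - n) (-E) - Finsupp.single (oo N) (d : ℤ))
      - (E - Finsupp.single (oo N) (n : ℤ))) v = v.ord f
  rw [hsub, divOf_apply hf0]

end Fermat.Agent.GR.H.MoveInst
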