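/-
GATE-R / S17, node GR-H-ML-DOMAIN (helper44): the ONE geometric input of helper17's
multiplication lemma (`MulCert.mulLemma`, `RowSpace.mulLemma_rowSpace`) — "multiplication has no
zero divisors over an algebraically closed extension" — for multiplication TABLES in a domain.

Setting: `K ⊆ L` fields, `𝔽` a commutative domain which is a `K`- and an `L`-algebra
(`IsScalarTower K L 𝔽`); families `eσ : σ → 𝔽`, `eι : ι → 𝔽`, `eκ : κ → 𝔽` and structure
constants `c : κ → ι → σ → K` with the multiplication table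
`eσ t * eι i = ∑ k, c k i t • eκ k`.

* `sum_mul_sum_eq` : bilinear expansion of `(∑ u t • eσ t) * (∑ x i • eι i)` with coefficients
  in any commutative `K`-algebra `A` acting on `𝔽`;
* `mulVec_injective_of_table` : if `eσ` and `eι` are `L`-linearly independent in the domain
  `𝔽`, then for every `u : σ → L`, `u ≠ 0`, the matrix
  `mulMat (fun k i t => algebraMap K L (c k i t)) u` has injective `mulVec`
  (= the hypothesis `hinj` of `MulCert.exists_cert` / `mulLemma` / `mulLemma_rowSpace`);
* `abs_logHeight_mul_sub_le_of_table` : hence the multiplication lemma for the table `c`;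
* basis form: `structConst`, `basis_mul_basis`, `repr_mul` (coordinates rule),
  `coordMatrix_mul` (family form), `structConst_injective`, `abs_logHeight_mul_sub_le`.

For PL (helper43): `K = ℚ`, `L = Qb`, `𝔽 = FNb N`, `eσ t = bV N j t`, `eι i = bV N k i`,
`eκ = bV N (j + k)`, `c = sc N j k`, table = `(sum_coordFun_smul (mul_mem_V ..)).symm`,
independence = `linearIndependent_Qb`.

Imports Mathlib and GR/H/{CauchyBinet,MulLemma,MulCert} (helper17).
-/
import Mathlib
import Fermat.Agent.GR.H.CauchyBinet
import Fermat.Agent.GR.H.MulLemma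
import Fermat.Agent.GR.H.MulCert

set_option autoImplicit false
set_option linter.unusedSectionVars false

namespace Fermat.Agent.GR.H.MulDomain

open Matrix Finset Height
open Fermat.Agent.GR.H.CauchyBinet Fermat.Agent.GR.H.MulLemma

/-! ### Multiplication tables in a commutative ring / domain -/

section Table

variable {K : Type*} [Field K] {L : Type*} [Field L] [Algebra K L]
variable {𝔽 : Type*} [CommRing 𝔽] [Algebra K 𝔽] [Algebra L 𝔽] [IsScalarTower K L 𝔽]
variable {σ ι κ : Type*} [Fintype σ] [Fintype ι] [Fintype κ]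
variable (eσ : σ → 𝔽) (eι : ι → 𝔽) (eκ : κ → 𝔽) (c : κ → ι → σ → K)

/-- Bilinear expansion along a multiplication table, with coefficients in any commutative
`K`-algebra `A` acting compatibly on `𝔽`. -/
theorem sum_mul_sum_eq (htable : ∀ t i, eσ t * eι i = ∑ k, c k i t • eκ k)
    {A : Type*} [CommSemiring A] [Algebra K A] [Module A 𝔽]
    [IsScalarTower A 𝔽 𝔽] [SMulCommClass A 𝔽 𝔽] [IsScalarTower K A 𝔽]
    (u : σ → A) (x : ι → A) :
    (∑ t, u t • eσ t) * (∑ i, x i • eι i) =
      ∑ k, (∑ i, (∑ t, algebraMap K A (c k i t) * u t) * x i) • eκ k := by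
  rw [Finset.sum_mul]
  simp only [Finset.mul_sum, smul_mul_smul_comm, htable,
    Finset.smul_sum, Finset.sum_smul, Finset.sum_mul]
  have hterm : ∀ t i k, (u t * x i) • c k i t • eκ k =
      (algebraMap K A (c k i t) * u t * x i) • eκ k := by
    intro t i k
    rw [← algebraMap_smul A (c k i t) (eκ k), smul_smul]
    congr 1
    ring
  simp only [hterm]
  calc ∑ t, ∑ i, ∑ k, (algebraMap K A (c k i t) * u t * x i) • eκ k
      = ∑ i, ∑ t, ∑ k, (algebraMap K A (c k i t) * u t * x i) • eκ k := Finset.sum_comm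
    _ = ∑ i, ∑ k, ∑ t, (algebraMap K A (c k i t) * u t * x i) • eκ k :=
        Finset.sum_congr rfl fun i _ => Finset.sum_comm
    _ = ∑ k, ∑ i, ∑ t, (algebraMap K A (c k i t) * u t * x i) • eκ k := Finset.sum_comm

/-- The expansion read with `mulMat`: the coefficient of `eκ k` is the `k`-th entry of
`mulMat c_A u` applied to `x`. -/
theorem sum_mul_sum_eq_mulVec (htable : ∀ t i, eσ t * eι i = ∑ k, c k i t • eκ k)
    {A : Type*} [CommSemiring A] [Algebra K A] [Module A 𝔽]
    [IsScalarTower A 𝔽 𝔽] [SMulCommClass A 𝔽 𝔽] [IsScalarTower K A 𝔽]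
    (u : σ → A) (x : ι → A) :
    (∑ t, u t • eσ t) * (∑ i, x i • eι i) =
      ∑ k, (fun k => ∑ i, (∑ t, algebraMap K A (c k i t) * u t) * x i) k • eκ k :=
  sum_mul_sum_eq eσ eι eκ c htable u x

variable [IsDomain 𝔽]

/-- **No zero divisors ⟹ injectivity** (the input `hinj` of helper17's `MulCert.mulLemma`):
if the families `eσ`, `eι` are `L`-linearly independent in the domain `𝔽` and `c` is their
multiplication table, then over `L` multiplication by every nonzero `u` is injective. -/
theorem mulVec_injective_of_table (htable : ∀ t i, eσ t * eι i = ∑ k, c k i t • eκ k)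
    (hσ : LinearIndependent L eσ) (hι : LinearIndependent L eι) :
    ∀ u : σ → L, u ≠ 0 → Function.Injective
      (mulMat (fun k i t => algebraMap K L (c k i t)) u).mulVec := by
  intro u hu
  set M := mulMat (fun k i t => algebraMap K L (c k i t)) u with hM
  have hker : ∀ x : ι → L, M.mulVec x = 0 → x = 0 := by
    intro x hx
    have hprod := sum_mul_sum_eq eσ eι eκ c htable (A := L) u x
    have hzero : ∀ k, (∑ i, (∑ t, algebraMap K L (c k i t) * u t) * x i) = 0 := by
      intro k
      have := congrFun hx k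
      simpa [Matrix.mulVec, dotProduct, hM, mulMat_apply] using this
    simp only [hzero, zero_smul, Finset.sum_const_zero] at hprod
    rcases mul_eq_zero.mp hprod with h | h
    · exact absurd (funext fun t => Fintype.linearIndependent_iff.mp hσ u h t) hu
    · exact funext fun i => Fintype.linearIndependent_iff.mp hι x h i
  intro x y hxy
  have : M.mulVec (x - y) = 0 := by rw [Matrix.mulVec_sub, hxy, sub_self]
  exact sub_eq_zero.mp (hker _ this)

variable [IsAlgClosed L] [DecidableEq ι] [DecidableEq κ]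
variable {n : Type*} [Fintype n] [DecidableEq n] [Height.AdmissibleAbsValues K]

/-- **Multiplication lemma for a multiplication table in a domain**:
`|H(u · W) - (card n * h(u) + H(W))| ≤ C`, uniformly in `u ≠ 0` and in `W` of full rank. -/
theorem abs_logHeight_mul_sub_le_of_table
    (htable : ∀ t i, eσ t * eι i = ∑ k, c k i t • eκ k)
    (hσ : LinearIndependent L eσ) (hι : LinearIndependent L eι) :
    ∃ C : ℝ, ∀ (u : σ → K) (W : Matrix n ι K), u ≠ 0 → minorsAll W ≠ 0 →
      minorsAll (W * (mulMat c u)ᵀ) ≠ 0 ∧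
      |logHeight (minorsAll (W * (mulMat c u)ᵀ)) -
        (Fintype.card n * logHeight u + logHeight (minorsAll W))| ≤ C :=
  MulCert.mulLemma (L := L) c (mulVec_injective_of_table eσ eι eκ c htable hσ hι)

end Table

/-! ### Basis form: subspaces of a domain -/

section Domain

variable {K : Type*} [Field K] {L : Type*} [Field L] [Algebra K L]
variable {𝔽 : Type*} [CommRing 𝔽] [Algebra K 𝔽] [Algebra L 𝔽] [IsScalarTower K L 𝔽]
variable {σ ι κ : Type*} [Fintype σ] [Fintype ι] [Fintype κ]
variable {Vσ Vι Vκ : Submodule K 𝔽}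
variable (bσ : Module.Basis σ K Vσ) (bι : Module.Basis ι K Vι) (bκ : Module.Basis κ K Vκ)
variable (hmul : ∀ u ∈ Vσ, ∀ w ∈ Vι, u * w ∈ Vκ)

/-- Structure constants of the multiplication `Vσ × Vι → Vκ` in the given bases. -/
noncomputable def structConst : κ → ι → σ → K := fun k i t =>
  bκ.repr ⟨(bσ t : 𝔽) * (bι i : 𝔽), hmul _ (bσ t).2 _ (bι i).2⟩ k

theorem basis_mul_basis (t : σ) (i : ι) :
    (bσ t : 𝔽) * (bι i : 𝔽) = ∑ k, structConst bσ bι bκ hmul k i t • (bκ k : 𝔽) := by
  have h := bκ.sum_repr ⟨(bσ t : 𝔽) * (bι i : 𝔽), hmul _ (bσ t).2 _ (bι i).2⟩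
  have h' := congrArg (Subtype.val : Vκ → 𝔽) h
  simp only [Submodule.coe_sum, Submodule.coe_smul] at h'
  exact h'.symm

/-- **Coordinates rule**: the `bκ`-coordinates of `u * w` are `mulMat structConst (coords u)`
applied to the coordinates of `w`. -/
theorem repr_mul (u : Vσ) (w : Vι) (k : κ) :
    bκ.repr ⟨(u : 𝔽) * (w : 𝔽), hmul _ u.2 _ w.2⟩ k =
      (mulMat (structConst bσ bι bκ hmul) (bσ.repr u)).mulVec (bι.repr w) k := by
  have hu : (u : 𝔽) = ∑ t, bσ.repr u t • (bσ t : 𝔽) := by
    have := congrArg (Subtype.val : Vσ → 𝔽) (bσ.sum_repr u)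
    simpa only [Submodule.coe_sum, Submodule.coe_smul] using this.symm
  have hw : (w : 𝔽) = ∑ i, bι.repr w i • (bι i : 𝔽) := by
    have := congrArg (Subtype.val : Vι → 𝔽) (bι.sum_repr w)
    simpa only [Submodule.coe_sum, Submodule.coe_smul] using this.symm
  have key : (⟨(u : 𝔽) * (w : 𝔽), hmul _ u.2 _ w.2⟩ : Vκ) =
      ∑ k, (mulMat (structConst bσ bι bκ hmul) (bσ.repr u)).mulVec (bι.repr w) k • bκ k := by
    apply Subtype.ext
    simp only [Submodule.coe_sum, Submodule.coe_smul]
    conv_lhs => rw [hu, hw]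
    rw [sum_mul_sum_eq (fun t => (bσ t : 𝔽)) (fun i => (bι i : 𝔽)) (fun k => (bκ k : 𝔽))
      (structConst bσ bι bκ hmul) (basis_mul_basis bσ bι bκ hmul) (A := K)]
    refine Finset.sum_congr rfl fun k _ => ?_
    congr 1
  rw [key, bκ.repr_sum_self]

/-- **Family form of the coordinates rule**: the coordinate matrix of `u * w a` is
`W * (mulMat structConst (coords u))ᵀ`, `W` the coordinate matrix of the family `w`. -/
theorem coordMatrix_mul {n : Type*} (u : Vσ) (w : n → Vι) :
    (Matrix.of fun a k => bκ.repr ⟨(u : 𝔽) * (w a : 𝔽), hmul _ u.2 _ (w a).2⟩ k) =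
      (Matrix.of fun a i => bι.repr (w a) i) *
        (mulMat (structConst bσ bι bκ hmul) (bσ.repr u))ᵀ := by
  ext a k
  rw [Matrix.of_apply, repr_mul bσ bι bκ hmul u (w a) k]
  simp [Matrix.mul_apply, Matrix.mulVec, dotProduct, mul_comm]

variable [IsDomain 𝔽]

/-- The injectivity hypothesis of `MulCert.mulLemma` for the structure constants of subspaces of
a domain whose bases stay `L`-linearly independent. -/
theorem structConst_injective
    (hσ : LinearIndependent L (fun t => (bσ t : 𝔽)))
    (hι : LinearIndependent L (fun i => (bι i : 𝔽))) :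
    ∀ u : σ → L, u ≠ 0 → Function.Injective
      (mulMat (fun k i t => algebraMap K L (structConst bσ bι bκ hmul k i t)) u).mulVec :=
  mulVec_injective_of_table _ _ (fun k => (bκ k : 𝔽)) _ (basis_mul_basis bσ bι bκ hmul) hσ hι

variable [IsAlgClosed L] [DecidableEq ι] [DecidableEq κ]
variable {n : Type*} [Fintype n] [DecidableEq n] [Height.AdmissibleAbsValues K]

/-- **Multiplication lemma for subspaces of a domain.**  `K`-subspaces `Vσ, Vι, Vκ` of a domain
`𝔽 ⊇ L ⊇ K`, `L` algebraically closed, `Vσ * Vι ⊆ Vκ`, bases of `Vσ`, `Vι` that stay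
`L`-independent.  Then for every `u ∈ Vσ ∖ 0` and every full-rank coordinate matrix `W` (rows =
`bι`-coordinates of a family in `Vι`), the matrix `W * (mulMat structConst (coords u))ᵀ` (rows
= `bκ`-coordinates of `u` times the family, `coordMatrix_mul`) has full rank and
`|H(u·W) - (card n * h(u) + H(W))| ≤ C`, with `C` independent of `u` and `W`. -/
theorem abs_logHeight_mul_sub_le
    (hσ : LinearIndependent L (fun t => (bσ t : 𝔽)))
    (hι : LinearIndependent L (fun i => (bι i : 𝔽))) :
    ∃ C : ℝ, ∀ (u : Vσ) (W : Matrix n ι K), u ≠ 0 → minorsAll W ≠ 0 →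
      minorsAll (W * (mulMat (structConst bσ bι bκ hmul) (bσ.repr u))ᵀ) ≠ 0 ∧
      |logHeight (minorsAll (W * (mulMat (structConst bσ bι bκ hmul) (bσ.repr u))ᵀ)) -
        (Fintype.card n * logHeight (⇑(bσ.repr u)) + logHeight (minorsAll W))| ≤ C := by
  obtain ⟨C, hC⟩ := MulCert.mulLemma (L := L) (n := n)
    (structConst bσ bι bκ hmul) (structConst_injective bσ bι bκ hmul hσ hι)
  refine ⟨C, fun u W hu hW => hC _ W ?_ hW⟩
  intro h0
  apply hu
  have : bσ.repr u = 0 := by
    ext t
    exact congrFun h0 t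
  exact bσ.repr.map_eq_zero_iff.mp this

end Domain

end Fermat.Agent.GR.H.MulDomain
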