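/-
GATE-R / S17, node GR-H-NORTHCOTT-Q (helper10): Northcott's theorem for projective space over `ℚ`
(a `TODO` of Mathlib's `NumberTheory/Height/Northcott.lean`).

* `exists_primitive_rep` : every nonzero rational tuple is a nonzero multiple of a primitive integer
  tuple;
* `finite_mulHeight_le` / `finite_logHeight_le` : finitely many points of `ℙ(ι → ℚ)` of bounded height;
* `Northcott` instances for `Projectivization.mulHeight`, `Projectivization.logHeight` over `ℚ`;
* `finite_of_logHeight_le` : the tuple form consumed by height functions `h a := logHeight (v a)`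
  with finite fibres up to scaling.

Mathlib only.
-/
import Mathlib

namespace Fermat.Agent.GR.H.NorthcottQ

open Height

variable {ι : Type*} [Fintype ι]

/-- Every nonzero rational tuple is a nonzero rational multiple of a primitive integer tuple. -/
theorem exists_primitive_rep (x : ι → ℚ) (hx : x ≠ 0) :
    ∃ (c : ℚ) (z : ι → ℤ), c ≠ 0 ∧ Finset.univ.gcd z = 1 ∧ x = c • (((↑) : ℤ → ℚ) ∘ z) := by
  classical
  -- clear denominators
  let d : ℕ := ∏ i, (x i).den
  have hd : (d : ℚ) ≠ 0 := by
    have : d ≠ 0 := Finset.prod_ne_zero_iff.2 fun i _ => (x i).den_nz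
    exact_mod_cast this
  have hy : ∀ i, ∃ y : ℤ, (y : ℚ) = d * x i := by
    intro i
    refine ⟨(x i).num * ∏ j ∈ Finset.univ.erase i, ((x j).den : ℤ), ?_⟩
    have hdi : (d : ℚ) = (x i).den * ∏ j ∈ Finset.univ.erase i, ((x j).den : ℚ) := by
      simp only [d]
      rw [← Finset.mul_prod_erase Finset.univ _ (Finset.mem_univ i)]
      push_cast
      rfl
    rw [hdi]
    push_cast
    have hnum : ((x i).num : ℚ) = x i * (x i).den := (Rat.mul_den_eq_num (x i)).symm
    rw [hnum]
    ring
  choose y hy using hy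
  have hne : (Finset.univ : Finset ι).Nonempty := by
    by_contra h
    rw [Finset.not_nonempty_iff_eq_empty, Finset.univ_eq_empty_iff] at h
    exact hx (funext fun i => (h.false i).elim)
  obtain ⟨z, hz, hz1⟩ := Finset.extract_gcd y hne
  set g : ℤ := Finset.univ.gcd y with hg
  have hg0 : g ≠ 0 := by
    intro h0
    apply hx
    funext i
    have hyi : y i = 0 := by
      have := hz i (Finset.mem_univ i)
      rw [h0, zero_mul] at this
      exact this
    have := hy i
    rw [hyi, Int.cast_zero] at this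
    rcases mul_eq_zero.1 this.symm with h | h
    · exact (hd h).elim
    · exact h
  refine ⟨(g : ℚ) / d, z, div_ne_zero (by exact_mod_cast hg0) hd, hz1, ?_⟩
  funext i
  simp only [Pi.smul_apply, Function.comp_apply, smul_eq_mul]
  have h1 := hy i
  have h2 := hz i (Finset.mem_univ i)
  rw [h2] at h1
  push_cast at h1
  field_simp
  linarith [h1]

variable [Nonempty ι]

/-- The height of a primitive integer tuple bounds all its entries. -/
theorem abs_le_of_mulHeight_le {z : ι → ℤ} (hz : Finset.univ.gcd z = 1) {B : ℝ}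
    (hB : mulHeight (((↑) : ℤ → ℚ) ∘ z) ≤ B) (i : ι) : |z i| ≤ ⌊B⌋ := by
  rw [Rat.mulHeight_eq_max_abs_of_gcd_eq_one hz] at hB
  rw [Int.le_floor]
  refine le_trans ?_ hB
  exact_mod_cast le_ciSup (Finite.bddAbove_range fun i => |z i|) i

/-- **Northcott for `ℙ(ι → ℚ)`, multiplicative height.** -/
theorem finite_mulHeight_le (B : ℝ) :
    {P : Projectivization ℚ (ι → ℚ) | Projectivization.mulHeight P ≤ B}.Finite := by
  classical
  -- the finite box of integer tuples
  let box : Set (ι → ℤ) := {z | ∀ i, z i ∈ Set.Icc (-⌊B⌋) ⌊B⌋}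
  have hbox : box.Finite := Set.Finite.pi' fun i => Set.finite_Icc _ _
  let F : (ι → ℤ) → Projectivization ℚ (ι → ℚ) := fun z =>
    if h : (((↑) : ℤ → ℚ) ∘ z) ≠ 0 then Projectivization.mk ℚ _ h
    else Projectivization.mk ℚ (fun _ => (1 : ℚ)) (by
      intro h0
      obtain ⟨i⟩ := ‹Nonempty ι›
      exact one_ne_zero (congrFun h0 i))
  refine (hbox.image F).subset ?_
  intro P hP
  induction P using Projectivization.ind with
  | h x hx =>
    rw [Set.mem_ofPred_eq, Projectivization.mulHeight_mk] at hP
    obtain ⟨c, z, hc, hz, rfl⟩ := exists_primitive_rep x hx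
    rw [mulHeight_smul_eq_mulHeight _ hc] at hP
    have hz0 : (((↑) : ℤ → ℚ) ∘ z) ≠ 0 := by
      intro h0
      apply hx
      rw [h0, smul_zero]
    refine ⟨z, fun i => ?_, ?_⟩
    · have := abs_le_of_mulHeight_le hz hP i
      exact Set.mem_Icc.2 (abs_le.1 this)
    · simp only [F, dif_pos hz0]
      rw [Projectivization.mk_eq_mk_iff]
      refine ⟨Units.mk0 c⁻¹ (inv_ne_zero hc), ?_⟩
      rw [Units.smul_def, Units.val_mk0, smul_smul, inv_mul_cancel₀ hc, one_smul]

/-- **Northcott for `ℙ(ι → ℚ)`, logarithmic height.** -/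
theorem finite_logHeight_le (B : ℝ) :
    {P : Projectivization ℚ (ι → ℚ) | Projectivization.logHeight P ≤ B}.Finite := by
  refine (finite_mulHeight_le (ι := ι) (Real.exp B)).subset ?_
  intro P hP
  rw [Set.mem_ofPred_eq, Projectivization.logHeight_eq_log_mulHeight] at hP
  exact (Real.log_le_iff_le_exp (Projectivization.mulHeight_pos P)).1 hP

instance : Northcott (Projectivization.mulHeight (K := ℚ) (ι := ι)) :=
  ⟨finite_mulHeight_le⟩

instance : Northcott (Projectivization.logHeight (K := ℚ) (ι := ι)) :=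
  ⟨finite_logHeight_le⟩

/-- **Tuple form.**  A family `v : α → (ι → ℚ)` of nonzero vectors with finite fibres up to
scaling has the Northcott property for `a ↦ logHeight (v a)`. -/
theorem finite_of_logHeight_le {α : Type*} (v : α → ι → ℚ) (hv : ∀ a, v a ≠ 0)
    (hfib : ∀ a, {b | ∃ c : ℚ, c ≠ 0 ∧ v b = c • v a}.Finite) (B : ℝ) :
    {a | logHeight (v a) ≤ B}.Finite := by
  let G : α → Projectivization ℚ (ι → ℚ) := fun a => Projectivization.mk ℚ (v a) (hv a)
  have hsub : {a | logHeight (v a) ≤ B} ⊆
      G ⁻¹' {P | Projectivization.logHeight P ≤ B} := by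
    intro a ha
    simpa [G, Projectivization.logHeight_mk] using ha
  refine (Set.Finite.preimage' (finite_logHeight_le (ι := ι) B) ?_).subset hsub
  intro P _
  by_cases hP : ∃ a, G a = P
  · obtain ⟨a, rfl⟩ := hP
    refine (hfib a).subset ?_
    intro b hb
    rw [Set.mem_preimage, Set.mem_singleton_iff] at hb
    obtain ⟨c, hc⟩ := (Projectivization.mk_eq_mk_iff ℚ _ _ (hv b) (hv a)).1 hb
    exact ⟨(c : ℚ), c.ne_zero, hc.symm⟩
  · push Not at hP
    convert Set.finite_empty
    ext b
    simp only [Set.mem_preimage, Set.mem_singleton_iff, Set.mem_empty_iff_false, iff_false]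
    exact hP b

/-- Northcott instance form of `finite_of_logHeight_le`. -/
theorem northcott_of_finite_fibres {α : Type*} (v : α → ι → ℚ) (hv : ∀ a, v a ≠ 0)
    (hfib : ∀ a, {b | ∃ c : ℚ, c ≠ 0 ∧ v b = c • v a}.Finite) :
    Northcott (fun a => logHeight (v a)) :=
  ⟨finite_of_logHeight_le v hv hfib⟩

end Fermat.Agent.GR.H.NorthcottQ
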