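/-
GATE-R / S17, node GR-H-PLDUAL part 2 (helper1): Plücker duality in the conventions pinned by the
gate (helper17 `CauchyBinet.minorsAll`, helper3 4795 (0), helper43 4782): Plücker tuples are
indexed by ALL column selections `Fin a → Fin m`.

* `logHeight_minorsAll_eq_of_dual` : same field: `Φ * Bᵀ = 0`, independent rows, `r + e = n`
  ⟹ `logHeight (minorsAll B) = logHeight (minorsAll Φ)`.
* `logHeight_minorsAll_eq_of_dual_scalar` : THE CONSUMER SHAPE (P-b) of helper3 4795 / helper43 4782
  in matrix form: `B` a `K`-matrix (coordinates of a `K`-basis of `W = L_K(m∞ − D)`), `Φ` an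
  `L`-matrix (`L ⊇ K`, e.g. evaluation functionals at the points of `D` over `L = Q̄`) with
  `Φ * B_Lᵀ = 0`, and the tuple of minors of `Φ` equal to `ε * w` for ONE scalar `ε ≠ 0` of `L`
  and a `K`-rational tuple `w`.  Then `logHeight (minorsAll B) = logHeight w` (heights over `K`).

Mathlib + GR/H/CauchyBinet + GR/H/PlueckerDual.
-/
import Fermat.Agent.GR.H.CauchyBinet
import Fermat.Agent.GR.H.PlueckerDual

set_option autoImplicit false

namespace Fermat.Agent.GR.H.PlueckerDualAll

open Matrix Height
open Fermat.Agent.GR.H.CauchyBinet Fermat.Agent.GR.H.PlueckerDual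

/-! ### `a = b ∨ a = -b` bookkeeping -/

section Sign

variable {R : Type*} [Ring R]

theorem eqOrNeg_symm {a b : R} (h : a = b ∨ a = -b) : b = a ∨ b = -a := by
  rcases h with h | h
  · exact Or.inl h.symm
  · exact Or.inr (by rw [h, neg_neg])

theorem eqOrNeg_trans {a b c : R} (h₁ : a = b ∨ a = -b) (h₂ : b = c ∨ b = -c) :
    a = c ∨ a = -c := by
  rcases h₁ with h₁ | h₁ <;> rcases h₂ with h₂ | h₂
  · exact Or.inl (h₁.trans h₂)
  · exact Or.inr (h₁.trans h₂)
  · exact Or.inr (by rw [h₁, h₂])
  · exact Or.inl (by rw [h₁, h₂, neg_neg])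

theorem eqOrNeg_mul_left (q : R) {a b : R} (h : a = b ∨ a = -b) :
    q * a = q * b ∨ q * a = -(q * b) := by
  rcases h with h | h
  · exact Or.inl (by rw [h])
  · exact Or.inr (by rw [h, mul_neg])

end Sign

/-! ### Same field -/

section Same

variable {K : Type*} [Field K] [AdmissibleAbsValues K] {r e n : ℕ}

omit [AdmissibleAbsValues K] in
theorem minorFun_eq_minorsAll (B : Matrix (Fin r) (Fin n) K) : minorFun B = minorsAll B := rfl

/-- Plücker duality for heights, tuples indexed by all column selections (helper17's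
`minorsAll`). -/
theorem logHeight_minorsAll_eq_of_dual (hn : r + e = n) (B : Matrix (Fin r) (Fin n) K)
    (Φ : Matrix (Fin e) (Fin n) K) (hB : LinearIndependent K B.row)
    (hΦ : LinearIndependent K Φ.row) (hΦB : Φ * Bᵀ = 0) :
    logHeight (minorsAll B) = logHeight (minorsAll Φ) :=
  logHeight_minorFun_eq_logHeight_minorFun_compl hn B Φ hB hΦ hΦB

/-- The subset-indexed and the all-selections-indexed Plücker tuples have the same height. -/
theorem logHeight_minorsAll_eq_logHeight_minor (B : Matrix (Fin r) (Fin n) K) :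
    logHeight (minorsAll B) = logHeight (minor B) :=
  logHeight_minorFun_eq_logHeight_minor B

end Same

/-! ### Base change of independent rows -/

section BaseChange

variable {K L : Type*} [Field K] [Field L] [Algebra K L] {r n : ℕ}

/-- Independent rows stay independent after extension of scalars. -/
theorem linearIndependent_row_map (B : Matrix (Fin r) (Fin n) K)
    (hB : LinearIndependent K B.row) :
    LinearIndependent L (B.map (algebraMap K L)).row := by
  classical
  obtain ⟨C, hC⟩ := exists_right_inverse_of_linearIndependent B hB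
  have hCL : B.map (algebraMap K L) * C.map (algebraMap K L) = 1 := by
    rw [← Matrix.map_mul, hC, Matrix.map_one _ (map_zero _) (map_one _)]
  rw [← Matrix.vecMul_injective_iff]
  intro u v huv
  have h1 : u ᵥ* (B.map (algebraMap K L) * C.map (algebraMap K L)) =
      v ᵥ* (B.map (algebraMap K L) * C.map (algebraMap K L)) := by
    rw [← Matrix.vecMul_vecMul, ← Matrix.vecMul_vecMul]
    exact congrArg (fun z => z ᵥ* C.map (algebraMap K L)) huv
  simpa [hCL] using h1

theorem minor_map (B : Matrix (Fin r) (Fin n) K) (S : {S : Finset (Fin n) // S.card = r}) :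
    minor (B.map (algebraMap K L)) S = algebraMap K L (minor B S) := by
  unfold minor
  rw [RingHom.map_det]
  rfl

end BaseChange

/-! ### The consumer shape (P-b) -/

section Scalar

variable {K L : Type*} [Field K] [AdmissibleAbsValues K] [Field L] [Algebra K L] {r e n : ℕ}

/-- **Plücker duality, consumer shape.**  `B` over `K` with independent rows, `Φ` over `L ⊇ K` with
independent rows, `Φ * B_Lᵀ = 0`, `r + e = n`, and `minorsAll Φ = ε • (w : K-rational tuple)` for ONE
scalar `ε ≠ 0`.  Then the `K`-height of the Plücker tuple of `B` equals the `K`-height of `w`. -/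
theorem logHeight_minorsAll_eq_of_dual_scalar (hn : r + e = n) (B : Matrix (Fin r) (Fin n) K)
    (hB : LinearIndependent K B.row) (Φ : Matrix (Fin e) (Fin n) L)
    (hΦ : LinearIndependent L Φ.row) (hΦB : Φ * (B.map (algebraMap K L))ᵀ = 0)
    (w : (Fin e → Fin n) → K) (ε : L) (hε : ε ≠ 0)
    (hw : ∀ c, minorsAll Φ c = ε * algebraMap K L (w c)) :
    logHeight (minorsAll B) = logHeight w := by
  classical
  have hinj : Function.Injective (algebraMap K L) := (algebraMap K L).injective
  rw [logHeight_minorsAll_eq_logHeight_minor]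
  -- the duality over `L`
  obtain ⟨c, hc, hcS⟩ := exists_scalar_minor_eq hn (B.map (algebraMap K L)) Φ
    (linearIndependent_row_map B hB) hΦ hΦB
  have hcard : ∀ S : Finset (Fin n), S.card = r → Sᶜ.card = e := by
    intro S hS
    rw [Finset.card_compl, Fintype.card_fin, hS]; omega
  have hcard' : ∀ T : Finset (Fin n), T.card = e → Tᶜ.card = r := by
    intro T hT
    rw [Finset.card_compl, Fintype.card_fin, hT]; omega
  -- `w` on the increasing enumeration of a subset
  let wS : {T : Finset (Fin n) // T.card = e} → K := fun T => w (T.1.orderEmbOfFin T.2)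
  have hΦT : ∀ T : {T : Finset (Fin n) // T.card = e},
      minor Φ T = ε * algebraMap K L (wS T) := fun T => hw _
  -- key relation over `L`
  have hkey : ∀ (S : Finset (Fin n)) (hS : S.card = r),
      algebraMap K L (minor B ⟨S, hS⟩) = (c * ε) * algebraMap K L (wS ⟨Sᶜ, hcard S hS⟩) ∨
      algebraMap K L (minor B ⟨S, hS⟩) = -((c * ε) * algebraMap K L (wS ⟨Sᶜ, hcard S hS⟩)) := by
    intro S hS
    have := hcS S hS (hcard S hS)
    rw [minor_map, hΦT] at this
    rcases this with h | h
    · left; rw [h]; ring
    · right; rw [h]; ring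
  -- `w` vanishes on non-injective selections and is `± wS (image)` on injective ones
  have hw0 : ∀ f : Fin e → Fin n, ¬ Function.Injective f → w f = 0 := by
    intro f hf
    have h1 : minorsAll Φ f = 0 := minorFun_eq_zero_of_not_injective Φ f hf
    rw [hw f] at h1
    rcases mul_eq_zero.mp h1 with h | h
    · exact absurd h hε
    · exact hinj (by rw [h, map_zero])
  have hwinj : ∀ f : Fin e → Fin n, Function.Injective f →
      ∃ T : {T : Finset (Fin n) // T.card = e}, w f = wS T ∨ w f = -wS T := by
    intro f hf
    obtain ⟨T, hT⟩ := minorFun_eq_or_neg_minor Φ f hf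
    refine ⟨T, ?_⟩
    have h1 : minorFun Φ f = ε * algebraMap K L (w f) := hw f
    rw [h1, hΦT T] at hT
    rcases hT with h | h
    · left
      exact hinj (mul_left_cancel₀ hε h)
    · right
      apply hinj
      rw [map_neg]
      apply mul_left_cancel₀ hε
      rw [h, mul_neg]
  by_cases hall : ∀ T, wS T = 0
  · -- both tuples vanish
    have hx : minor B = 0 := by
      funext S
      have := hkey S.1 S.2
      rw [hall, map_zero, mul_zero, neg_zero, or_self] at this
      show minor B S = 0
      apply hinj
      rw [map_zero]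
      exact this
    have hy : w = 0 := by
      funext f
      by_cases hf : Function.Injective f
      · obtain ⟨T, hT⟩ := hwinj f hf
        rw [hall T, neg_zero, or_self] at hT
        exact hT
      · exact hw0 f hf
    rw [hx, hy, logHeight_zero, logHeight_zero]
  · -- the scalar `c * ε` is `K`-rational
    obtain ⟨T₀, hT₀⟩ := not_forall.mp hall
    have hT₀c : (⟨T₀.1ᶜᶜ, hcard T₀.1ᶜ (hcard' T₀.1 T₀.2)⟩ :
        {T : Finset (Fin n) // T.card = e}) = T₀ := Subtype.ext (compl_compl T₀.1)
    have h0 := hkey T₀.1ᶜ (hcard' T₀.1 T₀.2)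
    rw [hT₀c] at h0
    -- `q` with `algebraMap q = c * ε` or `-(c * ε)`
    obtain ⟨q, hq0, hq⟩ : ∃ q : K, q ≠ 0 ∧ (algebraMap K L q = c * ε ∨
        algebraMap K L q = -(c * ε)) := by
      have hwne : algebraMap K L (wS T₀) ≠ 0 := fun h => hT₀ (hinj (by rw [h, map_zero]))
      refine ⟨minor B ⟨T₀.1ᶜ, hcard' T₀.1 T₀.2⟩ / wS T₀, ?_, ?_⟩
      · intro hzero
        rw [div_eq_zero_iff] at hzero
        rcases hzero with hz | hz
        · rw [hz, map_zero] at h0
          rcases h0 with h | h
          · exact (mul_ne_zero (mul_ne_zero hc hε) hwne) h.symm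
          · exact (mul_ne_zero (mul_ne_zero hc hε) hwne) (neg_eq_zero.mp h.symm)
        · exact hT₀ hz
      · rw [map_div₀]
        rcases h0 with h | h
        · left; rw [h]; field_simp
        · right; rw [h]; field_simp
    -- relation over `K`
    have hKrel : ∀ (S : Finset (Fin n)) (hS : S.card = r),
        minor B ⟨S, hS⟩ = q * wS ⟨Sᶜ, hcard S hS⟩ ∨
        minor B ⟨S, hS⟩ = -(q * wS ⟨Sᶜ, hcard S hS⟩) := by
      intro S hS
      have h1 := hkey S hS
      rcases hq with hq | hq
      · rw [← hq, ← map_mul, ← map_neg] at h1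
        rcases h1 with h | h
        · exact Or.inl (hinj h)
        · exact Or.inr (hinj h)
      · have hq' : c * ε = -algebraMap K L q := by rw [hq, neg_neg]
        rw [hq', neg_mul, neg_neg, ← map_mul, ← map_neg] at h1
        rcases h1 with h | h
        · exact Or.inr (hinj h)
        · exact Or.inl (hinj h)
    rw [← logHeight_smul_eq_logHeight w hq0]
    apply logHeight_eq_of_rel
    · intro S
      refine Or.inr ⟨(S.1ᶜ).orderEmbOfFin (hcard S.1 S.2), ?_⟩
      exact hKrel S.1 S.2
    · intro f
      by_cases hf : Function.Injective f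
      · obtain ⟨T, hT⟩ := hwinj f hf
        have hTc : (⟨T.1ᶜᶜ, hcard T.1ᶜ (hcard' T.1 T.2)⟩ :
            {T : Finset (Fin n) // T.card = e}) = T := Subtype.ext (compl_compl T.1)
        have h1 := hKrel T.1ᶜ (hcard' T.1 T.2)
        rw [hTc] at h1
        refine Or.inr ⟨⟨T.1ᶜ, hcard' T.1 T.2⟩, ?_⟩
        -- `(q • w) f = q * w f = ± q * wS T = ± minor B Tᶜ`
        have h2 : (q • w) f = q * wS T ∨ (q • w) f = -(q * wS T) := by
          simp only [Pi.smul_apply, smul_eq_mul]
          exact eqOrNeg_mul_left q hT
        exact eqOrNeg_trans h2 (eqOrNeg_symm h1)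
      · left
        simp [hw0 f hf]

end Scalar

end Fermat.Agent.GR.H.PlueckerDualAll
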