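/-
GATE-R / S17, node GR-H-SMALLVEC, bridge (helper95): the small-vector lemma of `GR/H/SmallVec.lean`
in the pinned Plücker spelling `minorsAll` of `GR/H/CauchyBinet.lean` (helper17), for a matrix
`W : Matrix n ι ℚ` with linearly independent rows (`n` any nonempty finite index type):

* `pluecker_eq_minorsAll` : `pluecker (fun c => W c) = minorsAll W`   (`n = Fin k`);
* `exists_small_vecMul` : there are an integer vector `x ≠ 0` and rational coefficients `m` with
  `x = m ᵥ* W` (a combination of the rows of `W`) and
  `logHeight x ≤ (1 / card n) * logHeight (minorsAll W) + log (card n)`;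
* `le_logHeight_minorsAll` : if every nonzero combination of the rows has `logHeight ≥ c`, then
  `card n * c − card n * log (card n) ≤ logHeight (minorsAll W)`.

This is the shape of `exists_small` in the PL contract (helper43, board 4782):
`H m D = logHeight (minorsAll (coordMat m D))`, rows of `coordMat` = coordinates of a `ℚ`-basis.
-/
import Mathlib
import Fermat.Agent.GR.H.SmallVec
import Fermat.Agent.GR.H.CauchyBinet

set_option autoImplicit false

namespace Fermat.Agent.GR.H.SmallVecMinors

open Module Matrix
open Fermat.Agent.GR.H.SmallVec Fermat.Agent.GR.H.CauchyBinet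

/-- The two spellings of the Plücker vector agree (a transposition inside the determinant). -/
theorem pluecker_eq_minorsAll {R : Type*} [CommRing R] {ι : Type*} {k : ℕ}
    (W : Matrix (Fin k) ι R) : pluecker (fun c => W c) = minorsAll W := by
  funext f
  rw [minorsAll_apply, ← Matrix.det_transpose]
  rfl

/-- Reindexing the rows by an equivalence does not change the height of `minorsAll`. -/
theorem logHeight_minorsAll_reindex {n n' ι : Type*} [Fintype n] [DecidableEq n] [Fintype n']
    [DecidableEq n'] (e : n' ≃ n) (W : Matrix n ι ℚ) :
    Height.logHeight (minorsAll (W.submatrix e id)) = Height.logHeight (minorsAll W) := by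
  have h : minorsAll (W.submatrix e id) = minorsAll W ∘ (Equiv.arrowCongr e (Equiv.refl ι)) := by
    funext J
    simp only [minorsAll_apply, Function.comp_apply]
    have : (W.submatrix e id).submatrix id J =
        (W.submatrix id ((Equiv.arrowCongr e (Equiv.refl ι)) J)).submatrix e e := by
      ext a c
      simp [Equiv.arrowCongr]
    rw [this, Matrix.det_submatrix_equiv_self]
  rw [h, Height.logHeight_comp_equiv]

/-- **Small vector, `minorsAll` form**: a nonzero integer vector `x = m ᵥ* W` in the row space of
`W` with `logHeight x ≤ (1 / card n) * logHeight (minorsAll W) + log (card n)`. -/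
theorem exists_small_vecMul {n ι : Type*} [Fintype n] [DecidableEq n] [Nonempty n] [Fintype ι]
    (W : Matrix n ι ℚ) (hW : LinearIndependent ℚ (fun a => W a)) :
    ∃ (x : ι → ℤ) (m : n → ℚ), x ≠ 0 ∧ m ≠ 0 ∧ castLin ι x = m ᵥ* W ∧
      Height.logHeight (castLin ι x) ≤
        (1 / (Fintype.card n : ℝ)) * Height.logHeight (minorsAll W) +
          Real.log (Fintype.card n) := by
  classical
  set k := Fintype.card n with hk
  have hkpos : 0 < k := Fintype.card_pos
  let e : Fin k ≃ n := (Fintype.equivFin n).symm
  let v : Fin k → ι → ℚ := fun c => W (e c)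
  have hv : LinearIndependent ℚ v := hW.comp e e.injective
  obtain ⟨x, hx0, hxW, hx⟩ := exists_small_vector_logHeight hkpos v hv
  obtain ⟨m', hm'⟩ := (Submodule.mem_span_range_iff_exists_fun ℚ).1 hxW
  have hH : Height.logHeight (pluecker v) = Height.logHeight (minorsAll W) := by
    have h1 : pluecker v = minorsAll (W.submatrix e id) := pluecker_eq_minorsAll (W.submatrix e id)
    rw [h1, logHeight_minorsAll_reindex]
  refine ⟨x, fun a => m' (e.symm a), hx0, ?_, ?_, ?_⟩
  · intro h0
    apply hx0
    apply castLin_injective ι
    rw [map_zero, ← hm']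
    have : ∀ c, m' c = 0 := fun c => by simpa using congrFun h0 (e c)
    simp [this]
  · rw [← hm']
    funext i
    simp only [Finset.sum_apply, Pi.smul_apply, smul_eq_mul, Matrix.vecMul, dotProduct, v]
    exact (Equiv.sum_comp e.symm (fun c => m' c * W (e c) i)).symm.trans (by simp)
  · rw [← hH]; exact hx

/-- **Lower bound for the Plücker height, `minorsAll` form.** -/
theorem le_logHeight_minorsAll {n ι : Type*} [Fintype n] [DecidableEq n] [Nonempty n] [Fintype ι]
    (W : Matrix n ι ℚ) (hW : LinearIndependent ℚ (fun a => W a)) (c : ℝ)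
    (hc : ∀ m : n → ℚ, m ≠ 0 → c ≤ Height.logHeight (m ᵥ* W)) :
    Fintype.card n * c - Fintype.card n * Real.log (Fintype.card n) ≤
      Height.logHeight (minorsAll W) := by
  obtain ⟨x, m, -, hm0, hxm, hx⟩ := exists_small_vecMul W hW
  have h1 := (hc m hm0).trans (hxm ▸ hx)
  have hkR : (0 : ℝ) < Fintype.card n := by exact_mod_cast Fintype.card_pos
  have h2 := mul_le_mul_of_nonneg_left h1 hkR.le
  have h3 : (Fintype.card n : ℝ) * (1 / (Fintype.card n : ℝ) * Height.logHeight (minorsAll W) +
      Real.log (Fintype.card n)) =
      Height.logHeight (minorsAll W) + Fintype.card n * Real.log (Fintype.card n) := by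
    field_simp
  rw [h3] at h2
  linarith

end Fermat.Agent.GR.H.SmallVecMinors
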