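/-
GATE-R / S17, node GR-H-ML part 5 (helper17): the Plücker height depends only on the row space,
and the multiplication lemma in ROW-SPACE form, uniform in the dimension — the shape consumed by
the `ML` field of `HeightFrame` (helper20 4875) through PL (helper43 4782): if the rows of `W'`
span `u · (row space of W)`, then `|H(W') - (r * h(u) + H(W))| ≤ C` with ONE constant `C` for all
dimensions `r`.

Mathlib + GR/H/{CauchyBinet,MulLemma,MulCert}.
-/
import Mathlib
import Fermat.Agent.GR.H.MulCert

set_option autoImplicit false

namespace Fermat.Agent.GR.H.RowSpace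

open Matrix Finset Height
open Fermat.Agent.GR.H.CauchyBinet Fermat.Agent.GR.H.MulLemma Fermat.Agent.GR.H.MulCert

section reindex

variable {R : Type*} [CommRing R] {n n' ι : Type*} [Fintype n] [DecidableEq n] [Fintype n']
  [DecidableEq n']

/-- Reindexing the rows by an equivalence reindexes `minorsAll`. -/
theorem minorsAll_submatrix_equiv (e : n' ≃ n) (W : Matrix n ι R) :
    minorsAll (W.submatrix e id) = minorsAll W ∘ (Equiv.arrowCongr e (Equiv.refl ι)) := by
  funext J
  simp only [minorsAll_apply, Function.comp_apply]
  have : (W.submatrix e id).submatrix id J =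
      (W.submatrix id ((Equiv.arrowCongr e (Equiv.refl ι)) J)).submatrix e e := by
    ext a c
    simp [Equiv.arrowCongr]
  rw [this, Matrix.det_submatrix_equiv_self]

end reindex

section field

variable {K : Type*} [Field K] {n n' ι : Type*} [Fintype n] [DecidableEq n] [Fintype n']
  [DecidableEq n'] [Fintype ι] [DecidableEq ι]

omit [DecidableEq n] [Fintype n'] [DecidableEq n'] [Fintype ι] [DecidableEq ι] in
/-- Rows in the row space of `W` are given by a left multiplication. -/
theorem exists_mul_eq_of_rows_mem (W : Matrix n ι K) (W' : Matrix n' ι K)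
    (h : ∀ a, W'.row a ∈ Submodule.span K (Set.range W.row)) :
    ∃ g : Matrix n' n K, W' = g * W := by
  have h' : ∀ a, ∃ c : n → K, ∑ b, c b • W.row b = W'.row a := fun a =>
    (Submodule.mem_span_range_iff_exists_fun K).mp (h a)
  choose g hg using h'
  refine ⟨Matrix.of g, ?_⟩
  ext a j
  have := congrFun (hg a) j
  simp only [Finset.sum_apply, Pi.smul_apply, Matrix.row_apply, smul_eq_mul] at this
  rw [Matrix.mul_apply, ← this]
  rfl

variable [Height.AdmissibleAbsValues K]

omit [Fintype ι] [DecidableEq ι] in
theorem logHeight_minorsAll_submatrix_equiv (e : n' ≃ n) (W : Matrix n ι K) :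
    logHeight (minorsAll (W.submatrix e id)) = logHeight (minorsAll W) := by
  rw [minorsAll_submatrix_equiv, Height.logHeight_comp_equiv]

/-- **The Plücker height depends only on the row space.** -/
theorem logHeight_minorsAll_eq_of_span_eq (W : Matrix n ι K) (W' : Matrix n' ι K)
    (hW : LinearIndependent K W.row) (hW' : LinearIndependent K W'.row)
    (h : Submodule.span K (Set.range W'.row) = Submodule.span K (Set.range W.row)) :
    logHeight (minorsAll W') = logHeight (minorsAll W) := by
  classical
  have hcard : Fintype.card n' = Fintype.card n := by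
    rw [← finrank_span_eq_card hW', ← finrank_span_eq_card hW, h]
  let e : n' ≃ n := Fintype.equivOfCardEq hcard
  -- reindex `W'` by `n`
  set W'' : Matrix n ι K := W'.submatrix e.symm id with hW''
  have hback : W' = W''.submatrix e id := by
    ext a j
    simp [hW'']
  have hrows : ∀ a, W''.row a ∈ Submodule.span K (Set.range W.row) := by
    intro a
    rw [← h]
    exact Submodule.subset_span ⟨e.symm a, rfl⟩
  obtain ⟨g, hg⟩ := exists_mul_eq_of_rows_mem W W'' hrows
  have hLI'' : LinearIndependent K W''.row := hW'.comp e.symm e.symm.injective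
  have hne : minorsAll W'' ≠ 0 := minorsAll_ne_zero_of_linearIndependent W'' hLI''
  have hdet : g.det ≠ 0 := by
    intro h0
    apply hne
    rw [hg, minorsAll_mul_left, h0, zero_smul]
  rw [hback, logHeight_minorsAll_submatrix_equiv, hg, minorsAll_mul_left,
    Height.logHeight_smul_eq_logHeight _ hdet]

end field

section ml

variable {K L : Type*} [Field K] [Field L] [Algebra K L] [IsAlgClosed L]
variable [Height.AdmissibleAbsValues K]
variable {σ ι κ : Type*} [Fintype σ] [Fintype ι] [Fintype κ] [DecidableEq ι] [DecidableEq κ]

/-- **Multiplication lemma, row-space form, uniform in the dimension.**  `W` spans a subspace of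
`ι → K`, `W'` spans `u ·` that subspace inside `κ → K`. -/
theorem mulLemma_rowSpace (c : κ → ι → σ → K)
    (hinj : ∀ u : σ → L, u ≠ 0 →
      Function.Injective (mulMat (fun k i t => algebraMap K L (c k i t)) u).mulVec) :
    ∃ C : ℝ, ∀ (r r' : ℕ) (u : σ → K) (W : Matrix (Fin r) ι K) (W' : Matrix (Fin r') κ K),
      u ≠ 0 → LinearIndependent K W.row → LinearIndependent K W'.row →
      Submodule.span K (Set.range W'.row) =
        Submodule.span K (Set.range (W * (mulMat c u)ᵀ).row) →
      |logHeight (minorsAll W') - (r * logHeight u + logHeight (minorsAll W))| ≤ C := by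
  classical
  -- one constant for every `r ≤ card ι`
  have hC : ∀ r : ℕ, ∃ C : ℝ, ∀ (u : σ → K) (W : Matrix (Fin r) ι K), u ≠ 0 →
      minorsAll W ≠ 0 → minorsAll (W * (mulMat c u)ᵀ) ≠ 0 ∧
      |logHeight (minorsAll (W * (mulMat c u)ᵀ)) -
        (Fintype.card (Fin r) * logHeight u + logHeight (minorsAll W))| ≤ C :=
    fun r => mulLemma (L := L) (n := Fin r) c hinj
  choose Cr hCr using hC
  refine ⟨(Finset.range (Fintype.card ι + 1)).sup' ⟨0, by simp⟩ Cr,
    fun r r' u W W' hu hW hW' hspan => ?_⟩
  have hr : r ≤ Fintype.card ι := by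
    have := hW.fintype_card_le_finrank
    simpa using this
  have hne : minorsAll W ≠ 0 := minorsAll_ne_zero_of_linearIndependent W hW
  obtain ⟨hne', hle⟩ := hCr r u W hu hne
  have hLI : LinearIndependent K (W * (mulMat c u)ᵀ).row :=
    linearIndependent_of_minorsAll_ne_zero _ hne'
  rw [logHeight_minorsAll_eq_of_span_eq (W * (mulMat c u)ᵀ) W' hLI hW' hspan]
  rw [Fintype.card_fin] at hle
  refine hle.trans ?_
  exact Finset.le_sup' Cr (Finset.mem_range.mpr (Nat.lt_succ_of_le hr))

end ml

end Fermat.Agent.GR.H.RowSpace
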