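import Mathlib

/-!
# GATE-R / H : refinement of a valuation ring to one with algebraic residue field

`exists_refinement`: every valuation subring `O ⊇ k` of a field `KK` contains a valuation
subring `O' ⊇ k` all of whose elements are algebraic over `k` modulo the maximal ideal.
(Zorn-minimal valuation subring between `k` and `O`.)
-/

namespace Fermat.Agent.GR.H.PlaceRefine40

open Polynomial

variable {k KK : Type*} [Field k] [Field KK] [Algebra k KK]

/-- The intersection of a chain of valuation subrings is a valuation subring. -/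
def chainInf (c : Set (ValuationSubring KK)) (hc : IsChain (· ≤ ·) c) : ValuationSubring KK where
  carrier := {x | ∀ B ∈ c, x ∈ B}
  mul_mem' := fun ha hb B hB => B.mul_mem _ _ (ha B hB) (hb B hB)
  one_mem' := fun B _ => B.one_mem
  add_mem' := fun ha hb B hB => B.add_mem _ _ (ha B hB) (hb B hB)
  zero_mem' := fun B _ => B.zero_mem
  neg_mem' := fun ha B hB => B.neg_mem _ (ha B hB)
  mem_or_inv_mem' := by
    intro x
    by_contra h
    push Not at h
    obtain ⟨h1, h2⟩ := h
    simp only [Set.mem_ofPred_eq, not_forall] at h1 h2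
    obtain ⟨B₁, hB₁, hx₁⟩ := h1
    obtain ⟨B₂, hB₂, hx₂⟩ := h2
    rcases hc.total hB₁ hB₂ with h12 | h21
    · exact hx₂ (h12 ((B₁.mem_or_inv_mem x).resolve_left hx₁))
    · exact hx₁ (h21 ((B₂.mem_or_inv_mem x).resolve_right hx₂))

theorem mem_chainInf {c : Set (ValuationSubring KK)} {hc : IsChain (· ≤ ·) c} {x : KK} :
    x ∈ chainInf c hc ↔ ∀ B ∈ c, x ∈ B := Iff.rfl

theorem chainInf_le {c : Set (ValuationSubring KK)} {hc : IsChain (· ≤ ·) c}
    {B : ValuationSubring KK} (hB : B ∈ c) : chainInf c hc ≤ B := fun _ hx => hx B hB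

section nonunits

variable (B : ValuationSubring KK)

theorem add_mem_nonunits {x y : KK} (hx : x ∈ B.nonunits) (hy : y ∈ B.nonunits) :
    x + y ∈ B.nonunits := by
  rw [ValuationSubring.mem_nonunits_iff] at *
  exact B.valuation.map_add_lt hx hy

theorem neg_mem_nonunits {x : KK} (hx : x ∈ B.nonunits) : -x ∈ B.nonunits := by
  rw [ValuationSubring.mem_nonunits_iff] at *
  rwa [Valuation.map_neg]

theorem sub_mem_nonunits {x y : KK} (hx : x ∈ B.nonunits) (hy : y ∈ B.nonunits) :
    x - y ∈ B.nonunits := by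
  rw [sub_eq_add_neg]
  exact add_mem_nonunits B hx (neg_mem_nonunits B hy)

theorem mul_mem_nonunits {x y : KK} (hx : x ∈ B) (hy : y ∈ B.nonunits) :
    x * y ∈ B.nonunits := by
  rw [ValuationSubring.mem_nonunits_iff] at *
  rw [map_mul]
  have hx' : B.valuation x ≤ 1 := (B.valuation_le_one_iff x).2 hx
  exact lt_of_le_of_lt (mul_le_of_le_one_left' hx') hy

theorem zero_mem_nonunits : (0 : KK) ∈ B.nonunits := by
  rw [ValuationSubring.mem_nonunits_iff]
  simp

theorem mem_of_mem_nonunits {x : KK} (hx : x ∈ B.nonunits) : x ∈ B :=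
  (B.valuation_le_one_iff x).1 (le_of_lt ((ValuationSubring.mem_nonunits_iff B).1 hx))

theorem one_not_mem_nonunits : (1 : KK) ∉ B.nonunits := by
  rw [ValuationSubring.mem_nonunits_iff]
  simp

/-- If the nonunits of `B` are nonunits of `B'`, then `B' ≤ B`. -/
theorem le_of_nonunits_subset {B B' : ValuationSubring KK}
    (h : ∀ x, x ∈ B.nonunits → x ∈ B'.nonunits) : B' ≤ B := by
  intro x hx
  by_contra hxB
  have hinv : x⁻¹ ∈ B.nonunits := by
    rw [ValuationSubring.mem_nonunits_iff]
    have h1 : ¬ B.valuation x ≤ 1 := fun h' => hxB ((B.valuation_le_one_iff x).1 h')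
    have h2 : 1 < B.valuation x := not_le.1 h1
    rw [map_inv₀]
    exact inv_lt_one_of_one_lt₀ h2
  have hx0 : x ≠ 0 := fun e => hxB (e ▸ B.zero_mem)
  have := mul_mem_nonunits B' hx (h _ hinv)
  rw [mul_inv_cancel₀ hx0] at this
  exact one_not_mem_nonunits B' this

end nonunits

section minimal

variable (B : ValuationSubring KK) (hk : ∀ c : k, algebraMap k KK c ∈ B) (a : KK) (ha : a ∈ B)

include hk ha in
theorem aeval_mem (q : k[X]) : aeval a q ∈ B := by
  let S : Subalgebra k KK := { B.toSubring with algebraMap_mem' := hk }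
  have h := Polynomial.aeval_subalgebra_coe q S ⟨a, ha⟩
  have h2 : ((aeval (⟨a, ha⟩ : S) q : S) : KK) ∈ S := (aeval (⟨a, ha⟩ : S) q).2
  rw [h] at h2
  exact h2

/-- The subring `k[a] + 𝔪_B` of `B`. -/
def subD : Subring KK where
  carrier := {x | x ∈ B ∧ ∃ q : k[X], x - aeval a q ∈ B.nonunits}
  mul_mem' := by
    rintro x y ⟨hx, q₁, h₁⟩ ⟨hy, q₂, h₂⟩
    refine ⟨B.mul_mem _ _ hx hy, q₁ * q₂, ?_⟩
    have e : x * y - aeval a (q₁ * q₂) =
        x * (y - aeval a q₂) + aeval a q₂ * (x - aeval a q₁) := by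
      rw [map_mul]; ring
    rw [e]
    exact add_mem_nonunits B (mul_mem_nonunits B hx h₂)
      (mul_mem_nonunits B (aeval_mem B hk a ha q₂) h₁)
  one_mem' := ⟨B.one_mem, 1, by simp⟩
  add_mem' := by
    rintro x y ⟨hx, q₁, h₁⟩ ⟨hy, q₂, h₂⟩
    refine ⟨B.add_mem _ _ hx hy, q₁ + q₂, ?_⟩
    have e : x + y - aeval a (q₁ + q₂) = (x - aeval a q₁) + (y - aeval a q₂) := by
      rw [map_add]; ring
    rw [e]
    exact add_mem_nonunits B h₁ h₂
  zero_mem' := ⟨B.zero_mem, 0, by simp⟩
  neg_mem' := by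
    rintro x ⟨hx, q, h⟩
    refine ⟨B.neg_mem _ hx, -q, ?_⟩
    have e : -x - aeval a (-q) = -(x - aeval a q) := by
      rw [map_neg]; ring
    rw [e]
    exact neg_mem_nonunits B h

theorem mem_subD {x : KK} :
    x ∈ subD B hk a ha ↔ x ∈ B ∧ ∃ q : k[X], x - aeval a q ∈ B.nonunits := Iff.rfl

theorem subD_le : subD B hk a ha ≤ B.toSubring := fun _ hx => hx.1

theorem algebraMap_mem_subD (c : k) : algebraMap k KK c ∈ subD B hk a ha :=
  ⟨hk c, C c, by simp⟩

theorem self_mem_subD : a ∈ subD B hk a ha :=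
  ⟨ha, X, by simp⟩

theorem nonunits_subset_subD {x : KK} (hx : x ∈ B.nonunits) : x ∈ subD B hk a ha :=
  ⟨mem_of_mem_nonunits B hx, 0, by simpa using hx⟩

/-- The ideal `(a) + 𝔪_B` of `k[a] + 𝔪_B`. -/
def idealI : Ideal (subD B hk a ha) where
  carrier := {x | ∃ q : k[X], (x : KK) - a * aeval a q ∈ B.nonunits}
  add_mem' := by
    rintro x y ⟨q₁, h₁⟩ ⟨q₂, h₂⟩
    refine ⟨q₁ + q₂, ?_⟩
    have e : ((x + y : subD B hk a ha) : KK) - a * aeval a (q₁ + q₂) =
        ((x : KK) - a * aeval a q₁) + ((y : KK) - a * aeval a q₂) := by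
      rw [map_add]; push_cast; ring
    rw [e]
    exact add_mem_nonunits B h₁ h₂
  zero_mem' := ⟨0, by simp⟩
  smul_mem' := by
    rintro ⟨d, hd, q₁, h₁⟩ x ⟨q, h⟩
    refine ⟨q₁ * q, ?_⟩
    have e : (((⟨d, hd, q₁, h₁⟩ : subD B hk a ha) • x : subD B hk a ha) : KK)
        - a * aeval a (q₁ * q) =
        d * ((x : KK) - a * aeval a q) + (a * aeval a q) * (d - aeval a q₁) := by
      rw [map_mul, smul_eq_mul]; push_cast; ring
    rw [e]
    exact add_mem_nonunits B (mul_mem_nonunits B hd h)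
      (mul_mem_nonunits B (B.mul_mem _ _ ha (aeval_mem B hk a ha q)) h₁)

theorem nonunits_mem_idealI (x : subD B hk a ha) (hx : (x : KK) ∈ B.nonunits) :
    x ∈ idealI B hk a ha :=
  ⟨0, by simpa using hx⟩

theorem self_mem_idealI : (⟨a, self_mem_subD B hk a ha⟩ : subD B hk a ha) ∈ idealI B hk a ha :=
  ⟨1, by simp⟩

end minimal

/-- The class of valuation subrings between `k` and `O`. -/
def Between (O : ValuationSubring KK) : Set (ValuationSubring KK) :=
  {B | B ≤ O ∧ ∀ c : k, algebraMap k KK c ∈ B}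

/-- A minimal valuation subring between `k` and `O` has algebraic residues. -/
theorem exists_monic_of_minimal (O B : ValuationSubring KK)
    (hB : B ∈ Between (k := k) O)
    (hmin : ∀ B' ∈ Between (k := k) O, B' ≤ B → B ≤ B') (a : KK) (ha : a ∈ B) :
    ∃ p : k[X], p.Monic ∧ aeval a p ∈ B.nonunits := by
  classical
  have hk := hB.2
  by_cases hau : a ∈ B.nonunits
  · exact ⟨X, monic_X, by simpa using hau⟩
  -- `a` is a unit of `B`
  have hainv : a⁻¹ ∈ B := by
    have h1 : ¬ B.valuation a < 1 := fun h => hau ((ValuationSubring.mem_nonunits_iff B).2 h)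
    have h2 : B.valuation a = 1 :=
      le_antisymm ((B.valuation_le_one_iff a).2 ha) (not_lt.1 h1)
    apply (B.valuation_le_one_iff _).1
    rw [map_inv₀, h2, inv_one]
  have ha0 : a ≠ 0 := fun e => hau (e ▸ zero_mem_nonunits B)
  have htop : idealI B hk a ha = ⊤ := by
    by_contra hne
    obtain ⟨B', hDB', hI⟩ := Ideal.image_subset_nonunits_valuationSubring (idealI B hk a ha) hne
    have hnu : ∀ x, x ∈ B.nonunits → x ∈ B'.nonunits := by
      intro x hx
      apply hI
      exact ⟨⟨x, nonunits_subset_subD B hk a ha hx⟩,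
        nonunits_mem_idealI B hk a ha _ hx, rfl⟩
    have hle : B' ≤ B := le_of_nonunits_subset hnu
    have hB' : B' ∈ Between (k := k) O :=
      ⟨hle.trans hB.1, fun c => hDB' (algebraMap_mem_subD B hk a ha c)⟩
    have hBB' : B ≤ B' := hmin B' hB' hle
    have ha' : a ∈ B'.nonunits := hI ⟨⟨a, self_mem_subD B hk a ha⟩, self_mem_idealI B hk a ha, rfl⟩
    have := mul_mem_nonunits B' (hBB' hainv) ha'
    rw [inv_mul_cancel₀ ha0] at this
    exact one_not_mem_nonunits B' this
  have h1 : (1 : subD B hk a ha) ∈ idealI B hk a ha := by rw [htop]; trivial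
  obtain ⟨q, hq⟩ := h1
  have hq' : (1 : KK) - a * aeval a q ∈ B.nonunits := by simpa using hq
  have hq0 : q ≠ 0 := by
    rintro rfl
    apply one_not_mem_nonunits B
    simpa using hq'
  have hdeg : (1 : k[X]).degree < (X * q).degree := by
    rw [degree_one, degree_mul, degree_X]
    have : (0 : WithBot ℕ) ≤ q.degree := zero_le_degree_iff.2 hq0
    calc (0 : WithBot ℕ) < 1 := by norm_num
      _ ≤ 1 + q.degree := le_add_of_nonneg_right this
  have hlc : (X * q - 1).leadingCoeff = q.leadingCoeff := by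
    rw [leadingCoeff_sub_of_degree_lt hdeg, leadingCoeff_mul, leadingCoeff_X, one_mul]
  have hlc0 : q.leadingCoeff ≠ 0 := leadingCoeff_ne_zero.2 hq0
  refine ⟨C (q.leadingCoeff)⁻¹ * (X * q - 1),
    monic_C_mul_of_mul_leadingCoeff_eq_one (by rw [hlc, inv_mul_cancel₀ hlc0]), ?_⟩
  have e : aeval a (C (q.leadingCoeff)⁻¹ * (X * q - 1)) =
      algebraMap k KK (q.leadingCoeff)⁻¹ * (-(1 - a * aeval a q)) := by
    simp only [map_mul, aeval_C, map_sub, aeval_X, map_one]
    ring
  rw [e]
  exact mul_mem_nonunits B (hk _) (neg_mem_nonunits B hq')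

/-- **Refinement**: every valuation subring `O ⊇ k` of `KK` contains a valuation subring
`O' ⊇ k` with residue field algebraic over `k` (elementwise form). -/
theorem exists_refinement (O : ValuationSubring KK) (hk : ∀ c : k, algebraMap k KK c ∈ O) :
    ∃ O' : ValuationSubring KK, O' ≤ O ∧ (∀ c : k, algebraMap k KK c ∈ O') ∧
      ∀ a ∈ O', ∃ p : k[X], p.Monic ∧ aeval a p ∈ O'.nonunits := by
  classical
  obtain ⟨m, hm⟩ := zorn_le₀ (α := (ValuationSubring KK)ᵒᵈ)
    (OrderDual.ofDual ⁻¹' (Between (k := k) O)) (by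
      intro c hcS hc
      by_cases hne : c.Nonempty
      · have hc' : IsChain (· ≤ ·) (OrderDual.toDual ⁻¹' c : Set (ValuationSubring KK)) := by
          intro x hx y hy hxy
          rcases hc hx hy (fun e => hxy (OrderDual.toDual.injective e)) with h | h
          · exact Or.inr h
          · exact Or.inl h
        obtain ⟨B₀, hB₀⟩ := hne
        refine ⟨OrderDual.toDual (chainInf _ hc'), ⟨?_, ?_⟩, ?_⟩
        · exact (chainInf_le (hc := hc') (B := OrderDual.ofDual B₀) (by simpa using hB₀)).trans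
            (hcS hB₀).1
        · intro c₀ B hB
          exact (hcS (a := OrderDual.toDual B) hB).2 c₀
        · intro z hz
          exact chainInf_le (hc := hc') (B := OrderDual.ofDual z) (by simpa using hz)
      · refine ⟨OrderDual.toDual O, ⟨le_rfl, hk⟩, ?_⟩
        intro z hz
        exact absurd ⟨z, hz⟩ hne)
  refine ⟨OrderDual.ofDual m, hm.1.1, hm.1.2, fun a ha => ?_⟩
  exact exists_monic_of_minimal O (OrderDual.ofDual m) hm.1
    (fun B' hB' hle => hm.2 (y := OrderDual.toDual B') hB' hle) a ha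

end Fermat.Agent.GR.H.PlaceRefine40

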