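/-
GATE-R / H — bridge (helper48): helper63's `PL.Ev.evalAt` (GR/H/PL/Ev.lean) and
`PlaceVal.valOf` (GR/H/PlaceVal.lean) are the same function, so the Taylor/jet calculus of
`PlaceVal` applies verbatim to the entries of the evaluation matrix `PL.Ev.evMat`.
-/
import Mathlib
import Fermat.Agent.GR.H.PlaceVal
import Fermat.Agent.GR.H.PL.Ev

set_option autoImplicit false

noncomputable section

open AlgebraicCurve

namespace Fermat.Agent.GR.H.PlaceVal

variable {K F : Type*} [Field K] [Field F] [Algebra K F]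

/-- the two function forms of `GH.ValueAt` agree. -/
theorem evalAt_eq_valOf (P : Place K F) (f : F) :
    Fermat.Agent.GR.H.PL.Ev.evalAt P f = valOf P f := by
  by_cases h : ∃ a : K, Fermat.Agent.GH.ValueAt P f a
  · obtain ⟨a, ha⟩ := h
    rw [Fermat.Agent.GR.H.PL.Ev.evalAt_eq_of_valueAt ha, valOf_eq_of_valueAt ha]
  · unfold Fermat.Agent.GR.H.PL.Ev.evalAt valOf
    rw [dif_neg h]

theorem evalAt_eq_valOf_fun : (Fermat.Agent.GR.H.PL.Ev.evalAt : Place K F → F → K) = valOf := by
  funext P f
  exact evalAt_eq_valOf P f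

/-- the evaluation matrix in terms of `valOf`. -/
theorem evMat_apply_eq_valOf {ι κ : Type*} (P : ι → Place K F) (b : κ → F) (i : ι) (j : κ) :
    Fermat.Agent.GR.H.PL.Ev.evMat P b i j = valOf (P i) (b j) := by
  rw [Fermat.Agent.GR.H.PL.Ev.evMat_apply, evalAt_eq_valOf]

/-- the `0`-th Taylor coefficient is helper63's value. -/
theorem taylorCoeff_zero_eq_evalAt (P : Place K F) (t f : F) :
    taylorCoeff P t 0 f = Fermat.Agent.GR.H.PL.Ev.evalAt P f := by
  rw [taylorCoeff_zero, evalAt_eq_valOf]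

/-- semilinear equivariance of helper63's value (= (P-c) of the STAR consumer shapes). -/
theorem evalAt_smulAut (σ : SemilinearAut K F) (P : Place K F) (f : F) :
    Fermat.Agent.GR.H.PL.Ev.evalAt (σ • P) (σ • f)
      = SemilinearAut.baseAut σ (Fermat.Agent.GR.H.PL.Ev.evalAt P f) := by
  rw [evalAt_eq_valOf, evalAt_eq_valOf, valOf_smulAut]

end Fermat.Agent.GR.H.PlaceVal
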