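/-
GATE-R / S17, node GR-H-PROJNSS (helper4): the projective Nullstellensatz certificate and the
two-sided height bound for base-point-free systems of forms on a projective SPACE.

* `exists_certificate` : homogeneous forms `p j` of one degree `N` over a field `K` which have no
  common zero other than `0` over an algebraically closed extension `L` admit a certificate
  `∑ j, q (k, j) * p j = X k ^ (M + N)` with all `q (k, j)` homogeneous of one degree `M`
  (relative Nullstellensatz of Mathlib + homogeneous components);
* `abs_logHeight_eval_sub_le` : hence `|logHeight (p(x)) - N * logHeight x| ≤ C` for all `x`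
  (Mathlib's `Height.logHeight_eval_le'` and `Height.logHeight_eval_ge'`).

Mathlib only.
-/
import Mathlib

set_option autoImplicit false

namespace Fermat.Agent.GR.H.ProjNSS

open MvPolynomial

section Certificate

variable {K L : Type*} [Field K] [Field L] [Algebra K L] [IsAlgClosed L]
variable {ι ι' : Type*} [Finite ι] [Fintype ι']

/-- Component of degree `T` of a product with a homogeneous polynomial of degree `N ≤ T`. -/
theorem homogeneousComponent_mul_of_isHomogeneous {σ R : Type*} [CommSemiring R]
    {c p : MvPolynomial σ R} {N T : ℕ} (hp : p.IsHomogeneous N) (hNT : N ≤ T) :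
    homogeneousComponent T (c * p) = homogeneousComponent (T - N) c * p := by
  classical
  -- write `c` as the sum of its homogeneous components
  conv_lhs => rw [← sum_homogeneousComponent c, Finset.sum_mul, map_sum]
  have key : ∀ i ∈ Finset.range (c.totalDegree + 1),
      homogeneousComponent T (homogeneousComponent i c * p) =
        if i = T - N then homogeneousComponent i c * p else 0 := by
    intro i _
    have hi : (homogeneousComponent i c * p).IsHomogeneous (i + N) :=
      (homogeneousComponent_isHomogeneous i c).mul hp
    split_ifs with h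
    · subst h
      have : T - N + N = T := Nat.sub_add_cancel hNT
      rw [this] at hi
      exact homogeneousComponent_eq_self hi
    · have hne : i + N ≠ T := fun h' => h (by omega)
      exact homogeneousComponent_of_mem hi |>.trans (if_neg hne.symm)
  rw [Finset.sum_congr rfl key, Finset.sum_ite_eq']
  split_ifs with h
  · rfl
  · -- `T - N` exceeds the total degree: the component vanishes
    have : c.totalDegree < T - N := by
      rw [Finset.mem_range, not_lt] at h
      omega
    rw [homogeneousComponent_eq_zero _ _ this, zero_mul]

/-- **Projective Nullstellensatz certificate.** -/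
theorem exists_certificate (p : ι' → MvPolynomial ι K) {N : ℕ}
    (hp : ∀ j, (p j).IsHomogeneous N)
    (hz : ∀ x : ι → L, (∀ j, aeval x (p j) = 0) → x = 0) :
    ∃ (M : ℕ) (q : ι × ι' → MvPolynomial ι K), (∀ a, (q a).IsHomogeneous M) ∧
      ∀ k, ∑ j, q (k, j) * p j = X k ^ (M + N) := by
  classical
  have := Fintype.ofFinite ι
  set I : Ideal (MvPolynomial ι K) := Ideal.span (Set.range p) with hI
  -- every variable lies in the radical of `I`
  have hrad : ∀ k, (X k : MvPolynomial ι K) ∈ I.radical := by
    intro k
    rw [← vanishingIdeal_zeroLocus_eq_radical (K := L) I, mem_vanishingIdeal_iff]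
    intro x hx
    have hx0 : x = 0 := hz x fun j => hx (p j) (Ideal.subset_span ⟨j, rfl⟩)
    simp [hx0]
  -- a uniform exponent
  choose n hn using fun k => hrad k
  set T : ℕ := N + ∑ k, n k with hT
  have hpow : ∀ k, (X k : MvPolynomial ι K) ^ T ∈ I := by
    intro k
    have hle : n k ≤ T := by
      rw [hT]
      exact le_add_left (Finset.single_le_sum (fun _ _ => Nat.zero_le _) (Finset.mem_univ k))
    obtain ⟨d, hd⟩ := Nat.exists_eq_add_of_le hle
    rw [hd, pow_add]
    exact Ideal.mul_mem_right _ _ (hn k)
  -- coefficients
  have hcoef : ∀ k, ∃ c : ι' → MvPolynomial ι K, ∑ j, c j * p j = X k ^ T := by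
    intro k
    have := hpow k
    rw [hI, Ideal.mem_span_range_iff_exists_fun] at this
    exact this
  choose c hc using hcoef
  refine ⟨T - N, fun a => homogeneousComponent (T - N) (c a.1 a.2), fun a =>
    homogeneousComponent_isHomogeneous _ _, fun k => ?_⟩
  have hNT : N ≤ T := by rw [hT]; exact Nat.le_add_right _ _
  have hTN : T - N + N = T := Nat.sub_add_cancel hNT
  rw [hTN]
  have hX : (X k ^ T : MvPolynomial ι K).IsHomogeneous T := by
    simpa using (isHomogeneous_X K k).pow T
  calc ∑ j, homogeneousComponent (T - N) (c k j) * p j
      = ∑ j, homogeneousComponent T (c k j * p j) :=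
        Finset.sum_congr rfl fun j _ =>
          (homogeneousComponent_mul_of_isHomogeneous (hp j) hNT).symm
    _ = homogeneousComponent T (∑ j, c k j * p j) := (map_sum _ _ _).symm
    _ = homogeneousComponent T (X k ^ T) := by rw [hc k]
    _ = X k ^ T := homogeneousComponent_eq_self hX

end Certificate

section Height

open Height

variable {K L : Type*} [Field K] [Field L] [Algebra K L] [IsAlgClosed L]
variable {ι ι' : Type*} [Finite ι] [Fintype ι'] [AdmissibleAbsValues K]

/-- **Two-sided height bound for a base-point-free system of forms on projective space.** -/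
theorem abs_logHeight_eval_sub_le (p : ι' → MvPolynomial ι K) {N : ℕ}
    (hp : ∀ j, (p j).IsHomogeneous N)
    (hz : ∀ x : ι → L, (∀ j, aeval x (p j) = 0) → x = 0) :
    ∃ C : ℝ, ∀ x : ι → K,
      |logHeight (fun j => (p j).eval x) - N * logHeight x| ≤ C := by
  obtain ⟨M, q, hq, hcert⟩ := exists_certificate (L := L) p hp hz
  obtain ⟨C₁, hC₁⟩ := logHeight_eval_le' (K := K) hp
  obtain ⟨C₂, hC₂⟩ := logHeight_eval_ge' (K := K) (N := N) hq
  refine ⟨max C₁ (-C₂), fun x => ?_⟩
  have hup := hC₁ x
  have hlow := hC₂ p (x := x) fun k => by
    have := congrArg (MvPolynomial.eval x) (hcert k)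
    simpa [map_sum, map_mul, map_pow] using this
  rw [abs_le]
  constructor
  · have : -C₂ ≤ max C₁ (-C₂) := le_max_right _ _
    linarith
  · have : C₁ ≤ max C₁ (-C₂) := le_max_left _ _
    linarith

end Height

end Fermat.Agent.GR.H.ProjNSS
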