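/-
GATE-R / S17, node GR-H-TOP-INST (helper10), part 1: the CONCRETE CARRIERS of helper20's
`HeightFrame` (board 4875) for `J₀(N)(ℚ)`:

* `RDiv N`  : the additive monoid of `G_ℚ`-stable effective divisors of `ℚ̄(X₀(N))`;
* `degHom`  : `RDiv N →+ ℕ`, `clHom : RDiv N →+ ↥(MW N)` (`D ↦ [D − deg D · ∞]`), `infD` (`= ∞`);
* `Sec N`   : nonzero `G_ℚ`-fixed functions of `L(k·∞)` with their level `k`; `div0 s = div s + k·∞`;
* the STRUCTURAL fields `deg_div0`, `cl_div0`, `deg_inf`, `cl_inf` and the reduction of `princ` to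
  "a Galois-stable line of functions contains a nonzero Galois-fixed function" (Speiser).
-/
import Fermat.Agent.GR.W.RatRep
import Fermat.Agent.GR.Top.S17Top

set_option autoImplicit false

noncomputable section

open AlgebraicCurve ModularCurve

namespace Fermat.Agent.GR.H.TopInstCarrier

open Fermat.Agent.RR Fermat.Agent.RR.Bound Fermat.Agent.GR.W.RatRep Fermat.Agent.GR.Top.S17Top

local notation "Qb" => AlgebraicClosure ℚ
local notation "GQ" => (AlgebraicClosure ℚ ≃ₐ[ℚ] AlgebraicClosure ℚ)

variable (N : ℕ)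

/-- the function field `ℚ̄(X₀(N))` -/
abbrev FN : Type := ↥(modularFunctionFieldBar N)

/-- the arithmetic Galois action on `ℚ̄(X₀(N))` -/
abbrev gal (σ : GQ) : SemilinearAut Qb (FN N) := arithmeticGalois (modularFunctionFieldFull N) σ

/-- Galois-stable divisors -/
def IsRatDiv (D : Divisor Qb (FN N)) : Prop := ∀ σ : GQ, gal N σ • D = D

/-- Galois-fixed functions -/
def IsRatFun (f : FN N) : Prop := ∀ σ : GQ, gal N σ • f = f

/-- the additive monoid of rational effective divisors -/
def ratEff : AddSubmonoid (Divisor Qb (FN N)) where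
  carrier := {D | 0 ≤ D ∧ IsRatDiv N D}
  zero_mem' := ⟨le_refl _, fun σ => smul_zero _⟩
  add_mem' := by
    rintro D E ⟨hD, hD'⟩ ⟨hE, hE'⟩
    exact ⟨add_nonneg hD hE, fun σ => by rw [smul_add, hD' σ, hE' σ]⟩

/-- rational effective divisors as a type -/
abbrev RDiv : Type := ↥(ratEff N)

variable {N}

theorem RDiv.nonneg (D : RDiv N) : (0 : Divisor Qb (FN N)) ≤ (D : Divisor Qb (FN N)) := D.2.1

theorem RDiv.isRat (D : RDiv N) : IsRatDiv N (D : Divisor Qb (FN N)) := D.2.2

/-- the degree of an effective divisor is nonnegative -/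
theorem degree_nonneg {K F : Type*} [Field K] [Field F] [Algebra K F] {D : Divisor K F}
    (hD : 0 ≤ D) : 0 ≤ Divisor.degree D := by
  have : Divisor.degree D = D.sum fun v n => n * (v.deg : ℤ) := by
    simp [Divisor.degree, Finsupp.liftAddHom_apply]
  rw [this]
  refine Finset.sum_nonneg fun v _ => mul_nonneg ?_ (Int.natCast_nonneg _)
  exact Finsupp.le_def.mp hD v

variable (N)

/-- the degree, as a homomorphism to `ℕ` -/
def degHom : RDiv N →+ ℕ where
  toFun D := (Divisor.degree (D : Divisor Qb (FN N))).toNat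
  map_zero' := by simp
  map_add' D E := by
    have h1 := degree_nonneg D.nonneg
    have h2 := degree_nonneg E.nonneg
    show (Divisor.degree ((D : Divisor Qb (FN N)) + (E : Divisor Qb (FN N)))).toNat = _
    rw [map_add, Int.toNat_add h1 h2]

variable {N}

theorem coe_degHom (D : RDiv N) :
    ((degHom N D : ℕ) : ℤ) = Divisor.degree (D : Divisor Qb (FN N)) :=
  Int.toNat_of_nonneg (degree_nonneg D.nonneg)

variable (N) [NeZero N]

/-- the cusp `∞` as a rational effective divisor -/
def infD : RDiv N :=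
  ⟨Finsupp.single (cuspInf N) 1, by
    classical
    refine ⟨?_, fun σ => ?_⟩
    · rw [Finsupp.le_def]
      intro v
      rw [Finsupp.single_apply]
      split_ifs <;> simp
    · rw [SemilinearAut.smul_single, galois_smul_cuspInf]⟩

theorem coe_infD : ((infD N : RDiv N) : Divisor Qb (FN N)) = Finsupp.single (cuspInf N) 1 := rfl

theorem degHom_infD : degHom N (infD N) = 1 := by
  have h := coe_degHom (infD N)
  rw [coe_infD, Divisor.degree_single, deg_cuspInf] at h
  exact_mod_cast h

/-! ### the class map -/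

/-- `D − deg D · ∞`, a divisor of degree `0` -/
def shift (D : RDiv N) : Divisor.degZero (K := Qb) (F := FN N) :=
  ⟨(D : Divisor Qb (FN N)) - Finsupp.single (cuspInf N) ((degHom N D : ℕ) : ℤ), by
    rw [Divisor.mem_degZero, map_sub, Divisor.degree_single, deg_cuspInf, coe_degHom]
    simp⟩

theorem coe_shift (D : RDiv N) :
    ((shift N D : Divisor.degZero (K := Qb) (F := FN N)) : Divisor Qb (FN N))
      = (D : Divisor Qb (FN N)) - Finsupp.single (cuspInf N) ((degHom N D : ℕ) : ℤ) := rfl

theorem shift_add (D E : RDiv N) : shift N (D + E) = shift N D + shift N E := by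
  apply Subtype.ext
  rw [AddSubgroup.coe_add, coe_shift, coe_shift, coe_shift, map_add, Nat.cast_add,
    Finsupp.single_add]
  show ((D : Divisor Qb (FN N)) + (E : Divisor Qb (FN N))) - _ = _
  abel

theorem shift_zero : shift N 0 = 0 := by
  apply Subtype.ext
  rw [coe_shift, map_zero]
  simp

theorem gal_smul_shift (σ : GQ) (D : RDiv N) :
    gal N σ • ((shift N D : Divisor.degZero (K := Qb) (F := FN N)) : Divisor Qb (FN N))
      = (shift N D : Divisor Qb (FN N)) := by
  rw [coe_shift, smul_sub, D.isRat σ, SemilinearAut.smul_single, galois_smul_cuspInf]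

/-- the class `[D − deg D · ∞]` is Galois-fixed -/
theorem mk_shift_mem (D : RDiv N) : Pic0.mk (shift N D) ∈ MW N := by
  intro σ
  rw [galois_smul_pic0_def, smul_mk]
  congr 1
  exact Subtype.ext (gal_smul_shift N σ D)

/-- the class map `D ↦ [D − deg D · ∞]` -/
def clHom : RDiv N →+ ↥(MW N) where
  toFun D := ⟨Pic0.mk (shift N D), mk_shift_mem N D⟩
  map_zero' := by
    apply Subtype.ext
    show Pic0.mk (shift N 0) = 0
    rw [shift_zero, Pic0.mk_zero]
  map_add' D E := by
    apply Subtype.ext
    show Pic0.mk (shift N (D + E)) = Pic0.mk (shift N D) + Pic0.mk (shift N E)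
    rw [shift_add, Pic0.mk_add]

theorem coe_clHom (D : RDiv N) : ((clHom N D : ↥(MW N)) : JZero N) = Pic0.mk (shift N D) := rfl

/-- `cl ∞ = 0` -/
theorem clHom_infD : clHom N (infD N) = 0 := by
  apply Subtype.ext
  rw [coe_clHom]
  have : shift N (infD N) = 0 := by
    apply Subtype.ext
    rw [coe_shift, degHom_infD, coe_infD]
    simp
  rw [this, Pic0.mk_zero]
  rfl

/-! ### sections -/

/-- nonzero rational sections of `O(k·∞)`: Galois-fixed nonzero functions of `L(k·∞)` -/
structure Sec where
  /-- the level `k` -/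
  lev : ℕ
  /-- the function -/
  f : FN N
  ne : f ≠ 0
  rat : IsRatFun N f
  mem : f ∈ riemannRochSpace (Finsupp.single (cuspInf N) (lev : ℤ))

variable {N}

/-- the divisor of a function is compatible with the semilinear action -/
theorem smul_divOf (g : SemilinearAut Qb (FN N)) (f : FN N) :
    haveI := ModularBar.hasPrincipalDivisors N
    g • divOf Qb f = divOf Qb (g • f) := by
  have := ModularBar.hasPrincipalDivisors N
  rcases eq_or_ne f 0 with rfl | hf
  · simp
  have hgf : g • f ≠ 0 := by simpa using hf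
  ext w
  rw [SemilinearAut.divisor_smul_apply, divOf_apply hf, divOf_apply hgf]
  have h := SemilinearAut.ord_smul g (g⁻¹ • w) f
  rw [smul_inv_smul] at h
  exact h.symm

/-- the divisor of zeros `div s + k·∞` of a section, as a plain divisor -/
def div0' (s : Sec N) : Divisor Qb (FN N) :=
  haveI := ModularBar.hasPrincipalDivisors N
  divOf Qb s.f + Finsupp.single (cuspInf N) (s.lev : ℤ)

theorem div0'_nonneg (s : Sec N) : 0 ≤ div0' s := by
  have := ModularBar.hasPrincipalDivisors N
  rw [Finsupp.le_def]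
  intro v
  have h := (mem_riemannRochSpace_iff.mp s.mem) v
  rcases h with h | h
  · exact (s.ne h).elim
  · rw [div0', Finsupp.add_apply, divOf_apply s.ne, Finsupp.coe_zero, Pi.zero_apply]
    linarith

theorem div0'_isRat (s : Sec N) : IsRatDiv N (div0' s) := by
  have := ModularBar.hasPrincipalDivisors N
  intro σ
  rw [div0', smul_add, smul_divOf, s.rat σ, SemilinearAut.smul_single, galois_smul_cuspInf]

/-- the divisor of zeros `div s + k·∞` of a section -/
def div0 (s : Sec N) : RDiv N := ⟨div0' s, div0'_nonneg s, div0'_isRat s⟩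

theorem coe_div0 (s : Sec N) :
    haveI := ModularBar.hasPrincipalDivisors N
    ((div0 s : RDiv N) : Divisor Qb (FN N))
      = divOf Qb s.f + Finsupp.single (cuspInf N) (s.lev : ℤ) := rfl

/-- **`deg_div0`** -/
theorem degHom_div0 (s : Sec N) : degHom N (div0 s) = s.lev := by
  have := ModularBar.hasPrincipalDivisors N
  have h := coe_degHom (div0 s)
  rw [coe_div0, map_add, degree_divOf, Divisor.degree_single, deg_cuspInf] at h
  have : ((degHom N (div0 s) : ℕ) : ℤ) = (s.lev : ℤ) := by rw [h]; simp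
  exact_mod_cast this

/-- **`cl_div0`** -/
theorem clHom_div0 (s : Sec N) : clHom N (div0 s) = 0 := by
  have := ModularBar.hasPrincipalDivisors N
  apply Subtype.ext
  rw [coe_clHom]
  show Pic0.mk (shift N (div0 s)) = 0
  rw [← Pic0.mk_zero, mk_eq_mk_iff]
  have : ((0 : Divisor.degZero (K := Qb) (F := FN N)) : Divisor Qb (FN N))
      - ((shift N (div0 s) : Divisor.degZero (K := Qb) (F := FN N)) : Divisor Qb (FN N))
      = -divOf Qb s.f := by
    rw [coe_shift, coe_div0, degHom_div0]
    simp
  rw [this]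
  refine (Divisor.principal (K := Qb) (F := FN N)).neg_mem ?_
  exact ⟨s.f, s.ne, fun v => divOf_apply s.ne v⟩

/-! ### `princ` from Speiser's lemma for lines -/

/-- a function without zeros and poles is a constant -/
theorem exists_const_of_divOf_eq_zero {u : FN N}
    (h0 : ∀ v : Place Qb (FN N), v.ord u = 0) : ∃ c : Qb, u = algebraMap Qb (FN N) c := by
  have hmem : u ∈ riemannRochSpace (0 : Divisor Qb (FN N)) := by
    rw [mem_riemannRochSpace_iff]
    intro v
    right
    rw [h0 v]
    simp
  have h1 : (1 : FN N) ∈ riemannRochSpace (0 : Divisor Qb (FN N)) := by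
    rw [mem_riemannRochSpace_iff]
    intro v
    right
    rw [Place.ord_one]
    simp
  have hne : (⟨1, h1⟩ : riemannRochSpace (0 : Divisor Qb (FN N))) ≠ 0 := by
    intro h
    exact one_ne_zero (congrArg Subtype.val h)
  obtain ⟨c, hc⟩ := (finrank_eq_one_iff_of_nonzero' _ hne).mp (finrank_L_zero N) ⟨u, hmem⟩
  refine ⟨c, ?_⟩
  have := congrArg Subtype.val hc
  simp only [Submodule.coe_smul] at this
  rw [← this, Algebra.smul_def, mul_one]

/-- **`princ`**, reduced to Speiser's lemma for Galois-stable lines of functions. -/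
theorem princ_of_speiser
    (hSp : ∀ f₀ : FN N, f₀ ≠ 0 → (∀ σ : GQ, ∃ c : Qb, gal N σ • f₀ = c • f₀) →
      ∃ c : Qb, c ≠ 0 ∧ IsRatFun N (c • f₀))
    (E : RDiv N) (hE : clHom N E = 0) :
    ∃ s : Sec N, s.lev = degHom N E ∧ div0 s = E := by
  have := ModularBar.hasPrincipalDivisors N
  -- `E − e·∞` is principal
  have h1 : Pic0.mk (shift N E) = Pic0.mk 0 := by
    have := congrArg (Subtype.val : ↥(MW N) → JZero N) hE
    rw [coe_clHom] at this
    rw [this, Pic0.mk_zero]
    rfl
  rw [mk_eq_mk_iff] at h1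
  have h2 : ((shift N E : Divisor.degZero (K := Qb) (F := FN N)) : Divisor Qb (FN N))
      ∈ Divisor.principal (K := Qb) (F := FN N) := by
    have := (Divisor.principal (K := Qb) (F := FN N)).neg_mem h1
    simpa using this
  obtain ⟨f₀, hf₀, hdiv⟩ := h2
  have hdiv' : divOf Qb f₀ = (shift N E : Divisor Qb (FN N)) := by
    ext v
    rw [divOf_apply hf₀, hdiv v]
  -- the line `ℚ̄ f₀` is Galois-stable
  have hline : ∀ σ : GQ, ∃ c : Qb, gal N σ • f₀ = c • f₀ := by
    intro σ
    have hσf : gal N σ • f₀ ≠ 0 := by simpa using hf₀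
    have hd : divOf Qb (gal N σ • f₀) = divOf Qb f₀ := by
      rw [← smul_divOf, hdiv', gal_smul_shift]
    obtain ⟨c, hc⟩ := exists_const_of_divOf_eq_zero (u := (gal N σ • f₀) * f₀⁻¹) (fun v => by
      rw [v.ord_mul hσf (inv_ne_zero hf₀), v.ord_inv, ← divOf_apply hσf v,
        ← divOf_apply hf₀ v, hd]
      ring)
    refine ⟨c, ?_⟩
    rw [Algebra.smul_def, ← hc, mul_assoc, inv_mul_cancel₀ hf₀, mul_one]
  obtain ⟨c, hc0, hrat⟩ := hSp f₀ hf₀ hline
  have hcf : c • f₀ ≠ 0 := smul_ne_zero hc0 hf₀
  have hdc : divOf Qb (c • f₀) = divOf Qb f₀ := by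
    ext v
    have hcF : algebraMap Qb (FN N) c ≠ 0 := by
      simpa using hc0
    rw [divOf_apply hcf, divOf_apply hf₀, Algebra.smul_def, v.ord_mul hcF hf₀,
      Fermat.Agent.S24.Hurwitz.ord_algebraMap, zero_add]
  have hsum : divOf Qb (c • f₀) + Finsupp.single (cuspInf N) ((degHom N E : ℕ) : ℤ)
      = (E : Divisor Qb (FN N)) := by
    rw [hdc, hdiv', coe_shift]
    abel
  refine ⟨⟨degHom N E, c • f₀, hcf, hrat, ?_⟩, rfl, ?_⟩
  · rw [mem_riemannRochSpace_iff]
    intro v
    right
    have hv := Finsupp.le_def.mp E.nonneg v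
    rw [← hsum, Finsupp.add_apply, divOf_apply hcf] at hv
    simp only [Finsupp.coe_zero, Pi.zero_apply] at hv
    linarith
  · apply Subtype.ext
    rw [coe_div0]
    exact hsum

end Fermat.Agent.GR.H.TopInstCarrier
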