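/-
GATE-R / S17, node GR-H-TOP-INST (helper10 = integrator), part 2: ASSEMBLY of helper20's
`HeightFrame` (`GR/H/Canon.lean`) for `J₀(N)(ℚ)` from the TOP-INST leaves (board 4974).

`Leaves N Good` is the exact list of what the leaves deliver, in the carrier vocabulary of
`GR/H/TopInstCarrier.lean` + `GR/H/TopInst/Data.lean`
(`RDiv N`, `Sec N`, `degHom`, `clHom`, `infD`, `div0`, `HN`, `hsec`, `gam`); every threshold is
existential per leaf (all fields are monotone in the thresholds, the integrator takes the maximum).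

* `nonempty_frame : Leaves N Good → Nonempty (HeightFrame ↥(MW N) (RDiv N) (Sec N))`;
* `s17_of_leaves  : WeakMW N n → Leaves N Good → (frozen S17 conclusion)`.
-/
import Fermat.Agent.GR.H.TopInst.Data
import Fermat.Agent.GR.H.CanonPlug

set_option autoImplicit false
set_option linter.unusedSectionVars false

noncomputable section

open AlgebraicCurve ModularCurve

namespace Fermat.Agent.GR.H.TopInst

open Fermat.Agent.GR.H.TopInstCarrier Fermat.Agent.GR.H.TopInst.Data Fermat.Agent.GR.H.Canon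
open Fermat.Agent.GR.W.RatRep Fermat.Agent.GR.Top.S17Top

local notation "Qb" => AlgebraicClosure ℚ
local notation "GQ" => (AlgebraicClosure ℚ ≃ₐ[ℚ] AlgebraicClosure ℚ)

variable (N : ℕ) [NeZero N]

/-- **What the TOP-INST leaves deliver.**  Every field is the corresponding `HeightFrame` field on
the concrete carriers, with its own existential threshold. -/
structure Leaves (Good : RDiv N → Prop) : Prop where
  /-- (TI-MOVE) -/
  good_zero : Good 0
  /-- (TI-MOVE) -/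
  good_of_add : ∀ D D' : RDiv N, Good (D + D') → Good D
  /-- (TI-PRINC) -/
  princ : ∀ E : RDiv N, clHom N E = 0 → ∃ s : Sec N, s.lev = degHom N E ∧ div0 s = E
  /-- (TI-PRINC / TI-E1) -/
  hs_eq_of_div0 : ∀ (s s' : Sec N) (j : ℕ), div0 s' = div0 s + j • infD N →
    hsec N s' = hsec N s
  /-- (TI-ML) -/
  hs_mul : ∀ M : ℕ, ∃ C : ℝ, ∀ s t u : Sec N, u.lev ≤ M → div0 u = div0 s + div0 t →
    |hsec N u - hsec N s - hsec N t| ≤ C
  /-- (TI-ML) -/
  ML : ∃ c : ℕ, ∀ M : ℕ, ∃ C : ℝ, ∀ (n : ℕ) (D : RDiv N) (s : Sec N), n ≤ M →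
    degHom N D + s.lev + c ≤ n →
    |HN N n (D + div0 s) - ((n : ℝ) - s.lev - degHom N D - gam N) * hsec N s
      - HN N (n - s.lev) D| ≤ C
  /-- (TI-STAR) -/
  star : ∃ c : ℕ, ∀ M : ℕ, ∃ C : ℝ, ∀ (n : ℕ) (D₁ D₂ D₃ : RDiv N), n ≤ M →
    Good (D₁ + D₂ + D₃) → degHom N D₁ + degHom N D₂ + degHom N D₃ + c ≤ n →
    |HN N n (D₁ + D₂ + D₃) - HN N n (D₁ + D₂) - HN N n (D₁ + D₃) - HN N n (D₂ + D₃)
      + HN N n D₁ + HN N n D₂ + HN N n D₃| ≤ C
  /-- (TI-STAR) -/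
  starInf1 : ∃ c : ℕ, ∀ M : ℕ, ∃ C : ℝ, ∀ (n : ℕ) (D₁ D₂ : RDiv N), n ≤ M → Good (D₁ + D₂) →
    degHom N D₁ + degHom N D₂ + c + 1 ≤ n →
    |(HN N n (D₁ + D₂) - HN N (n - 1) (D₁ + D₂)) - (HN N n D₁ - HN N (n - 1) D₁)
      - (HN N n D₂ - HN N (n - 1) D₂)| ≤ C
  /-- (TI-STAR) -/
  starInf2 : ∃ c : ℕ, ∀ M : ℕ, ∃ C : ℝ, ∀ (n : ℕ) (D : RDiv N), n ≤ M → Good D →
    degHom N D + c + 2 ≤ n →
    |HN N n D - 2 * HN N (n - 1) D + HN N (n - 2) D| ≤ C
  /-- (TI-SMALL) -/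
  small : ∃ c : ℕ, ∀ M : ℕ, ∃ C : ℝ, ∀ (n : ℕ) (D : RDiv N), n ≤ M → degHom N D + c ≤ n →
    ∃ (s : Sec N) (D' : RDiv N), s.lev = n ∧ div0 s = D + D' ∧
      ((n : ℝ) - degHom N D - gam N) * hsec N s ≤ HN N n D + C
  /-- (TI-NC) -/
  northcott : ∃ c : ℕ, ∀ (n e : ℕ) (B : ℝ), e + c ≤ n →
    {D : RDiv N | degHom N D = e ∧ HN N n D ≤ B}.Finite
  /-- (TI-MOVE) -/
  move1 : ∃ d : ℕ, ∀ (c : ↥(MW N)) (k : ℕ) (T : RDiv N), d ≤ k → Good T →
    ∃ D : RDiv N, degHom N D = k ∧ clHom N D = c ∧ Good (D + T)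
  /-- (TI-MOVE) -/
  move2 : ∃ d : ℕ, ∀ (D T : RDiv N) (k : ℕ), Good (D + T) → degHom N D + d ≤ k →
    ∃ (s : Sec N) (D' : RDiv N), s.lev = k ∧ div0 s = D + D' ∧ Good (D + D' + T)

variable {N}

/-- **ASSEMBLY**: the leaves give a `HeightFrame` on `J₀(N)(ℚ)`. -/
theorem nonempty_frame {Good : RDiv N → Prop} (L : Leaves N Good) :
    Nonempty (HeightFrame ↥(MW N) (RDiv N) (Sec N)) := by
  obtain ⟨c₁, hML⟩ := L.ML
  obtain ⟨c₂, hstar⟩ := L.star
  obtain ⟨c₃, hstar1⟩ := L.starInf1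
  obtain ⟨c₄, hstar2⟩ := L.starInf2
  obtain ⟨c₅, hsmall⟩ := L.small
  obtain ⟨c₆, hnc⟩ := L.northcott
  obtain ⟨d₁, hmove1⟩ := L.move1
  obtain ⟨d₂, hmove2⟩ := L.move2
  refine ⟨{
    deg := degHom N
    cl := clHom N
    inf := infD N
    lev := Sec.lev
    div0 := div0
    hs := hsec N
    H := HN N
    Good := Good
    γ := gam N
    c₀ := c₁ + c₂ + c₃ + c₄ + c₅ + c₆
    d₀ := d₁ + d₂
    deg_div0 := degHom_div0
    cl_div0 := clHom_div0
    good_zero := L.good_zero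
    good_of_add := L.good_of_add
    H_nonneg := HN_nonneg
    H_zero := HN_zero
    H_add_inf := fun n D h => HN_add_inf n D (by omega)
    deg_inf := degHom_infD N
    cl_inf := clHom_infD N
    princ := L.princ
    hs_eq_of_div0 := L.hs_eq_of_div0
    hs_mul := L.hs_mul
    ML := fun M => ?_
    star := fun M => ?_
    starInf1 := fun M => ?_
    starInf2 := fun M => ?_
    small := fun M => ?_
    northcott := fun n e B h => hnc n e B (by omega)
    move1 := fun c k T hk hT => hmove1 c k T (by omega) hT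
    move2 := fun D T k hG hk => hmove2 D T k hG (by omega) }⟩
  · obtain ⟨C, hC⟩ := hML M
    exact ⟨C, fun n D s hn h => hC n D s hn (by omega)⟩
  · obtain ⟨C, hC⟩ := hstar M
    exact ⟨C, fun n D₁ D₂ D₃ hn hG h => hC n D₁ D₂ D₃ hn hG (by omega)⟩
  · obtain ⟨C, hC⟩ := hstar1 M
    exact ⟨C, fun n D₁ D₂ hn hG h => hC n D₁ D₂ hn hG (by omega)⟩
  · obtain ⟨C, hC⟩ := hstar2 M
    exact ⟨C, fun n D hn hG h => hC n D hn hG (by omega)⟩
  · obtain ⟨C, hC⟩ := hsmall M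
    exact ⟨C, fun n D hn h => hC n D hn (by omega)⟩

/-- **The frozen S17 conclusion from weak Mordell–Weil at `n ≥ 2` and the TOP-INST leaves.** -/
theorem s17_of_leaves {n : ℕ} (hn : 2 ≤ n) (hW : WeakMW N n) {Good : RDiv N → Prop}
    (L : Leaves N Good) :
    AddGroup.FG ↥(FixedPoints.addSubgroup ((AlgebraicClosure ℚ) ≃ₐ[ℚ] (AlgebraicClosure ℚ))
      (JZero N)) := by
  obtain ⟨𝓕⟩ := nonempty_frame L
  exact CanonPlug.s17_of_weakMW_of_frame N hn hW 𝓕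

end Fermat.Agent.GR.H.TopInst
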